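/-
S14 (ExtVanishingCts) by the CFT-free route of blueprint id=6 (helper33):
Kummer theory + Thaine's relation + Dirichlet-density comparison + Kummer log-derivative.

This file fixes the DEFINITIONS and the exact STATEMENTS (as `def ... : Prop`) of the
K-internal packages K2 (THAINE), K3 (DENS), K4 (ULOG), K5 (UDIR), K6 (CORE).  It contains
no `sorry`: package owners prove `theorem X : XStatement` in their own files.
-/
import Mathlib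
import Fermat.Prelude.Def_ClassGroup_GaloisAction

set_option autoImplicit false

namespace Fermat.Agent.S14

open NumberField nonZeroDivisors

section General

variable (K : Type*) [Field K] [NumberField K]

/-- The ring automorphism of `𝓞 K` induced by `σ ∈ Gal(K/ℚ)`. -/
noncomputable def galRing (σ : K ≃ₐ[ℚ] K) : 𝓞 K ≃+* 𝓞 K :=
  (galRestrict ℤ ℚ K (𝓞 K) σ).toRingEquiv

variable {K}

@[simp] lemma galRing_apply (σ : K ≃ₐ[ℚ] K) (x : 𝓞 K) : ((galRing K σ x : 𝓞 K) : K) = σ x := by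
  simp [galRing]
  exact algebraMap_galRestrict_apply ℤ σ x

/-- The nonzero ideal `σ(I)`. -/
noncomputable def galIdeal (σ : K ≃ₐ[ℚ] K) (I : (Ideal (𝓞 K))⁰) : (Ideal (𝓞 K))⁰ :=
  Ideal.mapNonZero (galRing K σ) I

/-- `u` is a `p`-th power modulo the ideal `Q`. -/
def IsPowMod (p : ℕ) (Q : Ideal (𝓞 K)) (u : 𝓞 K) : Prop := ∃ x : 𝓞 K, x ^ p - u ∈ Q

/-- A nonzero prime ideal as an element of `(Ideal (𝓞 K))⁰`. -/
def primeNZ (Q : Ideal (𝓞 K)) (hQ0 : Q ≠ ⊥) : (Ideal (𝓞 K))⁰ :=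
  ⟨Q, mem_nonZeroDivisors_of_ne_zero hQ0⟩

end General

/-! ### K3 (DENS): the general density theorem (any number field containing `ζ_p`) -/

/-- **K3 / DENS.** `K ∋ ζ_p`, `u ∈ 𝓞 K` not a `p`-th power in `K`, `ψ ≠ 1` a character of the class
group with `ψ^p = 1`.  It is impossible that `ψ([Q]) = 1` for every degree-one prime `Q ∤ p`
modulo which `u` is not a `p`-th power.  (Inert primes of `K(u^{1/p})` have Dirichlet density
`1 - 1/p`, primes with `ψ = 1` have upper density `≤ 1/p`.) -/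
def DensStatement : Prop :=
  ∀ (K : Type) [Field K] [NumberField K] (p : ℕ) [Fact p.Prime], p ≠ 2 →
  ∀ (ζ : K), IsPrimitiveRoot ζ p →
  ∀ (u : 𝓞 K), u ≠ 0 → (¬ ∃ v : K, v ^ p = (u : K)) →
  ∀ (ψ : ClassGroup (𝓞 K) →* ℂˣ), (∀ c, ψ c ^ p = 1) → ψ ≠ 1 →
  (∀ (Q : Ideal (𝓞 K)) [Q.IsPrime] (hQ0 : Q ≠ ⊥), (Ideal.absNorm Q).Prime → (p : 𝓞 K) ∉ Q →
      ¬ IsPowMod p Q u → ψ (ClassGroup.mk0 (primeNZ Q hQ0)) = 1) →
  False

/-! ### The cyclotomic setting -/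

section Cyclo

variable (p : ℕ) [Fact p.Prime] (K : Type) [Field K] [NumberField K]
  [IsCyclotomicExtension {p} ℚ K]

/-- `ψ` is an `ω^k`-eigen character of the class group of `K = ℚ(ζ_p)`:
`ψ(σ_c I) = ψ(I)^(c^k)` whenever `σ_c ζ = ζ^c`. -/
def IsEigenChar (ζ : K) (k : ℕ) (ψ : ClassGroup (𝓞 K) →* ℂˣ) : Prop :=
  ∀ (σ : K ≃ₐ[ℚ] K) (c : ℕ), σ ζ = ζ ^ c → ∀ I : (Ideal (𝓞 K))⁰,
    ψ (ClassGroup.mk0 (galIdeal σ I)) = ψ (ClassGroup.mk0 I) ^ (c ^ k)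

/-- The (non-normalised) `ω^k` cyclotomic number `∏_{0<b<p} (1 - ζ^b)^(m b)`; used with
`m b * b^k ≡ 1 mod p`. -/
noncomputable def etaRaw (ζ : 𝓞 K) (m : ℕ → ℕ) : 𝓞 K :=
  ∏ b ∈ Finset.Ico 1 p, (1 - ζ ^ b) ^ m b

/-- The exponents `m b = b^(k(p-2)) mod p`, so that `m b * b^k ≡ 1 mod p` for `p ∤ b`. -/
def etaExp (k : ℕ) (b : ℕ) : ℕ := b ^ (k * (p - 2)) % p

/-- **K2 / THAINE.** For an `ω^k`-eigen character `ψ` of order dividing `p` and a degree-one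
prime `Q ∤ p` of `ℚ(ζ_p)`: if the `ω^k` cyclotomic number is not a `p`-th power modulo `Q`
then `ψ([Q]) = 1`. -/
def ThaineStatement : Prop :=
  p ≠ 2 → ∀ (ζ : K) (hζ : IsPrimitiveRoot ζ p) (k : ℕ) (m : ℕ → ℕ),
    (∀ b ∈ Finset.Ico 1 p, (m b * b ^ k) % p = 1) →
  ∀ (ψ : ClassGroup (𝓞 K) →* ℂˣ), (∀ c, ψ c ^ p = 1) → IsEigenChar K ζ k ψ →
  ∀ (Q : Ideal (𝓞 K)) [Q.IsPrime] (hQ0 : Q ≠ ⊥), (Ideal.absNorm Q).Prime → (p : 𝓞 K) ∉ Q →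
    ¬ IsPowMod p Q (etaRaw p K hζ.toInteger m) →
    ψ (ClassGroup.mk0 (primeNZ Q hQ0)) = 1

/-- **K4 / ULOG (a).** For `p ≥ 5` the `ω^2` cyclotomic number is not a `p`-th power in `K`
(Kummer's logarithmic derivative: `kell_2 = -B_2/2 = -1/12 ≠ 0`). -/
def EtaNotPowStatement : Prop :=
  5 ≤ p → ∀ (ζ : K) (hζ : IsPrimitiveRoot ζ p),
    ¬ ∃ v : K, v ^ p = ((etaRaw p K hζ.toInteger (etaExp p 2) : 𝓞 K) : K)

/-- `η` lies in the `ω^2`-eigenspace of `E/E^p`. -/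
def IsEigenUnit (ζ : K) (η : (𝓞 K)ˣ) : Prop :=
  ∀ (σ : K ≃ₐ[ℚ] K) (c : ℕ), σ ζ = ζ ^ c →
    ∃ ε : (𝓞 K)ˣ, σ ((η : 𝓞 K) : K) = ((η : 𝓞 K) : K) ^ (c ^ 2) * ((ε : 𝓞 K) : K) ^ p

/-- **K4+K5 / UNITS.** A unit in the `ω^2`-eigenspace of `E/E^p` which is congruent to a rational
integer modulo `p` is a `p`-th power (equivariant Dirichlet: the eigenspace is at most
one-dimensional; it is generated by the cyclotomic unit, whose `kell_2` is non-zero, while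
`kell_2` vanishes on units congruent to an integer mod `p`). -/
def UnitStatement : Prop :=
  5 ≤ p → ∀ (ζ : K) (_hζ : IsPrimitiveRoot ζ p) (η : (𝓞 K)ˣ), IsEigenUnit p K ζ η →
    (∃ n : ℤ, (p : 𝓞 K) ∣ (η : 𝓞 K) - n) → ∃ ε : (𝓞 K)ˣ, η = ε ^ p

/-- **K6a / MOD.** Pure group theory: if a class `x` of order dividing `p` is a non-trivial
`ω^2`-eigenvector (`σ_c x = x^(c^2)`), then there is a non-trivial `ω^2`-eigen character of the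
class group with `ψ^p = 1`.  (Project to the `p`-primary part with the idempotent built from
Teichmüller lifts modulo `p^N`; a non-zero finite abelian `p`-group has a character of order `p`.) -/
def ModStatement : Prop :=
  p ≠ 2 → ∀ (ζ : K) (_hζ : IsPrimitiveRoot ζ p) (I : (Ideal (𝓞 K))⁰),
    ClassGroup.mk0 I ≠ 1 → ClassGroup.mk0 I ^ p = 1 →
    (∀ (σ : K ≃ₐ[ℚ] K) (c : ℕ), σ ζ = ζ ^ c →
      ClassGroup.mk0 (galIdeal σ I) = ClassGroup.mk0 I ^ (c ^ 2)) →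
    ∃ ψ : ClassGroup (𝓞 K) →* ℂˣ, (∀ c, ψ c ^ p = 1) ∧ ψ ≠ 1 ∧ IsEigenChar K ζ 2 ψ

/-- **K6 / CORE.** The `K`-internal statement: a non-zero `α ∈ 𝓞 K`, prime to `1-ζ`, in the
`ω^2`-eigenspace of `K^*/K^{*p}` with `(α) = 𝔞^p` and `α ≡ n^p mod (1-ζ)^p` is a `p`-th power
in `K`.  (Follows from K2+K3+K4+K5+K6a.) -/
def CoreStatement : Prop :=
  5 ≤ p → ∀ (ζ : K) (hζ : IsPrimitiveRoot ζ p) (α : 𝓞 K), α ≠ 0 →
    ¬ (hζ.toInteger - 1) ∣ α →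
    (∀ (σ : K ≃ₐ[ℚ] K) (c : ℕ), σ ζ = ζ ^ c →
      ∃ κ : K, σ (α : K) = (α : K) ^ (c ^ 2) * κ ^ p) →
    (∃ 𝔞 : Ideal (𝓞 K), Ideal.span {α} = 𝔞 ^ p) →
    (∃ n : ℤ, (hζ.toInteger - 1) ^ p ∣ α - (n : 𝓞 K) ^ p) →
    ∃ β : K, β ^ p = (α : K)

end Cyclo

/-! ### K1 (KUMMER): from the unramified extension to `α` -/

/-- **K1 / KUMMER.** `K = ℚ(ζ_p) ⊂ L`, `L/ℚ` Galois, `[L:K] = p`, `L/K` unramified at all finite
primes, conjugation law `τ⁻¹ s τ = s^c` for `τ ζ = ζ^c` (i.e. `Gal(K/ℚ)` acts on `Gal(L/K)` by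
`ω⁻¹`).  Then `L = K(α^{1/p})` with `α` as in `CoreStatement`, and `α` not a `p`-th power.
(The shape of the hypotheses is the output of helper97's R1; adjust there if needed.) -/
def KummerStatement : Prop :=
  ∀ (p : ℕ) [Fact p.Prime], p ≠ 2 →
  ∀ (K L : Type) [Field K] [NumberField K] [IsCyclotomicExtension {p} ℚ K]
    [Field L] [NumberField L] [Algebra K L] [IsGalois K L] [IsGalois ℚ L],
  Module.finrank K L = p →
  (∀ (P : Ideal (𝓞 L)), P.IsPrime → P ≠ ⊥ → Ideal.inertia (L ≃ₐ[K] L) P = ⊥) →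
  ∀ (ζ : K) (hζ : IsPrimitiveRoot ζ p),
  (∀ (τ : L ≃ₐ[ℚ] L) (s : L ≃ₐ[K] L) (c : ℕ), τ (algebraMap K L ζ) = algebraMap K L ζ ^ c →
      τ⁻¹ * s.restrictScalars ℚ * τ = (s ^ c).restrictScalars ℚ) →
  ∃ α : 𝓞 K, α ≠ 0 ∧ ¬ (hζ.toInteger - 1) ∣ α ∧ (¬ ∃ β : K, β ^ p = (α : K)) ∧
    (∀ (σ : K ≃ₐ[ℚ] K) (c : ℕ), σ ζ = ζ ^ c →
      ∃ κ : K, σ (α : K) = (α : K) ^ (c ^ 2) * κ ^ p) ∧
    (∃ 𝔞 : Ideal (𝓞 K), Ideal.span {α} = 𝔞 ^ p) ∧
    (∃ n : ℤ, (hζ.toInteger - 1) ^ p ∣ α - (n : 𝓞 K) ^ p)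

/-- **NOEXT.** The number-field form of S14 for `p ≥ 5` (`= KummerStatement + CoreStatement`). -/
def NoExtStatement : Prop :=
  ∀ (p : ℕ) [Fact p.Prime], 5 ≤ p →
  ∀ (K L : Type) [Field K] [NumberField K] [IsCyclotomicExtension {p} ℚ K]
    [Field L] [NumberField L] [Algebra K L] [IsGalois K L] [IsGalois ℚ L],
  Module.finrank K L = p →
  (∀ (P : Ideal (𝓞 L)), P.IsPrime → P ≠ ⊥ → Ideal.inertia (L ≃ₐ[K] L) P = ⊥) →
  ∀ (ζ : K), IsPrimitiveRoot ζ p →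
  (∀ (τ : L ≃ₐ[ℚ] L) (s : L ≃ₐ[K] L) (c : ℕ), τ (algebraMap K L ζ) = algebraMap K L ζ ^ c →
      τ⁻¹ * s.restrictScalars ℚ * τ = (s ^ c).restrictScalars ℚ) →
  False

theorem noExt_of_kummer_of_core (hK : KummerStatement)
    (hC : ∀ (p : ℕ) [Fact p.Prime] (K : Type) [Field K] [NumberField K]
      [IsCyclotomicExtension {p} ℚ K], CoreStatement p K) : NoExtStatement := by
  intro p _ hp5 K L _ _ _ _ _ _ _ _ hdeg hunr ζ hζ hconj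
  have hp2 : p ≠ 2 := by omega
  obtain ⟨α, hα0, hlam, hnot, heig, hid, hprim⟩ := hK p hp2 K L hdeg hunr ζ hζ hconj
  exact hnot (hC p K hp5 ζ hζ α hα0 hlam heig hid hprim)

end Fermat.Agent.S14
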