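/-
S14 / K2 THAINE (helper33): the auxiliary field `F = K(ζ_q) = ℚ(ζ_{pq})` over `K = ℚ(ζ_p)`.
-/
import Mathlib
import Fermat.Agent.S14.CoreIface

set_option autoImplicit false

namespace Fermat.Agent.S14.Thaine

open NumberField nonZeroDivisors Polynomial

section Setup

theorem isCyclo_pq {p q : ℕ} [hp : Fact p.Prime] [hq : Fact q.Prime]
    (K : Type) [Field K] [NumberField K] [IsCyclotomicExtension {p} ℚ K]
    (F : Type) [Field F] [NumberField F] [Algebra K F] [IsCyclotomicExtension {q} K F]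
    (hpq : p ≠ q) : IsCyclotomicExtension {p * q} ℚ F := by
  have h1 : IsCyclotomicExtension ({p} ∪ {q}) ℚ F :=
    IsCyclotomicExtension.trans {p} {q} ℚ K F (algebraMap K F).injective
  have hcop : Nat.Coprime p q := (Nat.coprime_primes hp.out hq.out).mpr hpq
  have : NeZero p := ⟨hp.out.ne_zero⟩
  have : NeZero q := ⟨hq.out.ne_zero⟩
  obtain ⟨ζp, hζp⟩ := IsCyclotomicExtension.exists_isPrimitiveRoot ℚ F (S := {p} ∪ {q}) (n := p) (by simp) hp.out.ne_zero
  obtain ⟨ζq, hζq⟩ := IsCyclotomicExtension.exists_isPrimitiveRoot ℚ F (S := {p} ∪ {q}) (n := q) (by simp) hq.out.ne_zero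
  have hζ : IsPrimitiveRoot (ζp * ζq) (p * q) := by
    rw [IsPrimitiveRoot.iff_orderOf, (Commute.all ζp ζq).orderOf_mul_eq_mul_orderOf_of_coprime,
      ← hζp.eq_orderOf, ← hζq.eq_orderOf]
    rwa [← hζp.eq_orderOf, ← hζq.eq_orderOf]
  have h2 : IsCyclotomicExtension (({p} ∪ {q}) ∪ {p * q}) ℚ F :=
    IsCyclotomicExtension.union_of_isPrimitiveRoot _ ℚ F hζ
  have hset : (({p} ∪ {q}) ∪ {p * q} : Set ℕ) = ({p * q} ∪ {p}) ∪ {q} := by
    ext x; simp only [Set.mem_union, Set.mem_singleton_iff]; tauto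
  rw [hset] at h2
  have h3 : IsCyclotomicExtension ({p * q} ∪ {p}) ℚ F :=
    (IsCyclotomicExtension.iff_union_of_dvd ℚ F
      ⟨p * q, by simp, Nat.mul_ne_zero hp.out.ne_zero hq.out.ne_zero, Dvd.intro_left p rfl⟩).mpr h2
  exact (IsCyclotomicExtension.iff_union_of_dvd ℚ F
      ⟨p * q, by simp, Nat.mul_ne_zero hp.out.ne_zero hq.out.ne_zero, Dvd.intro q rfl⟩).mpr h3

end Setup

theorem finrank_KF {p q : ℕ} [hp : Fact p.Prime] [hq : Fact q.Prime]
    (K : Type) [Field K] [NumberField K] [IsCyclotomicExtension {p} ℚ K]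
    (F : Type) [Field F] [NumberField F] [Algebra K F] [IsCyclotomicExtension {q} K F]
    (hpq : p ≠ q) : Module.finrank K F = q - 1 := by
  have : NeZero p := ⟨hp.out.ne_zero⟩
  have : NeZero q := ⟨hq.out.ne_zero⟩
  have : NeZero (p * q) := ⟨Nat.mul_ne_zero hp.out.ne_zero hq.out.ne_zero⟩
  have hF := isCyclo_pq K F hpq
  have h1 : Module.finrank ℚ F = (p * q).totient :=
    IsCyclotomicExtension.finrank F (cyclotomic.irreducible_rat (NeZero.pos _))
  have h2 : Module.finrank ℚ K = p.totient :=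
    IsCyclotomicExtension.finrank K (cyclotomic.irreducible_rat (NeZero.pos _))
  have h3 := Module.finrank_mul_finrank ℚ K F
  have hcop : Nat.Coprime p q := (Nat.coprime_primes hp.out hq.out).mpr hpq
  rw [h1, h2, Nat.totient_mul hcop, Nat.totient_prime hp.out, Nat.totient_prime hq.out] at h3
  have hp1 : 0 < p - 1 := Nat.sub_pos_of_lt hp.out.one_lt
  exact Nat.eq_of_mul_eq_mul_left hp1 h3

theorem irreducible_cyclotomic {p q : ℕ} [hp : Fact p.Prime] [hq : Fact q.Prime]
    (K : Type) [Field K] [NumberField K] [IsCyclotomicExtension {p} ℚ K]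
    (F : Type) [Field F] [NumberField F] [Algebra K F] [IsCyclotomicExtension {q} K F]
    (hpq : p ≠ q) : Irreducible (cyclotomic q K) := by
  have : NeZero q := ⟨hq.out.ne_zero⟩
  have hζ := IsCyclotomicExtension.zeta_spec q K F
  set ζ := IsCyclotomicExtension.zeta q K F
  have hint : IsIntegral K ζ := (IsCyclotomicExtension.integral {q} K F).isIntegral ζ
  have hdvd : minpoly K ζ ∣ cyclotomic q K := by
    apply minpoly.dvd
    rw [aeval_def, eval₂_eq_eval_map, map_cyclotomic]
    exact hζ.isRoot_cyclotomic (NeZero.pos _)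
  have hdeg : (minpoly K ζ).natDegree = q - 1 := by
    rw [← finrank_KF K F hpq, (hζ.powerBasis K).finrank, IsPrimitiveRoot.powerBasis_dim]
  have heq : minpoly K ζ = cyclotomic q K := by
    refine (Polynomial.eq_of_monic_of_dvd_of_natDegree_le (minpoly.monic hint)
      (cyclotomic.monic q K) hdvd ?_).symm
    rw [natDegree_cyclotomic, hdeg, Nat.totient_prime hq.out]
  rw [← heq]
  exact minpoly.irreducible hint

end Fermat.Agent.S14.Thaine
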