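/-
S14 / K2 THAINE, sub-lemmas TF-b and TF-c (helper76, for helper33's `ExistsBetaStatement`).

Setting: `K = ℚ(ζ_p)`, `F = K(ζ_q)`, `q ≡ 1 mod p`.

* `norm_one_sub_mul_eq_one` (TF-b): `N_{F/K}(1 - ζ ζ_q) = 1` for primitive roots `ζ` (order `p`, in `K`)
  and `ζ_q` (order `q`, in `F`).
* `galRestrict_sub_mem_span` (TF-c): every `τ ∈ Gal(F/K)` acts trivially on `𝓞 F / (1 - ζ_q)`.
-/
import Mathlib
import Fermat.Agent.S14.ThaineField

set_option autoImplicit false

namespace Fermat.Agent.S14.ThaineAux76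

open NumberField Polynomial

/-! ### TF-b : the norm of `1 - ζ ζ_q` -/

section Generic

variable {K F : Type*} [Field K] [Field F] [Algebra K F]

/-- For a power basis `pb` of `F/K`: `N(b - gen) = (minpoly gen)(b)`. -/
theorem norm_algebraMap_sub_gen (pb : PowerBasis K F) (b : K) :
    Algebra.norm K (algebraMap K F b - pb.gen) = (minpoly K pb.gen).eval b := by
  classical
  rw [Algebra.norm_eq_matrix_det pb.basis, map_sub, ← charpoly_leftMulMatrix pb,
    Matrix.eval_charpoly]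
  congr 2
  rw [AlgHom.commutes]
  rfl

end Generic

/-- `1 + b + ⋯ + b^(q-1) = 1` when `b^p = 1`, `b ≠ 1` and `q ≡ 1 mod p`. -/
theorem eval_cyclotomic_prime_eq_one {K : Type*} [Field K] {p q : ℕ} (hq : q.Prime)
    (hq1 : q % p = 1) {b : K} (hb : b ^ p = 1) (hb1 : b ≠ 1) :
    (cyclotomic q K).eval b = 1 := by
  have : Fact q.Prime := ⟨hq⟩
  rw [cyclotomic_prime, eval_geom_sum]
  have hbq : b ^ q = b := by
    conv_lhs => rw [← Nat.div_add_mod q p, hq1, pow_add, pow_mul, hb, one_pow, one_mul, pow_one]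
  have h := geom_sum_mul b q
  rw [hbq] at h
  have hne : b - 1 ≠ 0 := sub_ne_zero.mpr hb1
  exact mul_right_cancel₀ hne (by rw [h, one_mul])

/-- **TF-b.** `N_{F/K}(1 - ζ ζ_q) = 1`. -/
theorem norm_one_sub_mul_eq_one {p q : ℕ} [hp : Fact p.Prime] [hq : Fact q.Prime]
    (K : Type) [Field K] [NumberField K] [IsCyclotomicExtension {p} ℚ K]
    (F : Type) [Field F] [NumberField F] [Algebra K F] [IsCyclotomicExtension {q} K F]
    (hpq : p ≠ q) (hq1 : q % p = 1) {ζ : K} (hζ : IsPrimitiveRoot ζ p)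
    {ζq : F} (hζq : IsPrimitiveRoot ζq q) :
    Algebra.norm K (1 - algebraMap K F ζ * ζq) = 1 := by
  have : NeZero q := ⟨hq.out.ne_zero⟩
  have hirr := Thaine.irreducible_cyclotomic K F hpq
  have hζ0 : ζ ≠ 0 := hζ.ne_zero hp.out.ne_zero
  have hp1 : p ≠ 1 := hp.out.ne_one
  -- rewrite `1 - ζ ζq = ζ (ζ⁻¹ - ζq)`
  have hfac : (1 : F) - algebraMap K F ζ * ζq
      = algebraMap K F ζ * (algebraMap K F ζ⁻¹ - (hζq.powerBasis K).gen) := by
    rw [IsPrimitiveRoot.powerBasis_gen, mul_sub, ← map_mul, mul_inv_cancel₀ hζ0, map_one]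
  rw [hfac, map_mul, Algebra.norm_algebraMap, norm_algebraMap_sub_gen,
    IsPrimitiveRoot.powerBasis_gen, ← hζq.minpoly_eq_cyclotomic_of_irreducible hirr,
    Thaine.finrank_KF K F hpq]
  have hb : (ζ⁻¹) ^ p = 1 := by rw [inv_pow, hζ.pow_eq_one, inv_one]
  have hb1 : ζ⁻¹ ≠ 1 := by
    intro h
    exact hζ.ne_one hp.out.one_lt (inv_eq_one.mp h)
  rw [eval_cyclotomic_prime_eq_one hq.out hq1 hb hb1, mul_one]
  -- `ζ^(q-1) = 1` since `p ∣ q - 1`
  have hdvd : p ∣ q - 1 := (Nat.modEq_iff_dvd' hq.out.one_lt.le).mp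
    (by rw [Nat.ModEq, hq1, Nat.mod_eq_of_lt hp.out.one_lt])
  obtain ⟨c, hc⟩ := hdvd
  rw [hc, pow_mul, hζ.pow_eq_one, one_pow]

/-! ### TF-c : `Gal(F/K)` acts trivially modulo `1 - ζ_q` -/

section TFc

variable {p q : ℕ} [hp : Fact p.Prime] [hq : Fact q.Prime]
  (K : Type) [Field K] [NumberField K] [IsCyclotomicExtension {p} ℚ K]
  (F : Type) [Field F] [NumberField F] [Algebra K F] [IsCyclotomicExtension {q} K F]

/-- A ring endomorphism `f` of a commutative ring `R = ℤ[ξ]` with `f ξ - ξ ∈ I` satisfies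
`f x - x ∈ I` for all `x`. -/
theorem map_sub_mem_of_adjoin_eq_top {R : Type*} [CommRing R] (f : R →+* R) (I : Ideal R)
    (ξ : R) (htop : Algebra.adjoin ℤ {ξ} = ⊤) (hξ : f ξ - ξ ∈ I) (x : R) : f x - x ∈ I := by
  have hx : x ∈ Algebra.adjoin ℤ {ξ} := by rw [htop]; exact Algebra.mem_top
  induction hx using Algebra.adjoin_induction with
  | mem y hy =>
    rw [Set.mem_singleton_iff] at hy
    rwa [hy]
  | algebraMap r =>
    rw [eq_intCast, map_intCast, sub_self]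
    exact I.zero_mem
  | add y z _ _ hy hz =>
    have : f (y + z) - (y + z) = (f y - y) + (f z - z) := by rw [map_add]; ring
    rw [this]
    exact I.add_mem hy hz
  | mul y z _ _ hy hz =>
    have : f (y * z) - y * z = f y * (f z - z) + (f y - y) * z := by rw [map_mul]; ring
    rw [this]
    exact I.add_mem (I.mul_mem_left _ hz) (I.mul_mem_right _ hy)

/-- **TF-c.** For `τ ∈ Gal(F/K)` and `x ∈ 𝓞 F`: `τ x - x ∈ (1 - ζ_q)`. -/
theorem galRestrict_sub_mem_span (hpq : p ≠ q) {ζ : K} (hζ : IsPrimitiveRoot ζ p)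
    {ζq : F} (hζq : IsPrimitiveRoot ζq q) (τ : F ≃ₐ[K] F) (x : 𝓞 F) :
    galRestrict (𝓞 K) K F (𝓞 F) τ x - x ∈ Ideal.span {1 - hζq.toInteger} := by
  have : NeZero p := ⟨hp.out.ne_zero⟩
  have : NeZero q := ⟨hq.out.ne_zero⟩
  have : NeZero (p * q) := ⟨Nat.mul_ne_zero hp.out.ne_zero hq.out.ne_zero⟩
  have := Thaine.isCyclo_pq K F hpq
  have hcop : Nat.Coprime p q := (Nat.coprime_primes hp.out hq.out).mpr hpq
  -- the primitive `pq`-th root `ξ = ζ ζq`
  have hζF : IsPrimitiveRoot (algebraMap K F ζ) p := hζ.map_of_injective (algebraMap K F).injective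
  have hξ : IsPrimitiveRoot (algebraMap K F ζ * ζq) (p * q) := by
    rw [IsPrimitiveRoot.iff_orderOf,
      (Commute.all _ ζq).orderOf_mul_eq_mul_orderOf_of_coprime,
      ← hζF.eq_orderOf, ← hζq.eq_orderOf]
    rwa [← hζF.eq_orderOf, ← hζq.eq_orderOf]
  have htop := IsCyclotomicExtension.Rat.adjoin_singleton_eq_top hξ
  set τ' := galRestrict (𝓞 K) K F (𝓞 F) τ with hτ'
  refine map_sub_mem_of_adjoin_eq_top (τ' : 𝓞 F →+* 𝓞 F) _ hξ.toInteger htop ?_ x
  -- `τ ζq = ζq ^ j`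
  have hτq : (τ ζq) ^ q = 1 := by rw [← map_pow, hζq.pow_eq_one, map_one]
  obtain ⟨j, -, hj⟩ := hζq.eq_pow_of_pow_eq_one hτq
  -- compute `τ' ξ - ξ`
  have key : τ' hξ.toInteger - hξ.toInteger
      = (algebraMap (𝓞 K) (𝓞 F) hζ.toInteger) * (hζq.toInteger ^ j - hζq.toInteger) := by
    apply RingOfIntegers.coe_injective
    rw [map_sub, map_mul, map_sub, map_pow, hτ', algebraMap_galRestrict_apply]
    have e1 : algebraMap (𝓞 F) F hξ.toInteger = algebraMap K F ζ * ζq := rfl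
    have e2 : algebraMap (𝓞 F) F hζq.toInteger = ζq := rfl
    have e3 : algebraMap (𝓞 F) F (algebraMap (𝓞 K) (𝓞 F) hζ.toInteger) = algebraMap K F ζ := by
      rw [← IsScalarTower.algebraMap_apply (𝓞 K) (𝓞 F) F,
        IsScalarTower.algebraMap_apply (𝓞 K) K F]
      rfl
    rw [e1, e2, e3, map_mul, AlgEquiv.commutes, ← hj]
    ring
  show τ' hξ.toInteger - hξ.toInteger ∈ _
  rw [key]
  refine Ideal.mul_mem_left _ _ ?_
  have h1 : (1 - hζq.toInteger) ∣ hζq.toInteger ^ j - hζq.toInteger := by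
    have ha : (1 - hζq.toInteger) ∣ 1 - hζq.toInteger ^ j := one_sub_dvd_one_sub_pow _ j
    have : hζq.toInteger ^ j - hζq.toInteger
        = (1 - hζq.toInteger) - (1 - hζq.toInteger ^ j) := by ring
    rw [this]
    exact dvd_sub dvd_rfl ha
  exact Ideal.mem_span_singleton.mpr h1

end TFc

/-! ### further helpers for TF -/

/-- `1 - z^s = (1 - z) * (1 + z + ⋯ + z^(s-1))` and the second factor is `≡ s` mod `1 - z`. -/
theorem geom_sum_sub_natCast_mem_span {R : Type*} [CommRing R] (z : R) (s : ℕ) :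
    (∑ i ∈ Finset.range s, z ^ i) - (s : R) ∈ Ideal.span {1 - z} := by
  induction s with
  | zero => simp
  | succ n ih =>
    rw [Finset.sum_range_succ, Nat.cast_succ]
    have : (∑ i ∈ Finset.range n, z ^ i + z ^ n) - ((n : R) + 1)
        = ((∑ i ∈ Finset.range n, z ^ i) - (n : R)) - (1 - z ^ n) := by ring
    rw [this]
    exact Ideal.sub_mem _ ih (Ideal.mem_span_singleton.mpr (one_sub_dvd_one_sub_pow z n))

/-- `1 - ζ ζ_q` is a unit of `𝓞 F`. -/
theorem isUnit_one_sub_mul {p q : ℕ} [hp : Fact p.Prime] [hq : Fact q.Prime]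
    (K : Type) [Field K] [NumberField K] [IsCyclotomicExtension {p} ℚ K]
    (F : Type) [Field F] [NumberField F] [Algebra K F] [IsCyclotomicExtension {q} K F]
    (hpq : p ≠ q) (hq1 : q % p = 1) {ζ : K} (hζ : IsPrimitiveRoot ζ p)
    {ζq : F} (hζq : IsPrimitiveRoot ζq q) :
    IsUnit ((1 : 𝓞 F) - algebraMap (𝓞 K) (𝓞 F) hζ.toInteger * hζq.toInteger) := by
  rw [NumberField.isUnit_iff_norm]
  have hcoe : (((1 : 𝓞 F) - algebraMap (𝓞 K) (𝓞 F) hζ.toInteger * hζq.toInteger : 𝓞 F) : F)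
      = 1 - algebraMap K F ζ * ζq := by
    rw [RingOfIntegers.coe_eq_algebraMap, map_sub, map_mul, map_one]
    have e2 : algebraMap (𝓞 F) F hζq.toInteger = ζq := rfl
    have e3 : algebraMap (𝓞 F) F (algebraMap (𝓞 K) (𝓞 F) hζ.toInteger) = algebraMap K F ζ := by
      rw [← IsScalarTower.algebraMap_apply (𝓞 K) (𝓞 F) F,
        IsScalarTower.algebraMap_apply (𝓞 K) K F]
      rfl
    rw [e2, e3]
  rw [RingOfIntegers.coe_norm, hcoe, ← Algebra.norm_norm (S := K),
    norm_one_sub_mul_eq_one K F hpq hq1 hζ hζq, map_one, abs_one]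

/-- If `τ ζ_q = ζ_q ^ j` then `τ (1 - ζ_q) = (1 - ζ_q) (1 + ζ_q + ⋯ + ζ_q^(j-1))`
(and the cofactor is `≡ j` mod `1 - ζ_q` by `geom_sum_sub_natCast_mem_span`). -/
theorem galRestrict_one_sub_toInteger {q : ℕ} [NeZero q]
    (K : Type) [Field K] [NumberField K]
    (F : Type) [Field F] [NumberField F] [Algebra K F]
    {ζq : F} (hζq : IsPrimitiveRoot ζq q) (τ : F ≃ₐ[K] F) {j : ℕ} (hj : τ ζq = ζq ^ j) :
    galRestrict (𝓞 K) K F (𝓞 F) τ (1 - hζq.toInteger)
      = (1 - hζq.toInteger) * ∑ i ∈ Finset.range j, hζq.toInteger ^ i := by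
  rw [mul_neg_geom_sum]
  apply RingOfIntegers.coe_injective
  rw [algebraMap_galRestrict_apply, map_sub, map_sub, map_one, map_one, map_sub, map_one, map_pow]
  have e2 : algebraMap (𝓞 F) F hζq.toInteger = ζq := rfl
  rw [e2, hj]

end Fermat.Agent.S14.ThaineAux76
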