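/-
S14 / K2 THAINE, sub-lemma TF-b (helper87): the Thaine unit `1 - ζ_p ζ_q` of `F = K(ζ_q)` has
relative norm `1` over `K = ℚ(ζ_p)` (for `q ≡ 1 mod p`).  Setting = variables of `ThaineField.lean`.
No placeholder proofs in this file.
-/
import Mathlib
import Fermat.Agent.S14.ThaineField

set_option autoImplicit false

namespace Fermat.Agent.S14.ThaineAux87

open NumberField Polynomial Finset

section NormLemma

variable {n : ℕ} [NeZero n] {K L : Type*} [Field K] [Field L] [Algebra K L] {ζ : L}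

/-- `N_{L/K}(c - ζ) = Φ_n(c)` for `c ∈ K`, when `Φ_n` is irreducible over `K`. -/
theorem norm_algebraMap_sub_eq_eval_cyclotomic (hζ : IsPrimitiveRoot ζ n)
    [IsCyclotomicExtension {n} K L] (hirr : Irreducible (cyclotomic n K)) (c : K) :
    Algebra.norm K (algebraMap K L c - ζ) = eval c (cyclotomic n K) := by
  have := IsCyclotomicExtension.neZero' n K L
  let E := AlgebraicClosure L
  obtain ⟨z, hz⟩ := IsAlgClosed.exists_root _ (degree_cyclotomic_pos n E (NeZero.pos _)).ne.symm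
  apply (algebraMap K E).injective
  let := IsCyclotomicExtension.finiteDimensional {n} K L
  let := IsCyclotomicExtension.isGalois {n} K L
  rw [Algebra.norm_eq_prod_embeddings]
  have Hprod : (Finset.univ.prod fun σ : L →ₐ[K] E => σ (algebraMap K L c - ζ)) =
      eval (algebraMap K E c) (cyclotomic' n E) := by
    rw [cyclotomic', eval_prod, ← @Finset.prod_attach E E, ← univ_eq_attach]
    refine Fintype.prod_equiv (hζ.embeddingsEquivPrimitiveRoots E hirr) _ _ fun σ => ?_
    simp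
  have : NeZero (n : E) := NeZero.of_faithfulSMul K _ n
  rw [Hprod, cyclotomic', ← cyclotomic_eq_prod_X_sub_primitiveRoots (isRoot_cyclotomic_iff.1 hz),
    ← map_cyclotomic n (algebraMap K E), eval_map_algebraMap, aeval_algebraMap_apply]
  rfl

/-- `Φ_q(c) = 1` when `q` is prime, `c ≠ 1` and `c ^ q = c`. -/
theorem eval_cyclotomic_eq_one {K : Type*} [Field K] (q : ℕ) [hq : Fact q.Prime] {c : K}
    (hc1 : c ≠ 1) (hcq : c ^ q = c) : eval c (cyclotomic q K) = 1 := by
  have h := congrArg (eval c) (cyclotomic_prime_mul_X_sub_one K q)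
  rw [eval_mul, eval_sub, eval_sub, eval_pow, eval_X, eval_one, hcq] at h
  have hne : c - 1 ≠ 0 := sub_ne_zero.mpr hc1
  exact mul_right_cancel₀ hne (h.trans (one_mul _).symm)

end NormLemma

/-- **TF-b.** the Thaine unit `ε = 1 - ζ ζq` has relative norm `1`. -/
theorem norm_one_sub_mul {p q : ℕ} [hp : Fact p.Prime] [hq : Fact q.Prime]
    (K : Type) [Field K] [NumberField K] [IsCyclotomicExtension {p} ℚ K]
    (F : Type) [Field F] [NumberField F] [Algebra K F] [IsCyclotomicExtension {q} K F]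
    (hpq : p ≠ q) (hqp : q % p = 1) {ζ : K} (hζ : IsPrimitiveRoot ζ p)
    {ζq : F} (hζq : IsPrimitiveRoot ζq q) :
    Algebra.norm K (1 - algebraMap K F ζ * ζq) = 1 := by
  have : NeZero q := ⟨hq.out.ne_zero⟩
  have hirr := Fermat.Agent.S14.Thaine.irreducible_cyclotomic K F hpq
  have hζ0 : ζ ≠ 0 := hζ.ne_zero hp.out.ne_zero
  have hζp : ζ ^ p = 1 := hζ.pow_eq_one
  -- `q = 1 + p * t`
  obtain ⟨t, ht⟩ : ∃ t, q = 1 + p * t := ⟨q / p, by
    have := Nat.div_add_mod q p
    rw [hqp] at this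
    omega⟩
  have hζq1 : ζ ^ (q - 1) = 1 := by
    have : q - 1 = p * t := by omega
    rw [this, pow_mul, hζp, one_pow]
  have hc1 : ζ⁻¹ ≠ 1 := by
    intro h
    have : ζ = 1 := by rw [← inv_inv ζ, h, inv_one]
    exact hζ.ne_one hp.out.one_lt this
  have hcq : ζ⁻¹ ^ q = ζ⁻¹ := by
    rw [ht, pow_add, pow_one, pow_mul, inv_pow, hζp, inv_one, one_pow, mul_one]
  have hfact : (1 : F) - algebraMap K F ζ * ζq =
      algebraMap K F ζ * (algebraMap K F ζ⁻¹ - ζq) := by
    rw [mul_sub, ← map_mul, mul_inv_cancel₀ hζ0, map_one]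
  rw [hfact, map_mul, Algebra.norm_algebraMap, Fermat.Agent.S14.Thaine.finrank_KF K F hpq, hζq1,
    one_mul, norm_algebraMap_sub_eq_eval_cyclotomic hζq hirr, eval_cyclotomic_eq_one q hc1 hcq]

/-- Integral version: `1 - ζ ζq` is a unit of `𝓞 F`. -/
theorem isUnit_one_sub_mul {p q : ℕ} [hp : Fact p.Prime] [hq : Fact q.Prime]
    (K : Type) [Field K] [NumberField K] [IsCyclotomicExtension {p} ℚ K]
    (F : Type) [Field F] [NumberField F] [Algebra K F] [IsCyclotomicExtension {q} K F]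
    (hpq : p ≠ q) (hqp : q % p = 1) {ζ : K} (hζ : IsPrimitiveRoot ζ p)
    {ζq : F} (hζq : IsPrimitiveRoot ζq q) (ε : 𝓞 F)
    (hε : (ε : F) = 1 - algebraMap K F ζ * ζq) : IsUnit ε := by
  rw [NumberField.isUnit_iff_norm, RingOfIntegers.coe_norm, ← Algebra.norm_norm (S := K), hε,
    norm_one_sub_mul K F hpq hqp hζ hζq, map_one]
  simp

end Fermat.Agent.S14.ThaineAux87
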