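/-
S14 / K2 (THAINE), generic cyclotomic-free half (helper96).

* `tame_congr`      : tame character congruence `τ γ ≡ s^r γ mod P^(r+1)` for `γ ∈ P^r`;
* `tame_unit_congr` : if `τ γ = ε γ`, `γ ∈ P^r ∖ P^(r+1)` then `ε ≡ s^r mod P`.
-/
import Mathlib

set_option autoImplicit false

namespace Fermat.Agent.S14.ThaineGen96

open Ideal

section Tame

variable {S : Type*} [CommRing S] [IsDedekindDomain S]

/-- First step: on `P/P²` the automorphism `τ` acts by multiplication by `s`. -/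
theorem tame_step (P : Ideal S) [P.IsPrime] (hP0 : P ≠ ⊥) (τ : S ≃+* S)
    (hτP : ∀ x ∈ P, τ x ∈ P) (hτ : ∀ x, τ x - x ∈ P) (π s : S) (hπ : π ∈ P) (hπ2 : π ∉ P ^ 2)
    (hs : τ π - s * π ∈ P ^ 2) (b : S) (hb : b ∈ P) : τ b - s * b ∈ P ^ 2 := by
  have hπ1 : π ∈ P ^ 1 := by simpa using hπ
  have hb1 : b ∈ P ^ 1 := by simpa using hb
  obtain ⟨d, e, he, hde⟩ := Ideal.exists_mul_add_mem_pow_succ hP0 π b hπ1 hπ2 hb1
  have hτP2 : ∀ x ∈ P ^ 2, τ x ∈ P ^ 2 := by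
    intro x hx
    rw [pow_two] at hx ⊢
    refine Submodule.mul_induction_on hx (fun m hm n hn => ?_) (fun x y hx hy => ?_)
    · rw [map_mul]
      exact Ideal.mul_mem_mul (hτP m hm) (hτP n hn)
    · rw [map_add]
      exact add_mem hx hy
  have key : τ b - s * b = (τ π - s * π) * τ d + s * (π * (τ d - d)) + (τ e - s * e) := by
    rw [← hde]
    simp only [map_add, map_mul]
    ring
  rw [key]
  refine add_mem (add_mem ?_ ?_) ?_
  · exact Ideal.mul_mem_right _ _ hs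
  · refine Ideal.mul_mem_left _ _ ?_
    rw [pow_two]
    exact Ideal.mul_mem_mul hπ (hτ d)
  · exact sub_mem (hτP2 e he) (Ideal.mul_mem_left _ _ he)

/-- **Tame congruence.** If `τ` fixes `P`, acts trivially on `S/P`, and `τ π ≡ s π mod P²` for a
uniformiser `π`, then `τ γ ≡ s^r γ mod P^(r+1)` for all `γ ∈ P^r`. -/
theorem tame_congr (P : Ideal S) [P.IsPrime] (hP0 : P ≠ ⊥) (τ : S ≃+* S)
    (hτP : ∀ x ∈ P, τ x ∈ P) (hτ : ∀ x, τ x - x ∈ P) (π s : S) (hπ : π ∈ P) (hπ2 : π ∉ P ^ 2)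
    (hs : τ π - s * π ∈ P ^ 2) (r : ℕ) (γ : S) (hγ : γ ∈ P ^ r) :
    τ γ - s ^ r * γ ∈ P ^ (r + 1) := by
  induction r generalizing γ with
  | zero => simpa using hτ γ
  | succ r ih =>
    rw [pow_succ] at hγ
    refine Submodule.mul_induction_on hγ (fun a ha b hb => ?_) (fun x y hx hy => ?_)
    · have h1 := ih a ha
      have h2 := tame_step P hP0 τ hτP hτ π s hπ hπ2 hs b hb
      have key : τ (a * b) - s ^ (r + 1) * (a * b) =
          (τ a - s ^ r * a) * τ b + s ^ r * (a * (τ b - s * b)) := by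
        rw [map_mul]; ring
      rw [key]
      refine add_mem ?_ ?_
      · rw [pow_succ (n := r + 1)]
        exact Ideal.mul_mem_mul h1 (hτP b hb)
      · refine Ideal.mul_mem_left _ _ ?_
        have : P ^ (r + 1 + 1) = P ^ r * P ^ 2 := by rw [← pow_add]
        rw [this]
        exact Ideal.mul_mem_mul ha h2
    · have : τ (x + y) - s ^ (r + 1) * (x + y) =
          (τ x - s ^ (r + 1) * x) + (τ y - s ^ (r + 1) * y) := by
        rw [map_add]; ring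
      rw [this]
      exact add_mem hx hy

/-- **Tame character.** If moreover `τ γ = ε γ` with `γ ∈ P^r ∖ P^(r+1)`, then `ε ≡ s^r mod P`. -/
theorem tame_unit_congr (P : Ideal S) [P.IsPrime] (hP0 : P ≠ ⊥) (τ : S ≃+* S)
    (hτP : ∀ x ∈ P, τ x ∈ P) (hτ : ∀ x, τ x - x ∈ P) (π s : S) (hπ : π ∈ P) (hπ2 : π ∉ P ^ 2)
    (hs : τ π - s * π ∈ P ^ 2) (r : ℕ) (γ ε : S) (hγ : γ ∈ P ^ r) (hγ' : γ ∉ P ^ (r + 1))
    (hε : τ γ = ε * γ) : ε - s ^ r ∈ P := by
  have h := tame_congr P hP0 τ hτP hτ π s hπ hπ2 hs r γ hγ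
  rw [hε, ← sub_mul] at h
  rcases Ideal.IsPrime.mul_mem_pow P h with h1 | h1
  · exact h1
  · exact absurd h1 hγ'

end Tame

section ClassChar

open UniqueFactorizationMonoid nonZeroDivisors

variable {R : Type*} [CommRing R] [IsDedekindDomain R]

/-- The class of an ideal (`1` for the zero ideal). -/
noncomputable def cls (I : Ideal R) : ClassGroup R :=
  if h : I ≠ ⊥ then ClassGroup.mk0 ⟨I, mem_nonZeroDivisors_of_ne_zero h⟩ else 1

theorem cls_of_ne_bot {I : Ideal R} (h : I ≠ ⊥) :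
    cls I = ClassGroup.mk0 ⟨I, mem_nonZeroDivisors_of_ne_zero h⟩ := dif_pos h

theorem cls_mul {I J : Ideal R} (hI : I ≠ ⊥) (hJ : J ≠ ⊥) : cls (I * J) = cls I * cls J := by
  have hIJ : I * J ≠ ⊥ := mul_ne_zero hI hJ
  rw [cls_of_ne_bot hI, cls_of_ne_bot hJ, cls_of_ne_bot hIJ, ← map_mul]
  rfl

theorem cls_one : cls (1 : Ideal R) = 1 := by
  have h : (1 : Ideal R) ≠ ⊥ := one_ne_zero
  rw [cls_of_ne_bot h]
  exact map_one ClassGroup.mk0

theorem cls_span_singleton {x : R} (hx : x ≠ 0) : cls (Ideal.span {x}) = 1 := by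
  have h : Ideal.span {x} ≠ ⊥ := by simpa using hx
  rw [cls_of_ne_bot h, ClassGroup.mk0_eq_one_iff]
  exact ⟨⟨x, rfl⟩⟩

theorem cls_multiset_prod (m : Multiset (Ideal R)) (hm : ∀ I ∈ m, I ≠ ⊥) :
    cls m.prod = (m.map cls).prod := by
  induction m using Multiset.induction_on with
  | empty => simpa using cls_one
  | cons a m ih =>
    have ha : a ≠ ⊥ := hm a (Multiset.mem_cons_self a m)
    have hm' : ∀ I ∈ m, I ≠ ⊥ := fun I hI => hm I (Multiset.mem_cons_of_mem hI)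
    have hprod : m.prod ≠ ⊥ := by
      rw [← Ideal.zero_eq_bot]
      exact Multiset.prod_ne_zero fun h0 => hm' _ h0 rfl
    rw [Multiset.prod_cons, Multiset.map_cons, Multiset.prod_cons, cls_mul ha hprod, ih hm']

/-- The class of a nonzero ideal is the product of the classes of its prime factors. -/
theorem cls_eq_prod_normalizedFactors {I : Ideal R} (hI : I ≠ ⊥) :
    cls I = ((normalizedFactors I).map cls).prod := by
  conv_lhs => rw [← Ideal.prod_normalizedFactors_eq_self hI]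
  exact cls_multiset_prod _ fun J hJ => ne_zero_of_mem_normalizedFactors hJ

/-- **GEN3.** If all primes outside the finite set `T` occur in `(x)` with multiplicity divisible
by `p`, and `ψ^p = 1`, then `∏_{𝔯 ∈ T} ψ([𝔯])^(v_𝔯(x)) = 1`. -/
theorem prod_char_eq_one {M : Type*} [CommGroup M] [DecidableEq (Ideal R)]
    (ψ : ClassGroup R →* M) (p : ℕ) (hψ : ∀ c, ψ c ^ p = 1) {x : R} (hx : x ≠ 0)
    (T : Finset (Ideal R))
    (hout : ∀ 𝔯 : Ideal R, 𝔯.IsPrime → 𝔯 ≠ ⊥ → 𝔯 ∉ T →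
      p ∣ (normalizedFactors (Ideal.span {x})).count 𝔯) :
    ∏ 𝔯 ∈ T, ψ (cls 𝔯) ^ (normalizedFactors (Ideal.span {x})).count 𝔯 = 1 := by
  classical
  have hI : Ideal.span {x} ≠ ⊥ := by simpa using hx
  set m := normalizedFactors (Ideal.span {x}) with hm
  have h1 : ((m.map cls).map ψ).prod = 1 := by
    rw [Multiset.prod_hom, ← cls_eq_prod_normalizedFactors hI, cls_span_singleton hx, map_one]
  rw [Multiset.map_map, Finset.prod_multiset_map_count] at h1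
  have hfac : ∀ 𝔯 ∈ m.toFinset, 𝔯 ∉ T → (ψ ∘ cls) 𝔯 ^ m.count 𝔯 = 1 := by
    intro 𝔯 h𝔯 hT
    rw [Multiset.mem_toFinset] at h𝔯
    have hprime : 𝔯.IsPrime := ((Ideal.mem_normalizedFactors_iff hI).mp h𝔯).1
    have hne : 𝔯 ≠ ⊥ := ne_zero_of_mem_normalizedFactors h𝔯
    obtain ⟨k, hk⟩ := hout 𝔯 hprime hne hT
    rw [hk, pow_mul, Function.comp_apply, hψ, one_pow]
  -- compare the two finite products
  have h2 : ∏ 𝔯 ∈ T, ψ (cls 𝔯) ^ m.count 𝔯 = ∏ 𝔯 ∈ T ∩ m.toFinset, ψ (cls 𝔯) ^ m.count 𝔯 := by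
    refine (Finset.prod_subset Finset.inter_subset_left fun 𝔯 h𝔯 hn => ?_).symm
    have : 𝔯 ∉ m.toFinset := fun h => hn (Finset.mem_inter.mpr ⟨h𝔯, h⟩)
    rw [Multiset.mem_toFinset] at this
    rw [Multiset.count_eq_zero_of_notMem this, pow_zero]
  have h3 : ∏ 𝔯 ∈ m.toFinset, (ψ ∘ cls) 𝔯 ^ m.count 𝔯 =
      ∏ 𝔯 ∈ T ∩ m.toFinset, ψ (cls 𝔯) ^ m.count 𝔯 := by
    refine (Finset.prod_subset Finset.inter_subset_right fun 𝔯 h𝔯 hn => ?_).symm
    have : 𝔯 ∉ T := fun h => hn (Finset.mem_inter.mpr ⟨h, h𝔯⟩)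
    exact hfac 𝔯 h𝔯 this
  rw [h2, ← h3, h1]

end ClassChar

section NormCount

open NumberField UniqueFactorizationMonoid

variable {K F : Type*} [Field K] [NumberField K] [Field F] [NumberField F] [Algebra K F]
  [IsGalois K F]

/-- If the principal ideal `(γ)` is Galois-invariant then `N_{F/K}(γ) 𝓞_F = (γ)^[F:K]`. -/
theorem map_span_intNorm (γ : 𝓞 F)
    (hinv : ∀ g : F ≃ₐ[K] F, ∃ u : (𝓞 F)ˣ, g (γ : F) = ((u : 𝓞 F) : F) * (γ : F)) :
    Ideal.map (algebraMap (𝓞 K) (𝓞 F)) (Ideal.span {Algebra.intNorm (𝓞 K) (𝓞 F) γ}) =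
      Ideal.span {γ} ^ Module.finrank K F := by
  classical
  choose u hu using hinv
  rw [Ideal.map_span, Set.image_singleton, Ideal.span_singleton_pow]
  have key : algebraMap (𝓞 K) (𝓞 F) (Algebra.intNorm (𝓞 K) (𝓞 F) γ) =
      ((∏ g : F ≃ₐ[K] F, u g : (𝓞 F)ˣ) : 𝓞 F) * γ ^ Module.finrank K F := by
    apply RingOfIntegers.ext
    have h1 : ((algebraMap (𝓞 K) (𝓞 F) (Algebra.intNorm (𝓞 K) (𝓞 F) γ) : 𝓞 F) : F) =
        algebraMap K F (Algebra.norm K (γ : F)) := by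
      have := Algebra.algebraMap_intNorm (A := 𝓞 K) (K := K) (L := F) (B := 𝓞 F) γ
      rw [← this]
      rfl
    rw [h1, Algebra.norm_eq_prod_automorphisms]
    simp only [hu, Finset.prod_mul_distrib, Finset.prod_const, Finset.card_univ,
      map_mul, map_pow, Units.coe_prod, map_prod]
    rw [← Nat.card_eq_fintype_card, IsGalois.card_aut_eq_finrank]
  rw [key]
  exact Ideal.span_singleton_mul_left_unit (Units.isUnit _) _

/-- **GEN.** For `γ ≠ 0` with Galois-invariant principal ideal, a nonzero prime `𝔯` of `𝓞 K` and a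
prime `P` of `𝓞 F` above it:  `e(P|𝔯) · v_𝔯(N γ) = [F:K] · v_P(γ)`. -/
theorem count_mul_count (γ : 𝓞 F) (hγ : γ ≠ 0)
    (hinv : ∀ g : F ≃ₐ[K] F, ∃ u : (𝓞 F)ˣ, g (γ : F) = ((u : 𝓞 F) : F) * (γ : F))
    (𝔯 : Ideal (𝓞 K)) (P : Ideal (𝓞 F)) [h𝔯p : 𝔯.IsPrime] [hPp : P.IsPrime] (h𝔯 : 𝔯 ≠ ⊥)
    [P.LiesOver 𝔯] :
    (normalizedFactors (𝔯.map (algebraMap (𝓞 K) (𝓞 F)))).count P *
        (normalizedFactors (Ideal.span {Algebra.intNorm (𝓞 K) (𝓞 F) γ})).count 𝔯 =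
      Module.finrank K F * (normalizedFactors (Ideal.span {γ})).count P := by
  classical
  have hP0 : P ≠ ⊥ := Ideal.ne_bot_of_liesOver_of_ne_bot h𝔯 P
  have hN : Algebra.intNorm (𝓞 K) (𝓞 F) γ ≠ 0 := by
    rwa [Ne, Algebra.intNorm_eq_zero]
  have hI : Ideal.span {Algebra.intNorm (𝓞 K) (𝓞 F) γ} ≠ ⊥ := by simpa using hN
  have hJ : Ideal.span {γ} ≠ ⊥ := by simpa using hγ
  have hPirr : Irreducible P := (Ideal.prime_of_isPrime hP0 hPp).irreducible
  have h𝔯irr : Irreducible 𝔯 := (Ideal.prime_of_isPrime h𝔯 h𝔯p).irreducible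
  have h1 := Ideal.IsDedekindDomain.emultiplicity_map_eq_ramificationIdx'_mul
    (R := 𝓞 K) (S := 𝓞 F) hI h𝔯irr hPirr hP0
  rw [map_span_intNorm γ hinv, emultiplicity_pow (Ideal.prime_of_isPrime hP0 hPp),
    Ideal.IsDedekindDomain.ramificationIdx'_eq_normalizedFactors_count
      (Ideal.map_ne_bot_of_ne_bot h𝔯) hPp hP0,
    emultiplicity_eq_count_normalizedFactors hPirr hJ,
    emultiplicity_eq_count_normalizedFactors h𝔯irr hI, normalize_eq, normalize_eq] at h1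
  exact_mod_cast h1.symm

/-- **GEN1.** At a prime `𝔯` which is unramified at `P`, `[F:K]` divides `v_𝔯(N γ)`. -/
theorem finrank_dvd_count_of_unramified (γ : 𝓞 F) (hγ : γ ≠ 0)
    (hinv : ∀ g : F ≃ₐ[K] F, ∃ u : (𝓞 F)ˣ, g (γ : F) = ((u : 𝓞 F) : F) * (γ : F))
    (𝔯 : Ideal (𝓞 K)) (P : Ideal (𝓞 F)) [𝔯.IsPrime] [P.IsPrime] (h𝔯 : 𝔯 ≠ ⊥) [P.LiesOver 𝔯]
    (he : (normalizedFactors (𝔯.map (algebraMap (𝓞 K) (𝓞 F)))).count P = 1) :
    Module.finrank K F ∣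
      (normalizedFactors (Ideal.span {Algebra.intNorm (𝓞 K) (𝓞 F) γ})).count 𝔯 := by
  have h := count_mul_count γ hγ hinv 𝔯 P h𝔯
  rw [he, one_mul] at h
  exact ⟨_, h⟩

/-- **GEN2.** At a totally ramified prime `𝔯 𝓞_F = P^[F:K]`, `v_𝔯(N γ) = v_P(γ)`. -/
theorem count_eq_count_of_totally_ramified (γ : 𝓞 F) (hγ : γ ≠ 0)
    (hinv : ∀ g : F ≃ₐ[K] F, ∃ u : (𝓞 F)ˣ, g (γ : F) = ((u : 𝓞 F) : F) * (γ : F))
    (𝔯 : Ideal (𝓞 K)) (P : Ideal (𝓞 F)) [𝔯.IsPrime] [hPp : P.IsPrime] (h𝔯 : 𝔯 ≠ ⊥)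
    [P.LiesOver 𝔯]
    (he : 𝔯.map (algebraMap (𝓞 K) (𝓞 F)) = P ^ Module.finrank K F) :
    (normalizedFactors (Ideal.span {Algebra.intNorm (𝓞 K) (𝓞 F) γ})).count 𝔯 =
      (normalizedFactors (Ideal.span {γ})).count P := by
  classical
  have hP0 : P ≠ ⊥ := Ideal.ne_bot_of_liesOver_of_ne_bot h𝔯 P
  have hPirr : Irreducible P := (Ideal.prime_of_isPrime hP0 hPp).irreducible
  have h := count_mul_count γ hγ hinv 𝔯 P h𝔯
  have hn : Module.finrank K F ≠ 0 := Module.finrank_pos.ne'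
  rw [he, normalizedFactors_pow, Multiset.count_nsmul, normalizedFactors_irreducible hPirr,
    normalize_eq, Multiset.count_singleton_self, mul_one] at h
  exact Nat.eq_of_mul_eq_mul_left (Nat.pos_of_ne_zero hn) h

end NormCount

end Fermat.Agent.S14.ThaineGen96
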