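/-
S14 / K2 THAINE (helper33): interface between the two halves of the proof of `ThaineStatement`:
TF (`ExistsBetaStatement`, uses the field `K(ζ_q)`) and TFIN (`ThaineFinStatement`, inside `K`).
No placeholder proofs in this file.
-/
import Mathlib
import Fermat.Agent.S14.CoreIface

set_option autoImplicit false

namespace Fermat.Agent.S14.Thaine

open NumberField nonZeroDivisors Polynomial UniqueFactorizationMonoid

set_option linter.unusedSectionVars false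

variable (p : ℕ) [Fact p.Prime] (K : Type) [Field K] [NumberField K]
  [IsCyclotomicExtension {p} ℚ K]

/-- The "Thaine element" data: `β ≠ 0` in `𝓞 K` and an integer `s` such that
(1) away from `p` and `q`, all prime exponents of `(β)` are divisible by `p`;
(2) at every prime `Q'` above `q`, `(1 - ζ) * s ^ v_{Q'}(β) ≡ 1 mod Q'`. -/
def IsThaineElt (ζ : 𝓞 K) (q : ℕ) (β : 𝓞 K) (s : ℕ) : Prop :=
  β ≠ 0 ∧
  (∀ (𝔮 : Ideal (𝓞 K)) [𝔮.IsPrime], 𝔮 ≠ ⊥ → (p : 𝓞 K) ∉ 𝔮 → (q : 𝓞 K) ∉ 𝔮 →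
      p ∣ Multiset.count 𝔮 (normalizedFactors (Ideal.span {β}))) ∧
  (∀ (Q' : Ideal (𝓞 K)) [Q'.IsPrime], (q : 𝓞 K) ∈ Q' →
      (1 - ζ) * (s : 𝓞 K) ^ (Multiset.count Q' (normalizedFactors (Ideal.span {β}))) - 1 ∈ Q')

/-- TF: existence of the Thaine element (uses `F = K(ζ_q)`, Hilbert 90, ramification). -/
def ExistsBetaStatement : Prop :=
  p ≠ 2 → ∀ (ζ : K) (hζ : IsPrimitiveRoot ζ p) (q : ℕ), q.Prime → q ≠ p → q % p = 1 →
    ∃ (β : 𝓞 K) (s : ℕ), IsThaineElt p K hζ.toInteger q β s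

/-- TFIN: the `K`-internal endgame. -/
def ThaineFinStatement : Prop :=
  p ≠ 2 → ∀ (ζ : K) (hζ : IsPrimitiveRoot ζ p) (k : ℕ) (m : ℕ → ℕ),
    (∀ b ∈ Finset.Ico 1 p, (m b * b ^ k) % p = 1) →
  ∀ (ψ : ClassGroup (𝓞 K) →* ℂˣ), (∀ c, ψ c ^ p = 1) → IsEigenChar K ζ k ψ →
  ∀ (Q : Ideal (𝓞 K)) [Q.IsPrime] (hQ0 : Q ≠ ⊥), (Ideal.absNorm Q).Prime → (p : 𝓞 K) ∉ Q →
  ∀ (β : 𝓞 K) (s : ℕ), IsThaineElt p K hζ.toInteger (Ideal.absNorm Q) β s →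
    ψ (ClassGroup.mk0 (primeNZ Q hQ0)) ≠ 1 →
    IsPowMod p Q (etaRaw p K hζ.toInteger m)

/-- elementary: a degree-one prime of `ℚ(ζ_p)` not above `p` has norm `q ≡ 1 mod p`, `q ≠ p`. -/
def DegOneStatement : Prop :=
  ∀ (Q : Ideal (𝓞 K)) [Q.IsPrime], Q ≠ ⊥ → (Ideal.absNorm Q).Prime → (p : 𝓞 K) ∉ Q →
    Ideal.absNorm Q ≠ p ∧ Ideal.absNorm Q % p = 1

theorem thaine_of_parts (h1 : ExistsBetaStatement p K) (h2 : ThaineFinStatement p K)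
    (h3 : DegOneStatement p K) : ThaineStatement p K := by
  intro hp2 ζ hζ k m hm ψ hψp hψe Q _ hQ0 hQq hpQ hnot
  by_contra hne
  obtain ⟨hqp, hq1⟩ := h3 Q hQ0 hQq hpQ
  obtain ⟨β, s, hβ⟩ := h1 hp2 ζ hζ (Ideal.absNorm Q) hQq hqp hq1
  exact hnot (h2 hp2 ζ hζ k m hm ψ hψp hψe Q hQ0 hQq hpQ β s hβ hne)

end Fermat.Agent.S14.Thaine
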