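/-
S14 / K2 THAINE (helper33): ramification in `F = K(ζ_q)` over `K = ℚ(ζ_p)`.
-/
import Mathlib
import Fermat.Agent.S14.ThaineField

set_option autoImplicit false

namespace Fermat.Agent.S14.Thaine

open NumberField nonZeroDivisors Polynomial Ideal

/-- The rational prime below a nonzero prime of a ring of integers. -/
theorem exists_prime_liesOver {L : Type*} [Field L] [NumberField L] (P : Ideal (𝓞 L))
    [hP : P.IsPrime] (hP0 : P ≠ ⊥) :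
    ∃ ℓ : ℕ, ℓ.Prime ∧ P.LiesOver (span {(ℓ : ℤ)}) := by
  obtain ⟨a, ha⟩ := IsPrincipalIdealRing.principal <| under ℤ P
  have ha0 : a ≠ 0 := fun h ↦ hP0 <|
    eq_bot_of_comap_eq_bot (R := ℤ) <| by simpa only [ha, submodule_span_eq, span_singleton_eq_bot]
  have hprime := (span_singleton_prime ha0).mp
  simp only [← submodule_span_eq, ← ha] at hprime
  have hlies : P.LiesOver (span {a}) := by
    rcases abs_choice a with h | h <;>
    simpa [h, span_singleton_neg a, ← submodule_span_eq, ← ha] using over_under P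
  have hspan : span {(a.natAbs : ℤ)} = span {a} := by
    rcases abs_choice a with h | h <;> simp [h]
  exact ⟨a.natAbs, Int.prime_iff_natAbs_prime.mp (hprime (hP.under _)), hspan ▸ hlies⟩

end Fermat.Agent.S14.Thaine

namespace Fermat.Agent.S14.Thaine

open NumberField nonZeroDivisors Polynomial Ideal

section Ram

variable {p q : ℕ} [hp : Fact p.Prime] [hq : Fact q.Prime]
  (K : Type) [Field K] [NumberField K] [IsCyclotomicExtension {p} ℚ K]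
  (F : Type) [Field F] [NumberField F] [Algebra K F] [IsCyclotomicExtension {q} K F]

theorem natCast_mem_of_liesOver {L : Type*} [Field L] [NumberField L] (P : Ideal (𝓞 L))
    (ℓ : ℕ) [h : P.LiesOver (span {(ℓ : ℤ)})] : (ℓ : 𝓞 L) ∈ P := by
  have h1 : (ℓ : ℤ) ∈ under ℤ P := by
    rw [← h.over]; exact mem_span_singleton_self _
  simpa using h1

theorem ramIdx_unram (hpq : p ≠ q) (𝔔 : Ideal (𝓞 F)) [h𝔔p : 𝔔.IsPrime] (h𝔔 : 𝔔 ≠ ⊥)
    (hp𝔔 : (p : 𝓞 F) ∉ 𝔔) (hq𝔔 : (q : 𝓞 F) ∉ 𝔔) :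
    (𝔔.under (𝓞 K)).ramificationIdx' 𝔔 = 1 := by
  obtain ⟨ℓ, hℓ, hlies⟩ := exists_prime_liesOver 𝔔 h𝔔
  have : Fact ℓ.Prime := ⟨hℓ⟩
  have : NeZero (p * q) := ⟨Nat.mul_ne_zero hp.out.ne_zero hq.out.ne_zero⟩
  have hF := isCyclo_pq K F hpq
  have hmem := natCast_mem_of_liesOver 𝔔 ℓ
  have hndvd : ¬ ℓ ∣ p * q := by
    intro h
    rcases (Nat.Prime.dvd_mul hℓ).mp h with h | h
    · rw [(Nat.prime_dvd_prime_iff_eq hℓ hp.out).mp h] at hmem; exact hp𝔔 hmem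
    · rw [(Nat.prime_dvd_prime_iff_eq hℓ hq.out).mp h] at hmem; exact hq𝔔 hmem
  have h1 : ramificationIdx 𝔔 ℤ = 1 :=
    IsCyclotomicExtension.Rat.ramificationIdx_eq_of_not_dvd ℓ F 𝔔 hndvd
  have h2 : ramificationIdx 𝔔 ℤ =
      ramificationIdx (𝔔.under (𝓞 K)) ℤ * ramificationIdx 𝔔 (𝓞 K) :=
    ramificationIdx_tower (R := ℤ) (S := 𝓞 K) (T := 𝓞 F) (𝔔.under (𝓞 K)) 𝔔
  have h3 : ramificationIdx 𝔔 (𝓞 K) = 1 := by
    rw [h1] at h2
    exact Nat.eq_one_of_mul_eq_one_left h2.symm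
  have h𝔮 : 𝔔.under (𝓞 K) ≠ ⊥ := Ideal.under_ne_bot (𝓞 K) h𝔔
  rw [ramificationIdx'_eq_ramificationIdx (𝔔.under (𝓞 K)) 𝔔 h𝔮, h3]

theorem ramIdx_ram (hpq : p ≠ q) (𝔓 : Ideal (𝓞 F)) [h𝔓p : 𝔓.IsPrime] (hq𝔓 : (q : 𝓞 F) ∈ 𝔓) :
    (𝔓.under (𝓞 K)).ramificationIdx' 𝔓 = q - 1 := by
  have h𝔓 : 𝔓 ≠ ⊥ := by
    rintro rfl
    have : (q : 𝓞 F) = 0 := by simpa using hq𝔓
    exact hq.out.ne_zero (by exact_mod_cast this)
  obtain ⟨ℓ, hℓ, hlies⟩ := exists_prime_liesOver 𝔓 h𝔓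
  have hℓq : ℓ = q := by
    by_contra h
    have hcop : IsCoprime (ℓ : ℤ) (q : ℤ) :=
      Nat.isCoprime_iff_coprime.mpr ((Nat.coprime_primes hℓ hq.out).mpr h)
    obtain ⟨u, v, huv⟩ := hcop
    have hmem := natCast_mem_of_liesOver 𝔓 ℓ
    have h1 : ((u * ℓ + v * q : ℤ) : 𝓞 F) ∈ 𝔓 := by
      push_cast
      exact 𝔓.add_mem (𝔓.mul_mem_left _ hmem) (𝔓.mul_mem_left _ hq𝔓)
    rw [huv] at h1
    exact h𝔓p.ne_top ((Ideal.eq_top_iff_one _).mpr (by simpa using h1))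
  subst hℓq
  have : NeZero (p * ℓ) := ⟨Nat.mul_ne_zero hp.out.ne_zero hq.out.ne_zero⟩
  have : NeZero p := ⟨hp.out.ne_zero⟩
  have hF := isCyclo_pq K F hpq
  have hndvd : ¬ ℓ ∣ p := by
    intro h
    exact hpq ((Nat.prime_dvd_prime_iff_eq hq.out hp.out).mp h).symm
  have h1 : ramificationIdx 𝔓 ℤ = ℓ ^ 0 * (ℓ - 1) :=
    IsCyclotomicExtension.Rat.ramificationIdx_eq (p * ℓ) F 𝔓 (k := 0) (m := p)
      (by ring) hndvd
  have : (𝔓.under (𝓞 K)).LiesOver (span {(ℓ : ℤ)}) := LiesOver.tower_bot 𝔓 _ _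
  have h1' : ramificationIdx (𝔓.under (𝓞 K)) ℤ = 1 :=
    IsCyclotomicExtension.Rat.ramificationIdx_eq_of_not_dvd ℓ K (𝔓.under (𝓞 K)) hndvd
  have h2 : ramificationIdx 𝔓 ℤ =
      ramificationIdx (𝔓.under (𝓞 K)) ℤ * ramificationIdx 𝔓 (𝓞 K) :=
    ramificationIdx_tower (R := ℤ) (S := 𝓞 K) (T := 𝓞 F) (𝔓.under (𝓞 K)) 𝔓
  have h3 : ramificationIdx 𝔓 (𝓞 K) = ℓ - 1 := by
    rw [h1, h1'] at h2
    simpa using h2.symm
  have h𝔮 : 𝔓.under (𝓞 K) ≠ ⊥ := Ideal.under_ne_bot (𝓞 K) h𝔓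
  rw [ramificationIdx'_eq_ramificationIdx (𝔓.under (𝓞 K)) 𝔓 h𝔮, h3]

end Ram

end Fermat.Agent.S14.Thaine

namespace Fermat.Agent.S14.Thaine

open NumberField nonZeroDivisors Polynomial Ideal

section Ram2

variable {p q : ℕ} [hp : Fact p.Prime] [hq : Fact q.Prime]
  (K : Type) [Field K] [NumberField K] [IsCyclotomicExtension {p} ℚ K]
  (F : Type) [Field F] [NumberField F] [Algebra K F] [IsCyclotomicExtension {q} K F]

theorem ne_bot_of_natCast_mem {L : Type*} [Field L] [NumberField L] (P : Ideal (𝓞 L))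
    (hq𝔓 : (q : 𝓞 L) ∈ P) : P ≠ ⊥ := by
  rintro rfl
  have : (q : 𝓞 L) = 0 := by simpa using hq𝔓
  exact hq.out.ne_zero (by exact_mod_cast this)

theorem liesOver_of_natCast_mem {L : Type*} [Field L] [NumberField L] (P : Ideal (𝓞 L))
    [hPp : P.IsPrime] (hqP : (q : 𝓞 L) ∈ P) : P.LiesOver (span {(q : ℤ)}) := by
  have hP : P ≠ ⊥ := ne_bot_of_natCast_mem P hqP
  obtain ⟨ℓ, hℓ, hlies⟩ := exists_prime_liesOver P hP
  have hℓq : ℓ = q := by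
    by_contra h
    have hcop : IsCoprime (ℓ : ℤ) (q : ℤ) :=
      Nat.isCoprime_iff_coprime.mpr ((Nat.coprime_primes hℓ hq.out).mpr h)
    obtain ⟨u, v, huv⟩ := hcop
    have hmem := natCast_mem_of_liesOver P ℓ
    have h1 : ((u * ℓ + v * q : ℤ) : 𝓞 L) ∈ P := by
      push_cast
      exact P.add_mem (P.mul_mem_left _ hmem) (P.mul_mem_left _ hqP)
    rw [huv] at h1
    exact hPp.ne_top ((Ideal.eq_top_iff_one _).mpr (by simpa using h1))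
  exact hℓq ▸ hlies

include K in
theorem emult_natCast (hpq : p ≠ q) (𝔓 : Ideal (𝓞 F)) [h𝔓p : 𝔓.IsPrime] (hq𝔓 : (q : 𝓞 F) ∈ 𝔓) :
    emultiplicity 𝔓 (span {(q : 𝓞 F)}) = ((q - 1 : ℕ) : ℕ∞) := by
  have h𝔓 : 𝔓 ≠ ⊥ := ne_bot_of_natCast_mem 𝔓 hq𝔓
  have hprime : Prime 𝔓 := Ideal.prime_of_isPrime h𝔓 h𝔓p
  have h𝔮 : 𝔓.under (𝓞 K) ≠ ⊥ := Ideal.under_ne_bot (𝓞 K) h𝔓
  have h𝔮p : Prime (𝔓.under (𝓞 K)) := Ideal.prime_of_isPrime h𝔮 inferInstance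
  have hq0 : span {(q : 𝓞 K)} ≠ ⊥ := by
    simp [hq.out.ne_zero]
  have h1 := Ideal.IsDedekindDomain.emultiplicity_map_eq_ramificationIdx'_mul (R := 𝓞 K) (S := 𝓞 F)
    (v := 𝔓.under (𝓞 K)) (w := 𝔓) (I := span {(q : 𝓞 K)}) hq0 h𝔮p.irreducible hprime.irreducible h𝔓
  rw [ramIdx_ram K F hpq 𝔓 hq𝔓, Ideal.map_span, Set.image_singleton, map_natCast] at h1
  rw [h1]
  have h2 : emultiplicity (𝔓.under (𝓞 K)) (span {(q : 𝓞 K)}) = 1 := by
    have hqK : (q : 𝓞 K) ∈ 𝔓.under (𝓞 K) := by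
      rw [Ideal.under_def, Ideal.mem_comap, map_natCast]; exact hq𝔓
    have hl := liesOver_of_natCast_mem (𝔓.under (𝓞 K)) hqK
    have hndvd : ¬ q ∣ p := fun h =>
      hpq ((Nat.prime_dvd_prime_iff_eq hq.out hp.out).mp h).symm
    have : NeZero p := ⟨hp.out.ne_zero⟩
    have h3 : ramificationIdx (𝔓.under (𝓞 K)) ℤ = 1 :=
      IsCyclotomicExtension.Rat.ramificationIdx_eq_of_not_dvd q K (𝔓.under (𝓞 K)) hndvd
    have hqZ : span {(q : ℤ)} ≠ ⊥ := by simp [hq.out.ne_zero]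
    have hqZp : Prime (span {(q : ℤ)}) := by
      rw [Ideal.prime_iff_isPrime hqZ, Ideal.span_singleton_prime (by exact_mod_cast hq.out.ne_zero)]
      exact Nat.prime_iff_prime_int.mp hq.out
    have h4 := Ideal.IsDedekindDomain.emultiplicity_map_eq_ramificationIdx'_mul (R := ℤ) (S := 𝓞 K)
      (v := span {(q : ℤ)}) (w := 𝔓.under (𝓞 K)) (I := span {(q : ℤ)}) hqZ hqZp.irreducible
      h𝔮p.irreducible h𝔮
    rw [ramificationIdx'_eq_ramificationIdx (span {(q : ℤ)}) (𝔓.under (𝓞 K)) hqZ, h3,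
      Ideal.map_span, Set.image_singleton, map_natCast,
      (FiniteMultiplicity.of_prime_left hqZp hqZ).emultiplicity_self] at h4
    simpa using h4
  rw [h2, mul_one]

include K in
theorem emult_zeta_sub_one (hpq : p ≠ q) (𝔓 : Ideal (𝓞 F)) [h𝔓p : 𝔓.IsPrime]
    (hq𝔓 : (q : 𝓞 F) ∈ 𝔓) {ζq : F} (hζq : IsPrimitiveRoot ζq q) :
    emultiplicity 𝔓 (span {hζq.toInteger - 1}) = 1 := by
  have h𝔓 : 𝔓 ≠ ⊥ := ne_bot_of_natCast_mem 𝔓 hq𝔓
  have hprime : Prime 𝔓 := Ideal.prime_of_isPrime h𝔓 h𝔓p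
  have h1 := emult_natCast K F hpq 𝔓 hq𝔓
  have h2 : span {(q : 𝓞 F)} = span {hζq.toInteger - 1} ^ (q - 1) := by
    rw [Ideal.span_singleton_pow]
    exact (Ideal.span_singleton_eq_span_singleton.mpr
      (IsCyclotomicExtension.Rat.associated_zeta_sub_one_pow_prime q hζq)).symm
  rw [h2, emultiplicity_pow hprime] at h1
  have hq1 : 0 < q - 1 := Nat.sub_pos_of_lt hq.out.one_lt
  generalize emultiplicity 𝔓 (span {hζq.toInteger - 1}) = e at h1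
  cases e with
  | top => 
    rw [ENat.mul_top (by exact_mod_cast hq1.ne')] at h1
    exact absurd h1 (ENat.top_ne_natCast _)
  | coe e =>
    have : (q - 1) * e = q - 1 := by exact_mod_cast h1
    have : e = 1 := by
      have h3 : (q - 1) * e = (q - 1) * 1 := by rw [this, mul_one]
      exact Nat.eq_of_mul_eq_mul_left hq1 h3
    rw [this]; rfl

end Ram2

end Fermat.Agent.S14.Thaine
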