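/-
S14 / K2 THAINE (helper33): the tame character at a totally ramified prime, abstractly.
-/
import Mathlib

set_option autoImplicit false

namespace Fermat.Agent.S14.Thaine

/-- In a Dedekind domain `R` with a prime `P ≠ ⊥`, let `τ` be a ring automorphism preserving `P`
and acting trivially on `R / P`, `π ∈ P \ P^2` with `τ π = π * u`, `u ≡ s mod P`.
If `γ` has exact `P`-order `n` and `ε * τ γ = γ`, then `ε * s ^ n ≡ 1 mod P`. -/
theorem tame_char {R : Type*} [CommRing R] [IsDedekindDomain R] (P : Ideal R) [hPp : P.IsPrime]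
    (hP : P ≠ ⊥) (τ : R ≃+* R) (hτP : ∀ x ∈ P, τ x ∈ P) (π u : R) (s : ℕ)
    (hπ : π ∈ P) (hπ2 : π ∉ P ^ 2) (hτπ : τ π = π * u) (hu : u - (s : R) ∈ P)
    (hτ : ∀ x, τ x - x ∈ P) (ε γ : R) (n : ℕ) (hγ : γ ∈ P ^ n) (hγ' : γ ∉ P ^ (n + 1))
    (h90 : ε * τ γ = γ) : 1 - ε * (s : R) ^ n ∈ P := by
  -- `π ^ n ∈ P ^ n \ P ^ (n+1)`
  have hπn : π ^ n ∈ P ^ n := Ideal.pow_mem_pow hπ n
  have hπn' : π ^ n ∉ P ^ (n + 1) := by
    intro h
    have hprime : Prime P := Ideal.prime_of_isPrime hP hPp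
    have h1 : emultiplicity P (Ideal.span {π}) = 1 := by
      have : emultiplicity P (Ideal.span {π}) = ((1 : ℕ) : ℕ∞) := by
        rw [emultiplicity_eq_coe]
        refine ⟨?_, ?_⟩
        · rw [pow_one, Ideal.dvd_span_singleton]; exact hπ
        · rw [Ideal.dvd_span_singleton]; exact hπ2
      simpa using this
    have h2 : emultiplicity P (Ideal.span {π ^ n}) = n := by
      rw [← Ideal.span_singleton_pow, emultiplicity_pow hprime, h1, mul_one]
    have h3 : P ^ (n + 1) ∣ Ideal.span {π ^ n} := by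
      rw [Ideal.dvd_span_singleton]; exact h
    have h4 := le_emultiplicity_of_pow_dvd h3
    rw [h2] at h4
    exact absurd (by exact_mod_cast h4 : n + 1 ≤ n) (by omega)
  have hτPk : ∀ k : ℕ, ∀ x ∈ P ^ k, τ x ∈ P ^ k := by
    intro k x hx
    have : (P ^ k).map (τ : R →+* R) ≤ P ^ k := by
      rw [Ideal.map_pow]
      exact Ideal.pow_right_mono (Ideal.map_le_iff_le_comap.mpr fun y hy => hτP y hy) k
    exact this (Ideal.mem_map_of_mem _ hx)
  obtain ⟨d, e, he, hde⟩ := Ideal.exists_mul_add_mem_pow_succ hP (π ^ n) γ hπn hπn' hγ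
  -- `τ γ ≡ s ^ n * γ mod P ^ (n+1)`
  have key : τ γ - (s : R) ^ n * γ ∈ P ^ (n + 1) := by
    have h1 : τ γ = π ^ n * (u ^ n * τ d) + τ e := by
      rw [← hde, map_add, map_mul, map_pow, hτπ, mul_pow]; ring
    have h2 : u ^ n * τ d - (s : R) ^ n * d ∈ P := by
      have h3 : u ^ n - (s : R) ^ n ∈ P := by
        have := sub_dvd_pow_sub_pow u (s : R) n
        exact Ideal.mem_of_dvd _ this hu
      have : u ^ n * τ d - (s : R) ^ n * d = (u ^ n - (s : R) ^ n) * τ d + (s : R) ^ n * (τ d - d) := by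
        ring
      rw [this]
      exact P.add_mem (P.mul_mem_right _ h3) (P.mul_mem_left _ (hτ d))
    have h4 : π ^ n * (u ^ n * τ d - (s : R) ^ n * d) ∈ P ^ (n + 1) := by
      rw [pow_succ]
      exact Ideal.mul_mem_mul hπn h2
    have : τ γ - (s : R) ^ n * γ =
        π ^ n * (u ^ n * τ d - (s : R) ^ n * d) + (τ e - (s : R) ^ n * e) := by
      rw [h1, ← hde]; ring
    rw [this]
    exact (P ^ (n + 1)).add_mem h4
      ((P ^ (n + 1)).sub_mem (hτPk _ e he) ((P ^ (n + 1)).mul_mem_left _ he))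
  -- conclude
  have h5 : γ * (1 - ε * (s : R) ^ n) ∈ P ^ (n + 1) := by
    have : γ * (1 - ε * (s : R) ^ n) = ε * (τ γ - (s : R) ^ n * γ) := by
      linear_combination (-1 : R) * h90
    rw [this]
    exact (P ^ (n + 1)).mul_mem_left _ key
  exact Ideal.mem_prime_of_mul_mem_pow hP hγ' h5

end Fermat.Agent.S14.Thaine
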