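/-
S14 / K2 THAINE (helper33): TF = existence of the Thaine element `β = N_{F/K}(γ)`.
-/
import Mathlib
import Fermat.Agent.S14.ThaineIface
import Fermat.Agent.S14.ThaineField
import Fermat.Agent.S14.ThaineRam
import Fermat.Agent.S14.ThaineTame
import Fermat.Agent.S14.ThaineAux76
import Fermat.Agent.S14.ThaineAux87
import Fermat.Agent.S14.ThaineGen96

set_option autoImplicit false

namespace Fermat.Agent.S14.Thaine

open NumberField nonZeroDivisors Polynomial Ideal UniqueFactorizationMonoid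

section Beta

variable {p q : ℕ} [hp : Fact p.Prime] [hq : Fact q.Prime]
  (K : Type) [Field K] [NumberField K] [IsCyclotomicExtension {p} ℚ K]
  (F : Type) [Field F] [NumberField F] [Algebra K F] [IsCyclotomicExtension {q} K F]

/-- A generator `τ` of `Gal(F/K)` with `τ ζ_q = ζ_q ^ s`. -/
theorem exists_generator (hpq : p ≠ q) :
    ∃ (τ : F ≃ₐ[K] F) (s : ℕ), (∀ x : F ≃ₐ[K] F, x ∈ Subgroup.zpowers τ) ∧
      τ (IsCyclotomicExtension.zeta q K F) = IsCyclotomicExtension.zeta q K F ^ s := by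
  have : NeZero q := ⟨hq.out.ne_zero⟩
  have hirr := irreducible_cyclotomic K F hpq
  let e := IsCyclotomicExtension.autEquivPow F hirr
  obtain ⟨g, hg⟩ := IsCyclic.exists_generator (α := (ZMod q)ˣ)
  refine ⟨e.symm g, (g : ZMod q).val, ?_, ?_⟩
  · intro x
    have hx := hg (e x)
    rw [Subgroup.mem_zpowers_iff] at hx ⊢
    obtain ⟨k, hk⟩ := hx
    refine ⟨k, ?_⟩
    apply e.injective
    rw [map_zpow, MulEquiv.apply_symm_apply, hk]
  · have h1 := (IsCyclotomicExtension.zeta_spec q K F).autToPow_spec K (e.symm g)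
    have h2 : (IsCyclotomicExtension.zeta_spec q K F).autToPow K (e.symm g) = g := by
      have := e.apply_symm_apply g
      simpa [e] using this
    rw [h2] at h1
    exact h1.symm

/-- Hilbert 90 for the Thaine unit: `ε * τ γ = γ` with `γ ≠ 0` in `𝓞 F`. -/
theorem exists_gamma (hpq : p ≠ q) (hq1 : q % p = 1) {ζ : K} (hζ : IsPrimitiveRoot ζ p)
    {ζq : F} (hζq : IsPrimitiveRoot ζq q) (τ : F ≃ₐ[K] F)
    (hτ : ∀ x : F ≃ₐ[K] F, x ∈ Subgroup.zpowers τ) (ε : 𝓞 F)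
    (hε : (ε : F) = 1 - algebraMap K F ζ * ζq) :
    ∃ γ : 𝓞 F, γ ≠ 0 ∧ ε * galRestrict (𝓞 K) K F (𝓞 F) τ γ = γ := by
  have : IsGalois K F := IsCyclotomicExtension.isGalois {q} K F
  have : FiniteDimensional K F := IsCyclotomicExtension.finiteDimensional {q} K F
  have : IsCyclic (F ≃ₐ[K] F) := ⟨τ, hτ⟩
  have hnorm : Algebra.norm K (algebraMap (𝓞 F) F ε) = 1 := by
    rw [show algebraMap (𝓞 F) F ε = (ε : F) from rfl, hε]
    exact ThaineAux87.norm_one_sub_mul K F hpq hq1 hζ hζq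
  exact groupCohomology.exists_mul_galRestrict_of_norm_eq_one (A := 𝓞 K) (B := 𝓞 F) hτ hnorm

omit [IsCyclotomicExtension {p} ℚ K] hp hq [IsCyclotomicExtension {q} K F] in
/-- Every Galois conjugate of `γ` is a unit multiple of `γ`. -/
theorem conj_eq_unit_mul [FiniteDimensional K F] (τ : F ≃ₐ[K] F)
    (hτ : ∀ x : F ≃ₐ[K] F, x ∈ Subgroup.zpowers τ)
    (ε γ : 𝓞 F) (hεu : IsUnit ε) (h90 : ε * galRestrict (𝓞 K) K F (𝓞 F) τ γ = γ)
    (g : F ≃ₐ[K] F) : ∃ u : (𝓞 F)ˣ, g (γ : F) = ((u : 𝓞 F) : F) * (γ : F) := by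
  set R := galRestrict (𝓞 K) K F (𝓞 F) with hR
  obtain ⟨εu, rfl⟩ := hεu
  have hτγ : R τ γ = ((εu⁻¹ : (𝓞 F)ˣ) : 𝓞 F) * γ := by
    calc R τ γ = ((εu⁻¹ : (𝓞 F)ˣ) : 𝓞 F) * ((εu : 𝓞 F) * R τ γ) := by
          rw [← mul_assoc, Units.inv_mul, one_mul]
      _ = ((εu⁻¹ : (𝓞 F)ˣ) : 𝓞 F) * γ := by rw [h90]
  have key : ∀ n : ℕ, ∃ u : (𝓞 F)ˣ, R (τ ^ n) γ = (u : 𝓞 F) * γ := by
    intro n
    induction n with
    | zero => exact ⟨1, by simp⟩
    | succ n ih =>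
      obtain ⟨u, hu⟩ := ih
      refine ⟨Units.map ((R (τ ^ n)).toRingEquiv.toRingHom.toMonoidHom) εu⁻¹ * u, ?_⟩
      rw [pow_succ, map_mul, AlgEquiv.mul_apply, hτγ, map_mul, hu]
      simp [mul_assoc]
  have hg := hτ g
  rw [← mem_powers_iff_mem_zpowers, Submonoid.mem_powers_iff] at hg
  obtain ⟨n, rfl⟩ := hg
  obtain ⟨u, hu⟩ := key n
  refine ⟨u, ?_⟩
  have := congrArg (algebraMap (𝓞 F) F) hu
  rw [hR, algebraMap_galRestrict_apply, map_mul] at this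
  exact this

include F in
theorem exists_beta_of_field (hpq : p ≠ q) (hq1 : q % p = 1) {ζ : K} (hζ : IsPrimitiveRoot ζ p) :
    ∃ (β : 𝓞 K) (s : ℕ), IsThaineElt p K hζ.toInteger q β s := by
  have : NeZero q := ⟨hq.out.ne_zero⟩
  have hGal : IsGalois K F := IsCyclotomicExtension.isGalois {q} K F
  have hfd : FiniteDimensional K F := IsCyclotomicExtension.finiteDimensional {q} K F
  obtain ⟨τ, s, hτgen, hτζ⟩ := exists_generator K F hpq
  set ζq := IsCyclotomicExtension.zeta q K F with hζqdef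
  have hζq : IsPrimitiveRoot ζq q := IsCyclotomicExtension.zeta_spec q K F
  -- the Thaine unit
  set ζF : 𝓞 F := algebraMap (𝓞 K) (𝓞 F) hζ.toInteger with hζFdef
  set ε : 𝓞 F := 1 - ζF * hζq.toInteger with hεdef
  have hζFcoe : (ζF : F) = algebraMap K F ζ :=
    (IsScalarTower.algebraMap_apply (𝓞 K) (𝓞 F) F hζ.toInteger).symm.trans
      (IsScalarTower.algebraMap_apply (𝓞 K) K F hζ.toInteger)
  have hε : (ε : F) = 1 - algebraMap K F ζ * ζq := by
    rw [hεdef, ← hζFcoe]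
    simp
  have hεu : IsUnit ε := ThaineAux87.isUnit_one_sub_mul K F hpq hq1 hζ hζq ε hε
  obtain ⟨γ, hγ0, h90⟩ := exists_gamma K F hpq hq1 hζ hζq τ hτgen ε hε
  have hinv := conj_eq_unit_mul K F τ hτgen ε γ hεu h90
  have hpdvd : p ∣ q - 1 := by
    have := Nat.div_add_mod q p
    rw [hq1] at this
    exact ⟨q / p, by omega⟩
  refine ⟨Algebra.intNorm (𝓞 K) (𝓞 F) γ, s, ?_, ?_, ?_⟩
  · exact Algebra.intNorm_ne_zero.mpr hγ0
  · -- primes not above `p`, `q`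
    intro 𝔮 _ h𝔮0 hp𝔮 hq𝔮
    have h𝔮max : 𝔮.IsMaximal := Ideal.IsPrime.isMaximal inferInstance h𝔮0
    obtain ⟨𝔔, h𝔔max, h𝔔lies⟩ := exists_maximal_ideal_liesOver_of_isIntegral 𝔮 (S := 𝓞 F)
    have h𝔔p : 𝔔.IsPrime := h𝔔max.isPrime
    have h𝔔0 : 𝔔 ≠ ⊥ := Ideal.ne_bot_of_liesOver_of_ne_bot h𝔮0 𝔔
    have hunder : 𝔔.under (𝓞 K) = 𝔮 := (h𝔔lies.over).symm
    have hmem : ∀ n : ℕ, (n : 𝓞 F) ∈ 𝔔 → (n : 𝓞 K) ∈ 𝔮 := by
      intro n hn
      rw [← hunder, Ideal.under_def, Ideal.mem_comap, map_natCast]; exact hn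
    have he' := ramIdx_unram K F hpq 𝔔 h𝔔0 (fun h => hp𝔮 (hmem p h)) (fun h => hq𝔮 (hmem q h))
    rw [hunder] at he'
    have hmap0 : 𝔮.map (algebraMap (𝓞 K) (𝓞 F)) ≠ ⊥ := Ideal.map_ne_bot_of_ne_bot h𝔮0
    have he : (normalizedFactors (𝔮.map (algebraMap (𝓞 K) (𝓞 F)))).count 𝔔 = 1 := by
      rw [← Ideal.IsDedekindDomain.ramificationIdx'_eq_normalizedFactors_count hmap0 h𝔔p h𝔔0, he']
    have h1 := ThaineGen96.finrank_dvd_count_of_unramified γ hγ0 hinv 𝔮 𝔔 h𝔮0 he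
    rw [finrank_KF K F hpq] at h1
    exact dvd_trans hpdvd h1
  · -- primes above `q`
    intro Q' _ hqQ'
    have hQ'0 : Q' ≠ ⊥ := ne_bot_of_natCast_mem Q' hqQ'
    have hQ'max : Q'.IsMaximal := Ideal.IsPrime.isMaximal inferInstance hQ'0
    obtain ⟨𝔓, h𝔓max, h𝔓lies⟩ := exists_maximal_ideal_liesOver_of_isIntegral Q' (S := 𝓞 F)
    have h𝔓p : 𝔓.IsPrime := h𝔓max.isPrime
    have h𝔓0 : 𝔓 ≠ ⊥ := Ideal.ne_bot_of_liesOver_of_ne_bot hQ'0 𝔓
    have hunder : 𝔓.under (𝓞 K) = Q' := (h𝔓lies.over).symm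
    have hq𝔓 : (q : 𝓞 F) ∈ 𝔓 := by
      have : algebraMap (𝓞 K) (𝓞 F) (q : 𝓞 K) ∈ 𝔓 := by
        rw [← Ideal.mem_comap, ← Ideal.under_def, hunder]; exact hqQ'
      simpa using this
    -- `e = q - 1`
    have he' := ramIdx_ram K F hpq 𝔓 hq𝔓
    rw [hunder] at he'
    have hmap0 : Q'.map (algebraMap (𝓞 K) (𝓞 F)) ≠ ⊥ := Ideal.map_ne_bot_of_ne_bot hQ'0
    have he : (normalizedFactors (Q'.map (algebraMap (𝓞 K) (𝓞 F)))).count 𝔓 = q - 1 := by
      rw [← Ideal.IsDedekindDomain.ramificationIdx'_eq_normalizedFactors_count hmap0 h𝔓p h𝔓0, he']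
    have hcm := ThaineGen96.count_mul_count γ hγ0 hinv Q' 𝔓 hQ'0
    rw [he, finrank_KF K F hpq] at hcm
    have hq1' : 0 < q - 1 := Nat.sub_pos_of_lt hq.out.one_lt
    have hcount := Nat.eq_of_mul_eq_mul_left hq1' hcm
    rw [hcount]
    set n := (normalizedFactors (Ideal.span {γ})).count 𝔓 with hn
    have h𝔓prime : Prime 𝔓 := Ideal.prime_of_isPrime h𝔓0 h𝔓p
    have hγspan : Ideal.span {γ} ≠ ⊥ := by simpa using hγ0
    have hemult : emultiplicity 𝔓 (Ideal.span {γ}) = n := by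
      rw [emultiplicity_eq_count_normalizedFactors h𝔓prime.irreducible hγspan, normalize_eq]
    have hγn : γ ∈ 𝔓 ^ n := by
      rw [← Ideal.dvd_span_singleton]
      exact pow_dvd_of_le_emultiplicity (le_of_eq hemult.symm)
    have hγn' : γ ∉ 𝔓 ^ (n + 1) := by
      rw [← Ideal.dvd_span_singleton, ← emultiplicity_lt_iff_not_dvd, hemult]
      exact_mod_cast Nat.lt_succ_self n
    -- the uniformiser `π = ζ_q - 1`
    set ζqi : 𝓞 F := hζq.toInteger with hζqi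
    set π : 𝓞 F := ζqi - 1 with hπdef
    have hπe := emult_zeta_sub_one K F hpq 𝔓 hq𝔓 hζq
    have hπ : π ∈ 𝔓 := by
      have : 𝔓 ^ 1 ∣ Ideal.span {π} := pow_dvd_of_le_emultiplicity (by rw [hπe]; rfl)
      rw [pow_one, Ideal.dvd_span_singleton] at this
      exact this
    have hπ2 : π ∉ 𝔓 ^ 2 := by
      rw [← Ideal.dvd_span_singleton, ← emultiplicity_lt_iff_not_dvd, hπe]
      exact_mod_cast (by norm_num : (1 : ℕ) < 2)
    -- the automorphism
    set T : 𝓞 F ≃+* 𝓞 F := (galRestrict (𝓞 K) K F (𝓞 F) τ).toRingEquiv with hTdef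
    have hTapp : ∀ x, T x = galRestrict (𝓞 K) K F (𝓞 F) τ x := fun x => rfl
    have hspanle : Ideal.span {1 - ζqi} ≤ 𝔓 := by
      rw [Ideal.span_le, Set.singleton_subset_iff]
      have : 1 - ζqi = -π := by rw [hπdef]; ring
      rw [this]
      exact 𝔓.neg_mem hπ
    have hT : ∀ x, T x - x ∈ 𝔓 := fun x =>
      hspanle (ThaineAux76.galRestrict_sub_mem_span K F hpq hζ hζq τ x)
    have hTP : ∀ x ∈ 𝔓, T x ∈ 𝔓 := by
      intro x hx
      have : T x = (T x - x) + x := by ring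
      rw [this]
      exact 𝔓.add_mem (hT x) hx
    have hTζ : T ζqi = ζqi ^ s := by
      apply RingOfIntegers.ext
      have h1 : ((galRestrict (𝓞 K) K F (𝓞 F) τ ζqi : 𝓞 F) : F) = τ (ζqi : F) :=
        algebraMap_galRestrict_apply (𝓞 K) τ ζqi
      rw [hTapp, h1]
      have h2 : (ζqi : F) = ζq := hζq.coe_toInteger
      rw [h2, hτζ]
      simp [h2]
    set u : 𝓞 F := ∑ i ∈ Finset.range s, ζqi ^ i with hudef
    have hTπ : T π = π * u := by
      rw [hπdef, map_sub, map_one, hTζ, hudef, mul_geom_sum]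
    have hu : u - (s : 𝓞 F) ∈ 𝔓 := by
      have : u - (s : 𝓞 F) = ∑ i ∈ Finset.range s, (ζqi ^ i - 1) := by
        rw [Finset.sum_sub_distrib, Finset.sum_const, Finset.card_range, nsmul_eq_mul, mul_one]
      rw [this]
      refine Ideal.sum_mem _ fun i _ => ?_
      have hdvd : ζqi - 1 ∣ ζqi ^ i - 1 := by simpa using sub_dvd_pow_sub_pow ζqi 1 i
      exact Ideal.mem_of_dvd _ hdvd hπ
    have hT90 : ε * T γ = γ := h90
    have key := tame_char 𝔓 h𝔓0 T hTP π u s hπ hπ2 hTπ hu hT ε γ n hγn hγn' hT90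
    -- transfer to `Q'`
    rw [← hunder, Ideal.under_def, Ideal.mem_comap]
    have hmapeq : algebraMap (𝓞 K) (𝓞 F)
        ((1 - hζ.toInteger) * (s : 𝓞 K) ^ n - 1) = (1 - ζF) * (s : 𝓞 F) ^ n - 1 := by
      simp [hζFdef]
    rw [hmapeq]
    have : (1 - ζF) * (s : 𝓞 F) ^ n - 1 = -(1 - ε * (s : 𝓞 F) ^ n) + ζF * (s : 𝓞 F) ^ n * π := by
      rw [hεdef, hπdef]; ring
    rw [this]
    exact 𝔓.add_mem (𝔓.neg_mem key) (𝔓.mul_mem_left _ hπ)

end Beta

/-- **TF.** Existence of the Thaine element. -/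
theorem existsBeta (p : ℕ) [Fact p.Prime] (K : Type) [Field K] [NumberField K]
    [IsCyclotomicExtension {p} ℚ K] : ExistsBetaStatement p K := by
  intro _ ζ hζ q hq hqp hq1
  haveI : Fact q.Prime := ⟨hq⟩
  exact exists_beta_of_field K (CyclotomicField q K) hqp.symm hq1 hζ

end Fermat.Agent.S14.Thaine
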