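/-
S14 / K2 THAINE, package TFIN (helper21): the `K`-internal endgame of Thaine's relation,
`thaineFin : ThaineFinStatement p K`, and `degOne : DegOneStatement p K`.
-/
import Mathlib
import Fermat.Agent.S14.ThaineIface
import Fermat.Agent.S14.ThaineGen96

set_option autoImplicit false

namespace Fermat.Agent.S14.ThaineFin21

open NumberField nonZeroDivisors Polynomial UniqueFactorizationMonoid
open scoped Pointwise

set_option linter.unusedSectionVars false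

variable (p : ℕ) [Fact p.Prime] (K : Type) [Field K] [NumberField K]
  [IsCyclotomicExtension {p} ℚ K]

/-! ### Automorphisms of `ℚ(ζ_p)` -/

theorem exists_aut_pow (ζ : K) (hζ : IsPrimitiveRoot ζ p) (b : ℕ) (hb : b.Coprime p) :
    ∃ σ : K ≃ₐ[ℚ] K, σ ζ = ζ ^ b := by
  have : NeZero p := ⟨(Fact.out : p.Prime).ne_zero⟩
  have hirr : Irreducible (cyclotomic p ℚ) := cyclotomic.irreducible_rat (Fact.out : p.Prime).pos
  have hζb := hζ.pow_of_coprime b hb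
  have hmin : minpoly ℚ (hζ.powerBasis ℚ).gen = minpoly ℚ (hζb.powerBasis ℚ).gen := by
    simp only [IsPrimitiveRoot.powerBasis_gen]
    exact (hζ.minpoly_eq_cyclotomic_of_irreducible hirr).symm.trans
      (hζb.minpoly_eq_cyclotomic_of_irreducible hirr)
  refine ⟨(hζ.powerBasis ℚ).equivOfMinpoly (hζb.powerBasis ℚ) hmin, ?_⟩
  have := (hζ.powerBasis ℚ).equivOfMinpoly_gen (hζb.powerBasis ℚ) hmin
  simpa using this

theorem exists_pow_of_aut (ζ : K) (hζ : IsPrimitiveRoot ζ p) (σ : K ≃ₐ[ℚ] K) :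
    ∃ b ∈ Finset.Ico 1 p, σ ζ = ζ ^ b := by
  have h1 : (σ ζ) ^ p = 1 := by rw [← map_pow, hζ.pow_eq_one, map_one]
  obtain ⟨i, hi, hi'⟩ := hζ.eq_pow_of_pow_eq_one h1
  refine ⟨i, ?_, hi'.symm⟩
  rw [Finset.mem_Ico]
  refine ⟨?_, hi⟩
  by_contra h0
  have hi0 : i = 0 := by omega
  subst hi0
  rw [pow_zero] at hi'
  have : ζ = 1 := σ.injective (by rw [← hi', map_one])
  exact hζ.ne_one (Fact.out : p.Prime).one_lt this

theorem aut_ext (ζ : K) (hζ : IsPrimitiveRoot ζ p) (σ τ : K ≃ₐ[ℚ] K) (h : σ ζ = τ ζ) :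
    σ = τ := by
  have : NeZero p := ⟨(Fact.out : p.Prime).ne_zero⟩
  apply AlgEquiv.coe_toAlgHom_injective
  apply (hζ.powerBasis ℚ).algHom_ext
  simpa using h

/-! ### Degree-one primes -/

theorem exists_int_sub_mem (Q : Ideal (𝓞 K)) (hq : (Ideal.absNorm Q).Prime) (x : 𝓞 K) :
    ∃ n : ℤ, x - (n : 𝓞 K) ∈ Q := by
  have hcard : Nat.card (𝓞 K ⧸ Q) = Ideal.absNorm Q := by
    rw [Ideal.absNorm_apply, Submodule.cardQuot_apply]
  have : Fact (Ideal.absNorm Q).Prime := ⟨hq⟩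
  have h1 : (1 : 𝓞 K ⧸ Q) ≠ 0 := by
    intro h
    have hQ : Q = ⊤ := by
      rw [Ideal.eq_top_iff_one]
      exact Ideal.Quotient.eq_zero_iff_mem.mp h
    rw [← Ideal.absNorm_eq_one_iff] at hQ
    rw [hQ] at hq
    exact Nat.not_prime_one hq
  have h2 : Ideal.Quotient.mk Q x ∈ AddSubgroup.zmultiples (1 : 𝓞 K ⧸ Q) :=
    mem_zmultiples_of_prime_card hcard h1
  obtain ⟨n, hn⟩ := AddSubgroup.mem_zmultiples_iff.mp h2
  refine ⟨n, ?_⟩
  rw [← Ideal.Quotient.eq_zero_iff_mem, map_sub, ← hn]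
  simp

/-! ### Conjugate primes -/

theorem galRing_toInteger (ζ : K) (hζ : IsPrimitiveRoot ζ p) (σ : K ≃ₐ[ℚ] K) (b : ℕ)
    (h : σ ζ = ζ ^ b) : galRing K σ hζ.toInteger = hζ.toInteger ^ b := by
  apply RingOfIntegers.ext
  rw [galRing_apply]
  simp only [map_pow]
  exact h

theorem one_sub_pow_not_mem (ζ : K) (hζ : IsPrimitiveRoot ζ p) (Q : Ideal (𝓞 K))
    (hpQ : (p : 𝓞 K) ∉ Q) (b : ℕ) (hb : b ∈ Finset.Ico 1 p) :
    1 - hζ.toInteger ^ b ∉ Q := by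
  intro hmem
  rw [Finset.mem_Ico] at hb
  have hprim := hζ.toInteger_isPrimitiveRoot
  have hne : hζ.toInteger ^ b ≠ 1 := hprim.pow_ne_one_of_pos_of_lt (by omega) hb.2
  have hpow : (hζ.toInteger ^ b) ^ p = 1 := by
    rw [← pow_mul, mul_comm, pow_mul, hprim.pow_eq_one, one_pow]
  have hdvd := sub_one_dvd_natCast_of_pow_eq_one hpow hne
  apply hpQ
  refine Q.mem_of_dvd hdvd ?_
  have : hζ.toInteger ^ b - 1 = -(1 - hζ.toInteger ^ b) := by ring
  rw [this]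
  exact Q.neg_mem hmem

/-- A degree-one prime `Q ∤ p` has trivial decomposition group. -/
theorem eq_one_of_stab (ζ : K) (hζ : IsPrimitiveRoot ζ p) (Q : Ideal (𝓞 K)) [Q.IsPrime]
    (hq : (Ideal.absNorm Q).Prime) (hpQ : (p : 𝓞 K) ∉ Q) (σ : K ≃ₐ[ℚ] K)
    (hσ : ∀ x ∈ Q, galRing K σ x ∈ Q) (b : ℕ) (hb : b ∈ Finset.Ico 1 p)
    (hσζ : σ ζ = ζ ^ b) : b = 1 := by
  by_contra hb1
  have hb' := Finset.mem_Ico.mp hb
  obtain ⟨n, hn⟩ := exists_int_sub_mem K Q hq hζ.toInteger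
  have h1 := hσ _ hn
  rw [map_sub, map_intCast, galRing_toInteger p K ζ hζ σ b hσζ] at h1
  have h2 : hζ.toInteger * (hζ.toInteger ^ (b - 1) - 1) ∈ Q := by
    have : hζ.toInteger * (hζ.toInteger ^ (b - 1) - 1) =
        (hζ.toInteger ^ b - (n : 𝓞 K)) - (hζ.toInteger - (n : 𝓞 K)) := by
      have hb2 : b = (b - 1) + 1 := by omega
      conv_rhs => rw [hb2, pow_succ]
      ring
    rw [this]
    exact Q.sub_mem h1 hn
  rcases Ideal.IsPrime.mem_or_mem inferInstance h2 with h3 | h3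
  · have h4 : hζ.toInteger ^ p ∈ Q := Q.pow_mem_of_mem h3 p (Fact.out : p.Prime).pos
    rw [hζ.toInteger_isPrimitiveRoot.pow_eq_one] at h4
    exact Ideal.IsPrime.ne_top inferInstance ((Ideal.eq_top_iff_one Q).mpr h4)
  · have hmem : (b - 1) ∈ Finset.Ico 1 p := by
      rw [Finset.mem_Ico]; omega
    apply one_sub_pow_not_mem p K ζ hζ Q hpQ (b - 1) hmem
    have : 1 - hζ.toInteger ^ (b - 1) = -(hζ.toInteger ^ (b - 1) - 1) := by ring
    rw [this]
    exact Q.neg_mem h3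

theorem smul_eq_galRing (σ : K ≃ₐ[ℚ] K) (x : 𝓞 K) : σ • x = galRing K σ x := by
  apply RingOfIntegers.ext
  rw [galRing_apply]
  rfl

include p in
/-- Every prime containing `q = N(Q)` is a conjugate of `Q`. -/
theorem exists_comap_eq (Q : Ideal (𝓞 K)) [Q.IsPrime] (hq : (Ideal.absNorm Q).Prime)
    (Q' : Ideal (𝓞 K)) [Q'.IsPrime] (hQ' : ((Ideal.absNorm Q : ℕ) : 𝓞 K) ∈ Q') :
    ∃ σ : K ≃ₐ[ℚ] K, Q' = Ideal.comap (galRing K σ) Q := by
  have : IsGalois ℚ K := IsCyclotomicExtension.isGalois {p} ℚ K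
  have hqi : Prime ((Ideal.absNorm Q : ℕ) : ℤ) := Nat.prime_iff_prime_int.mp hq
  have h1 : Q.LiesOver (Ideal.span {((Ideal.absNorm Q : ℕ) : ℤ)}) :=
    (Ideal.liesOver_span_iff (Ideal.IsPrime.ne_top inferInstance) hqi).mpr
      (by simpa using Ideal.absNorm_mem Q)
  have h2 : Q'.LiesOver (Ideal.span {((Ideal.absNorm Q : ℕ) : ℤ)}) :=
    (Ideal.liesOver_span_iff (Ideal.IsPrime.ne_top inferInstance) hqi).mpr
      (by simpa using hQ')
  obtain ⟨σ, hσ⟩ := Ideal.exists_smul_eq_of_isGaloisGroup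
    (Ideal.span {((Ideal.absNorm Q : ℕ) : ℤ)}) Q Q' (K ≃ₐ[ℚ] K)
  refine ⟨σ⁻¹, ?_⟩
  ext x
  rw [← hσ, Ideal.mem_comap, Ideal.mem_pointwise_smul_iff_inv_smul_mem, smul_eq_galRing]

theorem galRing_mul_apply (σ τ : K ≃ₐ[ℚ] K) (x : 𝓞 K) :
    galRing K (σ * τ) x = galRing K σ (galRing K τ x) := by
  apply RingOfIntegers.ext
  rw [galRing_apply, galRing_apply, galRing_apply, AlgEquiv.mul_apply]

theorem galRing_apply_inv_apply (σ : K ≃ₐ[ℚ] K) (x : 𝓞 K) :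
    galRing K σ (galRing K σ⁻¹ x) = x := by
  rw [← galRing_mul_apply, mul_inv_cancel]
  apply RingOfIntegers.ext
  rw [galRing_apply, AlgEquiv.one_apply]

/-- A degree-one prime `Q ∤ p` has trivial decomposition group (automorphism form). -/
theorem eq_one_of_stab' (ζ : K) (hζ : IsPrimitiveRoot ζ p) (Q : Ideal (𝓞 K)) [Q.IsPrime]
    (hq : (Ideal.absNorm Q).Prime) (hpQ : (p : 𝓞 K) ∉ Q) (σ : K ≃ₐ[ℚ] K)
    (hσ : ∀ x ∈ Q, galRing K σ x ∈ Q) : σ = 1 := by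
  obtain ⟨b, hb, hσb⟩ := exists_pow_of_aut p K ζ hζ σ
  have hb1 := eq_one_of_stab p K ζ hζ Q hq hpQ σ hσ b hb hσb
  subst hb1
  apply aut_ext p K ζ hζ
  rw [hσb, pow_one, AlgEquiv.one_apply]

theorem comap_injective (ζ : K) (hζ : IsPrimitiveRoot ζ p) (Q : Ideal (𝓞 K)) [Q.IsPrime]
    (hq : (Ideal.absNorm Q).Prime) (hpQ : (p : 𝓞 K) ∉ Q) (σ σ' : K ≃ₐ[ℚ] K)
    (h : Ideal.comap (galRing K σ) Q = Ideal.comap (galRing K σ') Q) : σ = σ' := by
  have h1 : σ' * σ⁻¹ = 1 := by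
    apply eq_one_of_stab' p K ζ hζ Q hq hpQ
    intro x hx
    rw [galRing_mul_apply]
    have hy : galRing K σ⁻¹ x ∈ Ideal.comap (galRing K σ) Q := by
      rw [Ideal.mem_comap, galRing_apply_inv_apply]
      exact hx
    rw [h, Ideal.mem_comap] at hy
    exact hy
  exact (mul_inv_eq_one.mp h1).symm

/-! ### The main statement -/

open Fermat.Agent.S14.ThaineGen96 in
theorem thaineFin : Thaine.ThaineFinStatement p K := by
  intro hp2 ζ hζ k m hm ψ hψp hψe Q _ hQ0 hQq hpQ β s hβ hψQ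
  classical
  obtain ⟨hβ0, hβ1, hβ2⟩ := hβ
  have hpp : p.Prime := Fact.out
  -- the automorphisms `σ_b`
  have hσex : ∀ b : ℕ, ∃ σ : K ≃ₐ[ℚ] K, b ∈ Finset.Ico 1 p → σ ζ = ζ ^ b := by
    intro b
    by_cases hb : b ∈ Finset.Ico 1 p
    · have hcop : b.Coprime p := by
        rw [Finset.mem_Ico] at hb
        exact (Nat.coprime_of_lt_prime (by omega) hb.2 hpp).symm
      obtain ⟨σ, hσ⟩ := exists_aut_pow p K ζ hζ b hcop
      exact ⟨σ, fun _ => hσ⟩
    · exact ⟨1, fun h => absurd h hb⟩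
  choose sig hsig using hσex
  -- the conjugate primes `Q_b = σ_b⁻¹ Q`
  set Qb : ℕ → Ideal (𝓞 K) := fun b => Ideal.comap (galRing K (sig b)) Q with hQb
  have hQb_prime : ∀ b, (Qb b).IsPrime := fun b => Ideal.comap_isPrime _ _
  have hmemQb : ∀ b x, x ∈ Qb b ↔ galRing K (sig b) x ∈ Q := fun b x => Ideal.mem_comap
  have hqQ : ((Ideal.absNorm Q : ℕ) : 𝓞 K) ∈ Q := Ideal.absNorm_mem Q
  have hQb_q : ∀ b, ((Ideal.absNorm Q : ℕ) : 𝓞 K) ∈ Qb b := by
    intro b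
    rw [hmemQb, map_natCast]
    exact hqQ
  have hQb_p : ∀ b, (p : 𝓞 K) ∉ Qb b := by
    intro b
    rw [hmemQb, map_natCast]
    exact hpQ
  have hq0 : ((Ideal.absNorm Q : ℕ) : 𝓞 K) ≠ 0 := by
    have : Ideal.absNorm Q ≠ 0 := hQq.ne_zero
    exact_mod_cast this
  have hQb_ne : ∀ b, Qb b ≠ ⊥ := by
    intro b h
    have := hQb_q b
    rw [h, Ideal.mem_bot] at this
    exact hq0 this
  have hQb_inj : ∀ b ∈ Finset.Ico 1 p, ∀ b' ∈ Finset.Ico 1 p, Qb b = Qb b' → b = b' := by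
    intro b hb b' hb' h
    have h1 : sig b = sig b' := comap_injective p K ζ hζ Q hQq hpQ _ _ h
    have h2 : ζ ^ b = ζ ^ b' := by rw [← hsig b hb, ← hsig b' hb', h1]
    exact hζ.pow_inj (Finset.mem_Ico.mp hb).2 (Finset.mem_Ico.mp hb').2 h2
  have hQb_surj : ∀ (Q' : Ideal (𝓞 K)), Q'.IsPrime → ((Ideal.absNorm Q : ℕ) : 𝓞 K) ∈ Q' →
      ∃ b ∈ Finset.Ico 1 p, Q' = Qb b := by
    intro Q' hQ'p hQ'
    obtain ⟨σ, hσ⟩ := exists_comap_eq p K Q hQq Q' hQ'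
    obtain ⟨b, hb, hσb⟩ := exists_pow_of_aut p K ζ hζ σ
    refine ⟨b, hb, ?_⟩
    have : σ = sig b := aut_ext p K ζ hζ _ _ (by rw [hσb, hsig b hb])
    rw [hσ, this]
  -- the prime above `p`
  set lam : 𝓞 K := hζ.toInteger - 1 with hlam
  have hlam0 : lam ≠ 0 := by
    intro h
    have h1 : hζ.toInteger = 1 := sub_eq_zero.mp h
    exact hζ.toInteger_isPrimitiveRoot.ne_one hpp.one_lt h1
  have hlam_prime : (Ideal.span {lam}).IsPrime :=
    IsCyclotomicExtension.Rat.isPrime_span_zeta_sub_one' p hζ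
  have hlam_ne : Ideal.span {lam} ≠ ⊥ := by simpa using hlam0
  have hlam_p : (p : 𝓞 K) ∈ Ideal.span {lam} :=
    Ideal.mem_span_singleton.mpr hζ.toInteger_sub_one_dvd_prime'
  have hlam_unique : ∀ (𝔯 : Ideal (𝓞 K)), 𝔯.IsPrime → (p : 𝓞 K) ∈ 𝔯 → 𝔯 = Ideal.span {lam} := by
    intro 𝔯 h𝔯 hp𝔯
    have hass := IsCyclotomicExtension.Rat.associated_zeta_sub_one_pow_prime p hζ
    have h1 : lam ^ (p - 1) ∈ 𝔯 := 𝔯.mem_of_dvd hass.symm.dvd hp𝔯
    have h2 : lam ∈ 𝔯 := h𝔯.mem_of_pow_mem _ h1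
    have h3 : Ideal.span {lam} ≤ 𝔯 := (Ideal.span_singleton_le_iff_mem 𝔯).mpr h2
    exact ((hlam_prime.isMaximal hlam_ne).eq_of_le h𝔯.ne_top h3).symm
  -- valuations
  set v : ℕ → ℕ := fun b => Multiset.count (Qb b) (normalizedFactors (Ideal.span {β})) with hv
  -- (a) the character relation
  have hrel : ∏ b ∈ Finset.Ico 1 p, ψ (cls (Qb b)) ^ v b = 1 := by
    set T : Finset (Ideal (𝓞 K)) := insert (Ideal.span {lam}) ((Finset.Ico 1 p).image Qb) with hT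
    have hout : ∀ 𝔯 : Ideal (𝓞 K), 𝔯.IsPrime → 𝔯 ≠ ⊥ → 𝔯 ∉ T →
        p ∣ (normalizedFactors (Ideal.span {β})).count 𝔯 := by
      intro 𝔯 h𝔯 h𝔯0 h𝔯T
      have hp𝔯 : (p : 𝓞 K) ∉ 𝔯 := by
        intro h
        apply h𝔯T
        rw [hT, hlam_unique 𝔯 h𝔯 h]
        exact Finset.mem_insert_self _ _
      have hq𝔯 : ((Ideal.absNorm Q : ℕ) : 𝓞 K) ∉ 𝔯 := by
        intro h
        apply h𝔯T
        obtain ⟨b, hb, hb'⟩ := hQb_surj 𝔯 h𝔯 h
        rw [hT, hb']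
        exact Finset.mem_insert_of_mem (Finset.mem_image_of_mem _ hb)
      exact hβ1 𝔯 h𝔯0 hp𝔯 hq𝔯
    have h1 := prod_char_eq_one ψ p hψp hβ0 T hout
    have hnot : Ideal.span {lam} ∉ (Finset.Ico 1 p).image Qb := by
      intro h
      obtain ⟨b, -, hb⟩ := Finset.mem_image.mp h
      apply hQb_p b
      rw [hb]
      exact hlam_p
    rw [hT, Finset.prod_insert hnot, cls_span_singleton hlam0, map_one, one_pow, one_mul,
      Finset.prod_image hQb_inj] at h1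
    exact h1
  -- (c) the eigen relation `ψ([Q_b]) = ψ([Q])^(m b)`
  set g : ℂˣ := ψ (ClassGroup.mk0 (primeNZ Q hQ0)) with hg
  have hgQ : ψ (cls Q) = g := by rw [cls_of_ne_bot hQ0]; rfl
  have heig : ∀ b ∈ Finset.Ico 1 p, ψ (cls (Qb b)) = g ^ m b := by
    intro b hb
    have h1 := hψe (sig b) b (hsig b hb) ⟨Qb b, mem_nonZeroDivisors_of_ne_zero (hQb_ne b)⟩
    have h2 : galIdeal (sig b) ⟨Qb b, mem_nonZeroDivisors_of_ne_zero (hQb_ne b)⟩ =
        primeNZ Q hQ0 := by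
      apply Subtype.ext
      rw [galIdeal, Ideal.coe_mapNonZero]
      exact Ideal.map_comap_of_surjective _ (galRing K (sig b)).surjective Q
    rw [h2, ← cls_of_ne_bot (hQb_ne b)] at h1
    -- `g = ψ(cls (Qb b)) ^ (b^k)`
    obtain ⟨t, ht⟩ : ∃ t, b ^ k * m b = 1 + p * t := by
      have := hm b hb
      refine ⟨(m b * b ^ k) / p, ?_⟩
      have h3 := Nat.div_add_mod (m b * b ^ k) p
      rw [this] at h3
      rw [mul_comm (b ^ k)]
      omega
    rw [← hg] at h1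
    rw [h1, ← pow_mul, ht, pow_add, pow_one, pow_mul, hψp, one_pow, mul_one]
  have hgT : g ^ (∑ b ∈ Finset.Ico 1 p, m b * v b) = 1 := by
    rw [← Finset.prod_pow_eq_pow_sum, ← hrel]
    refine Finset.prod_congr rfl fun b hb => ?_
    rw [heig b hb, pow_mul]
  have hpT : p ∣ ∑ b ∈ Finset.Ico 1 p, m b * v b := by
    have hord : orderOf g = p := orderOf_eq_prime (hψp _) hψQ
    have := orderOf_dvd_of_pow_eq_one hgT
    rwa [hord] at this
  obtain ⟨M, hM⟩ := hpT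
  -- (d) the congruences modulo `Q`
  set π := Ideal.Quotient.mk Q with hπ
  have hcong : ∀ b ∈ Finset.Ico 1 p,
      π (1 - hζ.toInteger ^ b) * π (s : 𝓞 K) ^ v b = 1 := by
    intro b hb
    have h1 := @hβ2 (Qb b) (hQb_prime b) (hQb_q b)
    rw [hmemQb] at h1
    simp only [map_sub, map_mul, map_pow, map_one, map_natCast,
      galRing_toInteger p K ζ hζ (sig b) b (hsig b hb)] at h1
    have h2 := Ideal.Quotient.eq_zero_iff_mem.mpr h1
    rw [map_sub, map_mul, map_pow, map_one, sub_eq_zero] at h2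
    exact h2
  have hprod : π (etaRaw p K hζ.toInteger m) * (π (s : 𝓞 K) ^ M) ^ p = 1 := by
    have h1 : ∏ b ∈ Finset.Ico 1 p, (π (1 - hζ.toInteger ^ b) * π (s : 𝓞 K) ^ v b) ^ m b = 1 :=
      Finset.prod_eq_one fun b hb => by rw [hcong b hb, one_pow]
    simp only [mul_pow, Finset.prod_mul_distrib, ← pow_mul] at h1
    rw [Finset.prod_pow_eq_pow_sum] at h1
    have h2 : ∑ b ∈ Finset.Ico 1 p, v b * m b = p * M := by
      rw [← hM]
      exact Finset.sum_congr rfl fun b _ => mul_comm _ _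
    rw [h2] at h1
    rw [etaRaw, map_prod, ← pow_mul, mul_comm M p]
    simpa only [map_pow] using h1
  refine ⟨etaRaw p K hζ.toInteger m * ((s : 𝓞 K) ^ M) ^ (p - 1), ?_⟩
  rw [← Ideal.Quotient.eq_zero_iff_mem, map_sub, sub_eq_zero, map_pow, map_mul, map_pow, map_pow]
  set E := π (etaRaw p K hζ.toInteger m) with hE
  set y := π (s : 𝓞 K) ^ M with hy
  have hp1 : p = (p - 1) + 1 := by have := hpp.one_lt; omega
  calc (E * y ^ (p - 1)) ^ p = E * (E * y ^ p) ^ (p - 1) := by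
        conv_lhs => rw [hp1]
        conv_rhs => rw [hp1]
        simp only [Nat.add_sub_cancel]
        ring
    _ = E := by rw [hprod, one_pow, mul_one]

/-! ### Degree-one primes have norm `≡ 1 mod p` -/

theorem degOne : Thaine.DegOneStatement p K := by
  intro Q _ hQ0 hQq hpQ
  have hpp : p.Prime := Fact.out
  have : NeZero p := ⟨hpp.ne_zero⟩
  have hζ := IsCyclotomicExtension.zeta_spec p ℚ K
  have hqQ : ((Ideal.absNorm Q : ℕ) : 𝓞 K) ∈ Q := Ideal.absNorm_mem Q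
  refine ⟨fun h => hpQ (h ▸ hqQ), ?_⟩
  have hmax : Q.IsMaximal := Ideal.IsPrime.isMaximal inferInstance hQ0
  let : Field (𝓞 K ⧸ Q) := Ideal.Quotient.field Q
  have hcard : Nat.card (𝓞 K ⧸ Q) = Ideal.absNorm Q := by
    rw [Ideal.absNorm_apply, Submodule.cardQuot_apply]
  have hfin : Finite (𝓞 K ⧸ Q) := Nat.finite_of_card_ne_zero (by rw [hcard]; exact hQq.ne_zero)
  let := Fintype.ofFinite (𝓞 K ⧸ Q)
  have hcard' : Fintype.card (𝓞 K ⧸ Q) = Ideal.absNorm Q := by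
    rw [← Nat.card_eq_fintype_card, hcard]
  set z : 𝓞 K ⧸ Q := Ideal.Quotient.mk Q hζ.toInteger with hz
  have hzp : z ^ p = 1 := by
    rw [hz, ← map_pow, hζ.toInteger_isPrimitiveRoot.pow_eq_one, map_one]
  have hz1 : z ≠ 1 := by
    intro h
    have h1 : Ideal.Quotient.mk Q (1 - hζ.toInteger ^ 1) = 0 := by
      rw [map_sub, map_one, pow_one, ← hz, h, sub_self]
    exact one_sub_pow_not_mem p K _ hζ Q hpQ 1
      (Finset.mem_Ico.mpr ⟨le_refl 1, hpp.one_lt⟩) (Ideal.Quotient.eq_zero_iff_mem.mp h1)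
  have hz0 : z ≠ 0 := by
    intro h
    rw [h, zero_pow hpp.ne_zero] at hzp
    exact zero_ne_one hzp
  have hord : orderOf z = p := orderOf_eq_prime hzp hz1
  have hq1 : z ^ (Ideal.absNorm Q - 1) = 1 := by
    rw [← hcard']
    exact FiniteField.pow_card_sub_one_eq_one z hz0
  have hdvd : p ∣ Ideal.absNorm Q - 1 := by
    rw [← hord]
    exact orderOf_dvd_of_pow_eq_one hq1
  obtain ⟨t, ht⟩ := hdvd
  have hq2 : Ideal.absNorm Q = p * t + 1 := by
    have := hQq.one_lt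
    omega
  rw [hq2, Nat.mul_add_mod, Nat.mod_eq_of_lt hpp.one_lt]

end Fermat.Agent.S14.ThaineFin21
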