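/-
S14 / K2 THAINE (helper33, assembly): `thaine : ThaineStatement p K`
= TF (`ThaineBeta.existsBeta`, helper33 + helper76/helper87/helper96 sub-lemmas)
+ TFIN (`ThaineFin21.thaineFin`, helper21) + DegOne (`ThaineFin21.degOne`, helper21).
No placeholder proofs in this file.
-/
import Fermat.Agent.S14.ThaineBeta
import Fermat.Agent.S14.ThaineFin21

set_option autoImplicit false

namespace Fermat.Agent.S14.Thaine

/-- **K2 / THAINE.** -/
theorem thaine (p : ℕ) [Fact p.Prime] (K : Type) [Field K] [NumberField K]
    [IsCyclotomicExtension {p} ℚ K] : ThaineStatement p K :=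
  thaine_of_parts p K (existsBeta p K) (ThaineFin21.thaineFin p K) (ThaineFin21.degOne p K)

end Fermat.Agent.S14.Thaine
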