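import Mathlib

/-!
# S14 / EULER (helper23): Euler products over the prime ideals of a number field, sieve form

`K` a number field, `Idl K := (Ideal (𝓞 K))⁰` the monoid of nonzero ideals.

* `summable_absNorm_rpow`, `tsum_absNorm_rpow_eq` : `∑_I N(I)^(-s)` converges for `s > 1` and equals
  the Dedekind zeta function of Mathlib.
* `tendsto_prod_mul_tsum` : for a completely multiplicative `g : Idl K →* ℂ` with summable norm,
  `∏_{N Q ≤ n} (1 - g Q) * ∑_I g I → 1` (the Euler product, sieve form).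
* `exp_le_norm_tsum`, bounds relating `∑_Q g Q` and `log ‖∑_I g I‖`.
-/

set_option autoImplicit false
set_option linter.unusedSectionVars false
set_option linter.deprecated false

open scoped nonZeroDivisors NumberField
open IsDedekindDomain Filter Topology

namespace Fermat.Agent.S14.Euler23

/-! ### Part 0: an abstract sieve step -/

section Sieve

variable {α : Type*}

/-- One sieve step: if `m : α → α` is injective, `g (m I) = c * g I`, and `A` is stable under `m`
and under "division by `m`", then removing the multiples (the range of `m`) from `A` multiplies the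
sum of `g` over `A` by `1 - c`. -/
theorem tsum_indicator_diff_range {g : α → ℂ} (hg : Summable fun I => ‖g I‖) {m : α → α}
    (hm : Function.Injective m) {c : ℂ} (hc : ∀ I, g (m I) = c * g I) {A : Set α}
    (hA : ∀ I, m I ∈ A ↔ I ∈ A) :
    ∑' I, (A \ Set.range m).indicator g I = (1 - c) * ∑' I, A.indicator g I := by
  classical
  have hgs : Summable g := hg.of_norm
  have hsA : Summable (A.indicator g) := hgs.indicator A
  have hsAm : Summable ((A ∩ Set.range m).indicator g) := hgs.indicator _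
  have hsAd : Summable ((A \ Set.range m).indicator g) := hgs.indicator _
  have hsplit : ∀ I, A.indicator g I
      = (A \ Set.range m).indicator g I + (A ∩ Set.range m).indicator g I := by
    intro I
    by_cases h1 : I ∈ A <;> by_cases h2 : I ∈ Set.range m <;>
      simp [Set.indicator, h1, h2]
  have h1 : ∑' I, A.indicator g I
      = ∑' I, (A \ Set.range m).indicator g I + ∑' I, (A ∩ Set.range m).indicator g I := by
    rw [← hsAd.tsum_add hsAm]
    exact tsum_congr hsplit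
  have h2 : ∑' I, (A ∩ Set.range m).indicator g I = c * ∑' I, A.indicator g I := by
    have hsupp : Function.support ((A ∩ Set.range m).indicator g) ⊆ Set.range m := by
      intro I hI
      have : I ∈ A ∩ Set.range m := by
        by_contra h
        exact hI (Set.indicator_of_notMem h g)
      exact this.2
    rw [← hm.tsum_eq hsupp, ← tsum_mul_left]
    refine tsum_congr fun I => ?_
    by_cases h : I ∈ A
    · have : m I ∈ A ∩ Set.range m := ⟨(hA I).mpr h, ⟨I, rfl⟩⟩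
      rw [Set.indicator_of_mem this, Set.indicator_of_mem h, hc]
    · have : m I ∉ A ∩ Set.range m := fun h' => h ((hA I).mp h'.1)
      rw [Set.indicator_of_notMem this, Set.indicator_of_notMem h, mul_zero]
  linear_combination (-1 : ℂ) * h1 - h2

end Sieve

/-! ### Part 1: nonzero ideals, primes, the sets of ideals coprime to a finite set of primes -/

section Ideals

variable (K : Type*) [Field K] [NumberField K]

/-- The monoid of nonzero ideals of `𝓞 K`. -/
abbrev Idl : Type _ := (Ideal (𝓞 K))⁰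

variable {K}

/-- A nonzero prime, as a nonzero ideal. -/
def primeIdl (Q : HeightOneSpectrum (𝓞 K)) : Idl K :=
  ⟨Q.asIdeal, mem_nonZeroDivisors_iff_ne_zero.mpr Q.ne_bot⟩

@[simp] lemma coe_primeIdl (Q : HeightOneSpectrum (𝓞 K)) :
    ((primeIdl Q : Idl K) : Ideal (𝓞 K)) = Q.asIdeal := rfl

/-- Multiplication by the prime `Q`. -/
def mulQ (Q : HeightOneSpectrum (𝓞 K)) : Idl K → Idl K := fun I => primeIdl Q * I

@[simp] lemma coe_mulQ (Q : HeightOneSpectrum (𝓞 K)) (I : Idl K) :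
    ((mulQ Q I : Idl K) : Ideal (𝓞 K)) = Q.asIdeal * (I : Ideal (𝓞 K)) := rfl

lemma mulQ_injective (Q : HeightOneSpectrum (𝓞 K)) : Function.Injective (mulQ Q) := by
  intro I J h
  apply Subtype.ext
  have h1 : Q.asIdeal * (I : Ideal (𝓞 K)) = Q.asIdeal * (J : Ideal (𝓞 K)) := by
    have := congrArg (fun x : Idl K => (x : Ideal (𝓞 K))) h
    simpa using this
  exact mul_left_cancel₀ Q.ne_bot h1

lemma mem_range_mulQ (Q : HeightOneSpectrum (𝓞 K)) (J : Idl K) :
    J ∈ Set.range (mulQ Q) ↔ Q.asIdeal ∣ (J : Ideal (𝓞 K)) := by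
  constructor
  · rintro ⟨I, rfl⟩
    exact Dvd.intro _ rfl
  · rintro ⟨I', hI'⟩
    have hI'0 : I' ≠ ⊥ := by
      rintro rfl
      have hJ : (J : Ideal (𝓞 K)) ≠ ⊥ := mem_nonZeroDivisors_iff_ne_zero.mp J.2
      apply hJ
      rw [hI']
      simp
    refine ⟨⟨I', mem_nonZeroDivisors_iff_ne_zero.mpr hI'0⟩, ?_⟩
    apply Subtype.ext
    rw [coe_mulQ, hI']

/-- The nonzero ideals not divisible by any prime in `T`. -/
def cop (T : Finset (HeightOneSpectrum (𝓞 K))) : Set (Idl K) :=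
  {I | ∀ Q ∈ T, ¬ Q.asIdeal ∣ (I : Ideal (𝓞 K))}

@[simp] lemma cop_empty : cop (∅ : Finset (HeightOneSpectrum (𝓞 K))) = Set.univ := by
  ext I
  simp [cop]

lemma dvd_of_dvd_prime {Q Q' : HeightOneSpectrum (𝓞 K)} (h : Q'.asIdeal ∣ Q.asIdeal) : Q' = Q := by
  have hle : Q.asIdeal ≤ Q'.asIdeal := Ideal.dvd_iff_le.mp h
  have hmax : Q.asIdeal.IsMaximal := Q.isMaximal
  have hne : Q'.asIdeal ≠ ⊤ := Q'.isPrime.ne_top
  have := hmax.eq_of_le hne hle
  exact (HeightOneSpectrum.ext this).symm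

lemma cop_insert [DecidableEq (HeightOneSpectrum (𝓞 K))] (Q : HeightOneSpectrum (𝓞 K))
    (T : Finset (HeightOneSpectrum (𝓞 K))) :
    cop (insert Q T) = cop T \ Set.range (mulQ Q) := by
  ext I
  simp only [cop, Finset.mem_insert, forall_eq_or_imp, Set.mem_setOf_eq, Set.mem_diff,
    mem_range_mulQ]
  tauto

lemma mulQ_mem_cop_iff {Q : HeightOneSpectrum (𝓞 K)} {T : Finset (HeightOneSpectrum (𝓞 K))}
    (hQ : Q ∉ T) (I : Idl K) : mulQ Q I ∈ cop T ↔ I ∈ cop T := by
  simp only [cop, Set.mem_setOf_eq, coe_mulQ]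
  refine forall₂_congr fun Q' hQ' => not_congr ⟨fun h => ?_, fun h => dvd_mul_of_dvd_right h _⟩
  rcases Q'.prime.dvd_or_dvd h with h1 | h1
  · exact absurd (dvd_of_dvd_prime h1) (fun h2 => hQ (h2 ▸ hQ'))
  · exact h1

/-- **Sieve identity.** -/
theorem tsum_indicator_cop (g : Idl K →* ℂ) (hg : Summable fun I => ‖g I‖)
    (T : Finset (HeightOneSpectrum (𝓞 K))) :
    ∑' I, (cop T).indicator (fun I => g I) I
      = (∏ Q ∈ T, (1 - g (primeIdl Q))) * ∑' I, g I := by
  classical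
  induction T using Finset.induction_on with
  | empty => simp
  | insert Q T hQ ih =>
    rw [cop_insert, Finset.prod_insert hQ, mul_assoc, ← ih]
    exact tsum_indicator_diff_range hg (mulQ_injective Q)
      (fun I => by simp [mulQ, map_mul]) (mulQ_mem_cop_iff hQ)

/-! ### Part 2: the limit over all primes -/

/-- The nonzero ideals of norm at most `n` (a finite set). -/
noncomputable def idlLE (K : Type*) [Field K] [NumberField K] (n : ℕ) : Finset (Idl K) :=
  (Ideal.finite_setOfPred_absNorm_le₀ (S := 𝓞 K) n).toFinset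

@[simp] lemma mem_idlLE {n : ℕ} {I : Idl K} :
    I ∈ idlLE K n ↔ Ideal.absNorm (I : Ideal (𝓞 K)) ≤ n := by
  simp [idlLE]

lemma idlLE_mono : Monotone (idlLE K) := by
  intro m n hmn I hI
  rw [mem_idlLE] at hI ⊢
  exact hI.trans hmn

lemma tendsto_idlLE : Tendsto (idlLE K) atTop atTop :=
  tendsto_atTop_finset_of_monotone idlLE_mono fun I =>
    ⟨Ideal.absNorm (I : Ideal (𝓞 K)), by simp⟩

lemma finite_primes_le (n : ℕ) :
    {Q : HeightOneSpectrum (𝓞 K) | Ideal.absNorm Q.asIdeal ≤ n}.Finite := by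
  refine Set.Finite.of_finite_image (f := fun Q : HeightOneSpectrum (𝓞 K) => Q.asIdeal)
    ((Ideal.finite_setOfPred_absNorm_le (S := 𝓞 K) n).subset ?_) ?_
  · rintro _ ⟨Q, hQ, rfl⟩
    exact hQ
  · intro Q _ Q' _ h
    exact HeightOneSpectrum.ext h

/-- The nonzero primes of norm at most `n` (a finite set). -/
noncomputable def primesLE (K : Type*) [Field K] [NumberField K] (n : ℕ) :
    Finset (HeightOneSpectrum (𝓞 K)) :=
  (finite_primes_le (K := K) n).toFinset

@[simp] lemma mem_primesLE {n : ℕ} {Q : HeightOneSpectrum (𝓞 K)} :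
    Q ∈ primesLE K n ↔ Ideal.absNorm Q.asIdeal ≤ n := by
  simp [primesLE]

lemma primesLE_mono : Monotone (primesLE K) := by
  intro m n hmn Q hQ
  rw [mem_primesLE] at hQ ⊢
  exact hQ.trans hmn

lemma tendsto_primesLE : Tendsto (primesLE K) atTop atTop :=
  tendsto_atTop_finset_of_monotone primesLE_mono fun Q =>
    ⟨Ideal.absNorm Q.asIdeal, by simp⟩

/-- Every nonzero ideal `≠ 1` has a prime divisor of norm at most its own norm. -/
lemma exists_prime_dvd {I : Idl K} (hI : I ≠ 1) :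
    ∃ Q : HeightOneSpectrum (𝓞 K), Q.asIdeal ∣ (I : Ideal (𝓞 K)) ∧
      Ideal.absNorm Q.asIdeal ≤ Ideal.absNorm (I : Ideal (𝓞 K)) := by
  have hI0 : (I : Ideal (𝓞 K)) ≠ ⊥ := mem_nonZeroDivisors_iff_ne_zero.mp I.2
  have hItop : (I : Ideal (𝓞 K)) ≠ ⊤ := by
    intro h
    apply hI
    apply Subtype.ext
    rw [h]
    simp [Ideal.one_eq_top]
  obtain ⟨M, hM, hIM⟩ := Ideal.exists_le_maximal _ hItop
  have hM0 : M ≠ ⊥ := by
    rintro rfl
    exact hI0 (le_bot_iff.mp hIM)
  refine ⟨⟨M, hM.isPrime, hM0⟩, Ideal.dvd_iff_le.mpr hIM, ?_⟩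
  have hdvd : Ideal.absNorm M ∣ Ideal.absNorm (I : Ideal (𝓞 K)) :=
    Ideal.absNorm_dvd_absNorm_of_le hIM
  exact Nat.le_of_dvd (Ideal.absNorm_pos_of_nonZeroDivisors I) hdvd

lemma not_mem_idlLE_of_mem_cop {n : ℕ} {I : Idl K} (hI : I ∈ cop (primesLE K n)) (h1 : I ≠ 1) :
    I ∉ idlLE K n := by
  intro hle
  rw [mem_idlLE] at hle
  obtain ⟨Q, hQ, hQle⟩ := exists_prime_dvd h1
  exact hI Q (mem_primesLE.mpr (hQle.trans hle)) hQ

lemma one_mem_cop (T : Finset (HeightOneSpectrum (𝓞 K))) : (1 : Idl K) ∈ cop T := by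
  intro Q _ h
  have h1 : ((1 : Idl K) : Ideal (𝓞 K)) = ⊤ := by simp [Ideal.one_eq_top]
  rw [h1] at h
  have : Q.asIdeal = ⊤ := by
    have := Ideal.dvd_iff_le.mp h
    exact top_le_iff.mp this
  exact Q.isPrime.ne_top this

/-- **Euler product, sieve form**: `∏_{N Q ≤ n} (1 - g Q) * ∑_I g I → 1`. -/
theorem tendsto_prod_mul_tsum (g : Idl K →* ℂ) (hg : Summable fun I => ‖g I‖) :
    Tendsto (fun n : ℕ => (∏ Q ∈ primesLE K n, (1 - g (primeIdl Q))) * ∑' I, g I)
      atTop (𝓝 1) := by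
  classical
  have htail := (tendsto_tsum_compl_atTop_zero (fun I : Idl K => ‖g I‖)).comp (tendsto_idlLE (K := K))
  rw [tendsto_iff_norm_sub_tendsto_zero]
  refine squeeze_zero (fun _ => norm_nonneg _) (fun n => ?_) htail
  show ‖(∏ Q ∈ primesLE K n, (1 - g (primeIdl Q))) * ∑' I, g I - 1‖
    ≤ ∑' I : {x // x ∉ idlLE K n}, ‖g I‖
  rw [← tsum_indicator_cop g hg]
  -- split off the term `I = 1`
  set A := cop (primesLE K n) with hA
  have hgs : Summable (fun I => g I) := hg.of_norm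
  have hsA : Summable (A.indicator fun I => g I) := hgs.indicator A
  have h1 : ∑' I, A.indicator (fun I => g I) I - 1
      = ∑' I, (A \ {1}).indicator (fun I => g I) I := by
    have hsplit : ∀ I, A.indicator (fun I => g I) I
        = (A \ {1}).indicator (fun I => g I) I + ({1} : Set (Idl K)).indicator (fun I => g I) I := by
      intro I
      by_cases hI1 : I = 1
      · subst hI1
        have : (1 : Idl K) ∈ A := one_mem_cop _
        simp [Set.indicator, this]
      · by_cases hIA : I ∈ A <;> simp [Set.indicator, hIA, hI1]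
    have hs1 : Summable ((A \ {1}).indicator fun I => g I) := hgs.indicator _
    have hs2 : Summable (({1} : Set (Idl K)).indicator fun I => g I) := hgs.indicator _
    rw [tsum_congr hsplit, hs1.tsum_add hs2]
    have : ∑' I, ({1} : Set (Idl K)).indicator (fun I => g I) I = 1 := by
      rw [← tsum_subtype]
      simp
    rw [this]
    ring
  rw [h1]
  have hnorm : Summable fun I => ‖(A \ {1}).indicator (fun I => g I) I‖ := by
    refine Summable.of_nonneg_of_le (fun _ => norm_nonneg _) (fun I => ?_) hg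
    by_cases h : I ∈ A \ {1}
    · rw [Set.indicator_of_mem h]
    · rw [Set.indicator_of_notMem h, norm_zero]
      exact norm_nonneg _
  refine (norm_tsum_le_tsum_norm hnorm).trans ?_
  let B : Set (Idl K) := {x | x ∉ idlLE K n}
  have e : ∑' I : {x // x ∉ idlLE K n}, ‖g I‖ = ∑' I, B.indicator (fun I => ‖g I‖) I :=
    tsum_subtype B (fun I => ‖g I‖)
  rw [e]
  have hs3 : Summable (B.indicator fun I => ‖g I‖) := hg.indicator _
  refine hnorm.tsum_le_tsum (fun I => ?_) hs3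
  by_cases h : I ∈ A \ {1}
  · have hI : I ∈ B := not_mem_idlLE_of_mem_cop h.1 (by simpa using h.2)
    rw [Set.indicator_of_mem h, Set.indicator_of_mem hI]
  · rw [Set.indicator_of_notMem h, norm_zero]
    exact Set.indicator_nonneg (fun _ _ => norm_nonneg _) _

/-- The sum of a completely multiplicative function with summable norm is nonzero. -/
theorem tsum_ne_zero (g : Idl K →* ℂ) (hg : Summable fun I => ‖g I‖) : ∑' I, g I ≠ 0 := by
  intro h
  have := tendsto_prod_mul_tsum g hg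
  simp only [h, mul_zero] at this
  exact zero_ne_one (tendsto_nhds_unique tendsto_const_nhds this)

end Ideals

/-! ### Part 3: elementary inequalities -/

section Ineq

/-- `‖1 - z‖ ≤ exp (-Re z + ‖z‖²)` for every complex `z`. -/
lemma norm_one_sub_le_exp (z : ℂ) : ‖1 - z‖ ≤ Real.exp (-z.re + ‖z‖ ^ 2) := by
  have h1 : ‖1 - z‖ ^ 2 = 1 - 2 * z.re + ‖z‖ ^ 2 := by
    rw [Complex.sq_norm, Complex.sq_norm, Complex.normSq_apply, Complex.normSq_apply]
    simp only [Complex.sub_re, Complex.one_re, Complex.sub_im, Complex.one_im]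
    ring
  have h2 : ‖1 - z‖ ^ 2 ≤ Real.exp (-z.re + ‖z‖ ^ 2) ^ 2 := by
    rw [h1, ← Real.exp_nat_mul]
    have := Real.add_one_le_exp (-2 * z.re + ‖z‖ ^ 2)
    have h3 : Real.exp (-2 * z.re + ‖z‖ ^ 2) ≤ Real.exp (((2 : ℕ) : ℝ) * (-z.re + ‖z‖ ^ 2)) := by
      apply Real.exp_le_exp.mpr
      push_cast
      nlinarith [sq_nonneg ‖z‖]
    linarith
  exact le_of_sq_le_sq h2 (Real.exp_pos _).le |> fun h => h
  
/-- `exp (-x - x²) ≤ 1 - x` for `0 ≤ x ≤ 1/2`. -/
lemma exp_neg_le_one_sub {x : ℝ} (h0 : 0 ≤ x) (h1 : x ≤ 1 / 2) :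
    Real.exp (-x - x ^ 2) ≤ 1 - x := by
  have hy : 0 ≤ x + x ^ 2 := by positivity
  have hq := Real.quadratic_le_exp_of_nonneg hy
  have hpos : 0 < 1 + (x + x ^ 2) + (x + x ^ 2) ^ 2 / 2 := by positivity
  have h2 : Real.exp (-x - x ^ 2) = (Real.exp (x + x ^ 2))⁻¹ := by
    rw [← Real.exp_neg]
    congr 1
    ring
  rw [h2]
  have h3 : (Real.exp (x + x ^ 2))⁻¹ ≤ (1 + (x + x ^ 2) + (x + x ^ 2) ^ 2 / 2)⁻¹ :=
    inv_anti₀ hpos hq
  refine h3.trans ?_
  rw [inv_le_comm₀ hpos (by linarith)]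
  rw [inv_eq_one_div, div_le_iff₀ (by linarith)]
  have hx3 : x ^ 3 ≤ x ^ 2 / 2 := by nlinarith [sq_nonneg x]
  nlinarith [sq_nonneg x, mul_nonneg h0 (sq_nonneg x), pow_nonneg h0 3, pow_nonneg h0 4,
    pow_nonneg h0 5, mul_nonneg (sq_nonneg x) (sq_nonneg x)]

end Ineq

/-! ### Part 4: bounds for `‖∑_I g I‖` in terms of sums over primes -/

section Bounds

variable {K : Type*} [Field K] [NumberField K]

lemma primeIdl_injective : Function.Injective (primeIdl : HeightOneSpectrum (𝓞 K) → Idl K) := by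
  intro Q Q' h
  apply HeightOneSpectrum.ext
  have := congrArg (fun x : Idl K => (x : Ideal (𝓞 K))) h
  simpa using this

/-- **Lower bound.** `exp (∑_Q Re g(Q) - ∑_Q ‖g(Q)‖²) ≤ ‖∑_I g(I)‖`. -/
theorem exp_le_norm_tsum (g : Idl K →* ℂ) (hg : Summable fun I => ‖g I‖)
    (hb : ∀ Q : HeightOneSpectrum (𝓞 K), ‖g (primeIdl Q)‖ ≤ 1) :
    Real.exp (∑' Q : HeightOneSpectrum (𝓞 K), (g (primeIdl Q)).re
      - ∑' Q : HeightOneSpectrum (𝓞 K), ‖g (primeIdl Q)‖ ^ 2) ≤ ‖∑' I, g I‖ := by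
  classical
  have hgQ : Summable fun Q : HeightOneSpectrum (𝓞 K) => ‖g (primeIdl Q)‖ :=
    hg.comp_injective primeIdl_injective
  have hre : Summable fun Q : HeightOneSpectrum (𝓞 K) => (g (primeIdl Q)).re :=
    Summable.of_norm_bounded hgQ fun Q => by
      rw [Real.norm_eq_abs]
      exact Complex.abs_re_le_norm _
  have hsq : Summable fun Q : HeightOneSpectrum (𝓞 K) => ‖g (primeIdl Q)‖ ^ 2 :=
    Summable.of_nonneg_of_le (fun _ => sq_nonneg _) (fun Q => by
      have h0 := norm_nonneg (g (primeIdl Q))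
      nlinarith [hb Q]) hgQ
  set L := ∑' I, g I with hL
  set P : ℕ → ℂ := fun n => ∏ Q ∈ primesLE K n, (1 - g (primeIdl Q)) with hP
  set a : ℕ → ℝ := fun n => ∑ Q ∈ primesLE K n, (-(g (primeIdl Q)).re + ‖g (primeIdl Q)‖ ^ 2)
    with ha
  set A : ℝ := -(∑' Q : HeightOneSpectrum (𝓞 K), (g (primeIdl Q)).re)
    + ∑' Q : HeightOneSpectrum (𝓞 K), ‖g (primeIdl Q)‖ ^ 2 with hA
  have hPle : ∀ n, ‖P n‖ ≤ Real.exp (a n) := by
    intro n
    rw [hP, ha]
    simp only
    rw [norm_prod, Real.exp_sum]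
    exact Finset.prod_le_prod (fun _ _ => norm_nonneg _) fun Q _ => norm_one_sub_le_exp _
  have hsumA : HasSum (fun Q : HeightOneSpectrum (𝓞 K) =>
      (-(g (primeIdl Q)).re + ‖g (primeIdl Q)‖ ^ 2)) A := by
    exact (hre.hasSum.neg).add hsq.hasSum
  have ha_lim : Tendsto a atTop (𝓝 A) := hsumA.comp (tendsto_primesLE (K := K))
  have h1 : Tendsto (fun n => ‖P n * L‖) atTop (𝓝 1) := by
    have := (tendsto_prod_mul_tsum g hg).norm
    rw [norm_one] at this
    exact this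
  have h2 : Tendsto (fun n => Real.exp (a n) * ‖L‖) atTop (𝓝 (Real.exp A * ‖L‖)) :=
    ((Real.continuous_exp.tendsto A).comp ha_lim).mul_const _
  have h3 : (1 : ℝ) ≤ Real.exp A * ‖L‖ := by
    refine le_of_tendsto_of_tendsto' h1 h2 fun n => ?_
    rw [norm_mul]
    exact mul_le_mul_of_nonneg_right (hPle n) (norm_nonneg _)
  have h4 : Real.exp (-A) * (Real.exp A * ‖L‖) = ‖L‖ := by
    rw [← mul_assoc, ← Real.exp_add]
    simp
  have h5 : Real.exp (-A) ≤ ‖L‖ := by
    calc Real.exp (-A) = Real.exp (-A) * 1 := (mul_one _).symm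
      _ ≤ Real.exp (-A) * (Real.exp A * ‖L‖) :=
        mul_le_mul_of_nonneg_left h3 (Real.exp_pos _).le
      _ = ‖L‖ := h4
  have h6 : ∑' Q : HeightOneSpectrum (𝓞 K), (g (primeIdl Q)).re
      - ∑' Q : HeightOneSpectrum (𝓞 K), ‖g (primeIdl Q)‖ ^ 2 = -A := by
    rw [hA]
    ring
  rw [h6]
  exact h5

/-- **Upper bound** for a nonnegative real multiplicative function with values `≤ 1/2` at primes. -/
theorem norm_tsum_le_exp (g : Idl K →* ℂ) (hg : Summable fun I => ‖g I‖)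
    (x : HeightOneSpectrum (𝓞 K) → ℝ) (hx : ∀ Q, g (primeIdl Q) = (x Q : ℂ))
    (h0 : ∀ Q, 0 ≤ x Q) (h1 : ∀ Q, x Q ≤ 1 / 2) :
    ‖∑' I, g I‖ ≤ Real.exp (∑' Q, x Q + ∑' Q, x Q ^ 2) := by
  classical
  have hxn : ∀ Q, ‖g (primeIdl Q)‖ = x Q := fun Q => by
    rw [hx, Complex.norm_real, Real.norm_eq_abs, abs_of_nonneg (h0 Q)]
  have hgQ : Summable x := by
    have := hg.comp_injective (primeIdl_injective (K := K))
    refine this.congr fun Q => ?_
    simp only [Function.comp_apply]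
    exact hxn Q
  have hsq : Summable fun Q => x Q ^ 2 :=
    Summable.of_nonneg_of_le (fun _ => sq_nonneg _) (fun Q => by nlinarith [h0 Q, h1 Q]) hgQ
  set L := ∑' I, g I with hL
  set P : ℕ → ℂ := fun n => ∏ Q ∈ primesLE K n, (1 - g (primeIdl Q)) with hP
  set b : ℕ → ℝ := fun n => ∑ Q ∈ primesLE K n, (-(x Q) - x Q ^ 2) with hbdef
  set B : ℝ := -(∑' Q, x Q) - ∑' Q, x Q ^ 2 with hB
  have hPge : ∀ n, Real.exp (b n) ≤ ‖P n‖ := by
    intro n
    rw [hP, hbdef]
    simp only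
    rw [norm_prod, Real.exp_sum]
    refine Finset.prod_le_prod (fun _ _ => (Real.exp_pos _).le) fun Q _ => ?_
    rw [hx, ← Complex.ofReal_one, ← Complex.ofReal_sub, Complex.norm_real, Real.norm_eq_abs,
      abs_of_nonneg (by linarith [h1 Q])]
    exact exp_neg_le_one_sub (h0 Q) (h1 Q)
  have hsumB : HasSum (fun Q => (-(x Q) - x Q ^ 2)) B := (hgQ.hasSum.neg).sub hsq.hasSum
  have hb_lim : Tendsto b atTop (𝓝 B) := hsumB.comp (tendsto_primesLE (K := K))
  have h1' : Tendsto (fun n => ‖P n * L‖) atTop (𝓝 1) := by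
    have := (tendsto_prod_mul_tsum g hg).norm
    rw [norm_one] at this
    exact this
  have h2 : Tendsto (fun n => Real.exp (b n) * ‖L‖) atTop (𝓝 (Real.exp B * ‖L‖)) :=
    ((Real.continuous_exp.tendsto B).comp hb_lim).mul_const _
  have h3 : Real.exp B * ‖L‖ ≤ 1 := by
    refine le_of_tendsto_of_tendsto' h2 h1' fun n => ?_
    rw [norm_mul]
    exact mul_le_mul_of_nonneg_right (hPge n) (norm_nonneg _)
  have h4 : Real.exp (-B) * (Real.exp B * ‖L‖) = ‖L‖ := by
    rw [← mul_assoc, ← Real.exp_add]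
    simp
  have h5 : ‖L‖ ≤ Real.exp (-B) := by
    calc ‖L‖ = Real.exp (-B) * (Real.exp B * ‖L‖) := h4.symm
      _ ≤ Real.exp (-B) * 1 := mul_le_mul_of_nonneg_left h3 (Real.exp_pos _).le
      _ = Real.exp (-B) := mul_one _
  have h6 : ∑' Q, x Q + ∑' Q, x Q ^ 2 = -B := by
    rw [hB]
    ring
  rw [h6]
  exact h5

end Bounds

/-! ### Part 5: norm powers and the Dedekind zeta function -/

section Zeta

open NumberField

variable (K : Type*) [Field K] [NumberField K]

/-- `I ↦ N(I)^(-s)` as a monoid homomorphism to `ℂ`. -/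
noncomputable def normPow (s : ℝ) : Idl K →* ℂ where
  toFun I := (((Ideal.absNorm (I : Ideal (𝓞 K)) : ℝ) ^ (-s) : ℝ) : ℂ)
  map_one' := by simp [Ideal.one_eq_top]
  map_mul' I J := by
    have h : ((I * J : Idl K) : Ideal (𝓞 K)) = (I : Ideal (𝓞 K)) * (J : Ideal (𝓞 K)) := rfl
    rw [h, map_mul, Nat.cast_mul, Real.mul_rpow (Nat.cast_nonneg _) (Nat.cast_nonneg _)]
    push_cast
    rfl

@[simp] lemma normPow_apply (s : ℝ) (I : Idl K) :
    normPow K s I = (((Ideal.absNorm (I : Ideal (𝓞 K)) : ℝ) ^ (-s) : ℝ) : ℂ) := rfl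

/-- The number of ideals of norm `n`. -/
noncomputable def cnt (n : ℕ) : ℕ := Nat.card {I : Ideal (𝓞 K) // Ideal.absNorm I = n}

lemma dedekindZeta_eq (s : ℂ) : dedekindZeta K s = LSeries (fun n => (cnt K n : ℂ)) s := rfl

lemma tendsto_sum_cnt_div :
    Tendsto (fun n : ℕ => (∑ k ∈ Finset.Icc 1 n, (cnt K k : ℝ)) / (n : ℝ)) atTop
      (𝓝 (dedekindZeta_residue K)) := by
  refine ((Ideal.tendsto_norm_le_div_atTop₀ K).comp tendsto_natCast_atTop_atTop).congr fun n ↦ ?_
  simp only [Function.comp_apply, Nat.cast_le, ← Nat.cast_sum, cnt]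
  congr
  rw [← add_left_inj 1, ← Ideal.card_norm_le_eq_card_norm_le_add_one,
    show Finset.Icc 1 n = Finset.Ioc 0 n from Finset.Icc_succ_left_eq_Ioc _ _,
    show 1 = Nat.card {I : Ideal (𝓞 K) // Ideal.absNorm I = 0} by simp [Ideal.absNorm_eq_zero_iff],
    Finset.sum_Ioc_add_eq_sum_Icc (n.zero_le),
    ← Finset.card_preimage_eq_sum_card_image_eq (fun k _ ↦ Ideal.finite_setOfPred_absNorm_eq k)]
  simp [Set.coe_eq_subtype]

lemma lseriesSummable_cnt {s : ℝ} (hs : 1 < s) :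
    LSeriesSummable (fun n => (cnt K n : ℂ)) (s : ℂ) := by
  have h := LSeriesSummable_of_sum_norm_bigO_and_nonneg (f := fun n => (cnt K n : ℝ)) (r := 1)
    (s := (s : ℂ))
    (Asymptotics.isBigO_atTop_natCast_rpow_of_tendsto_div_rpow (by simpa using tendsto_sum_cnt_div K))
    (fun _ => Nat.cast_nonneg _) zero_le_one (by simpa using hs)
  simpa using h

/-- The real series `∑ₙ cnt(n) n^(-s)`. -/
lemma summable_cnt_mul_rpow {s : ℝ} (hs : 1 < s) :
    Summable fun n : ℕ => (cnt K n : ℝ) * (n : ℝ) ^ (-s) := by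
  have h := (lseriesSummable_cnt K hs).norm
  refine h.congr fun n => ?_
  rcases Nat.eq_zero_or_pos n with rfl | hn
  · simp [LSeries.term_zero, Real.zero_rpow (by linarith : -s ≠ 0)]
  · rw [LSeries.term_of_ne_zero hn.ne', norm_div, Complex.norm_natCast,
      Complex.norm_natCast_cpow_of_pos hn, Complex.ofReal_re, Real.rpow_neg (Nat.cast_nonneg _)]
    rfl

lemma term_eq_ofReal {s : ℝ} (hs : 1 < s) (n : ℕ) :
    LSeries.term (fun n => (cnt K n : ℂ)) (s : ℂ) n
      = (((cnt K n : ℝ) * (n : ℝ) ^ (-s) : ℝ) : ℂ) := by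
  rcases Nat.eq_zero_or_pos n with rfl | hn
  · simp [LSeries.term_zero, Real.zero_rpow (by linarith : -s ≠ 0)]
  · rw [LSeries.term_of_ne_zero hn.ne', Real.rpow_neg (Nat.cast_nonneg _)]
    push_cast
    rw [Complex.ofReal_cpow (Nat.cast_nonneg _)]
    push_cast
    rfl

/-- The fibre of the norm over `n`. -/
def fib (n : ℕ) : Set (Idl K) := {I | Ideal.absNorm (I : Ideal (𝓞 K)) = n}

lemma finite_fib (n : ℕ) : (fib K n).Finite :=
  (Ideal.finite_setOfPred_absNorm_le₀ (S := 𝓞 K) n).subset fun I hI => le_of_eq hI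

noncomputable def fibEquiv {n : ℕ} (hn : n ≠ 0) :
    fib K n ≃ {I : Ideal (𝓞 K) // Ideal.absNorm I = n} where
  toFun I := ⟨(I.1 : Ideal (𝓞 K)), I.2⟩
  invFun I := ⟨⟨I.1, Ideal.absNorm_ne_zero_iff_mem_nonZeroDivisors.mp (by rw [I.2]; exact hn)⟩, I.2⟩
  left_inv I := rfl
  right_inv I := rfl

lemma card_fib {n : ℕ} (hn : n ≠ 0) : Nat.card (fib K n) = cnt K n :=
  Nat.card_congr (fibEquiv K hn)

lemma fib_zero : fib K 0 = ∅ := by
  ext I
  simp only [fib, Set.mem_setOf_eq, Set.mem_empty_iff_false, iff_false]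
  exact Ideal.absNorm_ne_zero_of_nonZeroDivisors I

lemma tsum_fib {s : ℝ} (hs : 1 < s) (n : ℕ) :
    ∑' I : fib K n, (Ideal.absNorm ((I : Idl K) : Ideal (𝓞 K)) : ℝ) ^ (-s)
      = (cnt K n : ℝ) * (n : ℝ) ^ (-s) := by
  rcases Nat.eq_zero_or_pos n with rfl | hn
  · rw [Nat.cast_zero, Real.zero_rpow (by linarith : -s ≠ 0), mul_zero]
    have : IsEmpty (fib K 0) := by
      rw [fib_zero]
      infer_instance
    exact tsum_empty
  · have hfin : Finite (fib K n) := (finite_fib K n).to_subtype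
    have hconst : ∀ I : fib K n,
        (Ideal.absNorm ((I : Idl K) : Ideal (𝓞 K)) : ℝ) ^ (-s) = (n : ℝ) ^ (-s) := by
      intro I
      have : Ideal.absNorm ((I : Idl K) : Ideal (𝓞 K)) = n := I.2
      rw [this]
    rw [tsum_congr hconst]
    haveI := Fintype.ofFinite (fib K n)
    rw [tsum_fintype, Finset.sum_const, Finset.card_univ, nsmul_eq_mul, ← Nat.card_eq_fintype_card,
      card_fib K hn.ne']

/-- `∑_I N(I)^(-s)` converges for `s > 1`. -/
theorem summable_absNorm_rpow {s : ℝ} (hs : 1 < s) :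
    Summable fun I : Idl K => (Ideal.absNorm (I : Ideal (𝓞 K)) : ℝ) ^ (-s) := by
  have hpart : ∀ I : Idl K, ∃! n : ℕ, I ∈ fib K n := fun I =>
    ⟨Ideal.absNorm (I : Ideal (𝓞 K)), rfl, fun n hn => hn.symm⟩
  rw [summable_partition (fun I => by positivity) hpart]
  refine ⟨fun n => ?_, ?_⟩
  · have hfin : Finite (fib K n) := (finite_fib K n).to_subtype
    exact Summable.of_finite
  · refine (summable_cnt_mul_rpow K hs).congr fun n => ?_
    exact (tsum_fib K hs n).symm

/-- The real Dedekind zeta value `∑_I N(I)^(-s)`. -/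
noncomputable def zetaR (s : ℝ) : ℝ := ∑' I : Idl K, (Ideal.absNorm (I : Ideal (𝓞 K)) : ℝ) ^ (-s)

theorem zetaR_eq_tsum_cnt {s : ℝ} (hs : 1 < s) :
    zetaR K s = ∑' n : ℕ, (cnt K n : ℝ) * (n : ℝ) ^ (-s) := by
  have h := (summable_absNorm_rpow K hs).hasSum.tsum_fiberwise
    (fun I : Idl K => Ideal.absNorm (I : Ideal (𝓞 K)))
  rw [zetaR, ← h.tsum_eq]
  refine tsum_congr fun n => ?_
  exact tsum_fib K hs n

/-- `zetaR` is the Dedekind zeta function of Mathlib. -/
theorem ofReal_zetaR {s : ℝ} (hs : 1 < s) : ((zetaR K s : ℝ) : ℂ) = dedekindZeta K (s : ℂ) := by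
  rw [dedekindZeta_eq, LSeries, zetaR_eq_tsum_cnt K hs, Complex.ofReal_tsum]
  exact tsum_congr fun n => (term_eq_ofReal K hs n).symm

/-! ### Part 6: the pole at `s = 1` and `log ζ_K(s) = log (1/(s-1)) + O(1)` -/

theorem tendsto_sub_one_mul_zetaR :
    Tendsto (fun s : ℝ => (s - 1) * zetaR K s) (𝓝[>] 1) (𝓝 (dedekindZeta_residue K)) := by
  have h := tendsto_sub_one_mul_dedekindZeta_nhdsGT K
  have h2 := (Complex.continuous_re.tendsto _).comp h
  simp only [Complex.ofReal_re] at h2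
  refine h2.congr' ?_
  filter_upwards [self_mem_nhdsWithin] with s hs
  have hs' : 1 < s := hs
  simp only [Function.comp_apply]
  rw [← ofReal_zetaR K hs', ← Complex.ofReal_one, ← Complex.ofReal_sub, ← Complex.ofReal_mul,
    Complex.ofReal_re]

lemma one_le_zetaR {s : ℝ} (hs : 1 < s) : 1 ≤ zetaR K s := by
  have h := (summable_absNorm_rpow K hs).le_tsum (1 : Idl K) (fun I _ => by positivity)
  have h1 : (Ideal.absNorm ((1 : Idl K) : Ideal (𝓞 K)) : ℝ) ^ (-s) = 1 := by
    simp [Ideal.one_eq_top]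
  rw [h1] at h
  exact h

lemma zetaR_pos {s : ℝ} (hs : 1 < s) : 0 < zetaR K s := lt_of_lt_of_le one_pos (one_le_zetaR K hs)

lemma one_le_absNorm (I : Idl K) : (1 : ℝ) ≤ (Ideal.absNorm (I : Ideal (𝓞 K)) : ℝ) := by
  exact_mod_cast Ideal.absNorm_pos_of_nonZeroDivisors I

lemma zetaR_anti {s t : ℝ} (hs : 1 < s) (hst : s ≤ t) : zetaR K t ≤ zetaR K s := by
  refine (summable_absNorm_rpow K (lt_of_lt_of_le hs hst)).tsum_le_tsum (fun I => ?_)
    (summable_absNorm_rpow K hs)
  exact Real.rpow_le_rpow_of_exponent_le (one_le_absNorm K I) (by linarith)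

/-- `(s-1) ζ_K(s)` is bounded above and below by positive constants on `(1, 2]`. -/
theorem exists_bounds_sub_one_mul_zetaR :
    ∃ m M : ℝ, 0 < m ∧ m ≤ M ∧ ∀ s : ℝ, 1 < s → s ≤ 2 → m ≤ (s - 1) * zetaR K s ∧
      (s - 1) * zetaR K s ≤ M := by
  have hκ := dedekindZeta_residue_pos K
  set κ := dedekindZeta_residue K with hκdef
  have hev : ∀ᶠ s in 𝓝[>] (1 : ℝ), κ / 2 < (s - 1) * zetaR K s ∧ (s - 1) * zetaR K s < 2 * κ := by
    have h1 := (tendsto_sub_one_mul_zetaR K).eventually (lt_mem_nhds (show κ / 2 < κ by linarith))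
    have h2 := (tendsto_sub_one_mul_zetaR K).eventually (gt_mem_nhds (show κ < 2 * κ by linarith))
    exact h1.and h2
  obtain ⟨u, hu, hsub⟩ := mem_nhdsGT_iff_exists_Ioo_subset.mp hev
  have hu1 : (1 : ℝ) < u := hu
  set δ : ℝ := min (u - 1) 1 / 2 with hδ
  have hδpos : 0 < δ := by
    rw [hδ]
    have : 0 < min (u - 1) 1 := lt_min (by linarith) one_pos
    positivity
  have hδu : 1 + δ < u := by
    rw [hδ]
    have : min (u - 1) 1 ≤ u - 1 := min_le_left _ _
    have h0 : 0 < min (u - 1) 1 := lt_min (by linarith) one_pos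
    linarith
  have hδ1 : δ ≤ 1 := by
    rw [hδ]
    have : min (u - 1) 1 ≤ 1 := min_le_right _ _
    linarith
  have hz := zetaR_pos K (show 1 < 1 + δ by linarith)
  refine ⟨min (κ / 2) δ, max (2 * κ) (zetaR K (1 + δ)), lt_min (by linarith) hδpos, ?_, ?_⟩
  · exact le_trans (min_le_left _ _) (le_trans (by linarith) (le_max_left _ _))
  · intro s hs1 hs2
    by_cases hsδ : s < 1 + δ
    · have hmem : s ∈ Set.Ioo 1 u := ⟨hs1, by linarith⟩
      have := hsub hmem
      exact ⟨le_trans (min_le_left _ _) this.1.le, le_trans this.2.le (le_max_left _ _)⟩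
    · rw [not_lt] at hsδ
      have h1 := one_le_zetaR K hs1
      have h2 := zetaR_anti K (show 1 < 1 + δ by linarith) hsδ
      have h3 := zetaR_pos K hs1
      constructor
      · refine le_trans (min_le_right _ _) ?_
        nlinarith
      · refine le_trans ?_ (le_max_right _ _)
        nlinarith

/-- `log ζ_K(s) = log (1/(s-1)) + O(1)` on `(1, 2]`. -/
theorem exists_bound_log_zetaR :
    ∃ C : ℝ, ∀ s : ℝ, 1 < s → s ≤ 2 →
      |Real.log (zetaR K s) - Real.log (1 / (s - 1))| ≤ C := by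
  obtain ⟨m, M, hm, hmM, h⟩ := exists_bounds_sub_one_mul_zetaR K
  refine ⟨max |Real.log m| |Real.log M|, fun s hs1 hs2 => ?_⟩
  obtain ⟨h1, h2⟩ := h s hs1 hs2
  have hs0 : 0 < s - 1 := by linarith
  have hz := zetaR_pos K hs1
  have e : Real.log (zetaR K s) - Real.log (1 / (s - 1)) = Real.log ((s - 1) * zetaR K s) := by
    rw [Real.log_mul hs0.ne' hz.ne', one_div, Real.log_inv]
    ring
  rw [e]
  have hl1 : Real.log m ≤ Real.log ((s - 1) * zetaR K s) := Real.log_le_log hm h1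
  have hl2 : Real.log ((s - 1) * zetaR K s) ≤ Real.log M :=
    Real.log_le_log (lt_of_lt_of_le hm h1) h2
  rw [abs_le]
  constructor
  · have := neg_abs_le (Real.log m)
    have h3 := le_max_left |Real.log m| |Real.log M|
    linarith
  · have := le_abs_self (Real.log M)
    have h3 := le_max_right |Real.log m| |Real.log M|
    linarith

/-! ### Part 7: sums over primes -/

variable {K}

/-- `N(Q)^(-s)` for a prime `Q`. -/
noncomputable def pN (Q : HeightOneSpectrum (𝓞 K)) (s : ℝ) : ℝ :=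
  (Ideal.absNorm Q.asIdeal : ℝ) ^ (-s)

lemma pN_nonneg (Q : HeightOneSpectrum (𝓞 K)) (s : ℝ) : 0 ≤ pN Q s := by
  unfold pN
  positivity

lemma two_le_absNorm (Q : HeightOneSpectrum (𝓞 K)) : (2 : ℝ) ≤ (Ideal.absNorm Q.asIdeal : ℝ) := by
  have h0 : Ideal.absNorm Q.asIdeal ≠ 0 := by
    rw [Ne, Ideal.absNorm_eq_zero_iff]
    exact Q.ne_bot
  have h1 : Ideal.absNorm Q.asIdeal ≠ 1 := by
    rw [Ne, Ideal.absNorm_eq_one_iff]
    exact Q.isPrime.ne_top
  have : 2 ≤ Ideal.absNorm Q.asIdeal := by omega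
  exact_mod_cast this

lemma pN_le_half (Q : HeightOneSpectrum (𝓞 K)) {s : ℝ} (hs : 1 ≤ s) : pN Q s ≤ 1 / 2 := by
  unfold pN
  have h2 := two_le_absNorm Q
  have hpos : (0 : ℝ) < (Ideal.absNorm Q.asIdeal : ℝ) := by linarith
  rw [Real.rpow_neg hpos.le, one_div]
  apply inv_anti₀ (by norm_num)
  calc (2 : ℝ) = 2 ^ (1 : ℝ) := (Real.rpow_one 2).symm
    _ ≤ 2 ^ s := Real.rpow_le_rpow_of_exponent_le (by norm_num) hs
    _ ≤ (Ideal.absNorm Q.asIdeal : ℝ) ^ s := Real.rpow_le_rpow (by norm_num) h2 (by linarith)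

lemma pN_sq_le (Q : HeightOneSpectrum (𝓞 K)) {s : ℝ} (hs : 1 ≤ s) : pN Q s ^ 2 ≤ pN Q 2 := by
  unfold pN
  have h2 := two_le_absNorm Q
  have hpos : (0 : ℝ) < (Ideal.absNorm Q.asIdeal : ℝ) := by linarith
  rw [← Real.rpow_natCast, ← Real.rpow_mul hpos.le]
  apply Real.rpow_le_rpow_of_exponent_le (by linarith)
  push_cast
  linarith

lemma normPow_primeIdl (Q : HeightOneSpectrum (𝓞 K)) (s : ℝ) :
    normPow K s (primeIdl Q) = ((pN Q s : ℝ) : ℂ) := rfl

lemma summable_pN {s : ℝ} (hs : 1 < s) : Summable fun Q : HeightOneSpectrum (𝓞 K) => pN Q s := by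
  have h := (summable_absNorm_rpow K hs).comp_injective (primeIdl_injective (K := K))
  refine h.congr fun Q => ?_
  simp only [Function.comp_apply, coe_primeIdl, pN]

lemma tsum_pN_two_le : ∑' Q : HeightOneSpectrum (𝓞 K), pN Q 2 ≤ zetaR K 2 := by
  have h := summable_absNorm_rpow K (show (1 : ℝ) < 2 by norm_num)
  refine Summable.tsum_le_tsum_of_inj (primeIdl (K := K)) primeIdl_injective
    (fun I _ => by positivity) (fun Q => ?_) (summable_pN (show (1 : ℝ) < 2 by norm_num)) h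
  simp only [coe_primeIdl, pN]
  exact le_rfl

lemma summable_pN_sq {s : ℝ} (hs : 1 < s) :
    Summable fun Q : HeightOneSpectrum (𝓞 K) => pN Q s ^ 2 :=
  Summable.of_nonneg_of_le (fun _ => sq_nonneg _) (fun Q => pN_sq_le Q hs.le)
    (summable_pN (show (1 : ℝ) < 2 by norm_num))

lemma tsum_pN_sq_le {s : ℝ} (hs : 1 < s) :
    ∑' Q : HeightOneSpectrum (𝓞 K), pN Q s ^ 2 ≤ zetaR K 2 :=
  le_trans ((summable_pN_sq hs).tsum_le_tsum (fun Q => pN_sq_le Q hs.le)
    (summable_pN (show (1 : ℝ) < 2 by norm_num))) tsum_pN_two_le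

lemma summable_norm_normPow {s : ℝ} (hs : 1 < s) : Summable fun I : Idl K => ‖normPow K s I‖ := by
  refine (summable_absNorm_rpow K hs).congr fun I => ?_
  rw [normPow_apply, Complex.norm_real, Real.norm_eq_abs, abs_of_nonneg (by positivity)]

lemma tsum_normPow {s : ℝ} (hs : 1 < s) : ∑' I : Idl K, normPow K s I = ((zetaR K s : ℝ) : ℂ) := by
  rw [zetaR, Complex.ofReal_tsum]
  rfl

/-- `|∑_Q N(Q)^(-s) - log ζ_K(s)| ≤ ζ_K(2)` for `s > 1`. -/
theorem abs_tsum_pN_sub_log_zetaR_le {s : ℝ} (hs : 1 < s) :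
    |∑' Q : HeightOneSpectrum (𝓞 K), pN Q s - Real.log (zetaR K s)| ≤ zetaR K 2 := by
  have hz := zetaR_pos K hs
  have hnorm : ‖∑' I : Idl K, normPow K s I‖ = zetaR K s := by
    rw [tsum_normPow hs, Complex.norm_real, Real.norm_eq_abs, abs_of_pos hz]
  have hlow := exp_le_norm_tsum (normPow K s) (summable_norm_normPow hs) (fun Q => by
    rw [normPow_primeIdl, Complex.norm_real, Real.norm_eq_abs, abs_of_nonneg (pN_nonneg Q s)]
    linarith [pN_le_half Q hs.le])
  have hup := norm_tsum_le_exp (normPow K s) (summable_norm_normPow hs) (fun Q => pN Q s)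
    (fun Q => normPow_primeIdl Q s) (fun Q => pN_nonneg Q s) (fun Q => pN_le_half Q hs.le)
  rw [hnorm] at hlow hup
  have e1 : ∀ Q : HeightOneSpectrum (𝓞 K), (normPow K s (primeIdl Q)).re = pN Q s := fun Q => by
    rw [normPow_primeIdl, Complex.ofReal_re]
  have e2 : ∀ Q : HeightOneSpectrum (𝓞 K), ‖normPow K s (primeIdl Q)‖ ^ 2 = pN Q s ^ 2 := fun Q => by
    rw [normPow_primeIdl, Complex.norm_real, Real.norm_eq_abs, abs_of_nonneg (pN_nonneg Q s)]
  rw [tsum_congr e1, tsum_congr e2] at hlow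
  have h1 := (Real.le_log_iff_exp_le hz).mpr hlow
  have h2 := (Real.log_le_iff_le_exp hz).mpr hup
  have h3 := tsum_pN_sq_le (K := K) hs
  rw [abs_le]
  constructor <;> linarith

/-- **(E-A)** `∑_Q N(Q)^(-s) = log (1/(s-1)) + O(1)` on `(1, 2]`. -/
theorem exists_bound_tsum_pN (K : Type*) [Field K] [NumberField K] :
    ∃ C : ℝ, ∀ s : ℝ, 1 < s → s ≤ 2 →
      |∑' Q : HeightOneSpectrum (𝓞 K), pN Q s - Real.log (1 / (s - 1))| ≤ C := by
  obtain ⟨C, hC⟩ := exists_bound_log_zetaR K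
  refine ⟨zetaR K 2 + C, fun s hs1 hs2 => ?_⟩
  have h1 := abs_tsum_pN_sub_log_zetaR_le (K := K) hs1
  have h2 := hC s hs1 hs2
  have : ∑' Q : HeightOneSpectrum (𝓞 K), pN Q s - Real.log (1 / (s - 1))
      = (∑' Q : HeightOneSpectrum (𝓞 K), pN Q s - Real.log (zetaR K s))
        + (Real.log (zetaR K s) - Real.log (1 / (s - 1))) := by ring
  rw [this]
  exact (abs_add_le _ _).trans (add_le_add h1 h2)

/-- **(E-B)** For a completely multiplicative `f` bounded by `1`:
`exp (∑_Q Re f(Q) N(Q)^(-s) - ζ_K(2)) ≤ ‖∑_I f(I) N(I)^(-s)‖`. -/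
theorem exp_tsum_re_le_norm_tsum (f : Idl K →* ℂ) (hf : ∀ I, ‖f I‖ ≤ 1) {s : ℝ} (hs : 1 < s) :
    Summable (fun I : Idl K => ‖f I * normPow K s I‖) ∧
    Summable (fun Q : HeightOneSpectrum (𝓞 K) => (f (primeIdl Q)).re * pN Q s) ∧
    Real.exp (∑' Q : HeightOneSpectrum (𝓞 K), (f (primeIdl Q)).re * pN Q s - zetaR K 2)
      ≤ ‖∑' I : Idl K, f I * normPow K s I‖ := by
  have hsum : Summable (fun I : Idl K => ‖(f * normPow K s) I‖) := by
    refine Summable.of_nonneg_of_le (fun _ => norm_nonneg _) (fun I => ?_)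
      (summable_norm_normPow (K := K) hs)
    rw [MonoidHom.mul_apply, norm_mul]
    exact mul_le_of_le_one_left (norm_nonneg _) (hf I)
  have hb : ∀ Q : HeightOneSpectrum (𝓞 K), ‖(f * normPow K s) (primeIdl Q)‖ ≤ 1 := by
    intro Q
    rw [MonoidHom.mul_apply, norm_mul, normPow_primeIdl, Complex.norm_real, Real.norm_eq_abs,
      abs_of_nonneg (pN_nonneg Q s)]
    have := pN_le_half Q hs.le
    have h1 := hf (primeIdl Q)
    have h0 := norm_nonneg (f (primeIdl Q))
    nlinarith [pN_nonneg Q s]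
  have hlow := exp_le_norm_tsum (f * normPow K s) hsum hb
  have e1 : ∀ Q : HeightOneSpectrum (𝓞 K),
      ((f * normPow K s) (primeIdl Q)).re = (f (primeIdl Q)).re * pN Q s := fun Q => by
    rw [MonoidHom.mul_apply, normPow_primeIdl, Complex.re_mul_ofReal]
  have hsq : ∀ Q : HeightOneSpectrum (𝓞 K),
      ‖(f * normPow K s) (primeIdl Q)‖ ^ 2 ≤ pN Q s ^ 2 := fun Q => by
    rw [MonoidHom.mul_apply, norm_mul, normPow_primeIdl, Complex.norm_real, Real.norm_eq_abs,
      abs_of_nonneg (pN_nonneg Q s)]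
    have h1 := hf (primeIdl Q)
    have h0 := norm_nonneg (f (primeIdl Q))
    have hp := pN_nonneg Q s
    have : ‖f (primeIdl Q)‖ * pN Q s ≤ pN Q s := mul_le_of_le_one_left hp h1
    exact pow_le_pow_left₀ (mul_nonneg h0 hp) this 2
  have hsqsum : Summable fun Q : HeightOneSpectrum (𝓞 K) =>
      ‖(f * normPow K s) (primeIdl Q)‖ ^ 2 :=
    Summable.of_nonneg_of_le (fun _ => sq_nonneg _) hsq (summable_pN_sq hs)
  have hsq_le : ∑' Q : HeightOneSpectrum (𝓞 K), ‖(f * normPow K s) (primeIdl Q)‖ ^ 2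
      ≤ zetaR K 2 :=
    le_trans (hsqsum.tsum_le_tsum hsq (summable_pN_sq hs)) (tsum_pN_sq_le hs)
  have hresum : Summable (fun Q : HeightOneSpectrum (𝓞 K) => (f (primeIdl Q)).re * pN Q s) := by
    refine Summable.of_norm_bounded (summable_pN (K := K) hs) fun Q => ?_
    rw [Real.norm_eq_abs, abs_mul, abs_of_nonneg (pN_nonneg Q s)]
    refine mul_le_of_le_one_left (pN_nonneg Q s) ?_
    exact (Complex.abs_re_le_norm _).trans (hf _)
  refine ⟨hsum, hresum, ?_⟩
  rw [tsum_congr e1] at hlow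
  refine le_trans (Real.exp_le_exp.mpr ?_) hlow
  linarith

end Zeta

end Fermat.Agent.S14.Euler23
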