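/-
S14 package SPLIT (helper27), algebraic half:
a prime `Q` of `𝓞 K` (not over `p`, not dividing `u`) which is inert in `L ∋ β`, `β^p = u`,
is a prime at which `u` is NOT a `p`-th power residue.
-/
import Mathlib

set_option autoImplicit false

namespace Fermat.Agent.S14.Split27

open NumberField

section alg

variable {A B : Type*} [CommRing A] [CommRing B] [IsDomain B] [Algebra A B]

omit [IsDomain B] in
/-- an `A`-algebra automorphism of `B` preserves every extended ideal. -/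
theorem map_mem_of_mem_map (τ : B ≃ₐ[A] B) (Q : Ideal A) {x : B}
    (hx : x ∈ Q.map (algebraMap A B)) : τ x ∈ Q.map (algebraMap A B) := by
  have h1 : (Q.map (algebraMap A B)).map (τ : B →+* B) = Q.map (algebraMap A B) := by
    rw [Ideal.map_map]
    congr 1
    ext a
    simp
  rw [← h1]
  exact Ideal.mem_map_of_mem _ hx

/-- Key algebraic lemma (abstract form). `A ⊆ B` domains, `ζ ∈ A` a primitive `p`-th root of
unity, `β ∈ B` with `β^p = u ∈ A`, `τ` an `A`-automorphism of `B` with `τ β = ζ β`.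
If `Q` is a maximal ideal of `A` with `p ∉ Q`, `u ∉ Q` and `Q B` prime, then `u` is not a
`p`-th power modulo `Q`. -/
theorem not_pow_residue_of_map_isPrime {p : ℕ} (hp : p.Prime)
    (hinj : Function.Injective (algebraMap A B))
    {ζ : A} (hζ : IsPrimitiveRoot ζ p) {β : B} {u : A}
    (hβ : β ^ p = algebraMap A B u)
    (τ : B ≃ₐ[A] B) (hτ : τ β = algebraMap A B ζ * β)
    (Q : Ideal A) [hQ : Q.IsMaximal] (hQp : (p : A) ∉ Q) (hQu : u ∉ Q)
    (hin : (Q.map (algebraMap A B)).IsPrime) :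
    ¬ ∃ v : A, u - v ^ p ∈ Q := by
  rintro ⟨v, hv⟩
  have : NeZero p := ⟨hp.ne_zero⟩
  set 𝔔 := Q.map (algebraMap A B) with h𝔔
  -- comap of 𝔔 is Q
  have hcomap : 𝔔.comap (algebraMap A B) = Q := by
    have hle : Q ≤ 𝔔.comap (algebraMap A B) := Ideal.le_comap_map
    have hne : 𝔔.comap (algebraMap A B) ≠ ⊤ := by
      intro h
      have h1 : (1 : A) ∈ 𝔔.comap (algebraMap A B) := by rw [h]; trivial
      rw [Ideal.mem_comap, map_one] at h1
      exact hin.ne_top ((Ideal.eq_top_iff_one _).mpr h1)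
    exact (hQ.eq_of_le hne hle).symm
  have hζ' : IsPrimitiveRoot (algebraMap A B ζ) p := hζ.map_of_injective hinj
  set w := algebraMap A B v with hw
  -- β^p - w^p ∈ 𝔔
  have h1 : β ^ p - w ^ p ∈ 𝔔 := by
    have := Ideal.mem_map_of_mem (algebraMap A B) hv
    rwa [map_sub, map_pow, ← hβ] at this
  rw [hζ'.pow_sub_pow_eq_prod_sub_mul β w hp.pos] at h1
  obtain ⟨ζ₁, hζ₁mem, hζ₁⟩ := (hin.prod_mem_iff).mp h1
  -- ζ₁ is a power of ζ
  have hζ₁pow : ζ₁ ^ p = 1 := by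
    have := (Polynomial.mem_nthRootsFinset hp.pos (1 : B)).mp hζ₁mem
    exact this
  obtain ⟨j, -, hj⟩ := hζ'.eq_pow_of_pow_eq_one hζ₁pow
  have hfix : τ (ζ₁ * w) = ζ₁ * w := by
    rw [← hj, hw, ← map_pow, ← map_mul, τ.commutes]
  -- apply τ and subtract
  have h2 : τ (β - ζ₁ * w) ∈ 𝔔 := map_mem_of_mem_map τ Q hζ₁
  rw [map_sub, hfix, hτ] at h2
  have h3 : (algebraMap A B ζ - 1) * β ∈ 𝔔 := by
    have := 𝔔.sub_mem h2 hζ₁
    have e : algebraMap A B ζ * β - ζ₁ * w - (β - ζ₁ * w) = (algebraMap A B ζ - 1) * β := by ring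
    rwa [e] at this
  rcases hin.mem_or_mem h3 with h4 | h4
  · -- ζ - 1 ∈ 𝔔 ⇒ p ∈ 𝔔
    have hsum : ∑ i ∈ Finset.range p, (algebraMap A B ζ) ^ i = 0 :=
      hζ'.geom_sum_eq_zero hp.one_lt
    have hmem : ∀ i : ℕ, (algebraMap A B ζ) ^ i - 1 ∈ 𝔔 := by
      intro i
      have : (algebraMap A B ζ) ^ i - 1 = (algebraMap A B ζ - 1) *
          ∑ k ∈ Finset.range i, (algebraMap A B ζ) ^ k := by
        rw [mul_comm, geom_sum_mul]
      rw [this]
      exact 𝔔.mul_mem_right _ h4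
    have hp𝔔 : (p : B) ∈ 𝔔 := by
      have h5 : ∑ i ∈ Finset.range p, ((algebraMap A B ζ) ^ i - 1) ∈ 𝔔 :=
        𝔔.sum_mem fun i _ => hmem i
      rw [Finset.sum_sub_distrib, hsum, Finset.sum_const, Finset.card_range, zero_sub,
        nsmul_eq_mul, mul_one] at h5
      simpa using 𝔔.neg_mem h5
    have : (p : A) ∈ 𝔔.comap (algebraMap A B) := by
      rw [Ideal.mem_comap, map_natCast]; exact hp𝔔
    rw [hcomap] at this
    exact hQp this
  · -- β ∈ 𝔔 ⇒ u ∈ Q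
    have : algebraMap A B u ∈ 𝔔 := by
      rw [← hβ]
      exact 𝔔.pow_mem_of_mem h4 p hp.pos
    have : u ∈ 𝔔.comap (algebraMap A B) := this
    rw [hcomap] at this
    exact hQu this

end alg

section numberfield

variable {K L : Type*} [Field K] [NumberField K] [Field L] [NumberField L] [Algebra K L]

/-- Number field form: `L/K` with `σ ∈ Gal(L/K)`, `σ β = ζ β`, `β^p = u`. A maximal ideal `Q` of
`𝓞 K`, not containing `p` or `u`, which is inert in `L` (i.e. `Q 𝓞 L` is prime), is a prime at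
which `u` is not a `p`-th power residue. -/
theorem not_pow_residue_of_inert {p : ℕ} (hp : p.Prime)
    {ζ : 𝓞 K} (hζ : IsPrimitiveRoot ζ p) {β : 𝓞 L} {u : 𝓞 K}
    (hβ : β ^ p = algebraMap (𝓞 K) (𝓞 L) u)
    (σ : L ≃ₐ[K] L) (hσ : σ (β : L) = algebraMap K L (ζ : K) * (β : L))
    (Q : Ideal (𝓞 K)) [Q.IsMaximal] (hQp : (p : 𝓞 K) ∉ Q) (hQu : u ∉ Q)
    (hin : (Q.map (algebraMap (𝓞 K) (𝓞 L))).IsPrime) :
    ¬ ∃ v : 𝓞 K, u - v ^ p ∈ Q := by
  refine not_pow_residue_of_map_isPrime hp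
    (FaithfulSMul.algebraMap_injective (𝓞 K) (𝓞 L)) hζ hβ
    (galRestrict (𝓞 K) K L (𝓞 L) σ) ?_ Q hQp hQu hin
  apply RingOfIntegers.ext
  show algebraMap (𝓞 L) L ((galRestrict (𝓞 K) K L (𝓞 L) σ) β) =
    algebraMap (𝓞 L) L (algebraMap (𝓞 K) (𝓞 L) ζ * β)
  rw [algebraMap_galRestrict_apply, map_mul]
  show σ (β : L) = algebraMap (𝓞 L) L (algebraMap (𝓞 K) (𝓞 L) ζ) * (β : L)
  rw [hσ, ← IsScalarTower.algebraMap_apply (𝓞 K) (𝓞 L) L,
    IsScalarTower.algebraMap_apply (𝓞 K) K L]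

end numberfield

end Fermat.Agent.S14.Split27
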