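/-
S14 / blueprint 6 [SPLIT], analytic half (helper27).

`L/K` Galois extension of number fields of prime degree `p`.

* `efg_eq_finrank`, `split_of_not_inert`, `absNorm_eq_of_inertiaDegIn_eq_one`, `ramSet_finite`:
  per-prime algebra (a prime of `K` which is neither ramified nor inert has exactly `p` primes of
  `L` above it, all of the same absolute norm; finitely many primes ramify).
* `prime_sum_le`: the POINTWISE inequality, for every `s ≥ 0` with both prime sums summable,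
  `p · Σ_Q N(Q)^{-s} ≤ Σ_P N(P)^{-s} + p · Σ_{Q inert} N(Q)^{-s} + p · #ram`.
* `inert_density`: log form, `Σ_{Q inert} N(Q)^{-s} ≥ (1 - 1/p) log(1/(s-1)) - C` on `(1,2]` from
  the prime-sum asymptotics of `K` and `L` (taken as hypotheses, = helper92 E3).
* `nonRes_density`: the same lower bound for the set `nonResSet K p u` of
  `CoreIface.DensStatement` (degree-one primes `Q ∤ p` with `u` a non-residue), for
  `L = K(u^{1/p})`, using `Split27.not_pow_residue_of_inert`.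

All prime sums are indexed by `HeightOneSpectrum (𝓞 F)`; `nrmPow F s Q = (absNorm Q.asIdeal : ℝ) ^ (-s)`.
-/
import Mathlib
import Fermat.Agent.S14.Split27

set_option autoImplicit false
open NumberField Ideal IsDedekindDomain
namespace Fermat.Agent.S14.Split27

section PerPrime
variable {K L : Type*} [Field K] [NumberField K] [Field L] [NumberField L] [Algebra K L]
  [IsGalois K L]

theorem efg_eq_finrank (Q : Ideal (𝓞 K)) [Q.IsPrime] :
    (primesOver Q (𝓞 L)).ncard * (ramificationIdxIn Q (𝓞 L) * inertiaDegIn Q (𝓞 L)) =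
      Module.finrank K L := by
  rw [← IsGalois.card_aut_eq_finrank K L]
  exact Ideal.ncard_primesOver_mul_ramificationIdxIn_mul_inertiaDegIn Q (𝓞 L) Gal(L/K)

theorem map_isPrime_of_ncard_eq_one (Q : Ideal (𝓞 K)) [Q.IsMaximal] (hQ0 : Q ≠ ⊥)
    (he : ramificationIdxIn Q (𝓞 L) = 1) (hg : (primesOver Q (𝓞 L)).ncard = 1) :
    (Q.map (algebraMap (𝓞 K) (𝓞 L))).IsPrime := by
  obtain ⟨P, hP⟩ := Set.ncard_eq_one.mp hg
  have hPmem : P ∈ primesOver Q (𝓞 L) := by rw [hP]; exact Set.mem_singleton _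
  have : P.IsPrime := hPmem.1
  have : P.LiesOver Q := hPmem.2
  have hfin : (primesOver Q (𝓞 L)).toFinset = {P} := by
    ext x
    simp [hP]
  have h := Ideal.map_algebraMap_eq_finsetProd_pow (R := 𝓞 L) (S := 𝓞 K) (p := Q) hQ0
  rw [hfin, Finset.prod_singleton,
    ← ramificationIdxIn_eq_ramificationIdx Q P Gal(L/K), he, pow_one] at h
  rw [h]; infer_instance

variable {p : ℕ} [hp : Fact p.Prime]

theorem split_of_not_inert (hdeg : Module.finrank K L = p) (Q : Ideal (𝓞 K)) [Q.IsMaximal]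
    (hQ0 : Q ≠ ⊥) (he : ramificationIdxIn Q (𝓞 L) = 1)
    (hni : ¬ (Q.map (algebraMap (𝓞 K) (𝓞 L))).IsPrime) :
    (primesOver Q (𝓞 L)).ncard = p ∧ inertiaDegIn Q (𝓞 L) = 1 := by
  have h := efg_eq_finrank (K := K) (L := L) Q
  rw [he, one_mul, hdeg] at h
  have hdvd : (primesOver Q (𝓞 L)).ncard ∣ p := ⟨_, h.symm⟩
  rcases (Nat.dvd_prime hp.out).mp hdvd with h1 | h1
  · exact absurd (map_isPrime_of_ncard_eq_one Q hQ0 he h1) hni
  · refine ⟨h1, ?_⟩
    rw [h1] at h
    have hp0 : 0 < p := hp.out.pos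
    exact Nat.eq_of_mul_eq_mul_left hp0 (by rw [h, mul_one])

theorem absNorm_eq_of_inertiaDegIn_eq_one (Q : Ideal (𝓞 K)) [Q.IsMaximal] (hQ0 : Q ≠ ⊥)
    (hf : inertiaDegIn Q (𝓞 L) = 1) (P : Ideal (𝓞 L)) [P.IsPrime] [P.LiesOver Q] :
    absNorm P = absNorm Q := by
  have hPmax : P.IsMaximal :=
    Ideal.IsPrime.isMaximal inferInstance (Ideal.ne_bot_of_liesOver_of_ne_bot hQ0 P)
  have h1 := Ideal.absNorm_eq_pow_inertiaDeg'_of_liesOver P Q inferInstance hQ0
  rw [Ideal.inertiaDeg'_eq_inertiaDeg Q P, ← inertiaDegIn_eq_inertiaDeg Q P Gal(L/K), hf,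
    pow_one] at h1
  exact h1

variable (K L) in
/-- The primes of `K` which ramify in `L`. -/
def ramSet : Set (HeightOneSpectrum (𝓞 K)) :=
  {Q | ramificationIdxIn Q.asIdeal (𝓞 L) ≠ 1}

variable (K L) in
/-- The primes of `K` which are inert in `L`. -/
def inertSet : Set (HeightOneSpectrum (𝓞 K)) :=
  {Q | (Q.asIdeal.map (algebraMap (𝓞 K) (𝓞 L))).IsPrime}

attribute [local instance] FractionRing.liftAlgebra in
theorem ramSet_finite : (ramSet K L).Finite := by
  have hD : differentIdeal (𝓞 K) (𝓞 L) ≠ ⊥ := differentIdeal_ne_bot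
  have hfin := Ideal.finite_factors hD
  have hsub : (fun Q : HeightOneSpectrum (𝓞 K) => Q.asIdeal) '' (ramSet K L) ⊆
      (fun v : HeightOneSpectrum (𝓞 L) => v.asIdeal.under (𝓞 K)) ''
        {v | v.asIdeal ∣ differentIdeal (𝓞 K) (𝓞 L)} := by
    rintro _ ⟨Q, hQ, rfl⟩
    have : Q.asIdeal.IsMaximal := Q.isMaximal
    obtain ⟨⟨P, hPprime, hPover⟩⟩ := (inferInstance : Nonempty (primesOver Q.asIdeal (𝓞 L)))
    have hP0 : P ≠ ⊥ := Ideal.ne_bot_of_liesOver_of_ne_bot Q.ne_bot P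
    have he : ramificationIdxIn Q.asIdeal (𝓞 L) = P.ramificationIdx (𝓞 K) :=
      ramificationIdxIn_eq_ramificationIdx Q.asIdeal P Gal(L/K)
    have he0 : P.ramificationIdx (𝓞 K) ≠ 0 := (P.ramificationIdx_pos (𝓞 K)).ne'
    have he1 : P.ramificationIdx (𝓞 K) ≠ 1 := by rw [← he]; exact hQ
    have hdvd : P ^ (P.ramificationIdx (𝓞 K)) ∣ Q.asIdeal.map (algebraMap (𝓞 K) (𝓞 L)) := by
      rw [Ideal.dvd_iff_le, ← Ideal.ramificationIdx'_eq_ramificationIdx Q.asIdeal P Q.ne_bot]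
      exact Ideal.le_pow_ramificationIdx'
    have h2 := pow_sub_one_dvd_differentIdeal (𝓞 K) P _ Q.ne_bot hdvd
    have hPD : P ∣ differentIdeal (𝓞 K) (𝓞 L) := by
      refine dvd_trans ?_ h2
      exact dvd_pow_self P (by omega)
    refine ⟨⟨P, hPprime, hP0⟩, hPD, ?_⟩
    exact (hPover.over).symm
  have h1 : ((fun Q : HeightOneSpectrum (𝓞 K) => Q.asIdeal) '' (ramSet K L)).Finite :=
    (hfin.image _).subset hsub
  exact h1.of_finite_image (fun a _ b _ h => HeightOneSpectrum.ext h)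

end PerPrime

section Sums

/-- `N(Q)^(-s)`. -/
noncomputable def nrmPow (F : Type*) [Field F] [NumberField F] (s : ℝ)
    (Q : HeightOneSpectrum (𝓞 F)) : ℝ := (absNorm Q.asIdeal : ℝ) ^ (-s)

theorem nrmPow_nonneg (F : Type*) [Field F] [NumberField F] (s : ℝ)
    (Q : HeightOneSpectrum (𝓞 F)) : 0 ≤ nrmPow F s Q :=
  Real.rpow_nonneg (Nat.cast_nonneg _) _

theorem nrmPow_le_one (F : Type*) [Field F] [NumberField F] {s : ℝ} (hs : 0 ≤ s)
    (Q : HeightOneSpectrum (𝓞 F)) : nrmPow F s Q ≤ 1 := by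
  have h0 : absNorm Q.asIdeal ≠ 0 := by
    rw [Ne, Ideal.absNorm_eq_zero_iff]; exact Q.ne_bot
  have h1 : (1 : ℝ) ≤ (absNorm Q.asIdeal : ℝ) := by
    exact_mod_cast Nat.one_le_iff_ne_zero.mpr h0
  exact Real.rpow_le_one_of_one_le_of_nonpos h1 (by linarith)

variable {K L : Type*} [Field K] [NumberField K] [Field L] [NumberField L] [Algebra K L]
  [IsGalois K L] {p : ℕ} [hp : Fact p.Prime]

/-- Finite partial sums over split primes of `K`, multiplied by `p`, are bounded by the prime sum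
of `L`. -/
theorem sum_split_le (hdeg : Module.finrank K L = p) (s : ℝ)
    (hL : Summable (nrmPow L s)) (T : Finset (HeightOneSpectrum (𝓞 K)))
    (hT : ∀ Q ∈ T, Q ∉ ramSet K L ∧ Q ∉ inertSet K L) :
    (p : ℝ) * ∑ Q ∈ T, nrmPow K s Q ≤ ∑' P, nrmPow L s P := by
  classical
  have hmax : ∀ Q : T, Q.1.asIdeal.IsMaximal := fun Q => Q.1.isMaximal
  let ι := Σ Q : T, primesOver Q.1.asIdeal (𝓞 L)
  let i : ι → HeightOneSpectrum (𝓞 L) := fun x =>
    ⟨x.2.1, x.2.2.1,
      haveI := x.2.2.2; Ideal.ne_bot_of_liesOver_of_ne_bot x.1.1.ne_bot x.2.1⟩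
  have hi : Function.Injective i := by
    rintro ⟨Q, P⟩ ⟨Q', P'⟩ h
    have hP : P.1 = P'.1 := congrArg HeightOneSpectrum.asIdeal h
    have hQ : Q = Q' := by
      apply Subtype.ext
      apply HeightOneSpectrum.ext
      have h1 := P.2.2.over
      have h2 := P'.2.2.over
      rw [h1, h2, hP]
    subst hQ
    have : P = P' := Subtype.ext hP
    rw [this]
  have h1 : ∑' x, nrmPow L s (i x) ≤ ∑' P, nrmPow L s P :=
    tsum_comp_le_tsum_of_inj hL (fun _ => nrmPow_nonneg _ _ _) hi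
  have h2 : ∑' x : ι, nrmPow L s (i x) = (p : ℝ) * ∑ Q ∈ T, nrmPow K s Q := by
    rw [tsum_fintype, Fintype.sum_sigma, Finset.mul_sum, ← Finset.sum_coe_sort T]
    refine Finset.sum_congr rfl (fun Q _ => ?_)
    obtain ⟨hQr, hQi⟩ := hT Q.1 Q.2
    have he : ramificationIdxIn Q.1.asIdeal (𝓞 L) = 1 := not_not.mp hQr
    obtain ⟨hg, hf⟩ := split_of_not_inert hdeg Q.1.asIdeal Q.1.ne_bot he hQi
    have hterm : ∀ P : primesOver Q.1.asIdeal (𝓞 L),
        nrmPow L s (i ⟨Q, P⟩) = nrmPow K s Q.1 := by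
      intro P
      have := P.2.1
      have := P.2.2
      unfold nrmPow
      rw [show (i ⟨Q, P⟩).asIdeal = P.1 from rfl,
        absNorm_eq_of_inertiaDegIn_eq_one Q.1.asIdeal Q.1.ne_bot hf P.1]
    simp_rw [hterm]
    rw [Finset.sum_const, Finset.card_univ, nsmul_eq_mul]
    congr 1
    rw [← hg, ← Nat.card_coe_set_eq, Nat.card_eq_fintype_card]
  rw [← h2]; exact h1

/-- **Pointwise splitting inequality.** `L/K` Galois of prime degree `p`, `s ≥ 0` with both prime
sums summable: `p · Σ_Q N(Q)^{-s} ≤ Σ_P N(P)^{-s} + p · Σ_{Q inert} N(Q)^{-s} + p · #ram`. -/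
theorem prime_sum_le (hdeg : Module.finrank K L = p) {s : ℝ} (hs : 0 ≤ s)
    (hK : Summable (nrmPow K s)) (hL : Summable (nrmPow L s)) :
    (p : ℝ) * ∑' Q, nrmPow K s Q ≤
      ∑' P, nrmPow L s P + p * ∑' Q : inertSet K L, nrmPow K s Q +
        p * ((ramSet K L).ncard : ℝ) := by
  classical
  set f := nrmPow K s with hf
  have hf0 : ∀ Q, 0 ≤ f Q := nrmPow_nonneg K s
  set Ssp : Set (HeightOneSpectrum (𝓞 K)) := {Q | Q ∉ ramSet K L ∧ Q ∉ inertSet K L} with hSsp
  have hp0 : (0 : ℝ) < p := by exact_mod_cast hp.out.pos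
  -- pointwise
  have hpt : ∀ Q, f Q ≤ Ssp.indicator f Q + (inertSet K L).indicator f Q +
      (ramSet K L).indicator f Q := by
    intro Q
    by_cases h1 : Q ∈ ramSet K L
    · rw [Set.indicator_of_mem h1]
      have := Set.indicator_nonneg (s := Ssp) (fun a _ => hf0 a) Q
      have := Set.indicator_nonneg (s := inertSet K L) (fun a _ => hf0 a) Q
      linarith
    · by_cases h2 : Q ∈ inertSet K L
      · rw [Set.indicator_of_mem h2]
        have := Set.indicator_nonneg (s := Ssp) (fun a _ => hf0 a) Q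
        have := Set.indicator_nonneg (s := ramSet K L) (fun a _ => hf0 a) Q
        linarith
      · have h3 : Q ∈ Ssp := ⟨h1, h2⟩
        rw [Set.indicator_of_mem h3]
        have := Set.indicator_nonneg (s := inertSet K L) (fun a _ => hf0 a) Q
        have := Set.indicator_nonneg (s := ramSet K L) (fun a _ => hf0 a) Q
        linarith
  have hs1 : Summable (Ssp.indicator f) := hK.indicator _
  have hs2 : Summable ((inertSet K L).indicator f) := hK.indicator _
  have hs3 : Summable ((ramSet K L).indicator f) := hK.indicator _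
  have hsum : ∑' Q, f Q ≤ ∑' Q, Ssp.indicator f Q + ∑' Q, (inertSet K L).indicator f Q +
      ∑' Q, (ramSet K L).indicator f Q := by
    rw [← (hs1.tsum_add hs2), ← ((hs1.add hs2).tsum_add hs3)]
    exact hK.tsum_le_tsum hpt ((hs1.add hs2).add hs3)
  -- split part
  have hsplit : (p : ℝ) * ∑' Q, Ssp.indicator f Q ≤ ∑' P, nrmPow L s P := by
    have : ∑' Q, Ssp.indicator f Q ≤ (∑' P, nrmPow L s P) / p := by
      apply Real.tsum_le_of_sum_le (fun Q => Set.indicator_nonneg (fun a _ => hf0 a) Q)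
      intro u
      rw [le_div_iff₀ hp0, mul_comm, Finset.sum_indicator_eq_sum_filter]
      exact sum_split_le hdeg s hL _ (fun Q hQ => (Finset.mem_filter.mp hQ).2)
    calc (p : ℝ) * ∑' Q, Ssp.indicator f Q ≤ p * ((∑' P, nrmPow L s P) / p) :=
          mul_le_mul_of_nonneg_left this hp0.le
      _ = ∑' P, nrmPow L s P := by field_simp
  -- ramified part
  have hram : ∑' Q, (ramSet K L).indicator f Q ≤ ((ramSet K L).ncard : ℝ) := by
    have hfin := ramSet_finite (K := K) (L := L)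
    rw [tsum_eq_sum (s := hfin.toFinset) (fun Q hQ => by
      rw [Set.indicator_of_notMem]; simpa using hQ)]
    rw [Set.ncard_eq_toFinset_card _ hfin]
    calc ∑ Q ∈ hfin.toFinset, (ramSet K L).indicator f Q ≤ ∑ _Q ∈ hfin.toFinset, (1 : ℝ) := by
          apply Finset.sum_le_sum
          intro Q hQ
          rw [Set.indicator_of_mem (by simpa using hQ)]
          exact nrmPow_le_one K hs Q
      _ = (hfin.toFinset.card : ℝ) := by simp
  rw [tsum_subtype (inertSet K L) f]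
  calc (p : ℝ) * ∑' Q, f Q ≤ p * (∑' Q, Ssp.indicator f Q + ∑' Q, (inertSet K L).indicator f Q +
        ∑' Q, (ramSet K L).indicator f Q) := mul_le_mul_of_nonneg_left hsum hp0.le
    _ = p * ∑' Q, Ssp.indicator f Q + p * ∑' Q, (inertSet K L).indicator f Q +
        p * ∑' Q, (ramSet K L).indicator f Q := by ring
    _ ≤ _ := by
        have := mul_le_mul_of_nonneg_left hram hp0.le
        linarith

/-- **Log form.** If `Σ_Q N(Q)^{-s} ≥ log(1/(s-1)) - C` for `K` and `Σ_P N(P)^{-s} ≤ log(1/(s-1)) + C`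
for `L` on `(1,2]`, then the inert primes have lower Dirichlet density at least `1 - 1/p`. -/
theorem inert_density (hdeg : Module.finrank K L = p)
    (hK : ∃ C : ℝ, ∀ s : ℝ, 1 < s → s ≤ 2 →
      Summable (nrmPow K s) ∧ Real.log (1 / (s - 1)) - C ≤ ∑' Q, nrmPow K s Q)
    (hL : ∃ C : ℝ, ∀ s : ℝ, 1 < s → s ≤ 2 →
      Summable (nrmPow L s) ∧ ∑' P, nrmPow L s P ≤ Real.log (1 / (s - 1)) + C) :
    ∃ C : ℝ, ∀ s : ℝ, 1 < s → s ≤ 2 →
      (1 - 1 / (p : ℝ)) * Real.log (1 / (s - 1)) - C ≤ ∑' Q : inertSet K L, nrmPow K s Q := by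
  obtain ⟨CK, hCK⟩ := hK
  obtain ⟨CL, hCL⟩ := hL
  have hp0 : (0 : ℝ) < p := by exact_mod_cast hp.out.pos
  refine ⟨CK + CL / p + ((ramSet K L).ncard : ℝ), fun s hs1 hs2 => ?_⟩
  obtain ⟨hsK, hlK⟩ := hCK s hs1 hs2
  obtain ⟨hsL, hlL⟩ := hCL s hs1 hs2
  have hmain := prime_sum_le hdeg (by linarith : (0 : ℝ) ≤ s) hsK hsL
  set X := ∑' Q : inertSet K L, nrmPow K s Q
  set lg := Real.log (1 / (s - 1))
  have h1 : (p : ℝ) * (lg - CK) ≤ p * ∑' Q, nrmPow K s Q :=
    mul_le_mul_of_nonneg_left hlK hp0.le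
  have h2 : (p : ℝ) * ((1 - 1 / (p : ℝ)) * lg - (CK + CL / p + ((ramSet K L).ncard : ℝ))) ≤
      p * X := by
    have : (p : ℝ) * ((1 - 1 / (p : ℝ)) * lg - (CK + CL / p + ((ramSet K L).ncard : ℝ))) =
        p * (lg - CK) - (lg + CL) - p * ((ramSet K L).ncard : ℝ) := by
      field_simp
      ring
    rw [this]
    linarith
  exact le_of_mul_le_mul_left h2 hp0

/-- The sum of `N(Q)^{-s}` over a finite set of primes is at most its cardinality. -/
theorem tsum_indicator_le_ncard (F : Type*) [Field F] [NumberField F] {s : ℝ} (hs : 0 ≤ s)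
    {E : Set (HeightOneSpectrum (𝓞 F))} (hE : E.Finite) :
    ∑' Q, E.indicator (nrmPow F s) Q ≤ (E.ncard : ℝ) := by
  classical
  rw [tsum_eq_sum (s := hE.toFinset) (fun Q hQ => by
    rw [Set.indicator_of_notMem]; simpa using hQ)]
  rw [Set.ncard_eq_toFinset_card _ hE]
  calc ∑ Q ∈ hE.toFinset, E.indicator (nrmPow F s) Q ≤ ∑ _Q ∈ hE.toFinset, (1 : ℝ) := by
        apply Finset.sum_le_sum
        intro Q hQ
        rw [Set.indicator_of_mem (by simpa using hQ)]
        exact nrmPow_le_one F hs Q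
    _ = (hE.toFinset.card : ℝ) := by simp

/-- The primes containing a given nonzero element are finite in number. -/
theorem finite_setOf_mem (F : Type*) [Field F] [NumberField F] {x : 𝓞 F} (hx : x ≠ 0) :
    {Q : HeightOneSpectrum (𝓞 F) | x ∈ Q.asIdeal}.Finite := by
  have h : Ideal.span {x} ≠ (0 : Ideal (𝓞 F)) := by
    rw [Ne, Ideal.zero_eq_bot, Ideal.span_singleton_eq_bot]; exact hx
  refine (Ideal.finite_factors h).subset ?_
  intro Q hQ
  show Q.asIdeal ∣ Ideal.span {x}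
  rw [Ideal.dvd_iff_le, Ideal.span_singleton_le_iff_mem]
  exact hQ

/-- The set of degree-one primes `Q ∤ p` of `K` modulo which `u` is not a `p`-th power
(the set `S` of `CoreIface.DensStatement`). -/
def nonResSet (K : Type*) [Field K] [NumberField K] (p : ℕ) (u : 𝓞 K) :
    Set (HeightOneSpectrum (𝓞 K)) :=
  {Q | (absNorm Q.asIdeal).Prime ∧ (p : 𝓞 K) ∉ Q.asIdeal ∧ ¬ ∃ x : 𝓞 K, x ^ p - u ∈ Q.asIdeal}

/-- The primes of `K` whose absolute norm is not a prime number (residue degree `≥ 2`). -/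
def degGeTwoSet (K : Type*) [Field K] [NumberField K] : Set (HeightOneSpectrum (𝓞 K)) :=
  {Q | ¬ (absNorm Q.asIdeal).Prime}

omit [IsGalois K L] in
/-- An inert prime of degree one, not dividing `p u`, is in `nonResSet`. -/
theorem mem_nonResSet_of_inert {ζ : 𝓞 K} (hζ : IsPrimitiveRoot ζ p) {β : 𝓞 L} {u : 𝓞 K}
    (hβ : β ^ p = algebraMap (𝓞 K) (𝓞 L) u)
    (σ : L ≃ₐ[K] L) (hσ : σ (β : L) = algebraMap K L (ζ : K) * (β : L))
    (Q : HeightOneSpectrum (𝓞 K)) (hin : Q ∈ inertSet K L) (h1 : (absNorm Q.asIdeal).Prime)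
    (h2 : (p : 𝓞 K) ∉ Q.asIdeal) (h3 : u ∉ Q.asIdeal) : Q ∈ nonResSet K p u := by
  refine ⟨h1, h2, ?_⟩
  rintro ⟨x, hx⟩
  have : Q.asIdeal.IsMaximal := Q.isMaximal
  refine not_pow_residue_of_inert hp.out hζ hβ σ hσ Q.asIdeal h2 h3 hin ⟨x, ?_⟩
  have := Q.asIdeal.neg_mem hx
  rwa [neg_sub] at this

/-- **SPLIT, final form.** `K ∋ ζ_p`, `L = K(β)`, `β^p = u ∈ 𝓞 K`, `u ≠ 0`, `[L:K] = p`, `L/K` Galois with
`σ β = ζ β`.  Given the prime-sum asymptotics of `K` (lower bound) and `L` (upper bound) and the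
boundedness of the contribution of the primes of degree `≥ 2` of `K`, the set of degree-one
primes `Q ∤ p` modulo which `u` is not a `p`-th power has lower Dirichlet density `≥ 1 - 1/p`. -/
theorem nonRes_density (hdeg : Module.finrank K L = p)
    {ζ : 𝓞 K} (hζ : IsPrimitiveRoot ζ p) {β : 𝓞 L} {u : 𝓞 K} (hu : u ≠ 0)
    (hβ : β ^ p = algebraMap (𝓞 K) (𝓞 L) u)
    (σ : L ≃ₐ[K] L) (hσ : σ (β : L) = algebraMap K L (ζ : K) * (β : L))
    (hK : ∃ C : ℝ, ∀ s : ℝ, 1 < s → s ≤ 2 →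
      Summable (nrmPow K s) ∧ Real.log (1 / (s - 1)) - C ≤ ∑' Q, nrmPow K s Q)
    (hL : ∃ C : ℝ, ∀ s : ℝ, 1 < s → s ≤ 2 →
      Summable (nrmPow L s) ∧ ∑' P, nrmPow L s P ≤ Real.log (1 / (s - 1)) + C)
    (hdeg2 : ∃ C : ℝ, ∀ s : ℝ, 1 < s → s ≤ 2 → ∑' Q : degGeTwoSet K, nrmPow K s Q ≤ C) :
    ∃ C : ℝ, ∀ s : ℝ, 1 < s → s ≤ 2 →
      (1 - 1 / (p : ℝ)) * Real.log (1 / (s - 1)) - C ≤ ∑' Q : nonResSet K p u, nrmPow K s Q := by
  classical
  obtain ⟨C1, hC1⟩ := inert_density hdeg hK hL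
  obtain ⟨C2, hC2⟩ := hdeg2
  obtain ⟨CK, hCK⟩ := hK
  have hpK : (p : 𝓞 K) ≠ 0 := by exact_mod_cast hp.out.ne_zero
  have hEp := finite_setOf_mem K hpK
  have hEu := finite_setOf_mem K hu
  set Ep : Set (HeightOneSpectrum (𝓞 K)) := {Q | (p : 𝓞 K) ∈ Q.asIdeal} with hEpdef
  set Eu : Set (HeightOneSpectrum (𝓞 K)) := {Q | u ∈ Q.asIdeal} with hEudef
  refine ⟨C1 + C2 + (Ep.ncard : ℝ) + (Eu.ncard : ℝ), fun s hs1 hs2 => ?_⟩
  have hs0 : (0 : ℝ) ≤ s := by linarith
  obtain ⟨hsK, -⟩ := hCK s hs1 hs2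
  set f := nrmPow K s with hf
  have hf0 : ∀ Q, 0 ≤ f Q := nrmPow_nonneg K s
  have hpt : ∀ Q, (inertSet K L).indicator f Q ≤ (nonResSet K p u).indicator f Q +
      (degGeTwoSet K).indicator f Q + Ep.indicator f Q + Eu.indicator f Q := by
    intro Q
    have n1 := Set.indicator_nonneg (s := nonResSet K p u) (fun a _ => hf0 a) Q
    have n2 := Set.indicator_nonneg (s := degGeTwoSet K) (fun a _ => hf0 a) Q
    have n3 := Set.indicator_nonneg (s := Ep) (fun a _ => hf0 a) Q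
    have n4 := Set.indicator_nonneg (s := Eu) (fun a _ => hf0 a) Q
    by_cases hin : Q ∈ inertSet K L
    · rw [Set.indicator_of_mem hin]
      by_cases h1 : (absNorm Q.asIdeal).Prime
      · by_cases h2 : (p : 𝓞 K) ∈ Q.asIdeal
        · have : Q ∈ Ep := h2
          rw [Set.indicator_of_mem this]; linarith
        · by_cases h3 : u ∈ Q.asIdeal
          · have : Q ∈ Eu := h3
            rw [Set.indicator_of_mem this]; linarith
          · have := mem_nonResSet_of_inert hζ hβ σ hσ Q hin h1 h2 h3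
            rw [Set.indicator_of_mem this]; linarith
      · have : Q ∈ degGeTwoSet K := h1
        rw [Set.indicator_of_mem this]; linarith
    · rw [Set.indicator_of_notMem hin]; linarith
  have hs1' : Summable ((nonResSet K p u).indicator f) := hsK.indicator _
  have hs2' : Summable ((degGeTwoSet K).indicator f) := hsK.indicator _
  have hs3' : Summable (Ep.indicator f) := hsK.indicator _
  have hs4' : Summable (Eu.indicator f) := hsK.indicator _
  have hs0' : Summable ((inertSet K L).indicator f) := hsK.indicator _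
  have hsum : ∑' Q, (inertSet K L).indicator f Q ≤ ∑' Q, (nonResSet K p u).indicator f Q +
      ∑' Q, (degGeTwoSet K).indicator f Q + ∑' Q, Ep.indicator f Q + ∑' Q, Eu.indicator f Q := by
    rw [← (hs1'.tsum_add hs2'), ← ((hs1'.add hs2').tsum_add hs3'),
      ← (((hs1'.add hs2').add hs3').tsum_add hs4')]
    exact hs0'.tsum_le_tsum hpt (((hs1'.add hs2').add hs3').add hs4')
  have hb3 := tsum_indicator_le_ncard K hs0 hEp
  have hb4 := tsum_indicator_le_ncard K hs0 hEu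
  have hb2 := hC2 s hs1 hs2
  have hb1 := hC1 s hs1 hs2
  rw [tsum_subtype (degGeTwoSet K) f] at hb2
  rw [tsum_subtype (inertSet K L) f] at hb1
  rw [tsum_subtype (nonResSet K p u) f]
  linarith

end Sums
end Fermat.Agent.S14.Split27
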