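/-
S14 / blueprint 6, K3 final wiring (helper27).

`densStatement_of : ExtHyp → E2Hyp → CntHyp → DensStatement`, where
* `ExtHyp`  = existence of the Kummer extension `K(u^{1/p})` as a number field (helper13 S2),
* `E2Hyp`   = the primes of residue degree `≥ 2` contribute `O(1)` to the prime sum (helper92 E2),
* `CntHyp`  = boundedness on `(1,2]` of the `L`-series of the non-trivial powers of a class group
              character of order `p` (CNT + helper92's adapter), in the shape of `Euler92.dens_false`.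
Everything else (E3 = `Euler23.exists_bound_tsum_pN`, SPLIT = `Split27.nonRes_density`,
DENS = `Euler92.dens_false`) is already proved.
-/
import Mathlib
import Fermat.Agent.S14.CoreIface
import Fermat.Agent.S14.Euler23
import Fermat.Agent.S14.Euler92.Dens
import Fermat.Agent.S14.Split27Density

set_option autoImplicit false

namespace Fermat.Agent.S14.DensWire27

open NumberField IsDedekindDomain nonZeroDivisors
open Fermat.Agent.S14.Split27

/-- Existence of the Kummer extension `K(u^{1/p})` as a number field, Galois of degree `p` over `K`,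
with an integral `p`-th root `β` of `u` and an automorphism `σ` with `σ β = ζ β`. -/
def ExtHyp : Prop :=
  ∀ (K : Type) [Field K] [NumberField K] (p : ℕ) [Fact p.Prime] (ζ : K), IsPrimitiveRoot ζ p →
  ∀ (u : 𝓞 K), u ≠ 0 → (¬ ∃ v : K, v ^ p = (u : K)) →
  ∃ (L : Type) (_ : Field L) (_ : NumberField L) (_ : Algebra K L) (_ : IsGalois K L),
    Module.finrank K L = p ∧ ∃ (β : 𝓞 L) (σ : L ≃ₐ[K] L),
      β ^ p = algebraMap (𝓞 K) (𝓞 L) u ∧ σ (β : L) = algebraMap K L ζ * (β : L)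

/-- The primes of residue degree `≥ 2` contribute `O(1)` to the prime sum on `(1,2]`. -/
def E2Hyp : Prop :=
  ∀ (K : Type) [Field K] [NumberField K], ∃ C : ℝ, ∀ s : ℝ, 1 < s → s ≤ 2 →
    ∑' Q : degGeTwoSet K, nrmPow K s Q ≤ C

/-- The class-group character `ψ`, extended to all ideals, has bounded `L(σ, ψ^j)` on `(1,2]` for
`0 < j < p`. -/
def CntHyp : Prop :=
  ∀ (K : Type) [Field K] [NumberField K] (p : ℕ) [Fact p.Prime]
    (ψ : ClassGroup (𝓞 K) →* ℂˣ), (∀ c, ψ c ^ p = 1) → ψ ≠ 1 →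
  ∃ Ψ : Ideal (𝓞 K) →*₀ ℂ,
    (∀ (I : Ideal (𝓞 K)) (hI : I ≠ ⊥), Ψ I = ((ψ (ClassGroup.mk0 (primeNZ I hI)) : ℂˣ) : ℂ)) ∧
    ∀ j : ℕ, 0 < j → j < p → ∃ B : ℝ, ∀ σ : ℝ, 1 < σ → σ ≤ 2 → ‖Euler92.Lfun K Ψ j σ‖ ≤ B

section Transfer

variable {K : Type*} [Field K] [NumberField K]

/-- Transfer of a prime sum from a set of `HeightOneSpectrum` to the set of the underlying
ideals. -/
theorem tsum_image_asIdeal (T : Set (HeightOneSpectrum (𝓞 K))) (s : ℝ) :
    ∑' Q : ((fun Q : HeightOneSpectrum (𝓞 K) => Q.asIdeal) '' T : Set (Ideal (𝓞 K))),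
      Euler92.normPow K s (Q : Ideal (𝓞 K)) = ∑' Q : T, nrmPow K s Q := by
  have hinj : Function.Injective (fun Q : HeightOneSpectrum (𝓞 K) => Q.asIdeal) :=
    fun a b h => HeightOneSpectrum.ext h
  let e : T ≃ ((fun Q : HeightOneSpectrum (𝓞 K) => Q.asIdeal) '' T : Set (Ideal (𝓞 K))) :=
    Equiv.Set.image _ T hinj
  rw [← e.tsum_eq]
  refine tsum_congr (fun Q => ?_)
  show Euler92.normPow K s (Q.1.asIdeal) = nrmPow K s Q.1
  rw [Euler92.normPow_apply_of_ne_bot s Q.1.ne_bot]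
  rfl

end Transfer

theorem densStatement_of (hExt : ExtHyp) (hE2 : E2Hyp) (hCNT : CntHyp) : DensStatement := by
  intro K _ _ p _ hp2 ζ hζ u hu0 hnot ψ hψp hψ1 hS
  have hpp : p.Prime := Fact.out
  have : NeZero p := ⟨hpp.ne_zero⟩
  obtain ⟨L, _, _, _, _, hdeg, β, σ, hβ, hσ⟩ := hExt K p ζ hζ u hu0 hnot
  -- E3 for `K` and `L`
  obtain ⟨CK, hCK⟩ := Euler23.exists_bound_tsum_pN K
  obtain ⟨CL, hCL⟩ := Euler23.exists_bound_tsum_pN L
  have hK : ∃ C : ℝ, ∀ s : ℝ, 1 < s → s ≤ 2 →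
      Summable (nrmPow K s) ∧ Real.log (1 / (s - 1)) - C ≤ ∑' Q, nrmPow K s Q := by
    refine ⟨CK, fun s hs1 hs2 => ⟨Euler23.summable_pN hs1, ?_⟩⟩
    have := (abs_le.mp (hCK s hs1 hs2)).1
    have h2 : ∑' Q : HeightOneSpectrum (𝓞 K), Euler23.pN Q s = ∑' Q, nrmPow K s Q := rfl
    linarith
  have hL : ∃ C : ℝ, ∀ s : ℝ, 1 < s → s ≤ 2 →
      Summable (nrmPow L s) ∧ ∑' P, nrmPow L s P ≤ Real.log (1 / (s - 1)) + C := by
    refine ⟨CL, fun s hs1 hs2 => ⟨Euler23.summable_pN hs1, ?_⟩⟩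
    have := (abs_le.mp (hCL s hs1 hs2)).2
    have h2 : ∑' Q : HeightOneSpectrum (𝓞 L), Euler23.pN Q s = ∑' Q, nrmPow L s Q := rfl
    linarith
  -- SPLIT
  have hζ' : IsPrimitiveRoot hζ.toInteger p := hζ.toInteger_isPrimitiveRoot
  obtain ⟨C, hC⟩ := nonRes_density hdeg hζ' hu0 hβ σ hσ hK hL (hE2 K)
  -- CNT
  obtain ⟨Ψ, hΨ, hB⟩ := hCNT K p ψ hψp hψ1
  refine Euler92.dens_false hpp (ψ := Ψ) ?_ hB
    ((fun Q : HeightOneSpectrum (𝓞 K) => Q.asIdeal) '' nonResSet K p u) ?_ ?_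
    (c := 1 - 1 / (p : ℝ)) (C₀ := C) ?_ ?_
  · intro I hI
    rw [hΨ I hI, ← Units.val_pow_eq_pow_val, hψp]
    rfl
  · rintro _ ⟨Q, -, rfl⟩
    exact Q.prime
  · rintro _ ⟨Q, hQ, rfl⟩
    obtain ⟨h1, h2, h3⟩ := hQ
    have := Q.isPrime
    rw [hΨ Q.asIdeal Q.ne_bot, hS Q.asIdeal Q.ne_bot h1 h2 h3]
    rfl
  · have h3 : (3 : ℝ) ≤ p := by
      have : 3 ≤ p := by
        rcases hpp.eq_two_or_odd with h | h
        · exact absurd h hp2
        · have := hpp.two_le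
          omega
      exact_mod_cast this
    have hp0 : (p : ℝ) ≠ 0 := by positivity
    have : (1 - 1 / (p : ℝ)) * p = p - 1 := by field_simp
    rw [this]; linarith
  · intro s hs1 hs2
    rw [tsum_image_asIdeal]
    exact hC s hs1 hs2

end Fermat.Agent.S14.DensWire27
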