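/-
S14 / blueprint 6, K3 (helper27): `theorem densStatement : DensStatement` (CoreIface, verbatim).

Inputs, all landed: EXT = helper13 `Split13.exists_kummer_ext`; E2 = helper92
`Euler92.primeSum_nonprime_tsum_bound`; E3 = helper23 `Euler23.exists_bound_tsum_pN`;
CNT = helper17 `Cnt.Adapter92.hCNT_idealChar`; SPLIT = `Split27.nonRes_density`;
DENS = helper92 `Euler92.dens_false`; wiring = `DensWire27.densStatement_of`.
-/
import Mathlib
import Fermat.Agent.S14.DensWire27
import Fermat.Agent.S14.Split13.Ext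
import Fermat.Agent.S14.Euler92.PrimeSum
import Fermat.Agent.S14.Cnt.Adapter92

set_option autoImplicit false

namespace Fermat.Agent.S14.DensWire27

open NumberField IsDedekindDomain nonZeroDivisors
open Fermat.Agent.S14.Split27

theorem extHyp : ExtHyp := by
  intro K _ _ p _ ζ hζ u hu0 hnot
  have hpp : p.Prime := Fact.out
  have : NeZero p := ⟨hpp.ne_zero⟩
  obtain ⟨L, i1, i2, i3, i4, hdeg, β, σ, hβ, hσ⟩ :=
    Split13.exists_kummer_ext K p hζ.toInteger hζ.toInteger_isPrimitiveRoot u hnot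
  refine ⟨L, i1, i2, i3, i4, hdeg, β, σ, hβ, ?_⟩
  have h1 := congrArg (fun x : 𝓞 L => (x : L)) hσ
  have h2 : ((σ • β : 𝓞 L) : L) = σ (β : L) := rfl
  have h3 : ((algebraMap (𝓞 K) (𝓞 L) hζ.toInteger * β : 𝓞 L) : L) =
      algebraMap K L ζ * (β : L) := by
    show algebraMap (𝓞 L) L (algebraMap (𝓞 K) (𝓞 L) hζ.toInteger * β) = _
    rw [map_mul]
    rfl
  rw [← h2, ← h3]
  exact h1

theorem e2Hyp : E2Hyp := by
  intro K _ _
  obtain ⟨C, hC⟩ := Euler92.primeSum_nonprime_tsum_bound K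
  exact ⟨C, fun s hs1 _ => hC s hs1⟩

theorem cntHyp : CntHyp := by
  intro K _ _ p _ ψ hψp hψ1
  refine ⟨Cnt.Adapter92.idealChar ψ, fun I hI => ?_, Cnt.Adapter92.hCNT_idealChar Fact.out ψ hψp hψ1⟩
  exact Cnt.Adapter92.idealChar_apply ψ (primeNZ I hI)

/-- **K3 / DENS** of `CoreIface`. -/
theorem densStatement : DensStatement :=
  densStatement_of extHyp e2Hyp cntHyp

end Fermat.Agent.S14.DensWire27
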