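/-
S14, package K6 (CORE assembly), helper6.
`CoreStatement p K` from K2 (THAINE) + K3 (DENS) + K4 (ULOG) + K4/K5 (UNITS) + K6a (MOD).
-/
import Fermat.Agent.S14.CoreIface

set_option autoImplicit false

namespace Fermat.Agent.S14.Core6

open NumberField nonZeroDivisors IsCyclotomicExtension.Rat

section Cyclo

variable {p : ℕ} [hp : Fact p.Prime] {K : Type} [Field K] [NumberField K]
  [hK : IsCyclotomicExtension {p} ℚ K] {ζ : K} (hζ : IsPrimitiveRoot ζ p)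

/-- Every element of `𝓞 K` is congruent to a rational integer modulo `ζ - 1`. -/
theorem exists_int_sub_dvd (β : 𝓞 K) : ∃ b : ℤ, hζ.toInteger - 1 ∣ β - (b : 𝓞 K) := by
  have htop := IsCyclotomicExtension.Rat.adjoin_singleton_eq_top (n := p) hζ
  have hβ : β ∈ Algebra.adjoin ℤ ({hζ.toInteger} : Set (𝓞 K)) := by
    rw [htop]; exact Algebra.mem_top
  induction hβ using Algebra.adjoin_induction with
  | mem x hx =>
    rw [Set.mem_singleton_iff] at hx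
    subst hx
    exact ⟨1, by simp⟩
  | algebraMap r =>
    exact ⟨r, by simp⟩
  | add x y _ _ hx hy =>
    obtain ⟨a, ha⟩ := hx
    obtain ⟨b, hb⟩ := hy
    refine ⟨a + b, ?_⟩
    have : x + y - ((a + b : ℤ) : 𝓞 K) = (x - a) + (y - b) := by push_cast; ring
    rw [this]
    exact dvd_add ha hb
  | mul x y _ _ hx hy =>
    obtain ⟨a, ha⟩ := hx
    obtain ⟨b, hb⟩ := hy
    refine ⟨a * b, ?_⟩
    have : x * y - ((a * b : ℤ) : 𝓞 K) = (x - a) * y + (a : 𝓞 K) * (y - b) := by push_cast; ring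
    rw [this]
    exact dvd_add (Dvd.dvd.mul_right ha _) (Dvd.dvd.mul_left hb _)

/-- If `λ ∣ x - y` then `λ ^ p ∣ x ^ p - y ^ p` (`λ = ζ - 1`). -/
theorem lambda_pow_dvd_pow_sub_pow {x y : 𝓞 K} (h : hζ.toInteger - 1 ∣ x - y) :
    (hζ.toInteger - 1) ^ p ∣ x ^ p - y ^ p := by
  have hpos : 0 < p := hp.out.pos
  have hprim := hζ.toInteger_isPrimitiveRoot
  rw [hprim.pow_sub_pow_eq_prod_sub_mul x y hpos]
  have hcard : (Polynomial.nthRootsFinset p (1 : 𝓞 K)).card = p := hprim.card_nthRootsFinset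
  have hprod : (hζ.toInteger - 1) ^ p =
      ∏ _μ ∈ Polynomial.nthRootsFinset p (1 : 𝓞 K), (hζ.toInteger - 1) := by
    rw [Finset.prod_const, hcard]
  rw [hprod]
  refine Finset.prod_dvd_prod_of_dvd _ _ fun μ hμ => ?_
  have hμ1 : μ ^ p = 1 := (Polynomial.mem_nthRootsFinset hpos 1).1 hμ
  obtain ⟨i, -, rfl⟩ := hprim.eq_pow_of_pow_eq_one hμ1
  have h1 : hζ.toInteger - 1 ∣ hζ.toInteger ^ i - 1 := by
    simpa using sub_dvd_pow_sub_pow hζ.toInteger 1 i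
  have : x - hζ.toInteger ^ i * y = (x - y) - (hζ.toInteger ^ i - 1) * y := by ring
  rw [this]
  exact dvd_sub h (Dvd.dvd.mul_right h1 _)

/-- `p ∣ λ ^ p`. -/
theorem prime_dvd_lambda_pow : (p : 𝓞 K) ∣ (hζ.toInteger - 1) ^ p := by
  have hass := associated_zeta_sub_one_pow_prime p hζ
  have h1 : (p : 𝓞 K) ∣ (hζ.toInteger - 1) ^ (p - 1) := hass.symm.dvd
  have h2 : (hζ.toInteger - 1) ^ (p - 1) ∣ (hζ.toInteger - 1) ^ p :=
    pow_dvd_pow _ (Nat.sub_le p 1)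
  exact h1.trans h2

/-- The unit case, congruence part: if `α = η a^p` is prime to `λ` and `α ≡ n^p mod λ^p`, then
`η` is congruent to a rational integer modulo `p`. -/
theorem exists_int_dvd_sub {α a : 𝓞 K} {η : (𝓞 K)ˣ} (hα : α = (η : 𝓞 K) * a ^ p)
    (hlam : ¬ (hζ.toInteger - 1) ∣ α) {n : ℤ}
    (hn : (hζ.toInteger - 1) ^ p ∣ α - (n : 𝓞 K) ^ p) :
    ∃ N : ℤ, (p : 𝓞 K) ∣ (η : 𝓞 K) - N := by
  set lam : 𝓞 K := hζ.toInteger - 1 with hlamdef
  have hpne : p ≠ 0 := hp.out.ne_zero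
  -- `a` is prime to `λ`
  have hla : ¬ lam ∣ a := by
    intro h
    apply hlam
    rw [hα]
    exact Dvd.dvd.mul_left (dvd_pow h hpne) _
  obtain ⟨m, hm⟩ := exists_int_sub_dvd hζ a
  have hlm : ¬ lam ∣ (m : 𝓞 K) := by
    intro h
    apply hla
    have : a = (a - (m : 𝓞 K)) + m := by ring
    rw [this]
    exact dvd_add hm h
  have hpm : ¬ (p : ℤ) ∣ m := by
    intro h
    exact hlm ((zeta_sub_one_dvd_intCast_iff' p hζ).2 h)
  have hcop : IsCoprime (p : ℤ) m :=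
    ((Nat.prime_iff_prime_int.mp hp.out).irreducible.coprime_iff_not_dvd).2 hpm
  obtain ⟨u', v', huv⟩ := hcop
  -- `m * v' ≡ 1 mod λ`
  have hlp : lam ∣ (p : 𝓞 K) := hζ.toInteger_sub_one_dvd_prime'
  have h2 : lam ∣ ((m : 𝓞 K) * (v' : 𝓞 K)) - 1 := by
    have : ((m : 𝓞 K) * (v' : 𝓞 K)) - 1 = - ((u' : 𝓞 K) * (p : 𝓞 K)) := by
      have h := congrArg (fun z : ℤ => (z : 𝓞 K)) huv
      simp only [Int.cast_add, Int.cast_mul, Int.cast_natCast, Int.cast_one] at h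
      linear_combination h
    rw [this]
    exact (Dvd.dvd.mul_left hlp _).neg_right
  have h1p : lam ^ p ∣ a ^ p - (m : 𝓞 K) ^ p := lambda_pow_dvd_pow_sub_pow hζ hm
  have h2p : lam ^ p ∣ ((m : 𝓞 K) * (v' : 𝓞 K)) ^ p - 1 := by
    simpa using lambda_pow_dvd_pow_sub_pow hζ (x := (m : 𝓞 K) * (v' : 𝓞 K)) (y := 1) h2
  refine ⟨(n * v') ^ p, ?_⟩
  refine (prime_dvd_lambda_pow hζ).trans ?_
  have hn' : lam ^ p ∣ (η : 𝓞 K) * a ^ p - (n : 𝓞 K) ^ p := by rw [← hα]; exact hn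
  have : (η : 𝓞 K) - (((n * v') ^ p : ℤ) : 𝓞 K) =
      - ((η : 𝓞 K) * (((m : 𝓞 K) * (v' : 𝓞 K)) ^ p - 1))
      - (η : 𝓞 K) * (v' : 𝓞 K) ^ p * (a ^ p - (m : 𝓞 K) ^ p)
      + (v' : 𝓞 K) ^ p * ((η : 𝓞 K) * a ^ p - (n : 𝓞 K) ^ p) := by
    push_cast
    ring
  rw [this]
  exact dvd_add (dvd_sub ((Dvd.dvd.mul_left h2p _).neg_right) (Dvd.dvd.mul_left h1p _))
    (Dvd.dvd.mul_left hn' _)

/-- An element of `K` whose `p`-th power is (the image of) a unit of `𝓞 K` is itself (the image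
of) a unit of `𝓞 K`. -/
theorem exists_unit_of_pow_eq (e : K) (w : (𝓞 K)ˣ) (h : e ^ p = ((w : 𝓞 K) : K)) :
    ∃ ε : (𝓞 K)ˣ, ((ε : 𝓞 K) : K) = e := by
  have hpos : 0 < p := hp.out.pos
  have hint : IsIntegral ℤ e := by
    refine IsIntegral.of_pow hpos ?_
    rw [h]
    exact RingOfIntegers.isIntegral_coe _
  have hw : ((w : 𝓞 K) : K) * (((w⁻¹ : (𝓞 K)ˣ) : 𝓞 K) : K) = 1 := by
    rw [← map_mul]
    simp
  have hw0 : ((w : 𝓞 K) : K) ≠ 0 := left_ne_zero_of_mul_eq_one hw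
  have hinv : e⁻¹ ^ p = (((w⁻¹ : (𝓞 K)ˣ) : 𝓞 K) : K) := by
    rw [inv_pow, h]
    exact inv_eq_of_mul_eq_one_right hw
  have hint' : IsIntegral ℤ e⁻¹ := by
    refine IsIntegral.of_pow hpos ?_
    rw [hinv]
    exact RingOfIntegers.isIntegral_coe _
  have he0 : e ≠ 0 := by
    intro he
    rw [he, zero_pow hpos.ne'] at h
    exact hw0 h.symm
  let x : 𝓞 K := IsIntegralClosure.mk' (𝓞 K) e hint
  let y : 𝓞 K := IsIntegralClosure.mk' (𝓞 K) e⁻¹ hint'
  have hx : (x : K) = e := IsIntegralClosure.algebraMap_mk' (𝓞 K) e hint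
  have hy : (y : K) = e⁻¹ := IsIntegralClosure.algebraMap_mk' (𝓞 K) e⁻¹ hint'
  have hxy : x * y = 1 := by
    apply RingOfIntegers.coe_injective
    rw [map_mul]
    show (x : K) * (y : K) = ((1 : 𝓞 K) : K)
    rw [hx, hy, mul_inv_cancel₀ he0]
    exact (map_one (algebraMap (𝓞 K) K)).symm
  exact ⟨Units.mkOfMulEqOne x y hxy, hx⟩

/-- The unit case, eigen part. -/
theorem isEigenUnit_of {α a : 𝓞 K} {η : (𝓞 K)ˣ} (hα : α = (η : 𝓞 K) * a ^ p) (ha : a ≠ 0)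
    (heig : ∀ (σ : K ≃ₐ[ℚ] K) (c : ℕ), σ ζ = ζ ^ c →
      ∃ κ : K, σ (α : K) = (α : K) ^ (c ^ 2) * κ ^ p) :
    IsEigenUnit p K ζ η := by
  intro σ c hc
  obtain ⟨κ, hκ⟩ := heig σ c hc
  have haK : (a : K) ≠ 0 := RingOfIntegers.coe_ne_zero_iff.2 ha
  have hσa : σ (a : K) ≠ 0 := by
    intro h
    exact haK ((map_eq_zero σ).1 h)
  have hαK : (α : K) = ((η : 𝓞 K) : K) * (a : K) ^ p := by
    rw [hα]; simp
  -- the candidate `p`-th root
  set e : K := (a : K) ^ (c ^ 2) * κ / σ (a : K) with hedef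
  have hηK : ((η : 𝓞 K) : K) ≠ 0 := RingOfIntegers.coe_ne_zero_iff.2 η.ne_zero
  have hkey : σ (((η : 𝓞 K)) : K) = ((η : 𝓞 K) : K) ^ (c ^ 2) * e ^ p := by
    have h1 : σ ((η : 𝓞 K) : K) * σ (a : K) ^ p =
        (((η : 𝓞 K) : K) * (a : K) ^ p) ^ (c ^ 2) * κ ^ p := by
      rw [← hαK, ← hκ, hαK, map_mul, map_pow]
    rw [hedef, div_pow, mul_pow]
    field_simp
    rw [h1]
    ring
  -- `e ^ p` is a unit of `𝓞 K`
  let w : (𝓞 K)ˣ := Units.map (galRing K σ).toMonoidHom η * (η ^ (c ^ 2))⁻¹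
  have hwK : ((w : 𝓞 K) : K) * ((η : 𝓞 K) : K) ^ (c ^ 2) = σ ((η : 𝓞 K) : K) := by
    have : (w : 𝓞 K) * (η : 𝓞 K) ^ (c ^ 2) = galRing K σ (η : 𝓞 K) := by
      have h := congrArg (fun u : (𝓞 K)ˣ => (u : 𝓞 K))
        (show w * η ^ (c ^ 2) = Units.map (galRing K σ).toMonoidHom η by
          simp [w])
      simpa using h
    have h2 := congrArg (fun z : 𝓞 K => (z : K)) this
    simp only [map_mul, map_pow, galRing_apply] at h2
    exact h2
  have hew : e ^ p = ((w : 𝓞 K) : K) := by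
    have h3 : ((η : 𝓞 K) : K) ^ (c ^ 2) ≠ 0 := pow_ne_zero _ hηK
    apply mul_right_cancel₀ h3
    rw [hwK, hkey]
    ring
  obtain ⟨ε, hε⟩ := exists_unit_of_pow_eq e w hew
  exact ⟨ε, by rw [hε]; exact hkey⟩

/-- `etaExp p 2` has the property required in `ThaineStatement`. -/
theorem etaExp_mul_sq (b : ℕ) (hb : b ∈ Finset.Ico 1 p) : (etaExp p 2 b * b ^ 2) % p = 1 := by
  rw [Finset.mem_Ico] at hb
  have hcop : Nat.Coprime b p := by
    rw [Nat.coprime_comm]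
    exact (Nat.Prime.coprime_iff_not_dvd hp.out).2 (Nat.not_dvd_of_pos_of_lt hb.1 hb.2)
  have hfer : b ^ (p - 1) % p = 1 % p := by
    have := Nat.ModEq.pow_totient hcop
    rwa [Nat.totient_prime hp.out] at this
  have h2 : 2 ≤ p := hp.out.two_le
  unfold etaExp
  rw [Nat.mod_mul_mod, ← pow_add]
  have : 2 * (p - 2) + 2 = (p - 1) * 2 := by omega
  rw [this, pow_mul, Nat.pow_mod, hfer, ← Nat.pow_mod, one_pow]
  exact Nat.mod_eq_of_lt hp.out.one_lt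

/-- `etaRaw` is non-zero. -/
theorem etaRaw_ne_zero (m : ℕ → ℕ) : etaRaw p K hζ.toInteger m ≠ 0 := by
  unfold etaRaw
  rw [Finset.prod_ne_zero_iff]
  intro b hb
  rw [Finset.mem_Ico] at hb
  refine pow_ne_zero _ ?_
  rw [sub_ne_zero]
  intro h
  have hprim := hζ.toInteger_isPrimitiveRoot
  exact (hprim.pow_ne_one_of_pos_of_lt (by have := hb.1; omega) hb.2) h.symm

end Cyclo

section Main

variable (p : ℕ) [hp : Fact p.Prime] (K : Type) [Field K] [NumberField K]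
  [hK : IsCyclotomicExtension {p} ℚ K]

/-- **K6 / CORE**: assembly of `CoreStatement` from the packages K2, K3, K4, K4+K5, K6a. -/
theorem coreStatement (hTh : ThaineStatement p K) (hDens : DensStatement)
    (hEta : EtaNotPowStatement p K) (hUnit : UnitStatement p K) (hMod : ModStatement p K) :
    CoreStatement p K := by
  intro hp5 ζ hζ α hα0 hlam heig h𝔞 hn
  obtain ⟨𝔞, h𝔞⟩ := h𝔞
  obtain ⟨n, hn⟩ := hn
  have hp2 : p ≠ 2 := by omega
  have hpne : p ≠ 0 := hp.out.ne_zero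
  by_cases hprin : Submodule.IsPrincipal 𝔞
  · -- the unit case
    obtain ⟨a, ha⟩ := hprin.principal
    have ha' : 𝔞 = Ideal.span {a} := ha
    rw [ha', Ideal.span_singleton_pow, Ideal.span_singleton_eq_span_singleton] at h𝔞
    obtain ⟨u, hu⟩ := h𝔞
    have hα : α = ((u⁻¹ : (𝓞 K)ˣ) : 𝓞 K) * a ^ p := by
      rw [← hu, mul_comm α, ← mul_assoc]
      simp
    have ha0 : a ≠ 0 := by
      intro h
      apply hα0
      rw [hα, h, zero_pow hpne, mul_zero]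
    have hE := isEigenUnit_of (η := u⁻¹) hα ha0 heig
    have hN := exists_int_dvd_sub hζ hα hlam hn
    obtain ⟨ε, hε⟩ := hUnit hp5 ζ hζ u⁻¹ hE hN
    refine ⟨((ε : 𝓞 K) : K) * (a : K), ?_⟩
    rw [hα, hε]
    simp [mul_pow]
  · -- the ideal case
    exfalso
    have h𝔞0 : 𝔞 ≠ ⊥ := by
      intro h
      rw [h, Ideal.bot_pow hpne, Ideal.span_singleton_eq_bot] at h𝔞
      exact hα0 h𝔞
    let I : (Ideal (𝓞 K))⁰ := ⟨𝔞, mem_nonZeroDivisors_of_ne_zero h𝔞0⟩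
    have hne1 : ClassGroup.mk0 I ≠ 1 := by
      rw [Ne, ClassGroup.mk0_eq_one_iff]
      exact hprin
    have hpow : ClassGroup.mk0 I ^ p = 1 := by
      rw [← map_pow]
      have : (I ^ p : (Ideal (𝓞 K))⁰) =
          ⟨Ideal.span {α}, mem_nonZeroDivisors_of_ne_zero
            (by rw [Ne, Ideal.zero_eq_bot, Ideal.span_singleton_eq_bot]; exact hα0)⟩ := by
        apply Subtype.ext
        rw [SubmonoidClass.coe_pow]
        exact h𝔞.symm
      rw [this, ClassGroup.mk0_eq_one_iff]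
      exact ⟨⟨α, rfl⟩⟩
    have heigCl : ∀ (σ : K ≃ₐ[ℚ] K) (c : ℕ), σ ζ = ζ ^ c →
        ClassGroup.mk0 (galIdeal σ I) = ClassGroup.mk0 I ^ (c ^ 2) := by
      intro σ c hc
      obtain ⟨κ, hκ⟩ := heig σ c hc
      have hαK : (α : K) ≠ 0 := RingOfIntegers.coe_ne_zero_iff.2 hα0
      have hκ0 : κ ≠ 0 := by
        intro h
        rw [h, zero_pow hpne, mul_zero] at hκ
        exact hαK ((map_eq_zero σ).1 hκ)
      obtain ⟨x, y, hy, hxy⟩ := IsFractionRing.div_surjective (A := 𝓞 K) κ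
      have hy0 : y ≠ 0 := nonZeroDivisors.ne_zero hy
      have hyK : (y : K) ≠ 0 := RingOfIntegers.coe_ne_zero_iff.2 hy0
      have hx0 : x ≠ 0 := by
        intro h
        rw [h, map_zero, zero_div] at hxy
        exact hκ0 hxy.symm
      -- the equation in `𝓞 K`
      have hint : galRing K σ α * y ^ p = α ^ (c ^ 2) * x ^ p := by
        apply RingOfIntegers.coe_injective
        simp only [map_mul, map_pow]
        show ((galRing K σ α : 𝓞 K) : K) * (y : K) ^ p = (α : K) ^ (c ^ 2) * (x : K) ^ p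
        rw [galRing_apply, hκ, ← hxy, div_pow]
        field_simp
      -- ideals
      have hmap : Ideal.span {galRing K σ α} =
          (𝔞.map ((galRing K σ : 𝓞 K ≃+* 𝓞 K) : 𝓞 K →+* 𝓞 K)) ^ p := by
        rw [← Ideal.map_pow, ← h𝔞, Ideal.map_span, Set.image_singleton]
        rfl
      have hpow' : (𝔞.map ((galRing K σ : 𝓞 K ≃+* 𝓞 K) : 𝓞 K →+* 𝓞 K) * Ideal.span {y}) ^ p =
          (𝔞 ^ (c ^ 2) * Ideal.span {x}) ^ p := by
        rw [mul_pow, mul_pow, ← hmap, Ideal.span_singleton_pow, Ideal.span_singleton_pow,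
          Ideal.span_singleton_mul_span_singleton, hint, ← pow_mul, mul_comm (c ^ 2) p, pow_mul,
          ← h𝔞, Ideal.span_singleton_pow, Ideal.span_singleton_mul_span_singleton]
      have hroot : 𝔞.map ((galRing K σ : 𝓞 K ≃+* 𝓞 K) : 𝓞 K →+* 𝓞 K) * Ideal.span {y} =
          𝔞 ^ (c ^ 2) * Ideal.span {x} := by
        apply dvd_antisymm
        · exact (UniqueFactorizationMonoid.pow_dvd_pow_iff_dvd hpne).1 hpow'.dvd
        · exact (UniqueFactorizationMonoid.pow_dvd_pow_iff_dvd hpne).1 hpow'.symm.dvd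
      rw [← map_pow, ClassGroup.mk0_eq_mk0_iff]
      refine ⟨y, x, hy0, hx0, ?_⟩
      rw [mul_comm, mul_comm (Ideal.span {x})]
      simpa [galIdeal, I] using hroot
    obtain ⟨ψ, hψp, hψ1, hψe⟩ := hMod hp2 ζ hζ I hne1 hpow heigCl
    refine hDens K p hp2 ζ hζ (etaRaw p K hζ.toInteger (etaExp p 2)) (etaRaw_ne_zero hζ _)
      (hEta hp5 ζ hζ) ψ hψp hψ1 ?_
    intro Q _ hQ0 hQp hpQ hnot
    exact hTh hp2 ζ hζ 2 (etaExp p 2) (etaExp_mul_sq) ψ hψp hψe Q hQ0 hQp hpQ hnot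

end Main

end Fermat.Agent.S14.Core6
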