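import Mathlib

/-!
# S14 / K1-KUMMER (helper69)

Kummer theory for a cyclic extension `L / K` of prime degree `p` of a field `K` containing a
primitive `p`-th root of unity `ζ`:

* (A) `exists_kummer_generator` : `L = K(β)`, `β ^ p = α ∈ K`; integral version for number fields;
* (B) `conj_kummer` : equivariance.  If `τ` is an automorphism of `L` (over a subfield `k`)
  with `τ ζ = ζ ^ c` and `τ⁻¹ s τ = s ^ m` for all `s ∈ Gal(L/K)`, then
  `τ β = κ * β ^ (c * m)` with `κ ∈ K`, hence `τ α = κ ^ p * α ^ (c * m)`;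
* (C) unramified primes: `p ∣ v_r(α)`, hence `(α) = 𝔞 ^ p`;
* (D) primary: if `L/K` is unramified at `λ = (1 - ζ)` and `α ∉ λ` then `α ≡ n ^ p mod λ ^ p`.
-/

set_option autoImplicit false

open Polynomial IntermediateField Module

namespace Fermat.Agent.S14.Kummer69

/-! ### (A) Kummer generators -/

section Generator

variable {p : ℕ} [hp : Fact p.Prime] {K L : Type*} [Field K] [Field L] [Algebra K L]
  [FiniteDimensional K L] [IsGalois K L]

/-- A cyclic extension of prime degree `p` of a field containing a primitive `p`-th root of unity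
is generated by a `p`-th root. -/
theorem exists_kummer_generator (hdeg : finrank K L = p) {ζ : K} (hζ : IsPrimitiveRoot ζ p) :
    ∃ (β : L) (a : K), β ^ p = algebraMap K L a ∧ K⟮β⟯ = ⊤ ∧ β ≠ 0 ∧ a ≠ 0 := by
  have hcard : Nat.card Gal(L/K) = p := by rw [IsGalois.card_aut_eq_finrank, hdeg]
  haveI : IsCyclic Gal(L/K) := isCyclic_of_prime_card hcard
  have hK : (primitiveRoots (finrank K L) K).Nonempty := by
    rw [hdeg]; exact ⟨ζ, (mem_primitiveRoots hp.out.pos).mpr hζ⟩
  obtain ⟨β, ⟨a, ha⟩, hβ⟩ := exists_root_adjoin_eq_top_of_isCyclic K L hK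
  rw [hdeg] at ha
  have hβ0 : β ≠ 0 := by
    rintro rfl
    have h1 : K⟮(0 : L)⟯ = ⊥ := IntermediateField.adjoin_zero
    rw [h1] at hβ
    have h2 := congrArg (fun S : IntermediateField K L => finrank K S) hβ
    simp only [IntermediateField.finrank_bot, IntermediateField.finrank_top'] at h2
    rw [hdeg] at h2
    exact hp.out.one_lt.ne h2
  refine ⟨β, a, ha.symm, hβ, hβ0, ?_⟩
  rintro rfl
  rw [map_zero] at ha
  exact hβ0 (pow_eq_zero_iff hp.out.ne_zero |>.mp ha.symm)

end Generator

/-! ### (B) Equivariance of Kummer generators -/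

section Equivariance

variable {p : ℕ} [hp : Fact p.Prime] {K L : Type*} [Field K] [Field L] [Algebra K L]
  [FiniteDimensional K L] [IsGalois K L]

omit [FiniteDimensional K L] [IsGalois K L] in
/-- A `K`-automorphism multiplies a Kummer generator by a power of `ζ`. -/
theorem exists_pow_smul {ζ : K} (hζ : IsPrimitiveRoot ζ p) {β : L} {a : K}
    (hβ : β ^ p = algebraMap K L a) (hβ0 : β ≠ 0) (s : L ≃ₐ[K] L) :
    ∃ i : ℕ, s β = algebraMap K L (ζ ^ i) * β := by
  have hζL : IsPrimitiveRoot (algebraMap K L ζ) p :=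
    hζ.map_of_injective (algebraMap K L).injective
  have h1 : (s β / β) ^ p = 1 := by
    rw [div_pow, ← map_pow, hβ, AlgEquiv.commutes, div_self]
    rw [← hβ]; exact pow_ne_zero _ hβ0
  obtain ⟨i, -, hi⟩ := hζL.eq_pow_of_pow_eq_one h1
  refine ⟨i, ?_⟩
  rw [map_pow, hi, div_mul_cancel₀ _ hβ0]

omit [FiniteDimensional K L] [IsGalois K L] hp in
theorem pow_apply_of_apply_eq {β : L} (s : L ≃ₐ[K] L) {z : K}
    (hs : s β = algebraMap K L z * β) (m : ℕ) :
    (s ^ m) β = algebraMap K L (z ^ m) * β := by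
  induction m with
  | zero => simp
  | succ m ih =>
    rw [pow_succ', AlgEquiv.mul_apply, ih, map_mul, AlgEquiv.commutes, hs, pow_succ, map_mul]
    ring

variable {k : Type*} [Field k] [Algebra k L]

/-- **(B) Equivariance.**  Let `τ` be a `k`-automorphism of `L` with `τ ζ = ζ ^ c` and
`τ⁻¹ s τ = s ^ m` for every `s ∈ Gal(L/K)`.  Then `τ β = κ β ^ (c m)` for some `κ ∈ K`. -/
theorem conj_kummer {ζ : K} (hζ : IsPrimitiveRoot ζ p) {β : L} {a : K}
    (hβ : β ^ p = algebraMap K L a) (hβ0 : β ≠ 0) (τ : L ≃ₐ[k] L) (c m : ℕ)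
    (hτζ : τ (algebraMap K L ζ) = algebraMap K L (ζ ^ c))
    (hconj : ∀ (s : L ≃ₐ[K] L) (x : L), τ.symm (s (τ x)) = (s ^ m) x) :
    ∃ κ : K, κ ≠ 0 ∧ τ β = algebraMap K L κ * β ^ (c * m) := by
  set γ : L := τ β / β ^ (c * m) with hγ
  have hτβ0 : τ β ≠ 0 := by
    rw [Ne, EmbeddingLike.map_eq_zero_iff]; exact hβ0
  have hpow0 : β ^ (c * m) ≠ 0 := pow_ne_zero _ hβ0
  have hfix : ∀ s : L ≃ₐ[K] L, s γ = γ := by
    intro s
    obtain ⟨i, hi⟩ := exists_pow_smul hζ hβ hβ0 s
    have h1 : s (τ β) = algebraMap K L (ζ ^ (i * m * c)) * τ β := by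
      have h2 := hconj s β
      rw [pow_apply_of_apply_eq s hi m] at h2
      have h3 := congrArg τ h2
      rw [AlgEquiv.apply_symm_apply, map_mul] at h3
      rw [h3]
      congr 1
      simp only [map_pow, hτζ, ← pow_mul]
      congr 1
      ring
    have h4 : s (β ^ (c * m)) = algebraMap K L (ζ ^ (i * m * c)) * β ^ (c * m) := by
      rw [map_pow, hi, mul_pow, ← map_pow, ← pow_mul]
      congr 3
      ring
    rw [hγ, map_div₀, h1, h4, mul_div_mul_left]
    rw [Ne, map_eq_zero]
    exact pow_ne_zero _ (hζ.ne_zero hp.out.ne_zero)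
  obtain ⟨κ, hκ⟩ := (IsGalois.mem_range_algebraMap_iff_fixed γ).mpr hfix
  refine ⟨κ, ?_, ?_⟩
  · rintro rfl
    rw [map_zero] at hκ
    exact div_ne_zero hτβ0 hpow0 hκ.symm
  · rw [hκ, hγ, div_mul_cancel₀ _ hpow0]

/-- Consequence for `a = β ^ p`: `τ a = κ ^ p * a ^ (c m)`. -/
theorem conj_kummer_pow {ζ : K} (hζ : IsPrimitiveRoot ζ p) {β : L} {a : K}
    (hβ : β ^ p = algebraMap K L a) (hβ0 : β ≠ 0) (τ : L ≃ₐ[k] L) (c m : ℕ)
    (hτζ : τ (algebraMap K L ζ) = algebraMap K L (ζ ^ c))
    (hconj : ∀ (s : L ≃ₐ[K] L) (x : L), τ.symm (s (τ x)) = (s ^ m) x) :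
    ∃ κ : K, κ ≠ 0 ∧ τ (algebraMap K L a) = algebraMap K L (κ ^ p * a ^ (c * m)) := by
  obtain ⟨κ, hκ0, hκ⟩ := conj_kummer hζ hβ hβ0 τ c m hτζ hconj
  refine ⟨κ, hκ0, ?_⟩
  rw [← hβ, map_pow, hκ, mul_pow, ← pow_mul, mul_comm (c * m) p, pow_mul, hβ, map_mul, map_pow,
    map_pow]

end Equivariance

/-! ### (C) Unramified primes: `p ∣ v(α)` and `(α) = 𝔞 ^ p` -/

section Valuation

open IsDedekindDomain WithZero UniqueFactorizationMonoid

variable {p : ℕ} [hp : Fact p.Prime]
variable {A K : Type*} {L : Type*} {B : Type*}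
variable [CommRing A] [IsDedekindDomain A] [CommRing B] [IsDedekindDomain B]
variable [Field K] [Field L] [Algebra K L]
variable [Algebra A K] [IsFractionRing A K]
variable [Algebra B L] [IsFractionRing B L]

omit hp in
/-- If `w` is an unramified extension of `v` (same normalised valuation on `K`) and `a = β ^ p`
then the `v`-adic order of `a` is divisible by `p`. -/
theorem valuation_eq_pow_of_unramified (v : HeightOneSpectrum A) (w : HeightOneSpectrum B)
    (hvw : ∀ x : K, v.valuation K x = w.valuation L (algebraMap K L x))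
    {a : K} {β : L} (hβ : β ^ p = algebraMap K L a) :
    v.valuation K a = (w.valuation L β) ^ p := by
  rw [hvw, ← hβ, map_pow]

omit hp in
theorem dvd_log_valuation_of_unramified (v : HeightOneSpectrum A) (w : HeightOneSpectrum B)
    (hvw : ∀ x : K, v.valuation K x = w.valuation L (algebraMap K L x))
    {a : K} {β : L} (hβ : β ^ p = algebraMap K L a) :
    (p : ℤ) ∣ log (v.valuation K a) := by
  rw [valuation_eq_pow_of_unramified v w hvw hβ, log_pow]
  exact ⟨log (w.valuation L β), by simp⟩

omit hp in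
/-- Integral version: `p` divides the multiplicity of `v` in `(a)`. -/
theorem dvd_multiplicity_of_unramified (v : HeightOneSpectrum A) (w : HeightOneSpectrum B)
    (hvw : ∀ x : K, v.valuation K x = w.valuation L (algebraMap K L x))
    {a : A} (ha : a ≠ 0) {β : L} (hβ : β ^ p = algebraMap K L (algebraMap A K a)) :
    p ∣ multiplicity v.asIdeal (Ideal.span {a}) := by
  have h := dvd_log_valuation_of_unramified v w hvw hβ
  rw [v.valuation_of_algebraMap, v.intValuation_eq_exp_neg_multiplicity ha, log_exp,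
    Int.dvd_neg] at h
  exact_mod_cast h

omit hp in
/-- An ideal all of whose prime multiplicities are divisible by `p` is a `p`-th power. -/
theorem exists_eq_pow_of_forall_dvd_multiplicity {I : Ideal A} (hI : I ≠ ⊥)
    (h : ∀ v : HeightOneSpectrum A, p ∣ multiplicity v.asIdeal I) :
    ∃ J : Ideal A, I = J ^ p := by
  have h1 : ∀ P ∈ normalizedFactors I, p ∣ Multiset.count P (normalizedFactors I) := by
    intro P hP
    have hprime : Prime P := prime_of_normalized_factor P hP
    let v : HeightOneSpectrum A := ⟨P, Ideal.isPrime_of_prime hprime, hprime.ne_zero⟩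
    have := HeightOneSpectrum.count_normalizedFactors_eq_multiplicity hI v
    rw [show P = v.asIdeal from rfl, this]
    exact h v
  obtain ⟨u, hu⟩ := Multiset.exists_smul_of_dvd_count _ h1
  refine ⟨u.prod, ?_⟩
  rw [← Multiset.prod_nsmul, ← hu, Ideal.prod_normalizedFactors_eq_self hI]

omit hp in
/-- **(C)** If every prime of `A` has an unramified extension to `B` and `a = β ^ p` then
`(a)` is the `p`-th power of an ideal. -/
theorem exists_ideal_pow_eq_span
    (hunr : ∀ v : HeightOneSpectrum A, ∃ w : HeightOneSpectrum B,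
      ∀ x : K, v.valuation K x = w.valuation L (algebraMap K L x))
    {a : A} (ha : a ≠ 0) {β : L} (hβ : β ^ p = algebraMap K L (algebraMap A K a)) :
    ∃ J : Ideal A, Ideal.span {a} = J ^ p := by
  refine exists_eq_pow_of_forall_dvd_multiplicity
    (by rwa [Ne, Ideal.span_singleton_eq_bot]) fun v => ?_
  obtain ⟨w, hw⟩ := hunr v
  exact dvd_multiplicity_of_unramified v w hw ha hβ

end Valuation

/-! ### (D) Primary: `a ≡ n ^ p mod λ ^ p` -/

theorem algebraMap_injective_of_tower (A B K L : Type*) [CommRing A] [CommRing B] [Algebra A B]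
    [Field K] [Field L] [Algebra K L] [Algebra A K] [IsFractionRing A K] [Algebra A L]
    [IsScalarTower A K L] [Algebra B L] [IsScalarTower A B L] :
    Function.Injective (algebraMap A B) := by
  have h1 : Function.Injective (algebraMap A L) := by
    rw [IsScalarTower.algebraMap_eq A K L]
    exact (algebraMap K L).injective.comp (IsFractionRing.injective A K)
  rw [IsScalarTower.algebraMap_eq A B L] at h1
  exact Function.Injective.of_comp h1

section Primary

open IsDedekindDomain WithZero

variable {p : ℕ} [hp : Fact p.Prime]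
variable {A K : Type*} {L : Type*} {B : Type*}
variable [CommRing A] [IsDedekindDomain A] [CommRing B] [IsDedekindDomain B] [Algebra A B]
variable [Field K] [Field L] [Algebra K L]
variable [Algebra A K] [IsFractionRing A K] [Algebra A L] [IsScalarTower A K L]
variable [Algebra B L] [IsFractionRing B L] [IsScalarTower A B L]

omit hp in
/-- the two valuations agree on `A`. -/
theorem intValuation_eq_of_unramified (v : HeightOneSpectrum A) (w : HeightOneSpectrum B)
    (hvw : ∀ x : K, v.valuation K x = w.valuation L (algebraMap K L x)) (x : A) :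
    v.intValuation x = w.intValuation (algebraMap A B x) := by
  rw [← v.valuation_of_algebraMap (K := K), hvw, ← w.valuation_of_algebraMap (K := L)]
  congr 1
  rw [← IsScalarTower.algebraMap_apply A K L, IsScalarTower.algebraMap_apply A B L]

omit hp in
theorem algebraMap_mem_of_mem (v : HeightOneSpectrum A) (w : HeightOneSpectrum B)
    (hvw : ∀ x : K, v.valuation K x = w.valuation L (algebraMap K L x)) {x : A}
    (hx : x ∈ v.asIdeal) : algebraMap A B x ∈ w.asIdeal := by
  rw [← pow_one w.asIdeal, ← w.intValuation_le_pow_iff_mem, ← intValuation_eq_of_unramified v w hvw,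
    v.intValuation_le_pow_iff_mem, pow_one]
  exact hx

/-- **(D) Primary.**  Let `λ` be a prime of `A` with residue field `𝔽_p` (every element is
congruent to an integer, `p ∈ λ`), `w` an unramified extension of `λ` to `B`, `ζ ∈ A` a primitive
`p`-th root of unity.  If `a = β ^ p` with `β ∈ B` then `a ≡ n ^ p mod λ ^ p` for some integer
`n` (with `a ≡ n mod λ`). -/
theorem exists_int_pow_sub_mem (v : HeightOneSpectrum A) (w : HeightOneSpectrum B)
    (hvw : ∀ x : K, v.valuation K x = w.valuation L (algebraMap K L x))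
    (hpv : (p : A) ∈ v.asIdeal) (hres : ∀ x : A, ∃ n : ℤ, x - (n : A) ∈ v.asIdeal)
    {ζ : A} (hζ : IsPrimitiveRoot ζ p) {a : A} {β : B} (hβ : β ^ p = algebraMap A B a) :
    ∃ n : ℤ, a - (n : A) ∈ v.asIdeal ∧ a - (n : A) ^ p ∈ v.asIdeal ^ p := by
  obtain ⟨n, hn⟩ := hres a
  refine ⟨n, hn, ?_⟩
  have hinj : Function.Injective (algebraMap A B) := algebraMap_injective_of_tower A B K L
  have hζB : IsPrimitiveRoot (algebraMap A B ζ) p := hζ.map_of_injective hinj
  -- the residue ring `B ⧸ w` has characteristic `p`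
  have hpw : (p : B) ∈ w.asIdeal := by
    have := algebraMap_mem_of_mem v w hvw hpv
    rwa [map_natCast] at this
  haveI : CharP (B ⧸ w.asIdeal) p := by
    refine (CharP.charP_iff_prime_eq_zero hp.out).mpr ?_
    rw [← map_natCast (Ideal.Quotient.mk w.asIdeal), Ideal.Quotient.eq_zero_iff_mem]
    exact hpw
  haveI : IsDomain (B ⧸ w.asIdeal) := Ideal.Quotient.isDomain w.asIdeal
  -- in a domain of characteristic `p`, `x ^ p = y ^ p → x = y`
  have hfrob : ∀ x y : B, x ^ p - y ^ p ∈ w.asIdeal → x - y ∈ w.asIdeal := by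
    intro x y hxy
    rw [← Ideal.Quotient.eq_zero_iff_mem] at hxy ⊢
    rw [map_sub, map_pow, map_pow, ← sub_pow_char] at hxy
    rw [map_sub]
    exact pow_eq_zero_iff hp.out.ne_zero |>.mp hxy
  -- `(n : B) ^ p ≡ n`
  have hnp : ((n : B)) ^ p - (n : B) ∈ w.asIdeal := by
    rw [← Ideal.Quotient.eq_zero_iff_mem, map_sub, map_pow, map_intCast, sub_eq_zero]
    exact (frobenius_def (R := B ⧸ w.asIdeal) p (n : B ⧸ w.asIdeal)).symm.trans
      (map_intCast (frobenius (B ⧸ w.asIdeal) p) n)
  -- `β ≡ n mod w`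
  have hβn : β - (n : B) ∈ w.asIdeal := by
    apply hfrob
    have h1 : algebraMap A B (a - (n : A)) ∈ w.asIdeal := algebraMap_mem_of_mem v w hvw hn
    rw [map_sub, map_intCast] at h1
    have : β ^ p - (n : B) ^ p = (algebraMap A B a - (n : B)) - ((n : B) ^ p - (n : B)) := by
      rw [hβ]; ring
    rw [this]
    exact sub_mem h1 hnp
  -- every factor of `β ^ p - n ^ p` lies in `w`
  have hprod : β ^ p - (n : B) ^ p ∈ w.asIdeal ^ p := by
    rw [hζB.pow_sub_pow_eq_prod_sub_mul β (n : B) hp.out.pos]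
    have hcard : (nthRootsFinset p (1 : B)).card = p := hζB.card_nthRootsFinset
    have := Ideal.prod_mem_prod (s := nthRootsFinset p (1 : B)) (I := fun _ => w.asIdeal)
      (x := fun μ => β - μ * (n : B)) ?_
    · rwa [Finset.prod_const, hcard] at this
    · intro μ hμ
      have hμ1 : μ ^ p = 1 := (mem_nthRootsFinset hp.out.pos 1).mp hμ
      have hμw : μ - 1 ∈ w.asIdeal := by
        apply hfrob
        rw [hμ1, one_pow, sub_self]
        exact zero_mem _
      have : β - μ * (n : B) = (β - (n : B)) - (μ - 1) * (n : B) := by ring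
      rw [this]
      exact sub_mem hβn (Ideal.mul_mem_right _ _ hμw)
  -- descend to `A`
  rw [← v.intValuation_le_pow_iff_mem, intValuation_eq_of_unramified v w hvw,
    w.intValuation_le_pow_iff_mem, map_sub, map_pow, map_intCast, ← hβ]
  exact hprod

end Primary

end Fermat.Agent.S14.Kummer69
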