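import Mathlib
import Fermat.Agent.S14.CoreIface
import Fermat.Agent.S14.Kummer69

/-!
# S14 / K1-KUMMER, number field form (helper69)

`theorem kummer : KummerStatement` (the statement is fixed in `Fermat/Agent/S14/CoreIface.lean`).
-/

set_option autoImplicit false

open NumberField IsDedekindDomain IntermediateField

namespace Fermat.Agent.S14.KummerNF69

open Fermat.Agent.S14.Kummer69

/-! ### Unramified primes: inertia group trivial implies equal normalised valuations -/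

section Unramified

variable {K L : Type} [Field K] [NumberField K] [Field L] [NumberField L] [Algebra K L]
  [IsGalois K L]

theorem exists_unramified_valuation
    (hunr : ∀ (P : Ideal (𝓞 L)), P.IsPrime → P ≠ ⊥ → Ideal.inertia (L ≃ₐ[K] L) P = ⊥)
    (v : HeightOneSpectrum (𝓞 K)) :
    ∃ w : HeightOneSpectrum (𝓞 L), ∀ x : K, v.valuation K x = w.valuation L (algebraMap K L x) := by
  have := v.isPrime
  obtain ⟨P, -, hP, hPv⟩ := Ideal.exists_ideal_over_prime_of_isIntegral v.asIdeal (⊥ : Ideal (𝓞 L))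
    (by simp)
  have hlies : P.LiesOver v.asIdeal := ⟨hPv.symm⟩
  have hP0 : P ≠ ⊥ := Ideal.ne_bot_of_liesOver_of_ne_bot v.ne_bot P
  let w : HeightOneSpectrum (𝓞 L) := ⟨P, hP, hP0⟩
  have : w.asIdeal.LiesOver v.asIdeal := hlies
  refine ⟨w, fun x => ?_⟩
  have h1 : Nat.card (P.inertia (L ≃ₐ[K] L)) = 1 := by
    rw [hunr P hP hP0]; simp
  have h2 := Ideal.card_inertia_eq_ramificationIdxIn (G := L ≃ₐ[K] L) v.asIdeal P
  have h3 := Ideal.ramificationIdxIn_eq_ramificationIdx v.asIdeal P (L ≃ₐ[K] L)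
  have h4 := Ideal.ramificationIdx'_eq_ramificationIdx v.asIdeal P v.ne_bot
  have h5 := HeightOneSpectrum.valuation_liesOver L v w x
  rw [show w.asIdeal = P from rfl, h4, ← h3, ← h2, h1, pow_one] at h5
  exact h5

end Unramified

/-! ### Not a `p`-th power -/

section NotPow

variable {p : ℕ} [hp : Fact p.Prime] {K L : Type*} [Field K] [Field L] [Algebra K L]

/-- If `L = K(β₀)` has degree `p` over `K ∋ ζ_p` and `β₀ ^ p = a₀ ∈ K`, then `t ^ p * a₀` is not a
`p`-th power in `K`. -/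
theorem not_exists_pow_eq (hdeg : Module.finrank K L = p) {ζ : K} (hζ : IsPrimitiveRoot ζ p)
    {β₀ : L} {a₀ : K} (hβ₀ : β₀ ^ p = algebraMap K L a₀) (htop : K⟮β₀⟯ = ⊤) (ha₀ : a₀ ≠ 0)
    {t : K} (ht : t ≠ 0) : ¬ ∃ γ : K, γ ^ p = t ^ p * a₀ := by
  rintro ⟨γ, hγ⟩
  have hζL : IsPrimitiveRoot (algebraMap K L ζ) p :=
    hζ.map_of_injective (algebraMap K L).injective
  set δ : K := γ / t with hδ
  have hδp : δ ^ p = a₀ := by
    rw [hδ, div_pow, hγ, mul_div_cancel_left₀ _ (pow_ne_zero _ ht)]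
  have hδ0 : δ ≠ 0 := by
    rintro h
    rw [h, zero_pow hp.out.ne_zero] at hδp
    exact ha₀ hδp.symm
  have hδL : algebraMap K L δ ≠ 0 := by rwa [Ne, map_eq_zero]
  have h1 : (β₀ / algebraMap K L δ) ^ p = 1 := by
    rw [div_pow, hβ₀, ← map_pow, hδp, div_self]
    rwa [Ne, map_eq_zero]
  obtain ⟨i, -, hi⟩ := hζL.eq_pow_of_pow_eq_one h1
  have hmem : β₀ ∈ (⊥ : IntermediateField K L) := by
    rw [IntermediateField.mem_bot]
    refine ⟨ζ ^ i * δ, ?_⟩
    rw [map_mul, map_pow, hi, div_mul_cancel₀ _ hδL]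
  have hbot : K⟮β₀⟯ = ⊥ := IntermediateField.adjoin_simple_eq_bot_iff.mpr hmem
  rw [hbot] at htop
  have h2 := congrArg (fun S : IntermediateField K L => Module.finrank K S) htop
  simp only [IntermediateField.finrank_bot, IntermediateField.finrank_top'] at h2
  rw [hdeg] at h2
  exact hp.out.one_lt.ne h2

end NotPow

/-! ### The prime `λ = (ζ - 1)` and the normalisation of the Kummer generator -/

section Cyclo

variable {p : ℕ} [hp : Fact p.Prime] {K : Type} [Field K] [NumberField K]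
  [IsCyclotomicExtension {p} ℚ K] {ζ : K} (hζ : IsPrimitiveRoot ζ p)

/-- The prime `(ζ - 1)` of `𝓞 K` as a height-one prime. -/
noncomputable def lam : HeightOneSpectrum (𝓞 K) :=
  ⟨Ideal.span {hζ.toInteger - 1},
    (Ideal.span_singleton_prime hζ.zeta_sub_one_prime'.ne_zero).mpr hζ.zeta_sub_one_prime',
    by simpa using hζ.zeta_sub_one_prime'.ne_zero⟩

theorem lam_asIdeal : (lam hζ).asIdeal = Ideal.span {hζ.toInteger - 1} := rfl

theorem natCast_mem_lam : (p : 𝓞 K) ∈ (lam hζ).asIdeal := by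
  rw [lam_asIdeal, Ideal.mem_span_singleton]
  exact hζ.toInteger_sub_one_dvd_prime'

/-- Every element of `𝓞 K` is congruent to a rational integer modulo `λ = ζ - 1`. -/
theorem exists_int_sub_mem_lam (x : 𝓞 K) : ∃ n : ℤ, x - (n : 𝓞 K) ∈ (lam hζ).asIdeal := by
  simp only [lam_asIdeal, Ideal.mem_span_singleton]
  have hx : x ∈ Algebra.adjoin ℤ {hζ.toInteger} := by
    rw [IsCyclotomicExtension.Rat.adjoin_singleton_eq_top hζ]; exact Algebra.mem_top
  induction hx using Algebra.adjoin_induction with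
  | mem x hx =>
    rw [Set.mem_singleton_iff] at hx
    exact ⟨1, by simp [hx]⟩
  | algebraMap r => exact ⟨r, by simp⟩
  | add x y _ _ hx hy =>
    obtain ⟨n, hn⟩ := hx
    obtain ⟨m, hm⟩ := hy
    refine ⟨n + m, ?_⟩
    have : x + y - ((n + m : ℤ) : 𝓞 K) = (x - n) + (y - m) := by push_cast; ring
    rw [this]
    exact dvd_add hn hm
  | mul x y _ _ hx hy =>
    obtain ⟨n, hn⟩ := hx
    obtain ⟨m, hm⟩ := hy
    refine ⟨n * m, ?_⟩
    have : x * y - ((n * m : ℤ) : 𝓞 K) = (x - n) * y + n * (y - m) := by push_cast; ring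
    rw [this]
    exact dvd_add (Dvd.dvd.mul_right hn y) (Dvd.dvd.mul_left hm _)

variable {L : Type} [Field L] [NumberField L] [Algebra K L]

/-- Normalisation: scale a Kummer generator so that `α = β ^ p` is integral and prime to `λ`. -/
theorem exists_integral_prime_to_lam (w : HeightOneSpectrum (𝓞 L))
    (hvw : ∀ x : K, (lam hζ).valuation K x = w.valuation L (algebraMap K L x))
    {β₀ : L} {a₀ : K} (hβ₀ : β₀ ^ p = algebraMap K L a₀) (ha₀ : a₀ ≠ 0) :
    ∃ (t : K) (α : 𝓞 K), t ≠ 0 ∧ algebraMap (𝓞 K) K α = t ^ p * a₀ ∧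
      ¬ (hζ.toInteger - 1) ∣ α := by
  obtain ⟨x, y, hy, rfl⟩ := IsFractionRing.div_surjective (A := 𝓞 K) a₀
  have hy0 : algebraMap (𝓞 K) K y ≠ 0 := by
    rw [Ne, map_eq_zero_iff _ (IsFractionRing.injective (𝓞 K) K)]
    exact nonZeroDivisors.ne_zero hy
  have hx0 : x ≠ 0 := by
    rintro rfl
    simp at ha₀
  have hy0' : y ≠ 0 := nonZeroDivisors.ne_zero hy
  have hp1 : p - 1 + 1 = p := Nat.sub_add_cancel hp.out.one_le
  set a₁ : 𝓞 K := x * y ^ (p - 1) with ha₁
  have ha₁0 : a₁ ≠ 0 := mul_ne_zero hx0 (pow_ne_zero _ hy0')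
  have ha₁K : algebraMap (𝓞 K) K a₁ =
      algebraMap (𝓞 K) K y ^ p * (algebraMap (𝓞 K) K x / algebraMap (𝓞 K) K y) := by
    rw [ha₁, map_mul, map_pow]
    nth_rewrite 2 [← hp1]
    rw [pow_succ]
    field_simp
  set β₁ : L := algebraMap K L (algebraMap (𝓞 K) K y) * β₀ with hβ₁
  have hβ₁p : β₁ ^ p = algebraMap K L (algebraMap (𝓞 K) K a₁) := by
    rw [hβ₁, mul_pow, hβ₀, ha₁K, map_mul, map_pow]
  set v := lam hζ with hv
  have hM := dvd_multiplicity_of_unramified v w hvw ha₁0 hβ₁p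
  set M := multiplicity v.asIdeal (Ideal.span {a₁}) with hMdef
  have hval : v.intValuation a₁ = WithZero.exp (-(M : ℤ)) :=
    v.intValuation_eq_exp_neg_multiplicity ha₁0
  have hmem : a₁ ∈ v.asIdeal ^ M := by
    rw [← v.intValuation_le_pow_iff_mem, hval]
  rw [hv, lam_asIdeal, Ideal.span_singleton_pow, Ideal.mem_span_singleton] at hmem
  obtain ⟨a₂, ha₂⟩ := hmem
  have hnd : ¬ (hζ.toInteger - 1) ∣ a₂ := by
    rintro ⟨a₃, rfl⟩
    have h1 : a₁ ∈ v.asIdeal ^ (M + 1) := by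
      rw [hv, lam_asIdeal, Ideal.span_singleton_pow, Ideal.mem_span_singleton]
      exact ⟨a₃, by rw [ha₂]; ring⟩
    rw [← v.intValuation_le_pow_iff_mem, hval, WithZero.exp_le_exp] at h1
    push_cast at h1
    omega
  obtain ⟨m, hm⟩ := hM
  have hl0 : algebraMap (𝓞 K) K (hζ.toInteger - 1) ≠ 0 := by
    rw [Ne, map_eq_zero_iff _ (IsFractionRing.injective (𝓞 K) K)]
    exact hζ.zeta_sub_one_prime'.ne_zero
  refine ⟨algebraMap (𝓞 K) K y / algebraMap (𝓞 K) K (hζ.toInteger - 1) ^ m, a₂,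
    div_ne_zero hy0 (pow_ne_zero _ hl0), ?_, hnd⟩
  have h2 : algebraMap (𝓞 K) K a₁ =
      algebraMap (𝓞 K) K (hζ.toInteger - 1) ^ (p * m) * algebraMap (𝓞 K) K a₂ := by
    rw [ha₂, map_mul, map_pow, hm]
  rw [div_pow, div_mul_eq_mul_div, ← ha₁K, h2, ← pow_mul, mul_comm m p,
    mul_div_cancel_left₀ _ (pow_ne_zero _ hl0)]

end Cyclo

/-! ### The theorem -/

/-- **K1 / KUMMER.** -/
theorem kummer : KummerStatement := by
  intro p hp hp2 K L _ _ _ _ _ _ _ _ hdeg hunr ζ hζ hconj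
  have hfd : FiniteDimensional K L := Module.Finite.of_restrictScalars_finite ℚ K L
  obtain ⟨β₀, a₀, hβ₀, htop, hβ₀0, ha₀⟩ := exists_kummer_generator hdeg hζ
  have hunr' := exists_unramified_valuation hunr
  obtain ⟨w, hvw⟩ := hunr' (lam hζ)
  obtain ⟨t, α, ht, hα, hnd⟩ := exists_integral_prime_to_lam hζ w hvw hβ₀ ha₀
  set β : L := algebraMap K L t * β₀ with hβdef
  have hβp : β ^ p = algebraMap K L (algebraMap (𝓞 K) K α) := by
    rw [hβdef, mul_pow, hβ₀, hα, map_mul, map_pow]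
  have hα0 : α ≠ 0 := by
    rintro rfl
    exact hnd (dvd_zero _)
  have hβ0 : β ≠ 0 := mul_ne_zero (by rwa [Ne, map_eq_zero]) hβ₀0
  refine ⟨α, hα0, hnd, ?_, ?_, ?_, ?_⟩
  · -- not a `p`-th power
    have h := not_exists_pow_eq hdeg hζ hβ₀ htop ha₀ ht
    rwa [← hα] at h
  · -- eigen-property
    intro σ c hσ
    let τ : L ≃ₐ[ℚ] L := σ.liftNormal L
    have hτ : ∀ x : K, τ (algebraMap K L x) = algebraMap K L (σ x) :=
      fun x => σ.liftNormal_commutes L x
    have hτζ : τ (algebraMap K L ζ) = algebraMap K L (ζ ^ c) := by rw [hτ, hσ]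
    have hconj' : ∀ (s : L ≃ₐ[K] L) (x : L), τ.symm (s (τ x)) = (s ^ c) x := by
      intro s x
      have h := hconj τ s c (by rw [hτζ, map_pow])
      have h' := DFunLike.congr_fun h x
      simpa [AlgEquiv.mul_apply, AlgEquiv.aut_inv] using h'
    obtain ⟨κ, hκ0, hκ⟩ := conj_kummer_pow hζ hβp hβ0 τ c c hτζ hconj'
    refine ⟨κ, ?_⟩
    rw [hτ] at hκ
    have h := (algebraMap K L).injective hκ
    show σ (algebraMap (𝓞 K) K α) = (algebraMap (𝓞 K) K α) ^ (c ^ 2) * κ ^ p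
    rw [h, sq, mul_comm]
  · exact exists_ideal_pow_eq_span hunr' hα0 hβp
  · -- primary
    have hβint : IsIntegral ℤ β := by
      apply IsIntegral.of_pow hp.out.pos
      rw [hβp]
      exact (α.isIntegral_coe.algebraMap : IsIntegral ℤ (algebraMap K L (algebraMap (𝓞 K) K α)))
    let β' : 𝓞 L := ⟨β, hβint⟩
    have hβ' : β' ^ p = algebraMap (𝓞 K) (𝓞 L) α := by
      apply RingOfIntegers.coe_injective
      have h1 : algebraMap (𝓞 L) L (algebraMap (𝓞 K) (𝓞 L) α) =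
          algebraMap K L (algebraMap (𝓞 K) K α) := by
        rw [← IsScalarTower.algebraMap_apply (𝓞 K) (𝓞 L) L,
          ← IsScalarTower.algebraMap_apply (𝓞 K) K L]
      show algebraMap (𝓞 L) L (β' ^ p) = algebraMap (𝓞 L) L (algebraMap (𝓞 K) (𝓞 L) α)
      rw [h1, map_pow, ← hβp]
      rfl
    obtain ⟨n, -, hn⟩ := exists_int_pow_sub_mem (lam hζ) w hvw (natCast_mem_lam hζ)
      (exists_int_sub_mem_lam hζ) hζ.toInteger_isPrimitiveRoot hβ'
    refine ⟨n, ?_⟩
    rwa [lam_asIdeal, Ideal.span_singleton_pow, Ideal.mem_span_singleton] at hn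

end Fermat.Agent.S14.KummerNF69

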