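/-
S14 (blueprint 6), package (K6) MOD, part (a): the generic module lemma.

`A` a finite abelian group with an action of a finite group `D` of order prime to `p`,
`chi : D →* (ZMod p)ˣ`.  If `A[p]` contains a nonzero `chi`-eigenvector, then there is a nonzero
additive `chi`-eigen-character `A →+ ZMod p`.  Mathlib only; no sorry.
-/
import Mathlib

set_option autoImplicit false

namespace Fermat.Agent.S14.Mod39

open scoped BigOperators

section Generic

variable {A : Type*} [AddCommGroup A]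

/-- The subgroup `p^j A`. -/
def powSub (p : ℕ) (j : ℕ) : AddSubgroup A := (nsmulAddMonoidHom (α := A) (p ^ j)).range

lemma mem_powSub {p j : ℕ} {x : A} : x ∈ powSub (A := A) p j ↔ ∃ z : A, (p ^ j) • z = x := by
  simp [powSub, AddMonoidHom.mem_range]

/-- In a finite abelian group, a nonzero element of order `p` is not infinitely `p`-divisible. -/
lemma exists_not_mem_powSub [Finite A] (p : ℕ) [hp : Fact p.Prime] (x : A) (hx0 : x ≠ 0)
    (hxp : p • x = 0) : ∃ j, x ∉ powSub (A := A) p j := by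
  classical
  by_contra hcon
  simp only [not_exists, not_not] at hcon
  set n := Nat.card A with hn
  have hn0 : n ≠ 0 := Nat.card_pos.ne'
  obtain ⟨z, hz⟩ := mem_powSub.1 (hcon (n.factorization p))
  have hm : (n / p ^ n.factorization p) • x = 0 := by
    rw [← hz, ← mul_nsmul, Nat.ordProj_mul_ordCompl_eq_self n p]
    exact card_nsmul_eq_zero'
  have h1 : addOrderOf x ∣ p := addOrderOf_dvd_of_nsmul_eq_zero hxp
  have h2 : addOrderOf x ∣ n / p ^ n.factorization p := addOrderOf_dvd_of_nsmul_eq_zero hm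
  have hcop : Nat.Coprime p (n / p ^ n.factorization p) := Nat.coprime_ordCompl hp.out hn0
  have h3 : addOrderOf x = 1 := Nat.eq_one_of_dvd_coprimes hcop h1 h2
  exact hx0 (AddMonoid.addOrderOf_eq_one_iff.1 h3)

/-- A nonzero vector of an `𝔽_p`-vector space is detected by an additive character. -/
lemma exists_addHom_ne_zero (p : ℕ) [hp : Fact p.Prime] {V : Type*} [AddCommGroup V]
    [Module (ZMod p) V] (v : V) (hv : v ≠ 0) : ∃ φ : V →+ ZMod p, φ v ≠ 0 := by
  by_contra hcon
  simp only [not_exists, not_not] at hcon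
  refine hv ((Module.forall_dual_apply_eq_zero_iff (ZMod p) v).1 fun φ => ?_)
  exact hcon φ.toAddMonoidHom

/-- Separation by characters: if `z ∉ H` and `p A ≤ H` then some additive map `A → ZMod p`
kills `H` but not `z`. -/
lemma exists_hom_ker_ne (p : ℕ) [hp : Fact p.Prime] (H : AddSubgroup A)
    (hH : ∀ y : A, p • y ∈ H) (z : A) (hz : z ∉ H) :
    ∃ f : A →+ ZMod p, (∀ y ∈ H, f y = 0) ∧ f z ≠ 0 := by
  classical
  have hkill : ∀ q : A ⧸ H, p • q = 0 := by
    intro q
    induction q using QuotientAddGroup.induction_on with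
    | H y =>
      rw [← QuotientAddGroup.mk_nsmul]
      exact (QuotientAddGroup.eq_zero_iff _).2 (hH y)
  have hz' : (QuotientAddGroup.mk z : A ⧸ H) ≠ 0 := fun h =>
    hz ((QuotientAddGroup.eq_zero_iff _).1 h)
  obtain ⟨φ, hφ⟩ := @exists_addHom_ne_zero p _ (A ⧸ H) _ (AddCommGroup.zmodModule hkill) _ hz'
  refine ⟨φ.comp (QuotientAddGroup.mk' H), ?_, ?_⟩
  · intro y hy
    have : (QuotientAddGroup.mk y : A ⧸ H) = 0 := (QuotientAddGroup.eq_zero_iff _).2 hy
    simp [this]
  · simpa using hφ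

end Generic

section Eigen

variable {A : Type*} [AddCommGroup A] [Finite A]
variable {D : Type*} [Group D] [Finite D] [DistribMulAction D A]

/-- **Module lemma of package MOD.**  A nonzero `chi`-eigenvector in `A[p]` produces a nonzero
additive `chi`-eigen-character of `A` with values in `ZMod p`. -/
theorem exists_eigen_hom (p : ℕ) [hp : Fact p.Prime] (hD : (Nat.card D).Coprime p)
    (chi : D →* (ZMod p)ˣ) (x : A) (hx0 : x ≠ 0) (hxp : p • x = 0)
    (hx : ∀ d : D, d • x = ((chi d : ZMod p).val) • x) :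
    ∃ psi : A →+ ZMod p, psi ≠ 0 ∧
      ∀ (d : D) (y : A), psi (d • y) = (chi d : ZMod p) * psi y := by
  classical
  have _ : Fintype D := Fintype.ofFinite D
  -- `j` maximal with `x ∈ p^j A`
  obtain ⟨j0, hj0⟩ := exists_not_mem_powSub p x hx0 hxp
  have hfind : ∃ j, x ∉ powSub (A := A) p j := ⟨j0, hj0⟩
  set j1 := Nat.find hfind with hj1
  have hj1_spec : x ∉ powSub (A := A) p j1 := Nat.find_spec hfind
  have hj1_ne : j1 ≠ 0 := by
    intro h0
    apply hj1_spec
    rw [h0]
    exact mem_powSub.2 ⟨x, by simp⟩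
  obtain ⟨j, hj⟩ : ∃ j, j1 = j + 1 := Nat.exists_eq_succ_of_ne_zero hj1_ne
  have hxj : x ∈ powSub (A := A) p j := by
    have := Nat.find_min hfind (m := j) (by omega)
    exact not_not.1 this
  have hxj1 : x ∉ powSub (A := A) p (j + 1) := hj ▸ hj1_spec
  obtain ⟨z, hz⟩ := mem_powSub.1 hxj
  -- the subgroup `H = {y | p^j y ∈ p^(j+1) A}`
  set H : AddSubgroup A :=
    (powSub (A := A) p (j + 1)).comap (nsmulAddMonoidHom (α := A) (p ^ j)) with hHdef
  have hmemH : ∀ y : A, y ∈ H ↔ (p ^ j) • y ∈ powSub (A := A) p (j + 1) := by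
    intro y; rfl
  have hH : ∀ y : A, p • y ∈ H := by
    intro y
    rw [hmemH]
    refine mem_powSub.2 ⟨y, ?_⟩
    rw [← mul_nsmul', pow_succ]
  have hzH : z ∉ H := by
    rw [hmemH, hz]; exact hxj1
  obtain ⟨f, hfH, hfz⟩ := exists_hom_ker_ne p H hH z hzH
  -- `f (d • z) = chi d * f z`
  have hfd : ∀ d : D, f (d • z) = (chi d : ZMod p) * f z := by
    intro d
    have hmem : d • z - ((chi d : ZMod p).val) • z ∈ H := by
      rw [hmemH, smul_sub, ← smul_comm d (p ^ j) z, hz, smul_comm (p ^ j) ((chi d : ZMod p).val) z,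
        hz, hx d, sub_self]
      exact zero_mem _
    have := hfH _ hmem
    rw [map_sub, sub_eq_zero, map_nsmul] at this
    rw [this, nsmul_eq_mul, ZMod.natCast_val, ZMod.cast_id', id]
  -- symmetrise
  let psi : A →+ ZMod p :=
    ∑ d : D, ((chi d)⁻¹ : (ZMod p)ˣ).val • (f.comp (DistribSMul.toAddMonoidHom A d))
  have hpsi_apply : ∀ y : A, psi y = ∑ d : D, (((chi d)⁻¹ : (ZMod p)ˣ) : ZMod p) * f (d • y) := by
    intro y
    simp only [psi, AddMonoidHom.finsetSum_apply, AddMonoidHom.smul_apply, AddMonoidHom.comp_apply,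
      DistribSMul.toAddMonoidHom_apply, smul_eq_mul]
  refine ⟨psi, ?_, ?_⟩
  · intro h0
    have hz0 : psi z = 0 := by rw [h0]; rfl
    rw [hpsi_apply] at hz0
    have hsum : ∑ d : D, (((chi d)⁻¹ : (ZMod p)ˣ) : ZMod p) * f (d • z) = (Nat.card D : ZMod p) * f z := by
      have : ∀ d : D, (((chi d)⁻¹ : (ZMod p)ˣ) : ZMod p) * f (d • z) = f z := by
        intro d
        rw [hfd d, ← mul_assoc, ← Units.val_mul, inv_mul_cancel, Units.val_one, one_mul]
      rw [Finset.sum_congr rfl fun d _ => this d, Finset.sum_const, Finset.card_univ,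
        Nat.card_eq_fintype_card, nsmul_eq_mul]
    rw [hsum] at hz0
    rcases mul_eq_zero.1 hz0 with h | h
    · have hdvd : p ∣ Nat.card D := (ZMod.natCast_eq_zero_iff _ _).1 h
      have := Nat.Coprime.eq_one_of_dvd hD.symm hdvd
      exact hp.out.one_lt.ne' this
    · exact hfz h
  · intro d y
    rw [hpsi_apply, hpsi_apply, Finset.mul_sum]
    -- reindex `e ↦ e * d`
    refine Fintype.sum_equiv (Equiv.mulRight d) _ _ fun e => ?_
    simp only [Equiv.coe_mulRight, map_mul, mul_inv_rev, Units.val_mul, mul_smul]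
    have hunit : ((chi d : ZMod p)) * (((chi d)⁻¹ : (ZMod p)ˣ) : ZMod p) = 1 := by
      rw [← Units.val_mul, mul_inv_cancel, Units.val_one]
    calc (((chi e)⁻¹ : (ZMod p)ˣ) : ZMod p) * f (e • d • y)
        = ((chi d : ZMod p) * (((chi d)⁻¹ : (ZMod p)ˣ) : ZMod p)) *
            ((((chi e)⁻¹ : (ZMod p)ˣ) : ZMod p) * f (e • d • y)) := by rw [hunit, one_mul]
      _ = (chi d : ZMod p) * ((((chi d)⁻¹ : (ZMod p)ˣ) : ZMod p) *
            (((chi e)⁻¹ : (ZMod p)ˣ) : ZMod p) * f (e • d • y)) := by ring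

end Eigen

end Fermat.Agent.S14.Mod39
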