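/-
S14 (blueprint 6), package (K6a) MOD: `theorem mod : ModStatement p K`.

From a non-trivial `ω²`-eigen class of order `p` we build a non-trivial `ω²`-eigen character of
the class group with `ψ^p = 1`, using the generic module lemma `Mod39.exists_eigen_hom`
(applied to `A = Additive (ClassGroup (𝓞 K))`, `D = Gal(K/ℚ)`, `χ = (cyclotomic character)²`)
and a primitive `p`-th root of unity of `ℂ`.  No sorry.
-/
import Fermat.Agent.S14.CoreIface
import Fermat.Agent.S14.Mod39

set_option autoImplicit false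

namespace Fermat.Agent.S14.Mod39

open NumberField nonZeroDivisors

section Action

variable (K : Type) [Field K] [NumberField K]

lemma galRing_one : galRing K (1 : K ≃ₐ[ℚ] K) = RingEquiv.refl (𝓞 K) := by
  refine RingEquiv.ext fun x => RingOfIntegers.ext ?_
  rw [galRing_apply]
  rfl

lemma galRing_mul (σ τ : K ≃ₐ[ℚ] K) :
    galRing K (σ * τ) = (galRing K τ).trans (galRing K σ) := by
  refine RingEquiv.ext fun x => RingOfIntegers.ext ?_
  rw [galRing_apply, RingEquiv.trans_apply, galRing_apply, galRing_apply]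
  rfl

/-- The action of `Gal(K/ℚ)` on the (additively written) class group. -/
noncomputable def clAct : (K ≃ₐ[ℚ] K) →* AddMonoid.End (Additive (ClassGroup (𝓞 K))) where
  toFun σ := MonoidHom.toAdditive (ClassGroup.mulEquiv (galRing K σ)).toMonoidHom
  map_one' := by
    refine AddMonoidHom.ext fun x => ?_
    show Additive.ofMul (ClassGroup.mulEquiv (galRing K 1) (Additive.toMul x)) = x
    rw [galRing_one, ClassGroup.mulEquiv_refl_apply]
    rfl
  map_mul' σ τ := by
    refine AddMonoidHom.ext fun x => ?_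
    show Additive.ofMul (ClassGroup.mulEquiv (galRing K (σ * τ)) (Additive.toMul x)) =
      Additive.ofMul (ClassGroup.mulEquiv (galRing K σ)
        (ClassGroup.mulEquiv (galRing K τ) (Additive.toMul x)))
    rw [galRing_mul, ClassGroup.mulEquiv_trans_apply]

lemma clAct_ofMul_mk0 (σ : K ≃ₐ[ℚ] K) (I : (Ideal (𝓞 K))⁰) :
    clAct K σ (Additive.ofMul (ClassGroup.mk0 I)) =
      Additive.ofMul (ClassGroup.mk0 (galIdeal σ I)) := by
  show Additive.ofMul (ClassGroup.mulEquiv (galRing K σ) (ClassGroup.mk0 I)) = _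
  rw [ClassGroup.mulEquiv_mk0]
  rfl

end Action

section Root

/-- A primitive `p`-th root of unity in `ℂˣ`. -/
lemma exists_primitiveRoot_units (p : ℕ) (hp : p ≠ 0) : ∃ ω : ℂˣ, IsPrimitiveRoot ω p := by
  have h := Complex.isPrimitiveRoot_exp p hp
  refine ⟨(h.isUnit hp).unit, ?_⟩
  rw [← IsPrimitiveRoot.coe_units_iff]
  simpa using h

/-- The injective additive map `ZMod p → Additive ℂˣ`, `1 ↦ ω`. -/
noncomputable def expHom (p : ℕ) (ω : ℂˣ) (hω : ω ^ p = 1) : ZMod p →+ Additive ℂˣ :=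
  ZMod.lift p ⟨zmultiplesHom (Additive ℂˣ) (Additive.ofMul ω), by
    rw [zmultiplesHom_apply, natCast_zsmul, ← ofMul_pow, hω]; rfl⟩

lemma expHom_injective (p : ℕ) [NeZero p] (ω : ℂˣ) (hω : IsPrimitiveRoot ω p) :
    Function.Injective (expHom p ω hω.pow_eq_one) := by
  rw [expHom, ZMod.lift_injective]
  intro m hm
  rw [zmultiplesHom_apply] at hm
  have h1 : ω ^ m = 1 := by
    have : Additive.ofMul (ω ^ m) = 0 := by rw [ofMul_zpow]; exact hm
    exact this
  rw [hω.zpow_eq_one_iff_dvd] at h1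
  exact (ZMod.intCast_zmod_eq_zero_iff_dvd m p).2 h1

end Root

section Main

variable (p : ℕ) [Fact p.Prime] (K : Type) [Field K] [NumberField K]
  [IsCyclotomicExtension {p} ℚ K]

theorem mod : ModStatement p K := by
  classical
  intro _hp2 ζ hζ I hI1 hIp heig
  have hp : p.Prime := Fact.out
  have _ : NeZero p := ⟨hp.ne_zero⟩
  -- the cyclotomic character and its square
  let cyc : (K ≃ₐ[ℚ] K) →* (ZMod p)ˣ := hζ.autToPow ℚ
  let chi : (K ≃ₐ[ℚ] K) →* (ZMod p)ˣ := (powMonoidHom 2).comp cyc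
  have hcyc : ∀ (σ : K ≃ₐ[ℚ] K) (c : ℕ), σ ζ = ζ ^ c → ((c : ZMod p)) = (cyc σ : ZMod p) := by
    intro σ c hc
    have h1 : ζ ^ ((cyc σ : ZMod p)).val = ζ ^ c := by
      rw [← hc]; exact hζ.autToPow_spec ℚ σ
    have hζ0 : ζ ≠ 0 := hζ.ne_zero hp.ne_zero
    have h2 : ζ ^ ((((cyc σ : ZMod p)).val : ℤ) - (c : ℤ)) = 1 := by
      rw [zpow_sub₀ hζ0, zpow_natCast, zpow_natCast, h1, div_self (pow_ne_zero _ hζ0)]
    have h3 := (hζ.zpow_eq_one_iff_dvd _).1 h2
    have h4 := (ZMod.intCast_zmod_eq_zero_iff_dvd _ p).2 h3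
    push_cast at h4
    rw [ZMod.natCast_zmod_val, sub_eq_zero] at h4
    exact h4.symm
  have hchi : ∀ (σ : K ≃ₐ[ℚ] K) (c : ℕ), σ ζ = ζ ^ c →
      (chi σ : ZMod p) = ((c ^ 2 : ℕ) : ZMod p) := by
    intro σ c hc
    show (((cyc σ) ^ 2 : (ZMod p)ˣ) : ZMod p) = _
    rw [Units.val_pow_eq_pow_val, ← hcyc σ c hc, Nat.cast_pow]
  -- the action
  let act : DistribMulAction (K ≃ₐ[ℚ] K) (Additive (ClassGroup (𝓞 K))) :=
    DistribMulAction.compHom _ (clAct K)
  have hsmul : ∀ (σ : K ≃ₐ[ℚ] K) (y : Additive (ClassGroup (𝓞 K))), σ • y = clAct K σ y :=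
    fun _ _ => rfl
  -- cardinality of the Galois group is prime to `p`
  have hD : (Nat.card (K ≃ₐ[ℚ] K)).Coprime p := by
    have hdvd : Nat.card (K ≃ₐ[ℚ] K) ∣ Nat.card (ZMod p)ˣ :=
      Subgroup.card_dvd_of_injective cyc (hζ.autToPow_injective ℚ)
    have hcard : Nat.card (ZMod p)ˣ = p - 1 := by
      rw [Nat.card_eq_fintype_card, ZMod.card_units_eq_totient, Nat.totient_prime hp]
    rw [hcard] at hdvd
    have h1 : (p - 1).Coprime p := by
      have := Nat.coprime_self_sub_right (n := p) (m := 1) hp.one_le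
      rw [Nat.coprime_comm]
      simpa using this
    exact Nat.Coprime.coprime_dvd_left hdvd h1
  -- the eigenvector
  set x : Additive (ClassGroup (𝓞 K)) := Additive.ofMul (ClassGroup.mk0 I) with hxdef
  have hx0 : x ≠ 0 := fun h => hI1 (by
    have : Additive.toMul x = 1 := by rw [h]; rfl
    simpa [hxdef] using this)
  have hxp : p • x = 0 := by
    rw [hxdef, ← ofMul_pow, hIp]; rfl
  have hmodp : ∀ n : ℕ, (n % p) • x = n • x := by
    intro n
    conv_rhs => rw [← Nat.mod_add_div n p, add_nsmul, mul_nsmul, hxp, smul_zero, add_zero]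
  have hx : ∀ σ : K ≃ₐ[ℚ] K, σ • x = ((chi σ : ZMod p).val) • x := by
    intro σ
    have hc := (hζ.autToPow_spec ℚ σ).symm
    rw [hsmul, hxdef, clAct_ofMul_mk0, heig σ _ hc, ofMul_pow, hchi σ _ hc, ZMod.val_natCast, hmodp]
  obtain ⟨ψa, hψa0, hψaeig⟩ := exists_eigen_hom p hD chi x hx0 hxp hx
  -- the character
  obtain ⟨ω, hω⟩ := exists_primitiveRoot_units p hp.ne_zero
  let L : ZMod p →+ Additive ℂˣ := expHom p ω hω.pow_eq_one
  have hL : Function.Injective L := expHom_injective p ω hω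
  let ψ : ClassGroup (𝓞 K) →* ℂˣ := MonoidHom.toAdditive.symm (L.comp ψa)
  have hψ : ∀ c : ClassGroup (𝓞 K), Additive.ofMul (ψ c) = L (ψa (Additive.ofMul c)) :=
    fun _ => rfl
  refine ⟨ψ, ?_, ?_, ?_⟩
  · intro c
    have : Additive.ofMul (ψ c ^ p) = 0 := by
      rw [ofMul_pow, hψ, ← map_nsmul, nsmul_eq_mul, CharP.cast_eq_zero, zero_mul, map_zero]
    exact this
  · intro h1
    apply hψa0
    refine AddMonoidHom.ext fun y => ?_
    have h2 : Additive.ofMul (ψ (Additive.toMul y)) = 0 := by rw [h1]; rfl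
    rw [hψ] at h2
    have h3 : ψa y = 0 := hL (by rw [map_zero]; exact h2)
    simpa using h3
  · intro σ c hc J
    have h1 : Additive.ofMul (ψ (ClassGroup.mk0 (galIdeal σ J))) =
        Additive.ofMul (ψ (ClassGroup.mk0 J) ^ (c ^ 2)) := by
      rw [ofMul_pow, hψ, hψ, ← clAct_ofMul_mk0, ← hsmul, hψaeig, hchi σ c hc, ← map_nsmul,
        nsmul_eq_mul]
    exact h1

end Main

end Fermat.Agent.S14.Mod39
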