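/-
S14 / K4 (ULOG): the `ω²` cyclotomic number `∏ (1-ζ^b)^(b^(-2))` is not a `p`-th power in
`ℚ(ζ_p)` for `p ≥ 5` (Kummer's second logarithmic differential quotient is `-1/12 ≠ 0`).
Second seat (helper44, author of `FLTReg/DlogPoly` + `FLTReg/KummerLemmaDlog`).
-/
import Mathlib
import Fermat.Agent.FLTReg.KummerLemmaDlog
import Fermat.Agent.S14.CoreIface

set_option autoImplicit false

namespace Fermat.Agent.S14.ULog44

open Polynomial NumberField Fermat.Agent.FLTReg.Dlog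

/-! ### Polynomial level: a closed formula for `ell 1` -/

section Poly

variable {R : Type*} [CommRing R]

theorem theta_zero_mul (u v : R[X]) : theta 0 (u * v) = theta 0 u * theta 0 v := by
  rw [theta_zero_eq_eval, theta_zero_eq_eval, theta_zero_eq_eval, eval_mul]

theorem theta_one_mul (u v : R[X]) :
    theta 1 (u * v) = theta 0 u * theta 1 v + theta 1 u * theta 0 v := by
  rw [theta_mul]
  simp [Finset.sum_range_succ]

theorem lam_one_eq (f ft : R[X]) :
    lam 1 f ft = theta 1 f * theta 1 ft + theta 2 f * theta 0 ft := by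
  unfold lam
  rw [theta_one_mul, ← theta_succ, ← theta_succ]

theorem inv_relations {m : ℕ} (hm : 2 ≤ m) {f ft : R[X]}
    (h : (X - 1 : R[X]) ^ m ∣ f * ft - 1) :
    theta 0 f * theta 0 ft = 1 ∧ theta 0 f * theta 1 ft + theta 1 f * theta 0 ft = 0 := by
  have h0 := theta_congr (j := 0) (m := m) (by omega) h
  have h1 := theta_congr (j := 1) (m := m) (by omega) h
  rw [theta_zero_mul, theta_one] at h0
  rw [theta_one_mul, theta_one] at h1
  exact ⟨by simpa using h0, by simpa using h1⟩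

/-- closed formula for the second logarithmic differential quotient. -/
theorem ell_one_eq {m : ℕ} (hm : 2 < m) (b : (TruncRing R m)ˣ) (f : R[X])
    (hf : truncMk R m f = b) (c : R) (hc : theta 0 f * c = 1) :
    ell 1 b = theta 2 f * c - (theta 1 f * c) ^ 2 := by
  have hft : truncMk R m (Quotient.out ((b⁻¹ : (TruncRing R m)ˣ) : TruncRing R m)) =
      ((b⁻¹ : (TruncRing R m)ˣ) : TruncRing R m) := truncMk_out _
  set ft := Quotient.out ((b⁻¹ : (TruncRing R m)ˣ) : TruncRing R m) with hftdef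
  rw [ell_eq_lam (by omega) b hf hft, lam_one_eq]
  have hdvd : (X - 1 : R[X]) ^ m ∣ f * ft - 1 := by
    rw [← truncMk_eq_iff, map_mul, hf, hft, map_one, ← Units.val_mul, mul_inv_cancel,
      Units.val_one]
  obtain ⟨e0, e1⟩ := inv_relations (by omega) hdvd
  have hcc : theta 0 ft = c := by
    calc theta 0 ft = theta 0 ft * (theta 0 f * c) := by rw [hc, mul_one]
      _ = (theta 0 f * theta 0 ft) * c := by ring
      _ = c := by rw [e0, one_mul]
  have h1 : theta 1 ft = - (theta 1 f * c * c) := by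
    have : theta 1 ft = theta 1 ft * (theta 0 f * c) := by rw [hc, mul_one]
    rw [this]
    have e1' : theta 0 f * theta 1 ft = - (theta 1 f * c) := by
      rw [hcc] at e1
      linear_combination e1
    calc theta 1 ft * (theta 0 f * c) = (theta 0 f * theta 1 ft) * c := by ring
      _ = - (theta 1 f * c * c) := by rw [e1']; ring
  rw [hcc, h1]
  ring

/-- The geometric sum `1 + X + ⋯ + X^(b-1)`. -/
noncomputable def gs (b : ℕ) : R[X] := ∑ i ∈ Finset.range b, X ^ i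

theorem theta_gs (j b : ℕ) : theta j (gs b : R[X]) = ∑ i ∈ Finset.range b, (i : R) ^ j := by
  unfold gs
  rw [map_sum]
  exact Finset.sum_congr rfl fun i _ => theta_X_pow j i

theorem theta_zero_gs (b : ℕ) : theta 0 (gs b : R[X]) = b := by
  rw [theta_gs]; simp

theorem two_mul_theta_one_gs (b : ℕ) :
    2 * theta 1 (gs b : R[X]) = (b : R) * ((b : R) - 1) := by
  rw [theta_gs]
  induction b with
  | zero => simp
  | succ n ih =>
    rw [Finset.sum_range_succ, mul_add, ih]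
    push_cast
    ring

theorem six_mul_theta_two_gs (b : ℕ) :
    6 * theta 2 (gs b : R[X]) = ((b : R) - 1) * (b : R) * (2 * (b : R) - 1) := by
  rw [theta_gs]
  induction b with
  | zero => simp
  | succ n ih =>
    rw [Finset.sum_range_succ, mul_add, ih]
    push_cast
    ring

/-- `12 · ell_1 (1 + X + ⋯ + X^(b-1)) = b² - 1`. -/
theorem twelve_mul_ell_one_gs {m : ℕ} (hm : 2 < m) (u : (TruncRing R m)ˣ) (b : ℕ)
    (hu : truncMk R m (gs b) = u) (c : R) (hc : (b : R) * c = 1) :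
    12 * ell 1 u = (b : R) ^ 2 - 1 := by
  rw [ell_one_eq hm u (gs b) hu c (by rw [theta_zero_gs]; exact hc)]
  have h1 := two_mul_theta_one_gs (R := R) b
  have h2 := six_mul_theta_two_gs (R := R) b
  have e : 12 * (theta 2 (gs b : R[X]) * c - (theta 1 (gs b : R[X]) * c) ^ 2) =
      2 * (6 * theta 2 (gs b : R[X])) * c - 3 * (2 * theta 1 (gs b : R[X])) ^ 2 * c ^ 2 := by
    ring
  rw [e, h1, h2]
  have hc2 : (b : R) ^ 2 * c ^ 2 = 1 := by
    rw [← mul_pow, hc, one_pow]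
  linear_combination (2 * ((b : R) - 1) * (2 * (b : R) - 1)) * hc -
    3 * ((b : R) - 1) ^ 2 * hc2

end Poly

/-! ### Unit level -/

section Units

variable {p : ℕ} [hp : Fact p.Prime] {K : Type} [Field K] [NumberField K]
  [IsCyclotomicExtension {p} ℚ K] {ζ : K} (hζ : IsPrimitiveRoot ζ p)

omit [NumberField K] [IsCyclotomicExtension {p} ℚ K] in
theorem isUnit_gsum {b : ℕ} (hb : ¬ p ∣ b) :
    IsUnit (∑ i ∈ Finset.range b, hζ.toInteger ^ i : 𝓞 K) :=
  hζ.toInteger_isPrimitiveRoot.geom_sum_isUnit hp.out.two_le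
    ((Nat.Prime.coprime_iff_not_dvd hp.out).mpr hb).symm

theorem phi_gsum (b : ℕ) :
    phi hζ (∑ i ∈ Finset.range b, hζ.toInteger ^ i) = truncMk (ZMod p) (p - 1) (gs b) := by
  unfold gs
  rw [map_sum, map_sum]
  refine Finset.sum_congr rfl fun i _ => ?_
  rw [map_pow, phi_zeta, map_pow]

theorem twelve_mul_kell_gsum (h5 : 5 ≤ p) {b : ℕ} (hb : ¬ p ∣ b) (u : (𝓞 K)ˣ)
    (hu : (u : 𝓞 K) = ∑ i ∈ Finset.range b, hζ.toInteger ^ i) :
    12 * kell hζ 1 u = (b : ZMod p) ^ 2 - 1 := by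
  unfold kell
  refine twelve_mul_ell_one_gs (by omega) _ b ?_ ((b : ZMod p)⁻¹) ?_
  · rw [Units.coe_map]
    change _ = phi hζ (u : 𝓞 K)
    rw [hu, phi_gsum]
  · refine mul_inv_cancel₀ ?_
    rwa [Ne, ZMod.natCast_eq_zero_iff]

/-- `kell 1` as an additive homomorphism. -/
noncomputable def kellHom (h5 : 5 ≤ p) : Additive (𝓞 K)ˣ →+ ZMod p :=
  AddMonoidHom.mk' (fun u => kell hζ 1 (Additive.toMul u))
    (fun _ _ => kell_mul hζ (by omega) _ _)

theorem kellHom_apply (h5 : 5 ≤ p) (u : (𝓞 K)ˣ) :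
    kellHom hζ h5 (Additive.ofMul u) = kell hζ 1 u := rfl

theorem kellHom_pow_self (h5 : 5 ≤ p) (u : (𝓞 K)ˣ) :
    kellHom hζ h5 (Additive.ofMul (u ^ p)) = 0 := by
  rw [ofMul_pow, map_nsmul, nsmul_eq_mul, CharP.cast_eq_zero, zero_mul]

end Units

/-! ### Sums over `ZMod p` -/

section Sums

variable {p : ℕ} [hp : Fact p.Prime]

theorem sum_range_eq_sum_univ (F : ZMod p → ZMod p) :
    ∑ i ∈ Finset.range p, F (i : ZMod p) = ∑ x : ZMod p, F x := by
  refine Finset.sum_bij (fun i _ => (i : ZMod p)) (fun _ _ => Finset.mem_univ _) ?_ ?_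
    (fun _ _ => rfl)
  · intro i hi j hj h
    have := (ZMod.natCast_eq_natCast_iff' i j p).1 h
    rwa [Nat.mod_eq_of_lt (Finset.mem_range.1 hi), Nat.mod_eq_of_lt (Finset.mem_range.1 hj)] at this
  · intro x _
    exact ⟨x.val, Finset.mem_range.2 (ZMod.val_lt x), ZMod.natCast_zmod_val x⟩

theorem sum_Ico_pow (h5 : 5 ≤ p) :
    ∑ b ∈ Finset.Ico 1 p, (b : ZMod p) ^ (p - 3) = 0 := by
  have h1 : ∑ i ∈ Finset.range p, (i : ZMod p) ^ (p - 3) = 0 := by
    rw [sum_range_eq_sum_univ (fun x => x ^ (p - 3))]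
    refine FiniteField.sum_pow_lt_card_sub_one (K := ZMod p) (p - 3) ?_
    rw [ZMod.card]
    omega
  rw [Finset.range_eq_Ico, Finset.sum_eq_sum_Ico_succ_bot (by omega)] at h1
  simpa [zero_pow (by omega : p - 3 ≠ 0)] using h1

end Sums

/-! ### The cyclotomic number -/

section Eta

variable {p : ℕ} [hp : Fact p.Prime] {K : Type} [Field K] [NumberField K]
  [IsCyclotomicExtension {p} ℚ K] {ζ : K} (hζ : IsPrimitiveRoot ζ p)

/-- the geometric-sum units. -/
noncomputable def ub (b : ℕ) : (𝓞 K)ˣ :=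
  if h : ¬ p ∣ b then (isUnit_gsum hζ h).unit else 1

omit [NumberField K] [IsCyclotomicExtension {p} ℚ K] in
theorem ub_val {b : ℕ} (hb : b ∈ Finset.Ico 1 p) :
    ((ub hζ b : (𝓞 K)ˣ) : 𝓞 K) = ∑ i ∈ Finset.range b, hζ.toInteger ^ i := by
  have h : ¬ p ∣ b := by
    rw [Finset.mem_Ico] at hb
    exact Nat.not_dvd_of_pos_of_lt (by omega) hb.2
  rw [ub, dif_pos h]
  rfl

omit hp [NumberField K] [IsCyclotomicExtension {p} ℚ K] in
theorem not_dvd_of_mem_Ico {b : ℕ} (hb : b ∈ Finset.Ico 1 p) : ¬ p ∣ b := by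
  rw [Finset.mem_Ico] at hb
  exact Nat.not_dvd_of_pos_of_lt (by omega) hb.2

omit [NumberField K] [IsCyclotomicExtension {p} ℚ K] in
/-- `etaRaw = (1-ζ)^M · U`. -/
theorem etaRaw_eq (m : ℕ → ℕ) :
    etaRaw p K hζ.toInteger m =
      (1 - hζ.toInteger) ^ (∑ b ∈ Finset.Ico 1 p, m b) *
        ((∏ b ∈ Finset.Ico 1 p, ub hζ b ^ m b : (𝓞 K)ˣ) : 𝓞 K) := by
  unfold etaRaw
  rw [← Finset.prod_pow_eq_pow_sum, Units.coe_prod, ← Finset.prod_mul_distrib]
  refine Finset.prod_congr rfl fun b hb => ?_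
  rw [Units.val_pow_eq_pow_val, ub_val hζ hb, ← mul_pow, mul_neg_geom_sum]

omit [NumberField K] [IsCyclotomicExtension {p} ℚ K] in
theorem m_cast_eq (h5 : 5 ≤ p) (m : ℕ → ℕ)
    (hm : ∀ b ∈ Finset.Ico 1 p, (m b * b ^ 2) % p = 1) {b : ℕ} (hb : b ∈ Finset.Ico 1 p) :
    (m b : ZMod p) * (b : ZMod p) ^ 2 = 1 ∧ (m b : ZMod p) = (b : ZMod p) ^ (p - 3) := by
  have h1 : (m b : ZMod p) * (b : ZMod p) ^ 2 = 1 := by
    have := hm b hb
    have h2 : ((m b * b ^ 2 : ℕ) : ZMod p) = ((1 : ℕ) : ZMod p) := by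
      rw [ZMod.natCast_eq_natCast_iff', this, Nat.mod_eq_of_lt hp.out.one_lt]
    push_cast at h2
    exact h2
  refine ⟨h1, ?_⟩
  have hb0 : (b : ZMod p) ≠ 0 := by
    rw [Ne, ZMod.natCast_eq_zero_iff]
    exact not_dvd_of_mem_Ico (p := p) hb
  have h3 : (b : ZMod p) ^ (p - 3) * (b : ZMod p) ^ 2 = 1 := by
    rw [← pow_add, show p - 3 + 2 = p - 1 by omega]
    exact ZMod.pow_card_sub_one_eq_one hb0
  calc (m b : ZMod p) = (m b : ZMod p) * ((b : ZMod p) ^ (p - 3) * (b : ZMod p) ^ 2) := by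
        rw [h3, mul_one]
    _ = ((m b : ZMod p) * (b : ZMod p) ^ 2) * (b : ZMod p) ^ (p - 3) := by ring
    _ = (b : ZMod p) ^ (p - 3) := by rw [h1, one_mul]

/-- general form: for exponents `m b ≡ b^(-2)`, the cyclotomic number is not a `p`-th power. -/
theorem etaRaw_not_pow (h5 : 5 ≤ p) (m : ℕ → ℕ)
    (hm : ∀ b ∈ Finset.Ico 1 p, (m b * b ^ 2) % p = 1) :
    ¬ ∃ v : K, v ^ p = ((etaRaw p K hζ.toInteger m : 𝓞 K) : K) := by
  rintro ⟨v, hv⟩
  set M := ∑ b ∈ Finset.Ico 1 p, m b with hM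
  set U : (𝓞 K)ˣ := ∏ b ∈ Finset.Ico 1 p, ub hζ b ^ m b with hU
  -- `p ∣ M`
  have hpM : p ∣ M := by
    rw [← ZMod.natCast_eq_zero_iff, hM, Nat.cast_sum]
    rw [← sum_Ico_pow (p := p) h5]
    exact Finset.sum_congr rfl fun b hb => (m_cast_eq h5 m hm hb).2
  obtain ⟨M', hM'⟩ := hpM
  -- `U` is a `p`-th power of an element of `K`
  have hl : (1 - ζ : K) ≠ 0 := by
    intro h
    have : ζ = 1 := (sub_eq_zero.mp h).symm
    exact hζ.ne_one hp.out.one_lt this
  have e1 : ((etaRaw p K hζ.toInteger m : 𝓞 K) : K) = ((1 - ζ) ^ M') ^ p * ((U : 𝓞 K) : K) := by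
    rw [etaRaw_eq hζ m, ← hM, ← hU, hM', ← pow_mul, mul_comm M' p]
    simp only [map_mul, map_pow, map_sub, map_one]
    rfl
  have hvU : (v / (1 - ζ) ^ M') ^ p = ((U : 𝓞 K) : K) := by
    rw [div_pow, hv, e1, mul_div_cancel_left₀ _ (pow_ne_zero _ (pow_ne_zero _ hl))]
  have hwint : IsIntegral ℤ (v / (1 - ζ) ^ M') := by
    refine IsIntegral.of_pow hp.out.pos ?_
    rw [hvU]
    exact NumberField.RingOfIntegers.isIntegral_coe _
  set w₀ : 𝓞 K := IsIntegralClosure.mk' (𝓞 K) (v / (1 - ζ) ^ M') hwint with hw₀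
  have hw₀K : ((w₀ : 𝓞 K) : K) = v / (1 - ζ) ^ M' := IsIntegralClosure.algebraMap_mk' _ _ _
  have hw₀p : w₀ ^ p = (U : 𝓞 K) := by
    apply NumberField.RingOfIntegers.ext
    rw [← hvU, ← hw₀K]
    exact map_pow (algebraMap (𝓞 K) K) w₀ p
  have hw₀u : IsUnit w₀ := by
    have : IsUnit (w₀ ^ p) := hw₀p ▸ U.isUnit
    exact (isUnit_pow_iff hp.out.ne_zero).1 this
  have hεU : hw₀u.unit ^ p = U := by
    apply Units.ext
    rw [Units.val_pow_eq_pow_val]
    exact hw₀p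
  -- compute `kell 1 U` in two ways
  have hk0 : kellHom hζ h5 (Additive.ofMul U) = 0 := by
    rw [← hεU]
    exact kellHom_pow_self hζ h5 _
  have hk1 : 12 * kellHom hζ h5 (Additive.ofMul U) = -1 := by
    rw [hU, ofMul_prod, map_sum, Finset.mul_sum]
    have : ∀ b ∈ Finset.Ico 1 p,
        12 * kellHom hζ h5 (Additive.ofMul (ub hζ b ^ m b)) = 1 - (b : ZMod p) ^ (p - 3) := by
      intro b hb
      obtain ⟨h1, h2⟩ := m_cast_eq h5 m hm hb
      rw [ofMul_pow, map_nsmul, nsmul_eq_mul, kellHom_apply, mul_left_comm,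
        twelve_mul_kell_gsum hζ h5 (not_dvd_of_mem_Ico hb) (ub hζ b) (ub_val hζ hb), mul_sub,
        h1, mul_one, h2]
    rw [Finset.sum_congr rfl this, Finset.sum_sub_distrib, sum_Ico_pow h5, sub_zero]
    simp only [Finset.sum_const, Nat.card_Ico, nsmul_eq_mul, mul_one]
    rw [Nat.cast_sub hp.out.one_le, CharP.cast_eq_zero]
    simp
  rw [hk0, mul_zero] at hk1
  have : (1 : ZMod p) = 0 := by linear_combination hk1
  exact one_ne_zero this

omit [NumberField K] [IsCyclotomicExtension {p} ℚ K] in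
theorem etaExp_spec {b : ℕ} (hb : b ∈ Finset.Ico 1 p) : (etaExp p 2 b * b ^ 2) % p = 1 := by
  have hb0 : (b : ZMod p) ≠ 0 := by
    rw [Ne, ZMod.natCast_eq_zero_iff]
    exact not_dvd_of_mem_Ico (p := p) hb
  have h2 : 2 ≤ p := hp.out.two_le
  have h : ((etaExp p 2 b * b ^ 2 : ℕ) : ZMod p) = ((1 : ℕ) : ZMod p) := by
    unfold etaExp
    push_cast
    rw [ZMod.natCast_mod]
    push_cast
    rw [← pow_add, show 2 * (p - 2) + 2 = (p - 1) * 2 by omega, pow_mul,
      ZMod.pow_card_sub_one_eq_one hb0, one_pow]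
  have := (ZMod.natCast_eq_natCast_iff' _ _ p).1 h
  rwa [Nat.mod_eq_of_lt hp.out.one_lt] at this

end Eta

/-- **K4 / ULOG (a)** in the exact `CoreIface` shape. -/
theorem etaNotPow (p : ℕ) [Fact p.Prime] (K : Type) [Field K] [NumberField K]
    [IsCyclotomicExtension {p} ℚ K] : EtaNotPowStatement p K := by
  intro h5 ζ hζ
  exact etaRaw_not_pow hζ h5 (etaExp p 2) (fun b hb => etaExp_spec (p := p) hb)

end Fermat.Agent.S14.ULog44
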