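/-
S14 / K4 (ULOG), second seat (helper38): the `ω^2` cyclotomic number `etaRaw` is not a `p`-th
power, by the short route through the units `1 + ζ^a` (re-using `kell_one_add_zeta_pow`).
-/
import Mathlib
import Fermat.Agent.S14.CoreIface
import Fermat.Agent.FLTReg.KummerLemmaDlog

set_option autoImplicit false

namespace Fermat.Agent.S14.ULog38

open NumberField Polynomial Fermat.Agent.FLTReg.Dlog

section Table

variable (p : ℕ)

/-- The table of moments of `X/(1+X)` in `ZMod p`, by strong recursion: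
`2 t_j + ∑_{i<j} C(j,i+1) t_{j-i-1} = 1`. -/
noncomputable def tbl : ℕ → ZMod p
  | j => (2 : ZMod p)⁻¹ *
      (1 - ∑ i : Fin j, (j.choose (i.val + 1) : ZMod p) * tbl (j - (i.val + 1)))
termination_by j => j
decreasing_by
  have := i.isLt
  omega

theorem tbl_spec [hp : Fact p.Prime] (hp2 : p ≠ 2) (j : ℕ) :
    2 * tbl p j + ∑ i ∈ Finset.range j, (j.choose (i + 1) : ZMod p) * tbl p (j - (i + 1)) = 1 := by
  have h2 : (2 : ZMod p) ≠ 0 := by
    have : ((2 : ℕ) : ZMod p) ≠ 0 := by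
      rw [Ne, ZMod.natCast_eq_zero_iff]
      intro h
      exact hp2 ((Nat.prime_dvd_prime_iff_eq hp.out Nat.prime_two).mp h)
    simpa using this
  rw [tbl, ← mul_assoc, mul_inv_cancel₀ h2, one_mul,
    Finset.sum_range (fun i => (j.choose (i + 1) : ZMod p) * tbl p (j - (i + 1)))]
  ring

theorem tbl_zero : tbl p 0 = (2 : ZMod p)⁻¹ := by
  rw [tbl]; simp

theorem tbl_one : tbl p 1 = (2 : ZMod p)⁻¹ * (1 - (2 : ZMod p)⁻¹) := by
  rw [tbl]; simp [tbl_zero]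

theorem four_mul_tbl_one [hp : Fact p.Prime] (hp2 : p ≠ 2) : 4 * tbl p 1 = 1 := by
  have h2 : (2 : ZMod p) ≠ 0 := by
    have : ((2 : ℕ) : ZMod p) ≠ 0 := by
      rw [Ne, ZMod.natCast_eq_zero_iff]
      intro h
      exact hp2 ((Nat.prime_dvd_prime_iff_eq hp.out Nat.prime_two).mp h)
    simpa using this
  rw [tbl_one]
  field_simp
  ring

end Table


section Generic

/-- Products of integer powers with exponents congruent modulo `p` differ by a `p`-th power. -/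
theorem prod_zpow_congr {G : Type*} [CommGroup G] (p : ℕ) (s : Finset ℕ) (f : ℕ → G)
    (e e' : ℕ → ℤ) (h : ∀ a ∈ s, (p : ℤ) ∣ e a - e' a) :
    ∃ w : G, ∏ a ∈ s, f a ^ e a = (∏ a ∈ s, f a ^ e' a) * w ^ p := by
  classical
  choose! k hk using h
  refine ⟨∏ a ∈ s, f a ^ k a, ?_⟩
  rw [← Finset.prod_pow, ← Finset.prod_mul_distrib]
  refine Finset.prod_congr rfl fun a ha => ?_
  have h1 : e a = e' a + k a * p := by have := hk a ha; linarith [this]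
  rw [h1, zpow_add, zpow_mul, zpow_natCast]

variable {p : ℕ} [hp : Fact p.Prime]

theorem mul_mod_mem_Ico {c a : ℕ} (hc : ¬ p ∣ c) (ha : a ∈ Finset.Ico 1 p) :
    (c * a) % p ∈ Finset.Ico 1 p := by
  rw [Finset.mem_Ico] at ha ⊢
  refine ⟨?_, Nat.mod_lt _ hp.out.pos⟩
  rw [Nat.one_le_iff_ne_zero, Ne, ← Nat.dvd_iff_mod_eq_zero, hp.out.dvd_mul]
  rintro (h | h)
  · exact hc h
  · have := Nat.le_of_dvd (by omega) h
    omega

/-- Multiplication by `c` (prime to `p`) permutes the residues `1, …, p-1`. -/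
theorem prod_Ico_reindex {M : Type*} [CommMonoid M] {c : ℕ} (hc : ¬ p ∣ c) (g : ℕ → M) :
    ∏ b ∈ Finset.Ico 1 p, g b = ∏ a ∈ Finset.Ico 1 p, g ((c * a) % p) := by
  classical
  have hinj : Set.InjOn (fun a => (c * a) % p) (Finset.Ico 1 p : Finset ℕ) := by
    intro a ha a' ha' h
    simp only [Finset.coe_Ico, Set.mem_Ico] at ha ha'
    have h1 : c * a ≡ c * a' [MOD p] := h
    have h2 : a ≡ a' [MOD p] :=
      Nat.ModEq.cancel_left_of_coprime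
        (((Nat.Prime.coprime_iff_not_dvd hp.out).mpr hc)) h1
    exact Nat.ModEq.eq_of_lt_of_lt h2 ha.2 ha'.2
  have himg : (Finset.Ico 1 p).image (fun a => (c * a) % p) = Finset.Ico 1 p := by
    apply Finset.eq_of_subset_of_card_le
    · intro b hb
      obtain ⟨a, ha, rfl⟩ := Finset.mem_image.mp hb
      exact mul_mod_mem_Ico hc ha
    · rw [Finset.card_image_of_injOn hinj]
  conv_lhs => rw [← himg]
  rw [Finset.prod_image hinj]

/-- The exponents `m` with `m b * b^k ≡ 1` satisfy `m a ≡ c^k * m (c a)` modulo `p`. -/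
theorem exp_congr {k : ℕ} {m : ℕ → ℕ} (hm : ∀ b ∈ Finset.Ico 1 p, (m b * b ^ k) % p = 1)
    {c : ℕ} (hc : ¬ p ∣ c) {a : ℕ} (ha : a ∈ Finset.Ico 1 p) :
    (p : ℤ) ∣ (m a : ℤ) - ((c ^ k * m ((c * a) % p) : ℕ) : ℤ) := by
  have hb := mul_mod_mem_Ico hc ha
  have h1 : ((m a : ℕ) : ZMod p) * (a : ZMod p) ^ k = 1 := by
    have := hm a ha
    have h' : ((m a * a ^ k : ℕ) : ZMod p) = ((1 : ℕ) : ZMod p) := by
      rw [ZMod.natCast_eq_natCast_iff']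
      rw [this, Nat.mod_eq_of_lt hp.out.one_lt]
    simpa using h'
  have h2 : ((m ((c * a) % p) : ℕ) : ZMod p) * ((c : ZMod p) * (a : ZMod p)) ^ k = 1 := by
    have := hm _ hb
    have h' : ((m ((c * a) % p) * ((c * a) % p) ^ k : ℕ) : ZMod p) = ((1 : ℕ) : ZMod p) := by
      rw [ZMod.natCast_eq_natCast_iff']
      rw [this, Nat.mod_eq_of_lt hp.out.one_lt]
    simpa using h'
  rw [← ZMod.intCast_zmod_eq_zero_iff_dvd]
  push_cast
  rw [sub_eq_zero]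
  calc ((m a : ℕ) : ZMod p) = (m a : ZMod p) * ((m ((c * a) % p) : ZMod p) * ((c : ZMod p) * a) ^ k) := by
        rw [h2, mul_one]
    _ = ((m a : ZMod p) * (a : ZMod p) ^ k) * ((c : ZMod p) ^ k * (m ((c * a) % p) : ZMod p)) := by
        ring
    _ = (c : ZMod p) ^ k * (m ((c * a) % p) : ZMod p) := by rw [h1, one_mul]

/-- The exponents of `CoreIface.etaExp` satisfy the hypothesis of `ThaineStatement`. -/
theorem etaExp_spec (k : ℕ) : ∀ b ∈ Finset.Ico 1 p, (etaExp p k b * b ^ k) % p = 1 := by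
  intro b hb
  rw [Finset.mem_Ico] at hb
  have hb0 : (b : ZMod p) ≠ 0 := by
    rw [Ne, ZMod.natCast_eq_zero_iff]
    intro h
    have := Nat.le_of_dvd (by omega) h
    omega
  have h1 : ((etaExp p k b * b ^ k : ℕ) : ZMod p) = ((1 : ℕ) : ZMod p) := by
    unfold etaExp
    push_cast
    rw [ZMod.natCast_mod]
    push_cast
    rw [← pow_add, show k * (p - 2) + k = (p - 1) * k by
      have := hp.out.two_le
      obtain ⟨q, hq⟩ : ∃ q, p = q + 2 := ⟨p - 2, by omega⟩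
      rw [hq, show q + 2 - 2 = q by omega, show q + 2 - 1 = q + 1 by omega]
      ring, pow_mul, ZMod.pow_card_sub_one_eq_one hb0, one_pow]
  rw [ZMod.natCast_eq_natCast_iff'] at h1
  rw [h1, Nat.mod_eq_of_lt hp.out.one_lt]

end Generic


section Cyclo

variable {p : ℕ} [hp : Fact p.Prime] {K : Type} [Field K] [NumberField K]
  [IsCyclotomicExtension {p} ℚ K] {ζ : K} (hζ : IsPrimitiveRoot ζ p)

omit [NumberField K] [IsCyclotomicExtension {p} ℚ K] hp in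
include hζ in
theorem zeta_pow_mod (n : ℕ) : ζ ^ (n % p) = ζ ^ n := by
  conv_rhs => rw [← Nat.div_add_mod n p, pow_add, pow_mul, hζ.pow_eq_one, one_pow, one_mul]

omit [NumberField K] [IsCyclotomicExtension {p} ℚ K] hp in
include hζ in
theorem one_sub_zeta_pow_ne_zero {b : ℕ} (hb : ¬ p ∣ b) : (1 : K) - ζ ^ b ≠ 0 := by
  intro h
  have : ζ ^ b = 1 := (sub_eq_zero.mp h).symm
  exact hb ((hζ.pow_eq_one_iff_dvd b).mp this)

omit hp in
theorem not_dvd_of_mem_Ico {a : ℕ} (ha : a ∈ Finset.Ico 1 p) : ¬ p ∣ a := by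
  rw [Finset.mem_Ico] at ha
  intro h
  have := Nat.le_of_dvd (by omega) h
  omega

/-- The unit `1 + ζ^a` of `𝓞 K` (`1` if `p ∣ a`). -/
noncomputable def uA (hp2 : p ≠ 2) (a : ℕ) : (𝓞 K)ˣ :=
  if h : p ∣ a then 1 else (isUnit_one_add_zeta_pow hζ hp2 h).unit

omit [NumberField K] [IsCyclotomicExtension {p} ℚ K] in
theorem uA_coe (hp2 : p ≠ 2) {a : ℕ} (h : ¬ p ∣ a) :
    ((uA hζ hp2 a : (𝓞 K)ˣ) : 𝓞 K) = 1 + hζ.toInteger ^ a := by
  rw [uA, dif_neg h]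
  rfl

omit [NumberField K] [IsCyclotomicExtension {p} ℚ K] in
theorem uA_coe_K (hp2 : p ≠ 2) {a : ℕ} (h : ¬ p ∣ a) :
    (((uA hζ hp2 a : (𝓞 K)ˣ) : 𝓞 K) : K) = 1 + ζ ^ a := by
  rw [uA_coe hζ hp2 h]
  rfl

/-- The `ω^2`-eigen unit `∏_a (1 + ζ^a)^(m a)`. -/
noncomputable def bigU (hp2 : p ≠ 2) (m : ℕ → ℕ) : (𝓞 K)ˣ :=
  ∏ a ∈ Finset.Ico 1 p, uA hζ hp2 a ^ m a

/-- `kell_1` as an additive map on units. -/
noncomputable def kellHom (hj : 1 + 1 < p - 1) : Additive (𝓞 K)ˣ →+ ZMod p :=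
  AddMonoidHom.mk' (fun u => kell hζ 1 (Additive.toMul u)) (fun _ _ => kell_mul hζ hj _ _)

theorem kellHom_apply (hj : 1 + 1 < p - 1) (u : (𝓞 K)ˣ) :
    kellHom hζ hj (Additive.ofMul u) = kell hζ 1 u := rfl

theorem two_isUnit (hp2 : p ≠ 2) : IsUnit (2 : ZMod p) := by
  have : ((2 : ℕ) : ZMod p) ≠ 0 := by
    rw [Ne, ZMod.natCast_eq_zero_iff]
    intro h
    exact hp2 ((Nat.prime_dvd_prime_iff_eq hp.out Nat.prime_two).mp h)
  exact (isUnit_iff_ne_zero.mpr (by simpa using this))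

theorem kell_uA (hp2 : p ≠ 2) (hj : 1 + 1 < p - 1) {a : ℕ} (h : ¬ p ∣ a) :
    kell hζ 1 (uA hζ hp2 a) = (a : ZMod p) ^ 2 * tbl p 1 :=
  kell_one_add_zeta_pow hζ hj (uA hζ hp2 a) a (uA_coe hζ hp2 h) (two_isUnit hp2) (tbl p)
    (fun j _ => tbl_spec p hp2 j)

theorem kell_bigU (hp2 : p ≠ 2) (hj : 1 + 1 < p - 1) {m : ℕ → ℕ}
    (hm : ∀ b ∈ Finset.Ico 1 p, (m b * b ^ 2) % p = 1) :
    kell hζ 1 (bigU hζ hp2 m) = - tbl p 1 := by
  rw [← kellHom_apply hζ hj, bigU, ofMul_prod, map_sum]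
  have h1 : ∀ a ∈ Finset.Ico 1 p,
      kellHom hζ hj (Additive.ofMul (uA hζ hp2 a ^ m a)) = tbl p 1 := by
    intro a ha
    rw [ofMul_pow, map_nsmul, kellHom_apply, kell_uA hζ hp2 hj (not_dvd_of_mem_Ico ha),
      nsmul_eq_mul, ← mul_assoc]
    have h' : ((m a * a ^ 2 : ℕ) : ZMod p) = ((1 : ℕ) : ZMod p) := by
      rw [ZMod.natCast_eq_natCast_iff']
      rw [hm a ha, Nat.mod_eq_of_lt hp.out.one_lt]
    push_cast at h'
    rw [h', one_mul]
  rw [Finset.sum_congr rfl h1, Finset.sum_const, Nat.card_Ico, nsmul_eq_mul]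
  have : ((p - 1 : ℕ) : ZMod p) = -1 := by
    rw [Nat.cast_sub hp.out.one_le]
    simp
  rw [this]
  ring

theorem kell_bigU_ne_zero (hp2 : p ≠ 2) (hj : 1 + 1 < p - 1) {m : ℕ → ℕ}
    (hm : ∀ b ∈ Finset.Ico 1 p, (m b * b ^ 2) % p = 1) :
    kell hζ 1 (bigU hζ hp2 m) ≠ 0 := by
  rw [kell_bigU hζ hp2 hj hm]
  intro h
  have h4 := four_mul_tbl_one p hp2
  rw [neg_eq_zero] at h
  rw [h, mul_zero] at h4
  exact zero_ne_one h4

theorem kell_pow_p (hj : 1 + 1 < p - 1) (w : (𝓞 K)ˣ) : kell hζ 1 (w ^ p) = 0 := by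
  rw [← kellHom_apply hζ hj, ofMul_pow, map_nsmul, nsmul_eq_mul]
  simp

/-- `bigU` is not a `p`-th power of a unit. -/
theorem bigU_not_pow (hp2 : p ≠ 2) (hj : 1 + 1 < p - 1) {m : ℕ → ℕ}
    (hm : ∀ b ∈ Finset.Ico 1 p, (m b * b ^ 2) % p = 1) :
    ¬ ∃ w : (𝓞 K)ˣ, bigU hζ hp2 m = w ^ p := by
  rintro ⟨w, hw⟩
  apply kell_bigU_ne_zero hζ hp2 hj hm
  rw [hw, kell_pow_p hζ hj]

end Cyclo


section EtaNotPow

variable {p : ℕ} [hp : Fact p.Prime] {K : Type} [Field K] [NumberField K]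
  [IsCyclotomicExtension {p} ℚ K] {ζ : K} (hζ : IsPrimitiveRoot ζ p)

/-- `1 - ζ^b` as a unit of the field `K` (`1` if `p ∣ b`). -/
noncomputable def xB (b : ℕ) : Kˣ :=
  if h : p ∣ b then 1 else Units.mk0 (1 - ζ ^ b) (one_sub_zeta_pow_ne_zero hζ h)

omit hp [NumberField K] [IsCyclotomicExtension {p} ℚ K] in
theorem xB_coe {b : ℕ} (h : ¬ p ∣ b) : ((xB hζ b : Kˣ) : K) = 1 - ζ ^ b := by
  rw [xB, dif_neg h]
  rfl

/-- The inclusion of the units of `𝓞 K` into `Kˣ`. -/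
noncomputable def toK : (𝓞 K)ˣ →* Kˣ := Units.map (algebraMap (𝓞 K) K : 𝓞 K →* K)

omit [NumberField K] [IsCyclotomicExtension {p} ℚ K] in
theorem toK_coe (u : (𝓞 K)ˣ) : ((toK u : Kˣ) : K) = ((u : 𝓞 K) : K) := rfl

omit [NumberField K] [IsCyclotomicExtension {p} ℚ K] in
theorem toK_uA_mul (hp2 : p ≠ 2) {a : ℕ} (ha : a ∈ Finset.Ico 1 p) :
    toK (uA hζ hp2 a) * xB hζ a = xB hζ ((2 * a) % p) := by
  have h2 : ¬ p ∣ 2 := fun h => hp2 ((Nat.prime_dvd_prime_iff_eq hp.out Nat.prime_two).mp h)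
  have h1 := not_dvd_of_mem_Ico ha
  have h3 := not_dvd_of_mem_Ico (mul_mod_mem_Ico h2 ha)
  apply Units.ext
  rw [Units.val_mul, toK_coe, uA_coe_K hζ hp2 h1, xB_coe hζ h1, xB_coe hζ h3,
    zeta_pow_mod hζ]
  ring

/-- `etaRaw` as a unit of the field `K`. -/
noncomputable def etaK (m : ℕ → ℕ) : Kˣ := ∏ b ∈ Finset.Ico 1 p, xB hζ b ^ m b

omit [NumberField K] [IsCyclotomicExtension {p} ℚ K] in
theorem etaK_coe (m : ℕ → ℕ) :
    ((etaK hζ m : Kˣ) : K) = ((etaRaw p K hζ.toInteger m : 𝓞 K) : K) := by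
  rw [etaK, etaRaw, Units.coe_prod, RingOfIntegers.coe_eq_algebraMap, map_prod]
  refine Finset.prod_congr rfl fun b hb => ?_
  rw [Units.val_pow_eq_pow_val, xB_coe hζ (not_dvd_of_mem_Ico hb), map_pow, map_sub, map_one,
    map_pow]
  rfl

omit [NumberField K] [IsCyclotomicExtension {p} ℚ K] in
/-- The key relation: `U * η = η^4 * w^p` in `Kˣ`. -/
theorem toK_bigU_mul_etaK (hp2 : p ≠ 2) {m : ℕ → ℕ}
    (hm : ∀ b ∈ Finset.Ico 1 p, (m b * b ^ 2) % p = 1) :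
    ∃ w : Kˣ, toK (bigU hζ hp2 m) * etaK hζ m = etaK hζ m ^ 4 * w ^ p := by
  have h2 : ¬ p ∣ 2 := fun h => hp2 ((Nat.prime_dvd_prime_iff_eq hp.out Nat.prime_two).mp h)
  have hL : toK (bigU hζ hp2 m) * etaK hζ m =
      ∏ a ∈ Finset.Ico 1 p, xB hζ ((2 * a) % p) ^ ((m a : ℕ) : ℤ) := by
    rw [bigU, map_prod, etaK, ← Finset.prod_mul_distrib]
    refine Finset.prod_congr rfl fun a ha => ?_
    rw [map_pow, ← mul_pow, toK_uA_mul hζ hp2 ha, zpow_natCast]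
  have hR : etaK hζ m ^ 4 =
      ∏ a ∈ Finset.Ico 1 p, xB hζ ((2 * a) % p) ^ ((2 ^ 2 * m ((2 * a) % p) : ℕ) : ℤ) := by
    rw [etaK, ← Finset.prod_pow, prod_Ico_reindex h2]
    refine Finset.prod_congr rfl fun a _ => ?_
    rw [zpow_natCast, ← pow_mul]
    congr 1
    ring
  obtain ⟨w, hw⟩ := prod_zpow_congr p (Finset.Ico 1 p) (fun a => xB hζ ((2 * a) % p))
    (fun a => ((m a : ℕ) : ℤ)) (fun a => ((2 ^ 2 * m ((2 * a) % p) : ℕ) : ℤ))
    (fun a ha => exp_congr hm h2 ha)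
  exact ⟨w, by rw [hL, hR]; exact hw⟩

omit [NumberField K] [IsCyclotomicExtension {p} ℚ K] in
/-- A unit of `𝓞 K` which is a `p`-th power in `K` is a `p`-th power of a unit. -/
theorem exists_unit_pow_of_toK (u : (𝓞 K)ˣ) (z : Kˣ) (h : toK u = z ^ p) :
    ∃ w : (𝓞 K)ˣ, u = w ^ p := by
  have hK : ((z : K)) ^ p = ((u : 𝓞 K) : K) := by
    have := congrArg (fun x : Kˣ => (x : K)) h
    simpa [toK_coe] using this.symm
  have hint : IsIntegral ℤ (z : K) := by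
    refine IsIntegral.of_pow hp.out.pos ?_
    rw [hK]
    exact RingOfIntegers.isIntegral_coe _
  let z' : 𝓞 K := ⟨(z : K), hint⟩
  have hz' : z' ^ p = (u : 𝓞 K) := by
    apply RingOfIntegers.ext
    rw [RingOfIntegers.coe_eq_algebraMap, map_pow]
    exact hK
  have hu : IsUnit z' := by
    have : IsUnit (z' ^ p) := by rw [hz']; exact u.isUnit
    exact (isUnit_pow_iff hp.out.ne_zero).mp this
  refine ⟨hu.unit, ?_⟩
  apply Units.ext
  rw [Units.val_pow_eq_pow_val, IsUnit.unit_spec, hz']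

/-- **K4 (a)**: the `ω^2` cyclotomic number is not a `p`-th power in `K` (`p ≥ 5`). -/
theorem etaRaw_not_pow (hp5 : 5 ≤ p) {m : ℕ → ℕ}
    (hm : ∀ b ∈ Finset.Ico 1 p, (m b * b ^ 2) % p = 1) :
    ¬ ∃ v : K, v ^ p = ((etaRaw p K hζ.toInteger m : 𝓞 K) : K) := by
  rintro ⟨v, hv⟩
  have hp2 : p ≠ 2 := by omega
  have hj : 1 + 1 < p - 1 := by omega
  have hv0 : v ≠ 0 := by
    intro h0
    rw [h0, zero_pow hp.out.ne_zero, ← etaK_coe] at hv
    exact (etaK hζ m).ne_zero hv.symm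
  have hv' : etaK hζ m = (Units.mk0 v hv0) ^ p := by
    apply Units.ext
    rw [etaK_coe, Units.val_pow_eq_pow_val, Units.val_mk0, hv]
  obtain ⟨w, hw⟩ := toK_bigU_mul_etaK hζ hp2 hm
  have hU : toK (bigU hζ hp2 m) = ((Units.mk0 v hv0) ^ 3 * w) ^ p := by
    have h1 : toK (bigU hζ hp2 m) = etaK hζ m ^ 3 * w ^ p := by
      have : toK (bigU hζ hp2 m) * etaK hζ m = (etaK hζ m ^ 3 * w ^ p) * etaK hζ m := by
        rw [hw, pow_succ (etaK hζ m) 3]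
        exact mul_right_comm _ _ _
      exact mul_right_cancel this
    rw [h1, hv', mul_pow, ← pow_mul, ← pow_mul, mul_comm p 3]
  obtain ⟨w', hw'⟩ := exists_unit_pow_of_toK _ _ hU
  exact bigU_not_pow hζ hp2 hj hm ⟨w', hw'⟩

end EtaNotPow

/-- **K4 (a)** in the exact `CoreIface` shape. -/
theorem etaNotPow (p : ℕ) [Fact p.Prime] (K : Type) [Field K] [NumberField K]
    [IsCyclotomicExtension {p} ℚ K] : EtaNotPowStatement p K := by
  intro hp5 ζ hζ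
  exact etaRaw_not_pow hζ hp5 (etaExp_spec 2)

/-! ### K4 (b): `UnitStatement` from the UDIR export -/

/-- The UDIR export for `k = 2`, as a `Prop`: the `ω^2`-eigenspace of `E/E^p` is at most
one-dimensional. -/
def UDirStatement (p : ℕ) [Fact p.Prime] (K : Type) [Field K] [NumberField K]
    [IsCyclotomicExtension {p} ℚ K] : Prop :=
  p ≠ 2 → ∀ (ζ : K) (_hζ : IsPrimitiveRoot ζ p) (u v : (𝓞 K)ˣ),
    IsEigenUnit p K ζ u → IsEigenUnit p K ζ v → (¬ ∃ w : (𝓞 K)ˣ, u = w ^ p) →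
    ∃ (j : ℕ) (w : (𝓞 K)ˣ), v = u ^ j * w ^ p

section UnitStmt

variable {p : ℕ} [hp : Fact p.Prime] {K : Type} [Field K] [NumberField K]
  [IsCyclotomicExtension {p} ℚ K] {ζ : K} (hζ : IsPrimitiveRoot ζ p)

omit [IsCyclotomicExtension {p} ℚ K] in
include hζ in
theorem not_dvd_of_aut {σ : K ≃ₐ[ℚ] K} {c : ℕ} (h : σ ζ = ζ ^ c) : ¬ p ∣ c := by
  intro hc
  have h1 : ζ ^ c = 1 := (hζ.pow_eq_one_iff_dvd c).mpr hc
  rw [h1] at h
  have h2 : ζ = 1 := by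
    have := congrArg σ.symm h
    simpa using this
  exact hζ.ne_one hp.out.one_lt h2

omit [IsCyclotomicExtension {p} ℚ K] in
/-- `σ_c` maps the unit `1 + ζ^a` to `1 + ζ^(c a mod p)`. -/
theorem aut_uA (hp2 : p ≠ 2) {σ : K ≃ₐ[ℚ] K} {c : ℕ} (h : σ ζ = ζ ^ c) {a : ℕ}
    (ha : a ∈ Finset.Ico 1 p) :
    σ (((uA hζ hp2 a : (𝓞 K)ˣ) : 𝓞 K) : K) =
      (((uA hζ hp2 ((c * a) % p) : (𝓞 K)ˣ) : 𝓞 K) : K) := by
  have hc := not_dvd_of_aut hζ h
  rw [uA_coe_K hζ hp2 (not_dvd_of_mem_Ico ha),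
    uA_coe_K hζ hp2 (not_dvd_of_mem_Ico (mul_mod_mem_Ico hc ha)), zeta_pow_mod hζ, map_add,
    map_one, map_pow, h, ← pow_mul]

omit [IsCyclotomicExtension {p} ℚ K] in
/-- `bigU` lies in the `ω^2`-eigenspace of `E/E^p`. -/
theorem bigU_isEigen (hp2 : p ≠ 2) {m : ℕ → ℕ}
    (hm : ∀ b ∈ Finset.Ico 1 p, (m b * b ^ 2) % p = 1) {σ : K ≃ₐ[ℚ] K} {c : ℕ}
    (h : σ ζ = ζ ^ c) :
    ∃ ε : (𝓞 K)ˣ, σ (((bigU hζ hp2 m : (𝓞 K)ˣ) : 𝓞 K) : K) =
      (((bigU hζ hp2 m : (𝓞 K)ˣ) : 𝓞 K) : K) ^ (c ^ 2) * (((ε : (𝓞 K)ˣ) : 𝓞 K) : K) ^ p := by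
  have hc := not_dvd_of_aut hζ h
  -- the image of `bigU` under `σ`
  have h1 : σ (((bigU hζ hp2 m : (𝓞 K)ˣ) : 𝓞 K) : K) =
      (((∏ a ∈ Finset.Ico 1 p, uA hζ hp2 ((c * a) % p) ^ ((m a : ℕ) : ℤ) : (𝓞 K)ˣ) : 𝓞 K) : K) := by
    rw [bigU, Units.coe_prod, Units.coe_prod, RingOfIntegers.coe_eq_algebraMap, map_prod,
      RingOfIntegers.coe_eq_algebraMap, map_prod, map_prod]
    refine Finset.prod_congr rfl fun a ha => ?_
    rw [zpow_natCast, Units.val_pow_eq_pow_val, Units.val_pow_eq_pow_val, map_pow, map_pow,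
      map_pow, ← RingOfIntegers.coe_eq_algebraMap, ← RingOfIntegers.coe_eq_algebraMap,
      aut_uA hζ hp2 h ha]
  -- `bigU ^ (c^2)` re-indexed
  have h2 : bigU hζ hp2 m ^ (c ^ 2) =
      ∏ a ∈ Finset.Ico 1 p, uA hζ hp2 ((c * a) % p) ^ ((c ^ 2 * m ((c * a) % p) : ℕ) : ℤ) := by
    rw [bigU, ← Finset.prod_pow, prod_Ico_reindex hc]
    refine Finset.prod_congr rfl fun a _ => ?_
    rw [zpow_natCast, ← pow_mul]
    congr 1
    ring
  obtain ⟨w, hw⟩ := prod_zpow_congr p (Finset.Ico 1 p) (fun a => uA hζ hp2 ((c * a) % p))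
    (fun a => ((m a : ℕ) : ℤ)) (fun a => ((c ^ 2 * m ((c * a) % p) : ℕ) : ℤ))
    (fun a ha => exp_congr hm hc ha)
  refine ⟨w, ?_⟩
  rw [h1]
  rw [hw, ← h2, Units.val_mul, Units.val_pow_eq_pow_val, Units.val_pow_eq_pow_val,
    RingOfIntegers.coe_eq_algebraMap, map_mul, map_pow, map_pow]

/-- **K4 (b)**: `UnitStatement` from the UDIR export, with reference unit `bigU`. -/
theorem unitStmt (hU : UDirStatement p K) : UnitStatement p K := by
  intro hp5 ζ hζ η hη hn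
  obtain ⟨n, hn⟩ := hn
  have hp2 : p ≠ 2 := by omega
  have hj : 1 + 1 < p - 1 := by omega
  have hm := etaExp_spec (p := p) 2
  obtain ⟨j, w, hjw⟩ := hU hp2 ζ hζ (bigU hζ hp2 (etaExp p 2)) η
    (fun σ c h => bigU_isEigen hζ hp2 hm h) hη (bigU_not_pow hζ hp2 hj hm)
  have h0 : kell hζ 1 η = 0 := kell_of_dvd_sub hζ hj η n hn
  have h1 : kell hζ 1 η = (j : ZMod p) * kell hζ 1 (bigU hζ hp2 (etaExp p 2)) := by
    rw [hjw, kell_mul hζ hj, kell_pow_p hζ hj, add_zero, ← kellHom_apply hζ hj, ofMul_pow,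
      map_nsmul, nsmul_eq_mul, kellHom_apply]
  rw [h0] at h1
  have h2 : (j : ZMod p) = 0 := by
    rcases mul_eq_zero.mp h1.symm with h | h
    · exact h
    · exact absurd h (kell_bigU_ne_zero hζ hp2 hj hm)
  obtain ⟨j', rfl⟩ := (ZMod.natCast_eq_zero_iff j p).mp h2
  refine ⟨bigU hζ hp2 (etaExp p 2) ^ j' * w, ?_⟩
  rw [hjw, mul_pow, ← pow_mul, mul_comm j' p]

end UnitStmt

/-! ### Variant with `5 ≤ p` (the UDIR export may need `¬ (p - 1) ∣ 2`) -/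

/-- The UDIR export for `k = 2` under the hypothesis `5 ≤ p`. -/
def UDirStatement5 (p : ℕ) [Fact p.Prime] (K : Type) [Field K] [NumberField K]
    [IsCyclotomicExtension {p} ℚ K] : Prop :=
  5 ≤ p → ∀ (ζ : K) (_hζ : IsPrimitiveRoot ζ p) (u v : (𝓞 K)ˣ),
    IsEigenUnit p K ζ u → IsEigenUnit p K ζ v → (¬ ∃ w : (𝓞 K)ˣ, u = w ^ p) →
    ∃ (j : ℕ) (w : (𝓞 K)ˣ), v = u ^ j * w ^ p

theorem uDirStatement5_of_uDirStatement {p : ℕ} [Fact p.Prime] {K : Type} [Field K]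
    [NumberField K] [IsCyclotomicExtension {p} ℚ K] (h : UDirStatement p K) :
    UDirStatement5 p K :=
  fun hp5 => h (by omega)

/-- **K4 (b)**, `5 ≤ p` variant of the hypothesis. -/
theorem unitStmt5 {p : ℕ} [hp : Fact p.Prime] {K : Type} [Field K] [NumberField K]
    [IsCyclotomicExtension {p} ℚ K] (hU : UDirStatement5 p K) : UnitStatement p K := by
  intro hp5 ζ hζ η hη hn
  obtain ⟨n, hn⟩ := hn
  have hp2 : p ≠ 2 := by omega
  have hj : 1 + 1 < p - 1 := by omega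
  have hm := etaExp_spec (p := p) 2
  obtain ⟨j, w, hjw⟩ := hU hp5 ζ hζ (bigU hζ hp2 (etaExp p 2)) η
    (fun σ c h => bigU_isEigen hζ hp2 hm h) hη (bigU_not_pow hζ hp2 hj hm)
  have h0 : kell hζ 1 η = 0 := kell_of_dvd_sub hζ hj η n hn
  have h1 : kell hζ 1 η = (j : ZMod p) * kell hζ 1 (bigU hζ hp2 (etaExp p 2)) := by
    rw [hjw, kell_mul hζ hj, kell_pow_p hζ hj, add_zero, ← kellHom_apply hζ hj, ofMul_pow,
      map_nsmul, nsmul_eq_mul, kellHom_apply]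
  rw [h0] at h1
  have h2 : (j : ZMod p) = 0 := by
    rcases mul_eq_zero.mp h1.symm with h | h
    · exact h
    · exact absurd h (kell_bigU_ne_zero hζ hp2 hj hm)
  obtain ⟨j', rfl⟩ := (ZMod.natCast_eq_zero_iff j p).mp h2
  refine ⟨bigU hζ hp2 (etaExp p 2) ^ j' * w, ?_⟩
  rw [hjw, mul_pow, ← pow_mul, mul_comm j' p]

end Fermat.Agent.S14.ULog38
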