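/-
S14 / package P3 (helper30): the case `p = 3` of the number-field statement NOEXT.

`K = ℚ(ζ₃)` has class number one and unit group `{±1, ±ζ, ±ζ²}`; a Kummer generator `α` prime to
`λ = ζ - 1` with `(α) = 𝔞³` and `α ≡ n³ mod λ³` is `η a³` with `η ≡ ±1 mod λ³`, hence `η = ±1`
(Mathlib's Kummer lemma for `p = 3`) and `α` is a cube: contradiction.
-/
import Mathlib
import Fermat.Agent.S14.CoreIface

set_option autoImplicit false

namespace Fermat.Agent.S14.P3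

open NumberField IsCyclotomicExtension.Rat.Three

section core

variable {K : Type} [Field K] [NumberField K] [IsCyclotomicExtension {3} ℚ K]
variable {ζ : K} (hζ : IsPrimitiveRoot ζ 3)

local notation3 "λ" => hζ.toInteger - 1

/-- Cubes of elements prime to `λ` are `±1` modulo `λ⁴`. -/
theorem exists_sign_cube (x : 𝓞 K) (h : ¬ λ ∣ x) :
    ∃ e : ℤ, (e = 1 ∨ e = -1) ∧ λ ^ 4 ∣ x ^ 3 - (e : 𝓞 K) := by
  rcases lambda_pow_four_dvd_cube_sub_one_or_add_one_of_lambda_not_dvd hζ h with h1 | h1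
  · exact ⟨1, Or.inl rfl, by simpa using h1⟩
  · refine ⟨-1, Or.inr rfl, ?_⟩
    simpa [sub_neg_eq_add] using h1

/-- **The `K`-internal statement for `p = 3`.** -/
theorem core_three (α : 𝓞 K) (_hα0 : α ≠ 0) (hlam : ¬ λ ∣ α)
    (hid : ∃ 𝔞 : Ideal (𝓞 K), Ideal.span {α} = 𝔞 ^ 3)
    (hprim : ∃ n : ℤ, λ ^ 3 ∣ α - (n : 𝓞 K) ^ 3) :
    ∃ β : K, β ^ 3 = (α : K) := by
  have := IsCyclotomicExtension.Rat.three_pid K
  obtain ⟨𝔞, h𝔞⟩ := hid
  obtain ⟨a, rfl⟩ : ∃ a, 𝔞 = Ideal.span {a} :=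
    ⟨_, (IsPrincipalIdealRing.principal 𝔞).principal.choose_spec⟩
  rw [Ideal.span_singleton_pow] at h𝔞
  obtain ⟨u, hu⟩ : Associated α (a ^ 3) := Ideal.span_singleton_eq_span_singleton.mp h𝔞
  obtain ⟨n, hn⟩ := hprim
  -- `λ ∤ a`
  have hla : ¬ λ ∣ a := by
    intro h
    apply hlam
    have h3 : λ ∣ a ^ 3 := dvd_pow h (by norm_num)
    rw [← hu] at h3
    exact (Units.dvd_mul_right).mp h3
  -- `λ ∤ n`
  have hln : ¬ λ ∣ (n : 𝓞 K) := by
    intro h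
    apply hlam
    have h3 : λ ∣ (n : 𝓞 K) ^ 3 := dvd_pow h (by norm_num)
    have h4 : λ ∣ α - (n : 𝓞 K) ^ 3 := (dvd_pow_self _ (by norm_num)).trans hn
    have := dvd_add h4 h3
    simpa using this
  obtain ⟨ea, hea, k1, hA⟩ := exists_sign_cube hζ a hla
  obtain ⟨en, hen, k2, hN⟩ := exists_sign_cube hζ (n : 𝓞 K) hln
  obtain ⟨k3, hα⟩ := hn
  have hen2 : (en : 𝓞 K) * (en : 𝓞 K) = 1 := by
    rcases hen with rfl | rfl <;> simp
  have hcong : λ ^ 2 ∣ ((u : 𝓞 K) - ((ea * en : ℤ) : 𝓞 K)) := by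
    refine ⟨λ * ((en : 𝓞 K) * (-(λ * k2 * u) - k3 * u + λ * k1)), ?_⟩
    push_cast
    linear_combination (-((en : 𝓞 K) * u)) * hN + (-((en : 𝓞 K) * u)) * hα + (en : 𝓞 K) * hA
      + (en : 𝓞 K) * hu - (u : 𝓞 K) * hen2
  rcases eq_one_or_neg_one_of_unit_of_congruent hζ u ⟨ea * en, hcong⟩ with rfl | rfl
  · refine ⟨((a : 𝓞 K) : K), ?_⟩
    have : α = a ^ 3 := by simpa using hu
    rw [this]
    simp
  · refine ⟨((-a : 𝓞 K) : K), ?_⟩
    have : α = (-a) ^ 3 := by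
      have h := hu
      simp only [Units.val_neg, Units.val_one, mul_neg, mul_one] at h
      rw [neg_pow, ← h]
      ring
    rw [this]
    simp

end core

/-- **NOEXT for `p = 3`.** -/
def NoExtThreeStatement : Prop :=
  ∀ (K L : Type) [Field K] [NumberField K] [IsCyclotomicExtension {3} ℚ K]
    [Field L] [NumberField L] [Algebra K L] [IsGalois K L] [IsGalois ℚ L],
  Module.finrank K L = 3 →
  (∀ (P : Ideal (𝓞 L)), P.IsPrime → P ≠ ⊥ → Ideal.inertia (L ≃ₐ[K] L) P = ⊥) →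
  ∀ (ζ : K), IsPrimitiveRoot ζ 3 →
  (∀ (τ : L ≃ₐ[ℚ] L) (s : L ≃ₐ[K] L) (c : ℕ), τ (algebraMap K L ζ) = algebraMap K L ζ ^ c →
      τ⁻¹ * s.restrictScalars ℚ * τ = (s ^ c).restrictScalars ℚ) →
  False

theorem noExt_three (hK : KummerStatement) : NoExtThreeStatement := by
  intro K L _ _ _ _ _ _ _ _ hdeg hunr ζ hζ hconj
  have : Fact (Nat.Prime 3) := ⟨Nat.prime_three⟩
  obtain ⟨α, hα0, hlam, hnot, -, hid, hprim⟩ :=
    hK 3 (by norm_num) K L hdeg hunr ζ hζ hconj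
  exact hnot (core_three hζ α hα0 hlam hid hprim)

end Fermat.Agent.S14.P3
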