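/-
S14 (Ext vanishing), package R0 (helper97): pure-algebra reduction of `ExtCitation.ExtVanishingCts p`
to an arithmetic core statement `Core p` about additive maps `ker (cycloChar p) → ZMod p`.
No placeholder proofs in this file.
-/
import Fermat.Prelude.Def_ExtCitation_AdmissibleExtension_v2
import Fermat.Prelude.Def_ExtCitation_KummerBridge

set_option autoImplicit false
set_option linter.unusedSectionVars false

namespace Fermat.Agent.S14

open ExtCitation ValuationSubring

/-- the absolute Galois group of `ℚ` -/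
abbrev GQ : Type := AlgebraicClosure ℚ ≃ₐ[ℚ] AlgebraicClosure ℚ

variable (p : ℕ) [Fact p.Prime]

/-- the mod `p` cyclotomic character with values in `ZMod p` -/
noncomputable def chi (σ : GQ) : ZMod p := ((cycloChar p σ : (ZMod p)ˣ) : ZMod p)

theorem conj_mem_ker (g : GQ) (σ : (cycloChar p).ker) :
    g * (σ : GQ) * g⁻¹ ∈ (cycloChar p).ker :=
  (MonoidHom.normal_ker (cycloChar p)).conj_mem σ σ.2 g

/-- A "twisted unramified class": an additive map `φ` on `ker χ` (`χ` the mod-`p` cyclotomic
character), continuous, on which conjugation by `g` acts through `χ(g)⁻¹`, vanishing on inertia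
outside `p` and on the decomposition groups above `p`. -/
structure TwistDatum where
  φ : (cycloChar p).ker → ZMod p
  map_mul : ∀ σ τ : (cycloChar p).ker, φ (σ * τ) = φ σ + φ τ
  continuous : ∃ F : IntermediateField ℚ (AlgebraicClosure ℚ), FiniteDimensional ℚ F ∧
    ∀ σ : (cycloChar p).ker, (σ : GQ) ∈ F.fixingSubgroup → φ σ = 0
  conj : ∀ (g : GQ) (σ : (cycloChar p).ker),
    φ ⟨g * σ * g⁻¹, conj_mem_ker p g σ⟩ = (((cycloChar p g)⁻¹ : (ZMod p)ˣ) : ZMod p) * φ σ
  unram : ∀ ℓ : ℕ, ℓ.Prime → ℓ ≠ p → ∀ A : ValuationSubring (AlgebraicClosure ℚ),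
    A.LiesOverPrime ℓ → ∀ σ : (cycloChar p).ker, (σ : GQ) ∈ A.inertiaSubgroupIn ℚ → φ σ = 0
  split : ∀ A : ValuationSubring (AlgebraicClosure ℚ), A.LiesOverPrime p →
    ∀ σ : (cycloChar p).ker, (σ : GQ) ∈ A.decompositionSubgroup ℚ → φ σ = 0

/-- The arithmetic core of S14: every twisted unramified class is trivial.
(Class field theory for `ℚ(ζ_p)` + Stickelberger.) -/
def Core : Prop := ∀ D : TwistDatum p, ∀ σ, D.φ σ = 0

section Reduction

variable {p}
variable {V : Type} [AddCommGroup V] [Module (ZMod p) V] [DistribMulAction GQ V]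
  [SMulCommClass GQ (ZMod p) V] {C : Submodule (ZMod p) V}

theorem chi_eq_cycloExp (σ : GQ) : chi p σ = (cycloExp p σ : ZMod p) := coe_cycloChar p σ

theorem quot_mem (h : IsAdmissibleExtension p V C) (σ : GQ) (x : V) :
    σ • x - chi p σ • x ∈ C := by
  rw [chi_eq_cycloExp]; exact h.cyclo_quot σ x

theorem chi_eq_one_of_mem_ker {σ : GQ} (hσ : σ ∈ (cycloChar p).ker) : chi p σ = 1 := by
  rw [MonoidHom.mem_ker] at hσ
  simp [chi, hσ]

theorem mem_ker_of_chi_eq_one {σ : GQ} (hσ : chi p σ = 1) : σ ∈ (cycloChar p).ker := by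
  rw [MonoidHom.mem_ker]
  exact Units.ext hσ

theorem sub_mem_of_mem_ker (h : IsAdmissibleExtension p V C) {σ : GQ}
    (hσ : σ ∈ (cycloChar p).ker) (x : V) : σ • x - x ∈ C := by
  have := quot_mem h σ x
  rwa [chi_eq_one_of_mem_ker hσ, one_smul] at this

/-- Case (a): if `ker χ` acts trivially, there is a stable complement. -/
theorem splits_of_ker_trivial (h : IsAdmissibleExtension p V C)
    (htriv : ∀ σ ∈ (cycloChar p).ker, ∀ x : V, σ • x = x) : SplitsGlobally C := by
  classical
  -- all operators commute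
  have hcomm : ∀ (σ τ : GQ) (x : V), σ • τ • x = τ • σ • x := by
    intro σ τ x
    have hk : σ⁻¹ * τ⁻¹ * σ * τ ∈ (cycloChar p).ker := by
      rw [MonoidHom.mem_ker]; simp [mul_comm]
    have := htriv _ hk x
    rw [mul_smul, mul_smul, mul_smul] at this
    calc σ • τ • x = τ • σ • (σ⁻¹ • τ⁻¹ • σ • τ • x) := by
            rw [smul_inv_smul, smul_inv_smul]
      _ = τ • σ • x := by rw [this]
  by_cases hχ : ∃ τ : GQ, chi p τ ≠ 1
  · obtain ⟨τ, hτ⟩ := hχ
    set u : ZMod p := chi p τ with hu
    have hu1 : u - 1 ≠ 0 := sub_ne_zero.mpr hτ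
    -- the `u`-eigenspace of `τ`
    let C' : Submodule (ZMod p) V :=
      { carrier := {x | τ • x = u • x}
        add_mem' := by
          intro a b ha hb
          change τ • a = u • a at ha; change τ • b = u • b at hb; change τ • (a + b) = u • (a + b)
          rw [smul_add, ha, hb, smul_add]
        zero_mem' := by simp
        smul_mem' := by
          intro c x hx
          change τ • x = u • x at hx; change τ • (c • x) = u • (c • x)
          rw [smul_comm τ c x, hx, smul_comm c u x] }
    refine ⟨C', ?_, ?_⟩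
    · intro σ x hx
      show τ • σ • x = u • σ • x
      have hx' : τ • x = u • x := hx
      rw [← hcomm σ τ x, hx', smul_comm σ u x]
    · rw [isCompl_iff]
      constructor
      · rw [Submodule.disjoint_def]
        intro x hxC hxC'
        have h1 : τ • x = x := h.fixed_sub τ x hxC
        have h2 : τ • x = u • x := hxC'
        have h3 : (u - 1) • x = 0 := by rw [sub_smul, one_smul, ← h2, h1, sub_self]
        exact (smul_eq_zero.mp h3).resolve_left hu1
      · rw [codisjoint_iff, _root_.eq_top_iff]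
        intro x _
        -- x = (x - y) + y with y = (u-1)⁻¹ (τ x - x)
        set y : V := (u - 1)⁻¹ • (τ • x - x) with hy
        have hyC' : y ∈ C' := by
          show τ • y = u • y
          have hq : τ • x - u • x ∈ C := quot_mem h τ x
          have hfix : τ • (τ • x - u • x) = τ • x - u • x := h.fixed_sub τ _ hq
          have h4 : τ • (τ • x - x) = u • (τ • x - x) := by
            have : τ • (τ • x - u • x) = τ • τ • x - u • τ • x := by
              rw [smul_sub, smul_comm τ u x]
            rw [this] at hfix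
            rw [smul_sub, smul_sub (M := ZMod p)]
            have h5 : τ • τ • x = τ • x - u • x + u • τ • x := by
              rw [← hfix]; abel
            rw [h5]; abel
          rw [hy, smul_comm τ ((u - 1)⁻¹) _, h4, smul_comm u ((u - 1)⁻¹) _]
        have hxy : x - y ∈ C := by
          have hq : τ • x - u • x ∈ C := quot_mem h τ x
          have hx1 : (u - 1)⁻¹ • ((u - 1) • x) = x := by
            rw [smul_smul, inv_mul_cancel₀ hu1, one_smul]
          have : x - y = -((u - 1)⁻¹ • (τ • x - u • x)) := by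
            calc x - y = (u - 1)⁻¹ • ((u - 1) • x) - (u - 1)⁻¹ • (τ • x - x) := by rw [hx1]
              _ = -((u - 1)⁻¹ • (τ • x - u • x)) := by
                rw [← smul_sub, ← smul_neg]
                congr 1
                rw [sub_smul, one_smul]; abel
          rw [this]
          exact C.neg_mem (C.smul_mem _ hq)
        have : x = (x - y) + y := by abel
        rw [this]
        exact Submodule.add_mem_sup hxy hyC'
  · -- χ trivial: everything acts trivially
    push Not at hχ
    obtain ⟨C', hC'⟩ := Submodule.exists_isCompl C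
    refine ⟨C', ?_, hC'⟩
    intro σ x hx
    rw [htriv σ (mem_ker_of_chi_eq_one (hχ σ)) x]
    exact hx

/-- an injective linear functional on the line `C` -/
theorem exists_injective_functional (h : IsAdmissibleExtension p V C) :
    ∃ l : C →ₗ[ZMod p] ZMod p, Function.Injective l := by
  have hp : p.Prime := Fact.out
  have : Finite C := Nat.finite_of_card_ne_zero (by rw [h.card_sub]; exact hp.ne_zero)
  have : Module.Finite (ZMod p) C := Module.Finite.of_finite
  have hcard := Module.natCard_eq_pow_finrank (K := ZMod p) (V := C)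
  rw [h.card_sub, Nat.card_zmod] at hcard
  have hfin : Module.finrank (ZMod p) C = 1 := by
    have h1 : p ^ 1 = p ^ Module.finrank (ZMod p) C := by rw [pow_one]; exact hcard
    exact (Nat.pow_right_injective hp.two_le h1).symm
  have e : C ≃ₗ[ZMod p] ZMod p :=
    LinearEquiv.ofFinrankEq C (ZMod p) (by rw [hfin, Module.finrank_self])
  exact ⟨e.toLinearMap, e.injective⟩

/-- Case (b): a nontrivial action of `ker χ` produces a nonzero twisted unramified class. -/
theorem exists_twistDatum (h : IsAdmissibleExtensionCts p V C)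
    {σ₀ : GQ} (hσ₀ : σ₀ ∈ (cycloChar p).ker) {x₀ : V} (hx₀ : σ₀ • x₀ ≠ x₀) :
    ∃ D : TwistDatum p, D.φ ⟨σ₀, hσ₀⟩ ≠ 0 := by
  classical
  have hA : IsAdmissibleExtension p V C := h.toIsAdmissibleExtension
  obtain ⟨l, hl⟩ := exists_injective_functional hA
  have hx₀C : x₀ ∉ C := fun hC => hx₀ (hA.fixed_sub σ₀ x₀ hC)
  -- the cocycle restricted to `ker χ`
  let b : (cycloChar p).ker → C := fun σ => ⟨(σ : GQ) • x₀ - x₀, sub_mem_of_mem_ker hA σ.2 x₀⟩
  have hb_mul : ∀ σ τ : (cycloChar p).ker, b (σ * τ) = b σ + b τ := by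
    intro σ τ
    apply Subtype.ext
    show ((σ : GQ) * (τ : GQ)) • x₀ - x₀ = ((σ : GQ) • x₀ - x₀) + ((τ : GQ) • x₀ - x₀)
    have hfix : (σ : GQ) • ((τ : GQ) • x₀ - x₀) = (τ : GQ) • x₀ - x₀ :=
      hA.fixed_sub σ _ (sub_mem_of_mem_ker hA τ.2 x₀)
    rw [smul_sub] at hfix
    rw [mul_smul]
    have : (σ : GQ) • (τ : GQ) • x₀ = (τ : GQ) • x₀ - x₀ + (σ : GQ) • x₀ := by
      rw [← hfix]; abel
    rw [this]; abel
  have hb_zero_of_fix : ∀ σ : (cycloChar p).ker, (σ : GQ) • x₀ = x₀ → b σ = 0 := by
    intro σ hσ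
    apply Subtype.ext
    show (σ : GQ) • x₀ - x₀ = 0
    rw [hσ, sub_self]
  refine ⟨{ φ := fun σ => l (b σ)
            map_mul := fun σ τ => by rw [hb_mul, map_add]
            continuous := ?_
            conj := ?_
            unram := ?_
            split := ?_ }, ?_⟩
  · -- continuity
    have hopen := h.open_kernel
    have hmem : {σ : GQ | ∀ v : V, σ • v = v} ∈ nhds (1 : GQ) :=
      hopen.mem_nhds (by intro v; exact one_smul _ v)
    obtain ⟨F, hF, hFsub⟩ := (krullTopology_mem_nhds_one_iff ℚ (AlgebraicClosure ℚ) _).mp hmem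
    refine ⟨F, hF, fun σ hσ => ?_⟩
    rw [hb_zero_of_fix σ (hFsub hσ x₀), map_zero]
  · -- conjugation
    intro g σ
    have hgσ : b ⟨g * σ * g⁻¹, conj_mem_ker p g σ⟩ =
        (((cycloChar p g)⁻¹ : (ZMod p)ˣ) : ZMod p) • b σ := by
      apply Subtype.ext
      show (g * (σ : GQ) * g⁻¹) • x₀ - x₀ =
        (((cycloChar p g)⁻¹ : (ZMod p)ˣ) : ZMod p) • ((σ : GQ) • x₀ - x₀)
      set u : ZMod p := (((cycloChar p g)⁻¹ : (ZMod p)ˣ) : ZMod p) with hu
      have hu' : chi p g⁻¹ = u := by
        show ((cycloChar p g⁻¹ : (ZMod p)ˣ) : ZMod p) = u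
        rw [map_inv]
      -- w = g⁻¹ x₀ = u x₀ + c
      set w : V := g⁻¹ • x₀ with hw
      have hc : w - u • x₀ ∈ C := by
        have := quot_mem hA g⁻¹ x₀
        rwa [hu'] at this
      have hσc : (σ : GQ) • (w - u • x₀) = w - u • x₀ := hA.fixed_sub σ _ hc
      have h1 : (σ : GQ) • w - w = u • ((σ : GQ) • x₀ - x₀) := by
        rw [smul_sub, smul_comm (σ : GQ) u x₀] at hσc
        rw [smul_sub]
        have : (σ : GQ) • w = w - u • x₀ + u • (σ : GQ) • x₀ := by rw [← hσc]; abel
        rw [this]; abel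
      have h2 : (σ : GQ) • w - w ∈ C := sub_mem_of_mem_ker hA σ.2 w
      have h3 : g • ((σ : GQ) • w - w) = (σ : GQ) • w - w := hA.fixed_sub g _ h2
      calc (g * (σ : GQ) * g⁻¹) • x₀ - x₀ = g • ((σ : GQ) • w - w) := by
            rw [mul_smul, mul_smul, smul_sub, hw, smul_inv_smul]
        _ = u • ((σ : GQ) • x₀ - x₀) := by rw [h3, h1]
    show l (b ⟨g * σ * g⁻¹, conj_mem_ker p g σ⟩) = _ * l (b σ)
    rw [hgσ, map_smul, smul_eq_mul]
  · -- unramified outside p
    intro ℓ hℓ hℓp A hAℓ σ hσ
    rw [hb_zero_of_fix σ (hA.unramified_outside ℓ hℓ hℓp A hAℓ σ hσ x₀), map_zero]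
  · -- split at p
    intro A hAp σ hσ
    obtain ⟨C', hC'stab, hC'compl⟩ := hA.locally_split A hAp
    have hfix : (σ : GQ) • x₀ = x₀ := by
      obtain ⟨c, hc, c', hc', hsum⟩ : ∃ c ∈ C, ∃ c' ∈ C', c + c' = x₀ := by
        have : x₀ ∈ C ⊔ C' := by rw [hC'compl.sup_eq_top]; trivial
        obtain ⟨c, hc, c', hc', hcc⟩ := Submodule.mem_sup.mp this
        exact ⟨c, hc, c', hc', hcc⟩
      have h1 : (σ : GQ) • c = c := hA.fixed_sub σ c hc
      have h2 : (σ : GQ) • c' - c' ∈ C := sub_mem_of_mem_ker hA σ.2 c'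
      have h3 : (σ : GQ) • c' - c' ∈ C' := C'.sub_mem (hC'stab σ hσ c' hc') hc'
      have h4 : (σ : GQ) • c' - c' = 0 := by
        have := hC'compl.disjoint
        rw [Submodule.disjoint_def] at this
        exact this _ h2 h3
      rw [← hsum, smul_add, h1, sub_eq_zero.mp h4]
    rw [hb_zero_of_fix σ hfix, map_zero]
  · -- nonvanishing
    show l (b ⟨σ₀, hσ₀⟩) ≠ 0
    intro h0
    have : b ⟨σ₀, hσ₀⟩ = 0 := hl (by rw [h0, map_zero])
    have h' : σ₀ • x₀ - x₀ = 0 := congrArg Subtype.val this
    exact hx₀ (sub_eq_zero.mp h')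

/-- **Package R0.** The arithmetic core implies Ext vanishing. -/
theorem extVanishingCts_of_core (hcore : Core p) : ExtVanishingCts p := by
  intro V _ _ _ _ C hadm
  by_cases htriv : ∀ σ ∈ (cycloChar p).ker, ∀ x : V, σ • x = x
  · exact splits_of_ker_trivial hadm.toIsAdmissibleExtension htriv
  · exfalso
    push Not at htriv
    obtain ⟨σ₀, hσ₀, x₀, hx₀⟩ := htriv
    obtain ⟨D, hD⟩ := exists_twistDatum hadm hσ₀ hx₀
    exact hD (hcore D ⟨σ₀, hσ₀⟩)

end Reduction

end Fermat.Agent.S14
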