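/-
S14 / [UNFOLD] second seat (helper26): cyclotomic base.

For a primitive `p`-th root of unity `ζ` of `ℚ̄`, `Kp := ℚ(ζ) ⊆ ℚ̄`:
* `ker (cycloChar p) = Kp.fixingSubgroup`;
* `τ ζ = ζ ^ c ↔ chi p τ = c`.
For a `TwistDatum D`: the subgroup `kerPhi D` of `G_ℚ` (kernel of `φ`), normal and open; its fixed
field `Lf D`, finite Galois over `ℚ`, containing `Kp`, with `(Lf D).fixingSubgroup = kerPhi D`.
-/
import Mathlib
import Fermat.Agent.S14.Reduce

set_option autoImplicit false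
set_option linter.unusedSectionVars false
set_option linter.style.haveILetI false

namespace Fermat.Agent.S14.UnfoldCyc

open ExtCitation Fermat.Agent.S14

local notation "Qb" => AlgebraicClosure ℚ

theorem isAlgebraic_Qb' : Algebra.IsAlgebraic ℚ Qb := AlgebraicClosure.isAlgebraic ℚ

theorem isAlgClosure_Qb' : IsAlgClosure ℚ Qb :=
  haveI := isAlgebraic_Qb'
  ⟨inferInstance, inferInstance⟩

theorem isGalois_Qb' : IsGalois ℚ Qb :=
  haveI := isAlgClosure_Qb'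
  inferInstance

attribute [local instance] isAlgebraic_Qb' isAlgClosure_Qb' isGalois_Qb'

variable (p : ℕ) [Fact p.Prime]

theorem neZero_p : NeZero p := ⟨(Fact.out : p.Prime).ne_zero⟩

attribute [local instance] neZero_p

/-- A primitive `p`-th root of unity exists in `ℚ̄`. -/
theorem exists_primitiveRoot : ∃ ζ : Qb, IsPrimitiveRoot ζ p :=
  haveI : NeZero (p : Qb) := ⟨Nat.cast_ne_zero.mpr (NeZero.ne p)⟩
  HasEnoughRootsOfUnity.exists_primitiveRoot Qb p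

variable {p}

/-- The defining property of the mod `p` cyclotomic character. -/
theorem map_eq_pow_chi {ζ : Qb} (hζ : IsPrimitiveRoot ζ p) (τ : GQ) :
    τ ζ = ζ ^ (chi p τ).val := by
  have := modularCyclotomicCharacter.spec (L := Qb) (card_rootsOfUnity_eq_self p)
    (τ : Qb ≃+* Qb) (t := hζ.toRootsOfUnity) (SetLike.coe_mem _)
  exact this

theorem map_eq_pow_iff {ζ : Qb} (hζ : IsPrimitiveRoot ζ p) (τ : GQ) (c : ℕ) :
    τ ζ = ζ ^ c ↔ chi p τ = (c : ZMod p) := by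
  have hfin : IsOfFinOrder ζ :=
    isOfFinOrder_iff_pow_eq_one.mpr ⟨p, (Fact.out : p.Prime).pos, hζ.pow_eq_one⟩
  rw [map_eq_pow_chi hζ τ, hfin.pow_eq_pow_iff_modEq, ← hζ.eq_orderOf,
    ← ZMod.natCast_eq_natCast_iff, ZMod.natCast_val, ZMod.cast_id]

theorem map_eq_self_iff {ζ : Qb} (hζ : IsPrimitiveRoot ζ p) (τ : GQ) :
    τ ζ = ζ ↔ τ ∈ (cycloChar p).ker := by
  have h := map_eq_pow_iff hζ τ 1
  rw [pow_one, Nat.cast_one] at h
  rw [h]
  exact ⟨mem_ker_of_chi_eq_one, chi_eq_one_of_mem_ker⟩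

/-- `ℚ(ζ) ⊆ ℚ̄`. -/
noncomputable def Kp (ζ : Qb) : IntermediateField ℚ Qb := IntermediateField.adjoin ℚ {ζ}

theorem zeta_mem_Kp (ζ : Qb) : ζ ∈ Kp ζ := IntermediateField.mem_adjoin_simple_self ℚ ζ

theorem ker_cycloChar_eq {ζ : Qb} (hζ : IsPrimitiveRoot ζ p) :
    (cycloChar p).ker = (Kp ζ).fixingSubgroup := by
  ext τ
  rw [← map_eq_self_iff hζ, Kp, IntermediateField.mem_fixingSubgroup_iff]
  constructor
  · intro h x hx
    have hle : IntermediateField.adjoin ℚ {ζ} ≤ IntermediateField.fixedField (Subgroup.zpowers τ) := by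
      rw [IntermediateField.adjoin_simple_le_iff, IntermediateField.mem_fixedField_iff]
      rintro g ⟨n, rfl⟩
      show (τ ^ n) ζ = ζ
      have : τ ^ n ∈ MulAction.stabilizer GQ ζ :=
        Subgroup.zpow_mem _ (MulAction.mem_stabilizer_iff.mpr h) n
      exact MulAction.mem_stabilizer_iff.mp this
    have := (IntermediateField.mem_fixedField_iff _ x).mp (hle hx) τ (Subgroup.mem_zpowers τ)
    exact this
  · intro h
    exact h ζ (zeta_mem_Kp ζ)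


/-! ### The cyclotomic field is a number field, cyclotomic, Galois -/

theorem isCyclotomicExtension_Kp {ζ : Qb} (hζ : IsPrimitiveRoot ζ p) :
    IsCyclotomicExtension {p} ℚ (Kp ζ) :=
  hζ.intermediateField_adjoin_isCyclotomicExtension ℚ

theorem finiteDimensional_Kp {ζ : Qb} (hζ : IsPrimitiveRoot ζ p) :
    FiniteDimensional ℚ (Kp ζ) :=
  IntermediateField.adjoin.finiteDimensional (hζ.isIntegral (Fact.out : p.Prime).pos).tower_top

/-! ### The kernel of a twist datum as a subgroup of `G_ℚ` -/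

variable (D : TwistDatum p)

theorem phi_one : D.φ 1 = 0 := by
  have := D.map_mul 1 1
  rw [mul_one] at this
  exact left_eq_add.mp this

theorem phi_inv (σ : (cycloChar p).ker) : D.φ σ⁻¹ = - D.φ σ := by
  have := D.map_mul σ σ⁻¹
  rw [mul_inv_cancel, phi_one] at this
  exact (neg_eq_of_add_eq_zero_right this.symm).symm

theorem phi_pow (σ : (cycloChar p).ker) (n : ℕ) : D.φ (σ ^ n) = n * D.φ σ := by
  induction n with
  | zero => simp [phi_one]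
  | succ n ih => rw [pow_succ, D.map_mul, ih]; push_cast; ring

/-- `ker φ` as a subgroup of `G_ℚ`. -/
def kerPhi : Subgroup GQ where
  carrier := {g | ∃ h : g ∈ (cycloChar p).ker, D.φ ⟨g, h⟩ = 0}
  one_mem' := ⟨one_mem _, phi_one D⟩
  mul_mem' := by
    rintro a b ⟨ha, ha0⟩ ⟨hb, hb0⟩
    refine ⟨mul_mem ha hb, ?_⟩
    have := D.map_mul ⟨a, ha⟩ ⟨b, hb⟩
    rw [ha0, hb0, add_zero] at this
    exact this
  inv_mem' := by
    rintro a ⟨ha, ha0⟩
    refine ⟨inv_mem ha, ?_⟩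
    have := phi_inv D ⟨a, ha⟩
    rw [ha0, neg_zero] at this
    exact this

theorem mem_kerPhi {g : GQ} : g ∈ kerPhi D ↔ ∃ h : g ∈ (cycloChar p).ker, D.φ ⟨g, h⟩ = 0 :=
  Iff.rfl

theorem mem_kerPhi_iff {g : GQ} (h : g ∈ (cycloChar p).ker) :
    g ∈ kerPhi D ↔ D.φ ⟨g, h⟩ = 0 :=
  ⟨fun ⟨_, h0⟩ => h0, fun h0 => ⟨h, h0⟩⟩

theorem kerPhi_le : kerPhi D ≤ (cycloChar p).ker := fun _ ⟨h, _⟩ => h

theorem kerPhi_normal : (kerPhi D).Normal := by
  constructor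
  rintro σ ⟨hσ, hσ0⟩ g
  refine ⟨conj_mem_ker p g ⟨σ, hσ⟩, ?_⟩
  have := D.conj g ⟨σ, hσ⟩
  rw [hσ0, mul_zero] at this
  exact this

theorem kerPhi_isOpen {ζ : Qb} (hζ : IsPrimitiveRoot ζ p) : IsOpen (kerPhi D : Set GQ) := by
  obtain ⟨F, hF, hFφ⟩ := D.continuous
  have := hF
  have := finiteDimensional_Kp hζ
  have hle : (F ⊔ Kp ζ).fixingSubgroup ≤ kerPhi D := by
    intro g hg
    have hgK : g ∈ (cycloChar p).ker := by
      rw [ker_cycloChar_eq hζ]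
      exact IntermediateField.fixingSubgroup_le le_sup_right hg
    exact ⟨hgK, hFφ ⟨g, hgK⟩ (IntermediateField.fixingSubgroup_le le_sup_left hg)⟩
  exact Subgroup.isOpen_mono hle (IntermediateField.fixingSubgroup_isOpen (F ⊔ Kp ζ))

/-- the field cut out by `ker φ` -/
noncomputable def Lf : IntermediateField ℚ Qb := IntermediateField.fixedField (kerPhi D)

theorem fixingSubgroup_Lf {ζ : Qb} (hζ : IsPrimitiveRoot ζ p) :
    (Lf D).fixingSubgroup = kerPhi D :=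
  InfiniteGalois.fixingSubgroup_fixedField
    ⟨kerPhi D, (kerPhi D).isClosed_of_isOpen (kerPhi_isOpen D hζ)⟩

theorem finiteDimensional_Lf {ζ : Qb} (hζ : IsPrimitiveRoot ζ p) : FiniteDimensional ℚ (Lf D) := by
  rw [← InfiniteGalois.isOpen_iff_finite, fixingSubgroup_Lf D hζ]
  exact kerPhi_isOpen D hζ

theorem isGalois_Lf {ζ : Qb} (hζ : IsPrimitiveRoot ζ p) : IsGalois ℚ (Lf D) := by
  have h : (Lf D).fixingSubgroup.Normal := by
    rw [fixingSubgroup_Lf D hζ]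
    exact kerPhi_normal D
  exact (InfiniteGalois.normal_iff_isGalois (Lf D)).mp h

theorem Kp_le_Lf {ζ : Qb} (hζ : IsPrimitiveRoot ζ p) : Kp ζ ≤ Lf D := by
  rw [← InfiniteGalois.fixedField_fixingSubgroup (Kp ζ), Lf, IntermediateField.le_iff_le,
    InfiniteGalois.fixedField_fixingSubgroup, ← ker_cycloChar_eq hζ]
  exact kerPhi_le D


/-! ### The dictionary between `Gal(Lf/Kp)` and `ker χ` -/

section Dict

variable {ζ : Qb} (hζ : IsPrimitiveRoot ζ p)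

/-- the `Kp`-algebra structure on `Lf` -/
@[reducible] noncomputable def algKL : Algebra (Kp ζ) (Lf D) :=
  (IntermediateField.inclusion (Kp_le_Lf D hζ)).toRingHom.toAlgebra

theorem algebraMap_KL_coe (x : Kp ζ) :
    ((@algebraMap (Kp ζ) (Lf D) _ _ (algKL D hζ) x : Lf D) : Qb) = (x : Qb) := rfl

theorem isScalarTower_KLQb :
    @IsScalarTower (Kp ζ) (Lf D) Qb (algKL D hζ).toSMul _ _ :=
  letI := algKL D hζ
  IsScalarTower.of_algebraMap_eq (fun _ => rfl)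

theorem isGalois_KL : @IsGalois (Kp ζ) _ (Lf D) _ (algKL D hζ) :=
  letI := algKL D hζ
  haveI := isGalois_Lf D hζ
  IsGalois.tower_top_of_isGalois ℚ (Kp ζ) (Lf D)

theorem finiteDimensional_KL : @FiniteDimensional (Kp ζ) (Lf D) _ _ (algKL D hζ).toModule :=
  letI := algKL D hζ
  haveI := finiteDimensional_Lf D hζ
  FiniteDimensional.right ℚ (Kp ζ) (Lf D)

end Dict


section Dict2

variable {ζ : Qb} (hζ : IsPrimitiveRoot ζ p)

/-- restriction `G_ℚ → Gal(Lf/ℚ)` -/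
noncomputable def res : GQ →* (Lf D ≃ₐ[ℚ] Lf D) :=
  haveI := isGalois_Lf D hζ
  AlgEquiv.restrictNormalHom (Lf D)

theorem res_apply_coe (σ : GQ) (x : Lf D) : ((res D hζ σ x : Lf D) : Qb) = σ (x : Qb) :=
  haveI := isGalois_Lf D hζ
  AlgEquiv.restrictNormal_commutes σ (Lf D) x

theorem res_surjective : Function.Surjective (res D hζ) :=
  haveI := isGalois_Lf D hζ
  AlgEquiv.restrictNormalHom_surjective Qb

theorem res_ker : (res D hζ).ker = kerPhi D := by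
  have hN : @Normal ℚ (Lf D) _ _ (Lf D).algebra' := (isGalois_Lf D hζ).to_normal
  rw [← fixingSubgroup_Lf D hζ]
  exact @IntermediateField.restrictNormalHom_ker _ _ _ _ _ (Lf D) hN

/-- (D2) -/
theorem res_eq_one_iff {σ : GQ} (h : σ ∈ (cycloChar p).ker) :
    res D hζ σ = 1 ↔ D.φ ⟨σ, h⟩ = 0 := by
  rw [← MonoidHom.mem_ker, res_ker, mem_kerPhi_iff]

theorem res_eq_res_iff {σ τ : GQ} (hσ : σ ∈ (cycloChar p).ker) (hτ : τ ∈ (cycloChar p).ker) :
    res D hζ σ = res D hζ τ ↔ D.φ ⟨σ, hσ⟩ = D.φ ⟨τ, hτ⟩ := by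
  have h1 : res D hζ σ = res D hζ τ ↔ res D hζ (σ * τ⁻¹) = 1 := by
    rw [map_mul, map_inv, mul_inv_eq_one]
  have hmem : σ * τ⁻¹ ∈ (cycloChar p).ker := mul_mem hσ (inv_mem hτ)
  rw [h1, res_eq_one_iff D hζ hmem]
  have h2 : (⟨σ * τ⁻¹, hmem⟩ : (cycloChar p).ker) = ⟨σ, hσ⟩ * ⟨τ, hτ⟩⁻¹ := rfl
  rw [h2, D.map_mul, phi_inv, ← sub_eq_add_neg, sub_eq_zero]

/-- (D1) every `Kp`-automorphism of `Lf` lifts to `ker χ`. -/
theorem exists_lift (s : @AlgEquiv (Kp ζ) (Lf D) (Lf D) _ _ _ (algKL D hζ) (algKL D hζ)) :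
    ∃ σ : GQ, ∃ _ : σ ∈ (cycloChar p).ker, ∀ x : Lf D, res D hζ σ x = s x := by
  letI := algKL D hζ
  obtain ⟨σ, hσ⟩ := res_surjective D hζ (s.restrictScalars ℚ)
  refine ⟨σ, ?_, fun x => ?_⟩
  · rw [ker_cycloChar_eq hζ, IntermediateField.mem_fixingSubgroup_iff]
    intro x hx
    have h1 := res_apply_coe D hζ σ (algebraMap (Kp ζ) (Lf D) ⟨x, hx⟩)
    rw [hσ] at h1
    have h2 : (s.restrictScalars ℚ) (algebraMap (Kp ζ) (Lf D) ⟨x, hx⟩) =
        algebraMap (Kp ζ) (Lf D) ⟨x, hx⟩ := s.commutes _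
    rw [h2] at h1
    exact h1.symm
  · rw [hσ]; rfl

/-- (D3) every element of `ker χ` restricts to a `Kp`-automorphism of `Lf`. -/
theorem exists_restrict {σ : GQ} (h : σ ∈ (cycloChar p).ker) :
    ∃ s : @AlgEquiv (Kp ζ) (Lf D) (Lf D) _ _ _ (algKL D hζ) (algKL D hζ),
      ∀ x : Lf D, s x = res D hζ σ x := by
  letI := algKL D hζ
  refine ⟨AlgEquiv.ofRingEquiv (f := (res D hζ σ).toRingEquiv) ?_, fun x => rfl⟩
  intro x
  apply Subtype.ext
  show ((res D hζ σ (algebraMap (Kp ζ) (Lf D) x) : Lf D) : Qb) = _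
  rw [res_apply_coe]
  rw [ker_cycloChar_eq hζ, IntermediateField.mem_fixingSubgroup_iff] at h
  exact h _ x.2

end Dict2


section Degree

variable {ζ : Qb} (hζ : IsPrimitiveRoot ζ p)

theorem res_eq_of_forall {σ τ : GQ} (hσ : σ ∈ (cycloChar p).ker) (hτ : τ ∈ (cycloChar p).ker)
    (h : ∀ x : Lf D, res D hζ σ x = res D hζ τ x) : D.φ ⟨σ, hσ⟩ = D.φ ⟨τ, hτ⟩ :=
  (res_eq_res_iff D hζ hσ hτ).mp (AlgEquiv.ext h)

/-- the value of `φ` on (any lift of) a `Kp`-automorphism of `Lf`. -/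
noncomputable def phiBar (s : @AlgEquiv (Kp ζ) (Lf D) (Lf D) _ _ _ (algKL D hζ) (algKL D hζ)) :
    ZMod p :=
  D.φ ⟨(exists_lift D hζ s).choose, (exists_lift D hζ s).choose_spec.choose⟩

theorem phiBar_eq (s : @AlgEquiv (Kp ζ) (Lf D) (Lf D) _ _ _ (algKL D hζ) (algKL D hζ))
    {σ : GQ} (hσ : σ ∈ (cycloChar p).ker) (h : ∀ x : Lf D, res D hζ σ x = s x) :
    phiBar D hζ s = D.φ ⟨σ, hσ⟩ := by
  unfold phiBar
  apply res_eq_of_forall D hζ
  intro x
  rw [(exists_lift D hζ s).choose_spec.choose_spec x, h x]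

theorem phiBar_injective : Function.Injective (phiBar D hζ) := by
  intro s s' h
  obtain ⟨σ, hσ, hσs⟩ := exists_lift D hζ s
  obtain ⟨σ', hσ', hσs'⟩ := exists_lift D hζ s'
  rw [phiBar_eq D hζ s hσ hσs, phiBar_eq D hζ s' hσ' hσs'] at h
  have h2 := (res_eq_res_iff D hζ hσ hσ').mpr h
  letI := algKL D hζ
  apply AlgEquiv.ext
  intro x
  rw [← hσs x, ← hσs' x, h2]

theorem phi_surjective (hne : ∃ σ, D.φ σ ≠ 0) : Function.Surjective D.φ := by
  obtain ⟨σ₀, h0⟩ := hne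
  intro a
  refine ⟨σ₀ ^ (a * (D.φ σ₀)⁻¹).val, ?_⟩
  rw [phi_pow, ZMod.natCast_val, ZMod.cast_id, mul_assoc, inv_mul_cancel₀ h0, mul_one]

theorem phiBar_surjective (hne : ∃ σ, D.φ σ ≠ 0) : Function.Surjective (phiBar D hζ) := by
  intro a
  obtain ⟨⟨σ, hσ⟩, rfl⟩ := phi_surjective D hne a
  obtain ⟨s, hs⟩ := exists_restrict D hζ hσ
  exact ⟨s, phiBar_eq D hζ s hσ (fun x => (hs x).symm)⟩

theorem card_gal_KL (hne : ∃ σ, D.φ σ ≠ 0) :
    Nat.card (@AlgEquiv (Kp ζ) (Lf D) (Lf D) _ _ _ (algKL D hζ) (algKL D hζ)) = p := by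
  rw [Nat.card_congr (Equiv.ofBijective _ ⟨phiBar_injective D hζ, phiBar_surjective D hζ hne⟩),
    Nat.card_zmod]

theorem finrank_KL (hne : ∃ σ, D.φ σ ≠ 0) :
    @Module.finrank (Kp ζ) (Lf D) _ _ (algKL D hζ).toModule = p := by
  letI := algKL D hζ
  haveI := isGalois_KL D hζ
  haveI := finiteDimensional_KL D hζ
  rw [← IsGalois.card_aut_eq_finrank, card_gal_KL D hζ hne]

end Degree


section Conj

variable {ζ : Qb} (hζ : IsPrimitiveRoot ζ p)

/-- `ζ` as an element of `Kp ζ`. -/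
def zetaK (ζ : Qb) : Kp ζ := ⟨ζ, zeta_mem_Kp ζ⟩

theorem isPrimitiveRoot_zetaK {ζ : Qb} (hζ : IsPrimitiveRoot ζ p) :
    IsPrimitiveRoot (zetaK ζ) p :=
  IsPrimitiveRoot.of_map_of_injective (f := algebraMap (Kp ζ) Qb) hζ
    (algebraMap (Kp ζ) Qb).injective

theorem phi_conj_inv (g : GQ) {σ : GQ} (hσ : σ ∈ (cycloChar p).ker)
    (h : g⁻¹ * σ * g ∈ (cycloChar p).ker) :
    D.φ ⟨g⁻¹ * σ * g, h⟩ = chi p g * D.φ ⟨σ, hσ⟩ := by
  have h1 := D.conj g⁻¹ ⟨σ, hσ⟩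
  have h2 : (⟨g⁻¹ * σ * g, h⟩ : (cycloChar p).ker) =
      ⟨g⁻¹ * (⟨σ, hσ⟩ : (cycloChar p).ker) * g⁻¹⁻¹, conj_mem_ker p g⁻¹ ⟨σ, hσ⟩⟩ := by
    apply Subtype.ext
    show g⁻¹ * σ * g = g⁻¹ * σ * g⁻¹⁻¹
    rw [inv_inv]
  rw [h2, h1, map_inv, inv_inv]
  rfl

theorem restrictScalars_pow (s : @AlgEquiv (Kp ζ) (Lf D) (Lf D) _ _ _ (algKL D hζ) (algKL D hζ))
    (c : ℕ) :
    letI := algKL D hζ
    (s ^ c).restrictScalars ℚ = (s.restrictScalars ℚ) ^ c := by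
  letI := algKL D hζ
  induction c with
  | zero => rfl
  | succ n ih =>
    rw [pow_succ, pow_succ, ← ih]
    rfl

/-- **CONJ**: the conjugation law on `Gal(Lf/Kp)`. -/
theorem conj_law (τ : Lf D ≃ₐ[ℚ] Lf D)
    (s : @AlgEquiv (Kp ζ) (Lf D) (Lf D) _ _ _ (algKL D hζ) (algKL D hζ)) (c : ℕ)
    (hτ : τ (@algebraMap (Kp ζ) (Lf D) _ _ (algKL D hζ) (zetaK ζ)) =
      (@algebraMap (Kp ζ) (Lf D) _ _ (algKL D hζ) (zetaK ζ)) ^ c) :
    letI := algKL D hζ
    τ⁻¹ * s.restrictScalars ℚ * τ = (s ^ c).restrictScalars ℚ := by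
  letI := algKL D hζ
  obtain ⟨g, rfl⟩ := res_surjective D hζ τ
  obtain ⟨σ, hσ, hσs⟩ := exists_lift D hζ s
  have hs : s.restrictScalars ℚ = res D hζ σ := AlgEquiv.ext (fun x => (hσs x).symm)
  -- `g ζ = ζ ^ c`
  have hg : g ζ = ζ ^ c := by
    have := congrArg (fun x : Lf D => (x : Qb)) hτ
    simp only [res_apply_coe] at this
    exact this
  have hχ : chi p g = (c : ZMod p) := (map_eq_pow_iff hζ g c).mp hg
  rw [restrictScalars_pow, hs, ← map_inv, ← map_mul, ← map_mul, ← map_pow]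
  have hmem : g⁻¹ * σ * g ∈ (cycloChar p).ker := by
    have := conj_mem_ker p g⁻¹ ⟨σ, hσ⟩
    rwa [inv_inv] at this
  have hmem2 : σ ^ c ∈ (cycloChar p).ker := pow_mem hσ c
  rw [res_eq_res_iff D hζ hmem hmem2, phi_conj_inv D g hσ hmem, hχ]
  exact (phi_pow D ⟨σ, hσ⟩ c).symm

end Conj

end Fermat.Agent.S14.UnfoldCyc
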