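/-
S14 / [UNFOLD] second seat (helper26): UNRAM.

* `exists_valuationSubring_over` : every nonzero prime `P` of `𝓞 K` (`K ⊆ ℚ̄` finite) is the centre
  of a valuation subring of `ℚ̄` (lying over a rational prime `q`).
* `inertia_eq_bot` : for a twist datum `D`, the extension `Lf D / Kp ζ` is unramified at all
  nonzero primes, in the exact shape of `NoExtStatement`.
-/
import Mathlib
import Fermat.Agent.S14.UnfoldCyc
import Fermat.Agent.Lib.InertiaGenerate

set_option autoImplicit false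
set_option linter.unusedSectionVars false
set_option linter.style.haveILetI false
set_option synthInstance.maxHeartbeats 200000

namespace Fermat.Agent.S14.UnfoldRam

open ExtCitation Fermat.Agent.S14 Fermat.Agent.S14.UnfoldCyc NumberField
open Fermat.Agent.Lib.FrobeniusExists Fermat.Agent.Lib.InertiaGenerate

attribute [local instance] isAlgebraic_Qb isAlgClosure_Qb isGalois_Qb
attribute [local instance] numberField_K algOK

section Over

variable (K : IntermediateField ℚ Qb) [FiniteDimensional ℚ K]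

theorem ιK_injective : Function.Injective (ιK K) := by
  intro x y h
  have h1 : ((x : K) : Qb) = ((y : K) : Qb) := congrArg (fun b : Zb => (b : Qb)) h
  exact RingOfIntegers.ext (Subtype.ext h1)

theorem mem_under_center {A : ValuationSubring Qb} {x : 𝓞 K} :
    x ∈ (center A).under (𝓞 K) ↔ ((x : K) : Qb) ∈ A.nonunits := by
  rw [Ideal.under, Ideal.mem_comap, algebraMap_OK_apply, mem_center]
  rfl

/-- every nonzero prime of `𝓞 K` contains a rational prime. -/
theorem exists_prime_mem (P : Ideal (𝓞 K)) (hP : P.IsPrime) (hP0 : P ≠ ⊥) :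
    ∃ q : ℕ, q.Prime ∧ (q : 𝓞 K) ∈ P := by
  haveI := hP
  haveI : P.IsMaximal := hP.isMaximal hP0
  letI := Ideal.Quotient.field P
  haveI : Finite (𝓞 K ⧸ P) := Ideal.finiteQuotientOfFreeOfNeBot P hP0
  obtain ⟨q, hq⟩ := CharP.exists (𝓞 K ⧸ P)
  have hq0 : q ≠ 0 := by
    intro h0
    subst h0
    haveI : CharZero (𝓞 K ⧸ P) := CharP.charP_to_charZero _
    exact not_finite (𝓞 K ⧸ P)
  have hqp : q.Prime := (CharP.char_is_prime_or_zero (𝓞 K ⧸ P) q).resolve_right hq0
  refine ⟨q, hqp, ?_⟩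
  rw [← Ideal.Quotient.eq_zero_iff_mem, map_natCast]
  exact CharP.cast_eq_zero _ q

theorem exists_valuationSubring_over (P : Ideal (𝓞 K)) (hP : P.IsPrime) (hP0 : P ≠ ⊥) :
    ∃ (A : ValuationSubring Qb) (q : ℕ), q.Prime ∧ A.LiesOverPrime q ∧
      (center A).under (𝓞 K) = P := by
  have hPmax : P.IsMaximal := hP.isMaximal hP0
  obtain ⟨q, hq, hqP⟩ := exists_prime_mem K P hP hP0
  let f : 𝓞 K →+* Qb := (algebraMap K Qb).comp (algebraMap (𝓞 K) K)
  have hf : Function.Injective f :=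
    (algebraMap K Qb).injective.comp RingOfIntegers.coe_injective
  let I : Ideal f.range := P.map f.rangeRestrict
  have hsurj : Function.Surjective f.rangeRestrict := f.rangeRestrict_surjective
  have hI : I ≠ ⊤ := by
    intro h
    have h1 : (1 : f.range) ∈ I := h ▸ Submodule.mem_top
    obtain ⟨x, hx, hx1⟩ := (Ideal.mem_map_iff_of_surjective _ hsurj).mp h1
    have h2 : f x = f 1 := by
      have := congrArg (fun y : f.range => (y : Qb)) hx1
      simpa using this
    rw [hf h2] at hx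
    exact hPmax.ne_top ((Ideal.eq_top_iff_one P).mpr hx)
  obtain ⟨A, -, hA⟩ := Ideal.image_subset_nonunits_valuationSubring I hI
  have hmem : ∀ x ∈ P, ((x : K) : Qb) ∈ A.nonunits := by
    intro x hx
    apply hA
    exact ⟨f.rangeRestrict x, Ideal.mem_map_of_mem _ hx, rfl⟩
  refine ⟨A, q, hq, ?_, ?_⟩
  · have := hmem _ hqP
    show (q : Qb) ∈ A.nonunits
    simpa using this
  · symm
    apply hPmax.eq_of_le
    · exact (Ideal.comap_isPrime _ _).ne_top
    · intro x hx
      rw [mem_under_center]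
      exact hmem x hx

end Over


section Unram

variable {p : ℕ} [Fact p.Prime] (D : TwistDatum p) {ζ : Qb} (hζ : IsPrimitiveRoot ζ p)

theorem mem_decomposition_of_mem_inertia {A : ValuationSubring Qb} {σ : GQ}
    (h : σ ∈ A.inertiaSubgroupIn ℚ) : σ ∈ A.decompositionSubgroup ℚ := by
  obtain ⟨⟨σ', hσ'⟩, -, rfl⟩ := h
  exact hσ'

/-- `φ` vanishes on all inertia groups (inside `ker χ`). -/
theorem phi_eq_zero_of_mem_inertia {q : ℕ} (hq : q.Prime) {A : ValuationSubring Qb}
    (hA : A.LiesOverPrime q) {σ : GQ} (hσ : σ ∈ (cycloChar p).ker)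
    (hI : σ ∈ A.inertiaSubgroupIn ℚ) : D.φ ⟨σ, hσ⟩ = 0 := by
  by_cases hqp : q = p
  · subst hqp
    exact D.split A hA ⟨σ, hσ⟩ (mem_decomposition_of_mem_inertia hI)
  · exact D.unram q hq hqp A hA ⟨σ, hσ⟩ hI

/-- a lift of a `Kp`-automorphism of `Lf` lies in `ker χ`. -/
theorem mem_ker_of_res_eq
    (s : @AlgEquiv (Kp ζ) (Lf D) (Lf D) _ _ _ (algKL D hζ) (algKL D hζ)) {σ : GQ}
    (h : ∀ x : Lf D, res D hζ σ x = s x) : σ ∈ (cycloChar p).ker := by
  letI := algKL D hζ
  rw [ker_cycloChar_eq hζ, IntermediateField.mem_fixingSubgroup_iff]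
  intro x hx
  have h1 := res_apply_coe D hζ σ (algebraMap (Kp ζ) (Lf D) ⟨x, hx⟩)
  rw [h, s.commutes] at h1
  exact h1.symm

/-- **UNRAM** in the exact shape of `NoExtStatement`. -/
theorem inertia_eq_bot (P : Ideal (𝓞 (Lf D))) (hP : P.IsPrime) (hP0 : P ≠ ⊥) :
    letI := algKL D hζ
    Ideal.inertia (Lf D ≃ₐ[Kp ζ] Lf D) P = ⊥ := by
  letI := algKL D hζ
  haveI := finiteDimensional_Lf D hζ
  haveI := isGalois_Lf D hζ
  rw [eq_bot_iff]
  intro s hs
  rw [Subgroup.mem_bot]
  obtain ⟨A, q, hq, hA, hAP⟩ := exists_valuationSubring_over (Lf D) P hP hP0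
  have hτ : (s.restrictScalars ℚ) ∈
      ((center A).under (𝓞 (Lf D))).inertia (Lf D ≃ₐ[ℚ] Lf D) := by
    rw [hAP]
    intro x
    exact hs x
  obtain ⟨σ, hσI, hσ⟩ := exists_mem_inertiaSubgroupIn_restrict (Lf D) hq A hA _ hτ
  have hσres : ∀ x : Lf D, res D hζ σ x = s x := fun x => by
    show AlgEquiv.restrictNormalHom (Lf D) σ x = s x
    rw [hσ]
    rfl
  have hσK : σ ∈ (cycloChar p).ker := mem_ker_of_res_eq D hζ s hσres
  have h0 := phi_eq_zero_of_mem_inertia D hq hA hσK hσI
  have h1 := (res_eq_one_iff D hζ hσK).mpr h0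
  ext x
  rw [← hσres x, h1]
  rfl

end Unram

end Fermat.Agent.S14.UnfoldRam
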