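/-
S14 / [UNFOLD] second seat (helper26): the translation theorem.

`core_of_noExtAt : NoExtAt p → Core p` where `NoExtAt p` is the body of `NoExtStatement` at a fixed
prime `p` (so it serves both `p ≥ 5` and `p = 3`), and the assembly
`extVanishingCts_of_kummer_of_core : KummerStatement → (∀ p K, CoreStatement p K) → 3 ≤ p →
  ExtVanishingCts p`.
-/
import Mathlib
import Fermat.Agent.S14.UnfoldCyc
import Fermat.Agent.S14.UnfoldRam
import Fermat.Agent.S14.CoreIface
import Fermat.Agent.S14.P3

set_option autoImplicit false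
set_option linter.unusedSectionVars false
set_option linter.style.haveILetI false

namespace Fermat.Agent.S14.Unfold26

open ExtCitation Fermat.Agent.S14 Fermat.Agent.S14.UnfoldCyc Fermat.Agent.S14.UnfoldRam NumberField

/-- The number-field statement NOEXT at a fixed prime `p`. -/
def NoExtAt (p : ℕ) [Fact p.Prime] : Prop :=
  ∀ (K L : Type) [Field K] [NumberField K] [IsCyclotomicExtension {p} ℚ K]
    [Field L] [NumberField L] [Algebra K L] [IsGalois K L] [IsGalois ℚ L],
  Module.finrank K L = p →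
  (∀ (P : Ideal (𝓞 L)), P.IsPrime → P ≠ ⊥ → Ideal.inertia (L ≃ₐ[K] L) P = ⊥) →
  ∀ (ζ : K), IsPrimitiveRoot ζ p →
  (∀ (τ : L ≃ₐ[ℚ] L) (s : L ≃ₐ[K] L) (c : ℕ), τ (algebraMap K L ζ) = algebraMap K L ζ ^ c →
      τ⁻¹ * s.restrictScalars ℚ * τ = (s ^ c).restrictScalars ℚ) →
  False

variable {p : ℕ} [Fact p.Prime]

/-- **[UNFOLD]**: the number-field statement implies the arithmetic core. -/
theorem core_of_noExtAt (h : NoExtAt p) : Core p := by
  intro D σ
  by_contra hne
  obtain ⟨ζ, hζ⟩ := exists_primitiveRoot p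
  have hne' : ∃ σ, D.φ σ ≠ 0 := ⟨σ, hne⟩
  letI := algKL D hζ
  haveI : NumberField (Kp ζ) :=
    { to_charZero := inferInstance, to_finiteDimensional := finiteDimensional_Kp hζ }
  haveI : NumberField (Lf D) :=
    { to_charZero := inferInstance, to_finiteDimensional := finiteDimensional_Lf D hζ }
  haveI := isCyclotomicExtension_Kp hζ
  haveI := isGalois_KL D hζ
  haveI := isGalois_Lf D hζ
  exact h (Kp ζ) (Lf D) (finrank_KL D hζ hne') (fun P hP hP0 => inertia_eq_bot D hζ P hP hP0)
    (zetaK ζ) (isPrimitiveRoot_zetaK hζ) (fun τ s c hτ => conj_law D hζ τ s c hτ)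

theorem noExtAt_of_noExt (h : NoExtStatement) (hp5 : 5 ≤ p) : NoExtAt p :=
  fun K L _ _ _ _ _ _ _ _ => h p hp5 K L

theorem core_of_noExt (h : NoExtStatement) (hp5 : 5 ≤ p) : Core p :=
  core_of_noExtAt (noExtAt_of_noExt h hp5)

theorem noExtAt_three (h : P3.NoExtThreeStatement) :
    @NoExtAt 3 ⟨Nat.prime_three⟩ :=
  fun K L _ _ _ _ _ _ _ _ => h K L

/-- **S14 from K1 (KUMMER) and K6 (CORE).** -/
theorem extVanishingCts_of_kummer_of_core (hK : KummerStatement)
    (hC : ∀ (p : ℕ) [Fact p.Prime] (K : Type) [Field K] [NumberField K]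
      [IsCyclotomicExtension {p} ℚ K], CoreStatement p K) (h3 : 3 ≤ p) :
    ExtVanishingCts p := by
  apply extVanishingCts_of_core
  have hp : p.Prime := Fact.out
  rcases Nat.lt_or_ge p 5 with h5 | h5
  · have hp3 : p = 3 := by
      interval_cases p
      · rfl
      · exact absurd hp (by decide)
    subst hp3
    have h := core_of_noExtAt (noExtAt_three (P3.noExt_three hK))
    convert h
  · exact core_of_noExt (noExt_of_kummer_of_core hK hC) h5

end Fermat.Agent.S14.Unfold26
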