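/-
S14 integration draft (helper26): everything landed so far, wired together.
`ExtVanishingCts p` for all primes `p ≥ 3` from exactly three remaining inputs:
K2 (`ThaineStatement`), K3 (`DensStatement`) and K5 (`ULog9.UDirTwoStatement`).
-/
import Mathlib
import Fermat.Agent.S14.Unfold26
import Fermat.Agent.S14.KummerNF69
import Fermat.Agent.S14.Core6
import Fermat.Agent.S14.Mod39Main
import Fermat.Agent.S14.ULog44
import Fermat.Agent.S14.ULog9.KellEta

set_option autoImplicit false

namespace Fermat.Agent.S14.Wire26

open ExtCitation Fermat.Agent.S14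

/-- `CoreStatement` from K2, K3, K5 (K4, K6a, K6 already landed). -/
theorem coreStatement_of (p : ℕ) [Fact p.Prime] (K : Type) [Field K] [NumberField K]
    [IsCyclotomicExtension {p} ℚ K]
    (hT : ThaineStatement p K) (hD : DensStatement) (hU : ULog9.UDirTwoStatement p K) :
    CoreStatement p K :=
  Core6.coreStatement p K hT hD (ULog44.etaNotPow p K) (ULog9.unitStatement_of_udir hU)
    (Mod39.mod p K)

/-- **S14 from K2 + K3 + K5.** -/
theorem extVanishingCts_of_thaine_dens_udir
    (hT : ∀ (p : ℕ) [Fact p.Prime] (K : Type) [Field K] [NumberField K]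
      [IsCyclotomicExtension {p} ℚ K], ThaineStatement p K)
    (hD : DensStatement)
    (hU : ∀ (p : ℕ) [Fact p.Prime] (K : Type) [Field K] [NumberField K]
      [IsCyclotomicExtension {p} ℚ K], ULog9.UDirTwoStatement p K)
    {p : ℕ} [Fact p.Prime] (h3 : 3 ≤ p) : ExtVanishingCts p :=
  Unfold26.extVanishingCts_of_kummer_of_core KummerNF69.kummer
    (fun p _ K _ _ _ => coreStatement_of p K (hT p K) hD (hU p K)) h3

end Fermat.Agent.S14.Wire26
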