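/-
S14 integration (helper26), second checkpoint: K3 (`DensWire27.densStatement`), K5
(`UDir99.udir_isEigenUnit`), K2-TFIN and K2-DegOne (`ThaineFin21`) plugged in.
`ExtVanishingCts p` for all primes `p ≥ 3` from the single remaining input K2-TF
(`Thaine.ExistsBetaStatement`).
-/
import Mathlib
import Fermat.Agent.S14.Wire26
import Fermat.Agent.S14.DensFinal27
import Fermat.Agent.S14.UDir99.Iface
import Fermat.Agent.S14.ThaineFin21

set_option autoImplicit false

namespace Fermat.Agent.S14.Wire26b

open ExtCitation Fermat.Agent.S14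

theorem uDirTwo (p : ℕ) [Fact p.Prime] (K : Type) [Field K] [NumberField K]
    [IsCyclotomicExtension {p} ℚ K] : ULog9.UDirTwoStatement p K :=
  fun hp5 ζ hζ u v hu hv hnp => UDir99.udir_isEigenUnit p K hp5 ζ hζ u v hu hv hnp

/-- **S14 from K2-TF alone.** -/
theorem extVanishingCts_of_existsBeta
    (hTF : ∀ (p : ℕ) [Fact p.Prime] (K : Type) [Field K] [NumberField K]
      [IsCyclotomicExtension {p} ℚ K], Thaine.ExistsBetaStatement p K)
    {p : ℕ} [Fact p.Prime] (h3 : 3 ≤ p) : ExtVanishingCts p :=
  Wire26.extVanishingCts_of_thaine_dens_udir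
    (fun p _ K _ _ _ => Thaine.thaine_of_parts p K (hTF p K) (ThaineFin21.thaineFin p K)
      (ThaineFin21.degOne p K))
    DensWire27.densStatement (fun p _ K _ _ _ => uDirTwo p K) h3

end Fermat.Agent.S14.Wire26b
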