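/-
S14, package K6 (CORE assembly), helper72.
`CoreStatement p K` from the five package statements of `CoreIface.lean`
(THAINE, DENS, ULOG (a), UNITS, MOD).
-/
import Mathlib
import Fermat.Agent.S14.CoreIface
import Fermat.Agent.FLTReg.Basic

set_option autoImplicit false

namespace Fermat.Agent.S14.Core72

open NumberField nonZeroDivisors Fermat.Agent.S14

section Generic

/-- uniqueness of `n`-th roots of ideals in a Dedekind domain -/
theorem ideal_eq_of_pow_eq {R : Type*} [CommRing R] [IsDedekindDomain R] {X Y : Ideal R} {n : ℕ}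
    (hn : n ≠ 0) (h : X ^ n = Y ^ n) : X = Y := by
  have h1 : X ∣ Y := (UniqueFactorizationMonoid.pow_dvd_pow_iff_dvd hn).mp (dvd_of_eq h)
  have h2 : Y ∣ X := (UniqueFactorizationMonoid.pow_dvd_pow_iff_dvd hn).mp (dvd_of_eq h.symm)
  exact le_antisymm (Ideal.dvd_iff_le.mp h2) (Ideal.dvd_iff_le.mp h1)

end Generic

section Cyclo

variable (p : ℕ) [Fact p.Prime] (K : Type) [Field K] [NumberField K]

/-- the exponents `etaExp p 2` are inverse to `b ^ 2` modulo `p` -/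
theorem etaExp_two_spec : ∀ b ∈ Finset.Ico 1 p, (etaExp p 2 b * b ^ 2) % p = 1 := by
  intro b hb
  have hp : p.Prime := Fact.out
  rw [Finset.mem_Ico] at hb
  have hcop : Nat.Coprime b p :=
    (Nat.coprime_comm.mp ((Nat.Prime.coprime_iff_not_dvd hp).mpr
      (fun h => absurd (Nat.le_of_dvd (by omega) h) (by omega))))
  have h1 : b ^ (p - 1) ≡ 1 [MOD p] := by
    have := Nat.ModEq.pow_totient hcop
    rwa [Nat.totient_prime hp] at this
  have h2 : b ^ (2 * (p - 2)) * b ^ 2 ≡ 1 [MOD p] := by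
    have h3 : b ^ (2 * (p - 2)) * b ^ 2 = (b ^ (p - 1)) ^ 2 := by
      rw [← pow_add, ← pow_mul]
      congr 1
      have : 2 ≤ p := hp.two_le
      omega
    rw [h3]
    simpa using h1.pow 2
  unfold etaExp
  rw [Nat.mod_mul_mod]
  have := h2
  unfold Nat.ModEq at this
  rw [this, Nat.mod_eq_of_lt hp.one_lt]

variable {K} in
omit [NumberField K] in
/-- the cyclotomic number is nonzero -/
theorem etaRaw_ne_zero {ζ : K} (hζ : IsPrimitiveRoot ζ p) (m : ℕ → ℕ) :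
    etaRaw p K hζ.toInteger m ≠ 0 := by
  unfold etaRaw
  rw [Finset.prod_ne_zero_iff]
  intro b hb
  rw [Finset.mem_Ico] at hb
  refine pow_ne_zero _ (sub_ne_zero.mpr fun h => ?_)
  exact hζ.toInteger_isPrimitiveRoot.pow_ne_one_of_pos_of_lt (by omega) hb.2 h.symm

end Cyclo

section ClassEigen

variable (p : ℕ) [Fact p.Prime] {K : Type} [Field K] [NumberField K]

/-- If `(α) = 𝔞^p` and `σ α = α^m κ^p`, then `[σ 𝔞] = [𝔞]^m` in the class group. -/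
theorem class_eigen {α : 𝓞 K} (hα0 : α ≠ 0) (I : (Ideal (𝓞 K))⁰)
    (hI : Ideal.span {α} = (I : Ideal (𝓞 K)) ^ p)
    (σ : K ≃ₐ[ℚ] K) (m : ℕ) (κ : K) (hκ : σ (α : K) = (α : K) ^ m * κ ^ p) :
    ClassGroup.mk0 (galIdeal σ I) = ClassGroup.mk0 I ^ m := by
  have hp0 : p ≠ 0 := (Fact.out : p.Prime).ne_zero
  have hαK : (α : K) ≠ 0 := fun h => hα0 (RingOfIntegers.coe_eq_zero_iff.mp h)
  have hκ0 : κ ≠ 0 := by
    rintro rfl
    rw [zero_pow hp0, mul_zero] at hκ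
    exact hαK ((map_eq_zero_iff σ σ.injective).mp hκ)
  obtain ⟨a, b, hb, hab⟩ := IsFractionRing.div_surjective (A := 𝓞 K) κ
  have hb0 : b ≠ 0 := nonZeroDivisors.ne_zero hb
  have hbK : (algebraMap (𝓞 K) K b) ≠ 0 := fun h => hb0 (RingOfIntegers.coe_eq_zero_iff.mp h)
  have ha0 : a ≠ 0 := by
    rintro rfl
    rw [map_zero, zero_div] at hab
    exact hκ0 hab.symm
  have key : b ^ p * galRing K σ α = a ^ p * α ^ m := by
    apply IsFractionRing.injective (𝓞 K) K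
    have h1 : algebraMap (𝓞 K) K (galRing K σ α) = σ (algebraMap (𝓞 K) K α) :=
      galRing_apply σ α
    have hκ' : σ (algebraMap (𝓞 K) K α) = (algebraMap (𝓞 K) K α) ^ m * κ ^ p := hκ
    rw [map_mul, map_pow, map_mul, map_pow, map_pow, h1, hκ', ← hab, div_pow]
    field_simp
  rw [← map_pow, ClassGroup.mk0_eq_mk0_iff]
  refine ⟨b, a, hb0, ha0, ?_⟩
  rw [galIdeal, Ideal.coe_mapNonZero, SubmonoidClass.coe_pow]
  apply ideal_eq_of_pow_eq hp0
  rw [mul_pow, Ideal.span_singleton_pow, ← Ideal.map_pow, ← hI, Ideal.map_span,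
    Set.image_singleton, Ideal.span_singleton_mul_span_singleton,
    mul_pow, Ideal.span_singleton_pow, ← pow_mul, mul_comm m p, pow_mul, ← hI,
    Ideal.span_singleton_pow, Ideal.span_singleton_mul_span_singleton]
  congr 2

end ClassEigen

section UnitCase

variable (p : ℕ) [Fact p.Prime] {K : Type} [Field K] [NumberField K]

/-- If `α = γ^p η` with `η` a unit and `σ α = α^m κ^p`, then `σ η = η^m ε^p` for a unit `ε`. -/
theorem unit_eigen {α γ : 𝓞 K} (hα0 : α ≠ 0) (η : (𝓞 K)ˣ) (hαγ : α = γ ^ p * η)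
    (σ : K ≃ₐ[ℚ] K) (m : ℕ) (κ : K)
    (hκ : σ (algebraMap (𝓞 K) K α) = (algebraMap (𝓞 K) K α) ^ m * κ ^ p) :
    ∃ ε : (𝓞 K)ˣ, σ (algebraMap (𝓞 K) K (η : 𝓞 K)) =
      (algebraMap (𝓞 K) K (η : 𝓞 K)) ^ m * (algebraMap (𝓞 K) K (ε : 𝓞 K)) ^ p := by
  have hp0 : p ≠ 0 := (Fact.out : p.Prime).ne_zero
  have hinj := IsFractionRing.injective (𝓞 K) K
  have hγ0 : γ ≠ 0 := by
    rintro rfl
    rw [zero_pow hp0, zero_mul] at hαγ
    exact hα0 hαγ
  have hγK : algebraMap (𝓞 K) K γ ≠ 0 := fun h => hγ0 (by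
    rw [← map_zero (algebraMap (𝓞 K) K)] at h; exact hinj h)
  have hσγ : σ (algebraMap (𝓞 K) K γ) ≠ 0 := fun h =>
    hγK ((map_eq_zero_iff σ σ.injective).mp h)
  have hηK : algebraMap (𝓞 K) K (η : 𝓞 K) ≠ 0 := fun h => η.ne_zero (by
    rw [← map_zero (algebraMap (𝓞 K) K)] at h; exact hinj h)
  -- the unit `w = σ(η) η^{-m}`
  set w : 𝓞 K := galRing K σ (η : 𝓞 K) * ((η⁻¹ : (𝓞 K)ˣ) : 𝓞 K) ^ m with hw
  have hwunit : IsUnit w :=
    ((η.isUnit.map (galRing K σ)).mul ((η⁻¹).isUnit.pow m))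
  have h1 : algebraMap (𝓞 K) K (galRing K σ (η : 𝓞 K)) = σ (algebraMap (𝓞 K) K (η : 𝓞 K)) :=
    galRing_apply σ (η : 𝓞 K)
  have hinv : algebraMap (𝓞 K) K ((η⁻¹ : (𝓞 K)ˣ) : 𝓞 K) =
      (algebraMap (𝓞 K) K (η : 𝓞 K))⁻¹ :=
    eq_inv_of_mul_eq_one_left (by
      rw [← map_mul, ← Units.val_mul, inv_mul_cancel, Units.val_one, map_one])
  set e : K := (algebraMap (𝓞 K) K γ) ^ m * κ / σ (algebraMap (𝓞 K) K γ) with he
  -- σ η = η^m e^p
  have hση : σ (algebraMap (𝓞 K) K (η : 𝓞 K)) = (algebraMap (𝓞 K) K (η : 𝓞 K)) ^ m * e ^ p := by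
    have h2 := hκ
    rw [hαγ, map_mul, map_pow, map_mul, map_pow] at h2
    have h3 : σ (algebraMap (𝓞 K) K γ) ^ p ≠ 0 := pow_ne_zero _ hσγ
    rw [he, div_pow]
    field_simp
    linear_combination h2
  have hew : e ^ p = algebraMap (𝓞 K) K w := by
    rw [hw, map_mul, map_pow, h1, hinv, hση, inv_pow,
      mul_comm ((algebraMap (𝓞 K) K (η : 𝓞 K)) ^ m), mul_assoc,
      mul_inv_cancel₀ (pow_ne_zero m hηK), mul_one]
  obtain ⟨y, hy⟩ := IsIntegrallyClosed.exists_algebraMap_eq_of_isIntegral_pow (R := 𝓞 K)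
    (K := K) (x := e) (Nat.pos_of_ne_zero hp0) (by rw [hew]; exact isIntegral_algebraMap)
  have hyw : y ^ p = w := by
    apply hinj
    rw [map_pow, hy, hew]
  have hyunit : IsUnit y := (isUnit_pow_iff hp0).mp (hyw ▸ hwunit)
  refine ⟨hyunit.unit, ?_⟩
  rw [IsUnit.unit_spec, hy]
  exact hση

variable [IsCyclotomicExtension {p} ℚ K]

/-- If `α = γ^p η`, `λ ∤ α` and `α ≡ n^p mod λ^p`, then `η` is congruent to an integer mod `p`. -/
theorem unit_int_cong {ζ : K} (hζ : IsPrimitiveRoot ζ p) {α γ : 𝓞 K} (η : (𝓞 K)ˣ)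
    (hαγ : α = γ ^ p * η) (hlam : ¬ (hζ.toInteger - 1) ∣ α) (n : ℤ)
    (hn : (hζ.toInteger - 1) ^ p ∣ α - (n : 𝓞 K) ^ p) :
    ∃ n' : ℤ, (p : 𝓞 K) ∣ (η : 𝓞 K) - n' := by
  have hp : p.Prime := Fact.out
  obtain ⟨m, hm⟩ := Fermat.Agent.FLTReg.Basic.exists_int_prime_dvd_pow_sub (p := p) γ
  have hassoc := IsCyclotomicExtension.Rat.associated_zeta_sub_one_pow_prime p hζ
  have hpl : (p : 𝓞 K) ∣ (hζ.toInteger - 1) ^ p := by
    refine hassoc.symm.dvd.trans (pow_dvd_pow _ (Nat.sub_le p 1))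
  have hlp : (hζ.toInteger - 1) ∣ (p : 𝓞 K) := by
    refine Dvd.dvd.trans ?_ hassoc.dvd
    exact dvd_pow_self _ (by have := hp.two_le; omega)
  have hαn : (p : 𝓞 K) ∣ α - (n : 𝓞 K) ^ p := hpl.trans hn
  have hpm : ¬ (p : ℤ) ∣ m := by
    intro h
    have h1 : (hζ.toInteger - 1) ∣ (m : 𝓞 K) :=
      (IsCyclotomicExtension.Rat.zeta_sub_one_dvd_intCast_iff' p hζ).mpr h
    have h2 : (hζ.toInteger - 1) ∣ γ ^ p := by
      have := dvd_add (hlp.trans hm) h1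
      rwa [sub_add_cancel] at this
    exact hlam (hαγ ▸ Dvd.dvd.mul_right h2 _)
  have hcop : IsCoprime (p : ℤ) m :=
    (Prime.coprime_iff_not_dvd (Nat.prime_iff_prime_int.mp hp)).mpr hpm
  obtain ⟨u, v, huv⟩ := hcop
  refine ⟨v * n ^ p, ?_⟩
  have huv' : (u : 𝓞 K) * (p : 𝓞 K) + (v : 𝓞 K) * (m : 𝓞 K) = 1 := by
    have := congrArg (fun z : ℤ => (z : 𝓞 K)) huv
    simpa using this
  have key : (η : 𝓞 K) - ((v * n ^ p : ℤ) : 𝓞 K) =
      (η : 𝓞 K) * u * p + v * (α - (n : 𝓞 K) ^ p) - v * η * (γ ^ p - m) := by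
    push_cast
    rw [hαγ]
    linear_combination (-(η : 𝓞 K)) * huv'
  rw [key]
  exact dvd_sub (dvd_add (dvd_mul_left _ _) (Dvd.dvd.mul_left hαn _)) (Dvd.dvd.mul_left hm _)

end UnitCase

section Main

variable (p : ℕ) [Fact p.Prime] (K : Type) [Field K] [NumberField K]
  [IsCyclotomicExtension {p} ℚ K]

/-- **K6 / CORE**: assembly of THAINE, DENS, ULOG (a), UNITS and MOD. -/
theorem coreStatement (hT : ThaineStatement p K) (hD : DensStatement)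
    (hE : EtaNotPowStatement p K) (hU : UnitStatement p K) (hM : ModStatement p K) :
    CoreStatement p K := by
  intro hp5 ζ hζ α hα0 hlam heig h𝔞 hn
  obtain ⟨𝔞, h𝔞⟩ := h𝔞
  obtain ⟨n, hn⟩ := hn
  have hp : p.Prime := Fact.out
  have hp2 : p ≠ 2 := by omega
  have hp0 : p ≠ 0 := hp.ne_zero
  have h𝔞0 : 𝔞 ≠ ⊥ := by
    rintro rfl
    rw [← Ideal.zero_eq_bot, zero_pow hp0, Ideal.zero_eq_bot] at h𝔞
    exact hα0 (Ideal.span_singleton_eq_bot.mp h𝔞)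
  set I : (Ideal (𝓞 K))⁰ := ⟨𝔞, mem_nonZeroDivisors_of_ne_zero h𝔞0⟩ with hI
  have hIα : Ideal.span {α} = (I : Ideal (𝓞 K)) ^ p := h𝔞
  by_cases hI1 : ClassGroup.mk0 I = 1
  · -- the ideal is principal: unit case
    have hprinc : (𝔞).IsPrincipal := (ClassGroup.mk0_eq_one_iff I.2).mp hI1
    obtain ⟨γ, hγ⟩ := hprinc.principal
    have hγ' : 𝔞 = Ideal.span {γ} := hγ
    rw [hγ', Ideal.span_singleton_pow, Ideal.span_singleton_eq_span_singleton] at h𝔞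
    obtain ⟨η, hη⟩ := h𝔞.symm
    have hαγ : α = γ ^ p * η := hη.symm
    have heigU : IsEigenUnit p K ζ η := by
      intro σ c hσ
      obtain ⟨κ, hκ⟩ := heig σ c hσ
      exact unit_eigen p hα0 η hαγ σ (c ^ 2) κ hκ
    obtain ⟨ε, hε⟩ := hU hp5 ζ hζ η heigU (unit_int_cong p hζ η hαγ hlam n hn)
    refine ⟨algebraMap (𝓞 K) K (γ * ε), ?_⟩
    rw [← map_pow, mul_pow, hαγ, hε]
    rfl
  · -- the ideal class is a nontrivial `ω²`-eigenvector of order `p`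
    exfalso
    have hIp : ClassGroup.mk0 I ^ p = 1 := by
      rw [← map_pow]
      have hmem : Ideal.span {α} ∈ (Ideal (𝓞 K))⁰ :=
        mem_nonZeroDivisors_of_ne_zero (by
          rw [Ne, Ideal.zero_eq_bot, Ideal.span_singleton_eq_bot]; exact hα0)
      have h1 : I ^ p = ⟨Ideal.span {α}, hmem⟩ := by
        apply Subtype.ext
        rw [SubmonoidClass.coe_pow]
        exact hIα.symm
      rw [h1, ClassGroup.mk0_eq_one_iff]
      exact ⟨⟨α, rfl⟩⟩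
    have heigI : ∀ (σ : K ≃ₐ[ℚ] K) (c : ℕ), σ ζ = ζ ^ c →
        ClassGroup.mk0 (galIdeal σ I) = ClassGroup.mk0 I ^ (c ^ 2) := by
      intro σ c hσ
      obtain ⟨κ, hκ⟩ := heig σ c hσ
      exact class_eigen p hα0 I hIα σ (c ^ 2) κ hκ
    obtain ⟨ψ, hψp, hψ1, hψeig⟩ := hM hp2 ζ hζ I hI1 hIp heigI
    refine hD K p hp2 ζ hζ (etaRaw p K hζ.toInteger (etaExp p 2)) (etaRaw_ne_zero p hζ _)
      (hE hp5 ζ hζ) ψ hψp hψ1 ?_
    intro Q _ hQ0 hQpr hpQ hnp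
    exact hT hp2 ζ hζ 2 (etaExp p 2) (etaExp_two_spec p) ψ hψp hψeig Q hQ0 hQpr hpQ hnp

end Main

end Fermat.Agent.S14.Core72
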