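/-
S14, package P3 (second seat, helper22): the case `p = 3` of the number-field statement NOEXT.

`K = ℚ(ζ₃)`: `𝓞 K` is a PID with unit group `{±1, ±ζ, ±ζ²}`, so an `α` prime to `λ = ζ - 1`
with `(α) = 𝔞³` and `α ≡ n³ mod λ³` is a cube.  Together with `KummerStatement` this kills the
unramified cyclic cubic extension.  Complete (no placeholders).
-/
import Fermat.Agent.S14.CoreIface

set_option autoImplicit false

namespace Fermat.Agent.S14.P3Alt22

open NumberField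

section Core3

variable {K : Type} [Field K] [NumberField K] [IsCyclotomicExtension {3} ℚ K]

/-- **CORE for `p = 3`** (no eigen-hypothesis needed): in `ℤ[ζ₃]`, a non-zero `α` prime to
`λ = ζ - 1`, generating a cube of an ideal and congruent to a rational cube modulo `λ³`, is a cube. -/
theorem core3 (ζ : K) (hζ : IsPrimitiveRoot ζ 3) (α : 𝓞 K)
    (hlam : ¬ (hζ.toInteger - 1) ∣ α)
    (hid : ∃ 𝔞 : Ideal (𝓞 K), Ideal.span {α} = 𝔞 ^ 3)
    (hprim : ∃ n : ℤ, (hζ.toInteger - 1) ^ 3 ∣ α - (n : 𝓞 K) ^ 3) :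
    ∃ β : K, β ^ 3 = (α : K) := by
  have : IsPrincipalIdealRing (𝓞 K) := IsCyclotomicExtension.Rat.three_pid K
  obtain ⟨𝔞, h𝔞⟩ := hid
  obtain ⟨a, rfl⟩ : ∃ a : 𝓞 K, 𝔞 = Ideal.span {a} :=
    ⟨_, (Submodule.IsPrincipal.span_singleton_generator 𝔞).symm⟩
  rw [Ideal.span_singleton_pow, Ideal.span_singleton_eq_span_singleton] at h𝔞
  obtain ⟨u, hu⟩ := h𝔞
  obtain ⟨n, t, ht⟩ := hprim
  set lam : 𝓞 K := hζ.toInteger - 1 with hlamdef
  -- `λ ∤ a`
  have ha : ¬ lam ∣ a := by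
    intro h
    apply hlam
    have h3 : lam ∣ a ^ 3 := dvd_pow h (by norm_num)
    rw [← hu] at h3
    exact (Units.dvd_mul_right).mp h3
  -- `λ ∤ n`
  have hn : ¬ lam ∣ (n : 𝓞 K) := by
    intro h
    apply hlam
    obtain ⟨m, hm⟩ := h
    refine ⟨lam ^ 2 * t + lam ^ 2 * m ^ 3, ?_⟩
    have : α = (n : 𝓞 K) ^ 3 + lam ^ 3 * t := by rw [← ht]; ring
    rw [this, hm]; ring
  have ha4 := IsCyclotomicExtension.Rat.Three.lambda_pow_four_dvd_cube_sub_one_or_add_one_of_lambda_not_dvd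
    hζ ha
  have hn4 := IsCyclotomicExtension.Rat.Three.lambda_pow_four_dvd_cube_sub_one_or_add_one_of_lambda_not_dvd
    hζ hn
  -- `u ≡ ±1 mod λ²`
  have hcong : ∃ m : ℤ, lam ^ 2 ∣ ((u : 𝓞 K) - (m : 𝓞 K)) := by
    rcases ha4 with ⟨r, hr⟩ | ⟨r, hr⟩ <;> rcases hn4 with ⟨s, hs⟩ | ⟨s, hs⟩
    · refine ⟨1, lam ^ 2 * r - lam ^ 2 * s * u - lam * t * u, ?_⟩
      push_cast
      linear_combination hr - (u : 𝓞 K) * hs - (u : 𝓞 K) * ht + hu
    · refine ⟨-1, -(lam ^ 2 * r - lam ^ 2 * s * u - lam * t * u), ?_⟩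
      push_cast
      linear_combination -hr + (u : 𝓞 K) * hs + (u : 𝓞 K) * ht - hu
    · refine ⟨-1, lam ^ 2 * r - lam ^ 2 * s * u - lam * t * u, ?_⟩
      push_cast
      linear_combination hr - (u : 𝓞 K) * hs - (u : 𝓞 K) * ht + hu
    · refine ⟨1, -(lam ^ 2 * r - lam ^ 2 * s * u - lam * t * u), ?_⟩
      push_cast
      linear_combination -hr + (u : 𝓞 K) * hs + (u : 𝓞 K) * ht - hu
  rcases IsCyclotomicExtension.Rat.Three.eq_one_or_neg_one_of_unit_of_congruent hζ u hcong with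
    h1 | h1
  · refine ⟨(a : K), ?_⟩
    rw [h1, Units.val_one, mul_one] at hu
    rw [hu]; push_cast; ring
  · refine ⟨-(a : K), ?_⟩
    rw [h1, Units.val_neg, Units.val_one, mul_neg, mul_one] at hu
    have : α = -(a ^ 3) := by rw [← hu]; ring
    rw [this]; push_cast; ring

end Core3

/-- **NOEXT at `p = 3`**, from `KummerStatement` alone. -/
theorem noExt3_of_kummer (hK : KummerStatement)
    (K L : Type) [Field K] [NumberField K] [IsCyclotomicExtension {3} ℚ K]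
    [Field L] [NumberField L] [Algebra K L] [IsGalois K L] [IsGalois ℚ L]
    (hdeg : Module.finrank K L = 3)
    (hunr : ∀ (P : Ideal (𝓞 L)), P.IsPrime → P ≠ ⊥ → Ideal.inertia (L ≃ₐ[K] L) P = ⊥)
    (ζ : K) (hζ : IsPrimitiveRoot ζ 3)
    (hconj : ∀ (τ : L ≃ₐ[ℚ] L) (s : L ≃ₐ[K] L) (c : ℕ),
      τ (algebraMap K L ζ) = algebraMap K L ζ ^ c →
      τ⁻¹ * s.restrictScalars ℚ * τ = (s ^ c).restrictScalars ℚ) : False := by
  have : Fact (Nat.Prime 3) := ⟨Nat.prime_three⟩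
  obtain ⟨α, -, hlam, hnot, -, hid, hprim⟩ :=
    hK 3 (by norm_num) K L hdeg hunr ζ hζ hconj
  exact hnot (core3 ζ hζ α hlam hid hprim)

/-- **NOEXT for every odd prime** (`p = 3` included): the statement `NoExtStatement` of `CoreIface`
with `5 ≤ p` weakened to `p ≠ 2`. -/
def NoExtAllStatement : Prop :=
  ∀ (p : ℕ) [Fact p.Prime], p ≠ 2 →
  ∀ (K L : Type) [Field K] [NumberField K] [IsCyclotomicExtension {p} ℚ K]
    [Field L] [NumberField L] [Algebra K L] [IsGalois K L] [IsGalois ℚ L],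
  Module.finrank K L = p →
  (∀ (P : Ideal (𝓞 L)), P.IsPrime → P ≠ ⊥ → Ideal.inertia (L ≃ₐ[K] L) P = ⊥) →
  ∀ (ζ : K), IsPrimitiveRoot ζ p →
  (∀ (τ : L ≃ₐ[ℚ] L) (s : L ≃ₐ[K] L) (c : ℕ), τ (algebraMap K L ζ) = algebraMap K L ζ ^ c →
      τ⁻¹ * s.restrictScalars ℚ * τ = (s ^ c).restrictScalars ℚ) →
  False

theorem noExtAll_of_kummer_of_noExt (hK : KummerStatement) (hN : NoExtStatement) :
    NoExtAllStatement := by
  intro p hp hp2 K L _ _ _ _ _ _ _ _ hdeg hunr ζ hζ hconj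
  have hp3 : 3 ≤ p := by
    have := hp.out.two_le
    omega
  rcases hp3.eq_or_lt with h3 | h3
  · subst h3
    exact noExt3_of_kummer hK K L hdeg hunr ζ hζ hconj
  · have h5 : 5 ≤ p := by
      rcases Nat.lt_or_ge 4 p with h | h
      · exact h
      · exfalso
        have h4 : p = 4 := by omega
        subst h4
        exact (by decide : ¬ Nat.Prime 4) hp.out
    exact hN p h5 K L hdeg hunr ζ hζ hconj

theorem noExtAll_of_kummer_of_core (hK : KummerStatement)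
    (hC : ∀ (p : ℕ) [Fact p.Prime] (K : Type) [Field K] [NumberField K]
      [IsCyclotomicExtension {p} ℚ K], CoreStatement p K) : NoExtAllStatement :=
  noExtAll_of_kummer_of_noExt hK (noExt_of_kummer_of_core hK hC)

end Fermat.Agent.S14.P3Alt22
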