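/-
S14 / K2 THAINE, sub-lemmas TF-b / TF-c of helper33's #942 (helper63).
Setting: `K = ℚ(ζ_p)`, `F = K(ζ_q) = ℚ(ζ_{pq})`.
-/
import Mathlib
import Fermat.Agent.S14.ThaineField

set_option autoImplicit false

namespace Fermat.Agent.S14.ThaineAux63

open NumberField Polynomial

variable {p q : ℕ} [hp : Fact p.Prime] [hq : Fact q.Prime]
  (K : Type) [Field K] [NumberField K] [IsCyclotomicExtension {p} ℚ K]
  (F : Type) [Field F] [NumberField F] [Algebra K F] [IsCyclotomicExtension {q} K F]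

/-- The set of `x` with `σ x - x ∈ I` is closed under the ring operations. -/
theorem sub_mem_of_mem_adjoin {R : Type*} [CommRing R] (σ : R →+* R) (I : Ideal R) (g : R)
    (hg : σ g - g ∈ I) (x : R) (hx : x ∈ Algebra.adjoin ℤ {g}) : σ x - x ∈ I := by
  induction hx using Algebra.adjoin_induction with
  | mem y hy =>
    rw [Set.mem_singleton_iff] at hy
    rw [hy]; exact hg
  | algebraMap n => simp
  | add x y _ _ hx hy =>
    have : σ (x + y) - (x + y) = (σ x - x) + (σ y - y) := by rw [map_add]; ring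
    rw [this]; exact I.add_mem hx hy
  | mul x y _ _ hx hy =>
    have : σ (x * y) - x * y = σ x * (σ y - y) + (σ x - x) * y := by rw [map_mul]; ring
    rw [this]
    exact I.add_mem (I.mul_mem_left _ hy) (I.mul_mem_right _ hx)


omit [NumberField F] in
/-- The product of a primitive `p`-th root of unity (from `K`) and a primitive `q`-th root of
unity is a primitive `pq`-th root of unity. -/
theorem isPrimitiveRoot_mul (hpq : p ≠ q) {ζ' ζq : F} (hζ' : IsPrimitiveRoot ζ' p)
    (hζq : IsPrimitiveRoot ζq q) : IsPrimitiveRoot (ζ' * ζq) (p * q) := by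
  have hcop : Nat.Coprime p q := (Nat.coprime_primes hp.out hq.out).mpr hpq
  rw [IsPrimitiveRoot.iff_orderOf, (Commute.all ζ' ζq).orderOf_mul_eq_mul_orderOf_of_coprime,
    ← hζ'.eq_orderOf, ← hζq.eq_orderOf]
  rwa [← hζ'.eq_orderOf, ← hζq.eq_orderOf]

/-- **TF-c.**  Every `τ ∈ Gal(F/K)` acts trivially on `𝓞 F` modulo `(1 - ζ_q)`. -/
theorem galRestrict_sub_mem (hpq : p ≠ q) {ζ : K} (hζ : IsPrimitiveRoot ζ p) {ζq : F}
    (hζq : IsPrimitiveRoot ζq q) (τ : F ≃ₐ[K] F) (x : 𝓞 F) :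
    galRestrict (𝓞 K) K F (𝓞 F) τ x - x ∈ Ideal.span {1 - hζq.toInteger} := by
  have : NeZero p := ⟨hp.out.ne_zero⟩
  have : NeZero q := ⟨hq.out.ne_zero⟩
  have : NeZero (p * q) := ⟨Nat.mul_ne_zero hp.out.ne_zero hq.out.ne_zero⟩
  have hF : IsCyclotomicExtension {p * q} ℚ F := Thaine.isCyclo_pq K F hpq
  have hζ' : IsPrimitiveRoot (algebraMap K F ζ) p := hζ.map_of_injective (algebraMap K F).injective
  have hμ : IsPrimitiveRoot (algebraMap K F ζ * ζq) (p * q) := isPrimitiveRoot_mul F hpq hζ' hζq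
  have htop : Algebra.adjoin ℤ {hμ.toInteger} = ⊤ :=
    IsCyclotomicExtension.Rat.adjoin_singleton_eq_top hμ
  set σ : 𝓞 F →+* 𝓞 F := ((galRestrict (𝓞 K) K F (𝓞 F) τ : 𝓞 F ≃ₐ[𝓞 K] 𝓞 F) : 𝓞 F →+* 𝓞 F)
    with hσ
  have hσcoe : ∀ y : 𝓞 F, ((σ y : 𝓞 F) : F) = τ (y : F) := fun y =>
    algebraMap_galRestrict_apply (𝓞 K) τ y
  -- `τ ζq` is a power of `ζq`
  have hτq : (τ ζq) ^ q = 1 := by rw [← map_pow, hζq.pow_eq_one, map_one]
  obtain ⟨j, _, hj⟩ := hζq.eq_pow_of_pow_eq_one hτq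
  have hbase : σ hμ.toInteger - hμ.toInteger ∈ Ideal.span {1 - hζq.toInteger} := by
    have h1 : σ hμ.toInteger - hμ.toInteger =
        hζ'.toInteger * ((hζq.toInteger ^ j - 1) - (hζq.toInteger - 1)) := by
      apply RingOfIntegers.ext
      have e1 : algebraMap (𝓞 F) F hμ.toInteger = algebraMap K F ζ * ζq := hμ.coe_toInteger
      have e2 : algebraMap (𝓞 F) F hζ'.toInteger = algebraMap K F ζ := hζ'.coe_toInteger
      have e3 : algebraMap (𝓞 F) F hζq.toInteger = ζq := hζq.coe_toInteger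
      have e4 : algebraMap (𝓞 F) F (σ hμ.toInteger) = algebraMap K F ζ * ζq ^ j := by
        have := hσcoe hμ.toInteger
        rw [show ((σ hμ.toInteger : 𝓞 F) : F) = algebraMap (𝓞 F) F (σ hμ.toInteger) from rfl,
          show ((hμ.toInteger : 𝓞 F) : F) = algebraMap (𝓞 F) F hμ.toInteger from rfl, e1,
          map_mul, AlgEquiv.commutes, ← hj] at this
        exact this
      show algebraMap (𝓞 F) F _ = algebraMap (𝓞 F) F _
      simp only [map_sub, map_mul, map_pow, map_one]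
      rw [e4, e1, e2, e3]
      ring
    rw [h1]
    apply Ideal.mul_mem_left
    have h2 : (1 - hζq.toInteger) ∣ hζq.toInteger - 1 := ⟨-1, by ring⟩
    have h3 : hζq.toInteger - 1 ∣ hζq.toInteger ^ j - 1 := by
      simpa using sub_dvd_pow_sub_pow hζq.toInteger 1 j
    exact Ideal.sub_mem _ (Ideal.mem_span_singleton.mpr (h2.trans h3))
      (Ideal.mem_span_singleton.mpr h2)
  have hx : x ∈ Algebra.adjoin ℤ {hμ.toInteger} := by rw [htop]; exact Algebra.mem_top
  exact sub_mem_of_mem_adjoin σ _ _ hbase x hx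


/-- **TF-b.**  For `q ≡ 1 mod p` the cyclotomic unit `1 - ζ_p ζ_q` of `F = K(ζ_q)` has relative
norm `1` over `K = ℚ(ζ_p)`. -/
theorem norm_one_sub_mul (hpq : p ≠ q) (hq1 : q % p = 1) {ζ : K} (hζ : IsPrimitiveRoot ζ p)
    {ζq : F} (hζq : IsPrimitiveRoot ζq q) :
    Algebra.norm K (1 - algebraMap K F ζ * ζq) = 1 := by
  have hirr : Irreducible (cyclotomic q K) := Thaine.irreducible_cyclotomic K F hpq
  have : NeZero q := ⟨hq.out.ne_zero⟩
  apply (algebraMap K (AlgebraicClosure F)).injective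
  have := IsCyclotomicExtension.finiteDimensional {q} K F
  have := IsCyclotomicExtension.isGalois {q} K F
  rw [Algebra.norm_eq_prod_embeddings, map_one]
  set a : AlgebraicClosure F := algebraMap K (AlgebraicClosure F) ζ with ha
  have hap : IsPrimitiveRoot a p := hζ.map_of_injective (algebraMap K (AlgebraicClosure F)).injective
  have h1 : ∀ σ : F →ₐ[K] AlgebraicClosure F,
      σ (1 - algebraMap K F ζ * ζq) = 1 - a * σ ζq := by
    intro σ; rw [map_sub, map_one, map_mul, AlgHom.commutes]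
  simp_rw [h1]
  -- reindex by the primitive `q`-th roots of unity
  have Hprod : (∏ σ : F →ₐ[K] AlgebraicClosure F, (1 - a * σ ζq)) =
      ∏ μ ∈ primitiveRoots q (AlgebraicClosure F), (1 - a * μ) := by
    rw [← Finset.prod_attach (primitiveRoots q (AlgebraicClosure F)), ← Finset.univ_eq_attach]
    refine Fintype.prod_equiv (hζq.embeddingsEquivPrimitiveRoots (AlgebraicClosure F) hirr) _ _
      fun σ => ?_
    simp
  rw [Hprod]
  -- the primitive root in the algebraic closure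
  have hzq : IsPrimitiveRoot (algebraMap F (AlgebraicClosure F) ζq) q :=
    hζq.map_of_injective (algebraMap F (AlgebraicClosure F)).injective
  have ha0 : a ≠ 0 := hap.ne_zero hp.out.ne_zero
  have ha1 : a ≠ 1 := hap.ne_one hp.out.one_lt
  obtain ⟨m, hm⟩ : ∃ m, q = p * m + 1 := ⟨q / p, by have := Nat.div_add_mod q p; omega⟩
  have haq1 : a ^ (q - 1) = 1 := by
    rw [hm, Nat.add_sub_cancel, pow_mul, hap.pow_eq_one, one_pow]
  have haq : a ^ q = a := by
    rw [hm, pow_succ, pow_mul, hap.pow_eq_one, one_pow, one_mul]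
  have h2 : ∀ μ : AlgebraicClosure F, 1 - a * μ = a * (a⁻¹ - μ) := by
    intro μ; rw [mul_sub, mul_inv_cancel₀ ha0]
  simp_rw [h2]
  rw [Finset.prod_mul_distrib, Finset.prod_const, hzq.card_primitiveRoots,
    Nat.totient_prime hq.out, haq1, one_mul]
  -- `∏ (a⁻¹ - μ) = Φ_q(a⁻¹) = 1`
  have h3 : (∏ μ ∈ primitiveRoots q (AlgebraicClosure F), (a⁻¹ - μ)) =
      (cyclotomic q (AlgebraicClosure F)).eval a⁻¹ := by
    rw [cyclotomic_eq_prod_X_sub_primitiveRoots hzq, eval_prod]
    simp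
  rw [h3]
  have h4 := congrArg (eval a⁻¹) (cyclotomic_prime_mul_X_sub_one (AlgebraicClosure F) q)
  rw [eval_mul, eval_sub, eval_sub, eval_pow, eval_X, eval_one, inv_pow, haq] at h4
  have h5 : a⁻¹ - 1 ≠ 0 := by
    intro h
    apply ha1
    have : a⁻¹ = 1 := sub_eq_zero.mp h
    rw [← inv_inv a, this, inv_one]
  exact mul_right_cancel₀ h5 (h4.trans (one_mul _).symm)

end Fermat.Agent.S14.ThaineAux63
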