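import Mathlib

/-!
# S14 / K2-THAINE, abstract lemmas (helper19)

* `tame_congr` : the tame-character congruence at a totally ramified prime.
* `emultiplicity_map_eq` : `v_𝔓(I·B) = e(𝔓|r) · v_r(I)`.
* `ramificationIdx_mul_eq` : if `(g)B = (γ)^n` then `e(𝔓|r) · v_r(g) = n · v_𝔓(γ)`.
* `span_prod_eq_pow` : a product of unit multiples of `γ` generates `(γ)^card`.
* `cls`, `cls_eq_prod_factors`, `prod_pow_count_eq_one` : the class-group relation coming from a
  principal ideal.
-/

set_option autoImplicit false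

namespace Fermat.Agent.S14.ThaineB19

open Ideal

section Tame

variable {B : Type*} [CommRing B] [IsDedekindDomain B]

omit [IsDedekindDomain B] in
/-- A ring endomorphism mapping `P` into `P` maps `P ^ n` into `P ^ n`. -/
theorem map_mem_pow {P : Ideal B} (τ : B →+* B) (hτ : ∀ x ∈ P, τ x ∈ P) (n : ℕ) {x : B}
    (hx : x ∈ P ^ n) : τ x ∈ P ^ n := by
  have h1 : Ideal.map τ P ≤ P := Ideal.map_le_iff_le_comap.mpr fun y hy => hτ y hy
  have h2 : Ideal.map τ (P ^ n) ≤ P ^ n := by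
    rw [Ideal.map_pow]
    exact Ideal.pow_right_mono h1 n
  exact h2 (Ideal.mem_map_of_mem τ hx)

/-- `x ∈ P ^ n` in terms of `emultiplicity`. -/
theorem mem_pow_iff_le_emultiplicity {P : Ideal B} {x : B} {n : ℕ} :
    x ∈ P ^ n ↔ (n : ℕ∞) ≤ emultiplicity P (Ideal.span {x}) := by
  rw [← pow_dvd_iff_le_emultiplicity, Ideal.dvd_span_singleton]

/-- If `π ∈ P \ P²` then `π ^ m ∈ P ^ m \ P ^ (m+1)`. -/
theorem pow_notMem_pow_succ {P : Ideal B} [P.IsPrime] (hP : P ≠ ⊥) {π : B} (hπ : π ∈ P)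
    (hπ2 : π ∉ P ^ 2) (m : ℕ) : π ^ m ∉ P ^ (m + 1) := by
  have hprime : Prime P := Ideal.prime_of_isPrime hP inferInstance
  have h1 : emultiplicity P (Ideal.span {π}) = 1 := by
    have : emultiplicity P (Ideal.span {π}) = ((1 : ℕ) : ℕ∞) := by
      rw [emultiplicity_eq_coe]
      refine ⟨?_, ?_⟩
      · rw [pow_one, Ideal.dvd_span_singleton]; exact hπ
      · rw [Ideal.dvd_span_singleton]; exact hπ2
    simpa using this
  rw [mem_pow_iff_le_emultiplicity, ← Ideal.span_singleton_pow, emultiplicity_pow hprime, h1,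
    mul_one, not_le]
  exact_mod_cast Nat.lt_succ_self m

/-- **Tame-character congruence.** `P` a nonzero prime of a Dedekind domain `B`, `τ` a ring
endomorphism acting trivially on `B ⧸ P`, `π` a uniformiser at `P` with `τ π = t * π`,
`γ` of exact `P`-order `m` with `τ γ = ε * γ`.  Then `ε ≡ t ^ m mod P`. -/
theorem tame_congr {P : Ideal B} [P.IsPrime] (hP : P ≠ ⊥) (τ : B →+* B)
    (hτ : ∀ x : B, τ x - x ∈ P) {π t : B} (hπ : π ∈ P) (hπ2 : π ∉ P ^ 2) (hτπ : τ π = t * π)
    {γ ε : B} {m : ℕ} (hγ : γ ∈ P ^ m) (hγ' : γ ∉ P ^ (m + 1)) (hτγ : τ γ = ε * γ) :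
    ε - t ^ m ∈ P := by
  have hτP : ∀ x ∈ P, τ x ∈ P := fun x hx => by
    have := P.add_mem (hτ x) hx
    simpa using this
  have hπm : π ^ m ∈ P ^ m := Ideal.pow_mem_pow hπ m
  have hπm' : π ^ m ∉ P ^ (m + 1) := pow_notMem_pow_succ hP hπ hπ2 m
  obtain ⟨d, e, he, hde⟩ := Ideal.exists_mul_add_mem_pow_succ hP (π ^ m) γ hπm hπm' hγ
  have hτe : τ e ∈ P ^ (m + 1) := map_mem_pow τ hτP (m + 1) he
  have hd : d ∉ P := by
    intro hd
    apply hγ'
    rw [← hde]
    refine (P ^ (m + 1)).add_mem ?_ he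
    rw [pow_succ]
    exact Ideal.mul_mem_mul hπm hd
  -- compare the two expressions of `τ γ`
  have key : π ^ m * (t ^ m * τ d - ε * d) = ε * e - τ e := by
    have h1 : τ γ = t ^ m * π ^ m * τ d + τ e := by
      rw [← hde, map_add, map_mul, map_pow, hτπ, mul_pow]
    have h2 : ε * γ = ε * (π ^ m * d) + ε * e := by rw [← hde, mul_add]
    have h3 : t ^ m * π ^ m * τ d + τ e = ε * (π ^ m * d) + ε * e := by
      rw [← h1, ← h2, hτγ]
    linear_combination h3
  have hmem : π ^ m * (t ^ m * τ d - ε * d) ∈ P ^ (m + 1) := by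
    rw [key]
    exact (P ^ (m + 1)).sub_mem (Ideal.mul_mem_left _ _ he) hτe
  have h4 : t ^ m * τ d - ε * d ∈ P := Ideal.mem_prime_of_mul_mem_pow hP hπm' hmem
  have h5 : (t ^ m - ε) * d ∈ P := by
    have : (t ^ m - ε) * d = (t ^ m * τ d - ε * d) - t ^ m * (τ d - d) := by ring
    rw [this]
    exact P.sub_mem h4 (Ideal.mul_mem_left _ _ (hτ d))
  have h6 : t ^ m - ε ∈ P := (Ideal.IsPrime.mem_or_mem inferInstance h5).resolve_right hd
  have : ε - t ^ m = -(t ^ m - ε) := by ring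
  rw [this]
  exact P.neg_mem h6

end Tame

section BaseChange

variable {A B : Type*} [CommRing A] [CommRing B] [IsDedekindDomain A] [IsDedekindDomain B]
  [Algebra A B]

open UniqueFactorizationMonoid in
/-- Base change of prime multiplicities: `v_𝔓(I·B) = e(𝔓|r) · v_r(I)`. -/
theorem emultiplicity_map_eq (r : Ideal A) [r.IsMaximal] (𝔓 : Ideal B) [𝔓.IsPrime]
    [𝔓.LiesOver r] (hr : r.map (algebraMap A B) ≠ ⊥) {I : Ideal A} (hI : I ≠ ⊥) :
    emultiplicity 𝔓 (I.map (algebraMap A B)) = 𝔓.ramificationIdx A * emultiplicity r I := by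
  have h𝔓0 : 𝔓 ≠ ⊥ := ne_bot_of_le_ne_bot hr (map_le_of_le_comap (𝔓.over_def r).le)
  have hr0 : r ≠ ⊥ := fun h => hr (by rw [h, Ideal.map_bot])
  have hprime : Prime 𝔓 := Ideal.prime_of_isPrime h𝔓0 inferInstance
  have hrprime : Prime r := Ideal.prime_of_isPrime hr0 inferInstance
  obtain ⟨J, hJ, hIeq⟩ := Ideal.eq_prime_pow_mul_coprime hI r
  set k := Multiset.count r (normalizedFactors I) with hk
  have hJr : ¬ r ∣ J := by
    rw [Ideal.dvd_iff_le]
    intro hle
    have : r = ⊤ := by rw [← hJ]; exact (sup_eq_left.mpr hle).symm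
    exact (Ideal.IsPrime.ne_top inferInstance) this
  have hJ𝔓 : ¬ 𝔓 ∣ J.map (algebraMap A B) := by
    rw [Ideal.dvd_iff_le, Ideal.map_le_iff_le_comap, ← Ideal.under_def, ← 𝔓.over_def r,
      ← Ideal.dvd_iff_le]
    exact hJr
  have he : emultiplicity 𝔓 (r.map (algebraMap A B)) = 𝔓.ramificationIdx A := by
    rw [Ideal.IsDedekindDomain.ramificationIdx_eq_multiplicity r 𝔓 hr]
    refine FiniteMultiplicity.emultiplicity_eq_multiplicity ?_
    exact FiniteMultiplicity.of_not_isUnit hprime.not_isUnit hr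
  have h1 : emultiplicity r I = k := by
    rw [hIeq, emultiplicity_mul hrprime, emultiplicity_pow_self_of_prime hrprime,
      emultiplicity_eq_zero.mpr hJr, add_zero]
  rw [h1]
  conv_lhs => rw [hIeq, Ideal.map_mul, Ideal.map_pow]
  rw [emultiplicity_mul hprime, emultiplicity_pow hprime, he, emultiplicity_eq_zero.mpr hJ𝔓,
    add_zero, mul_comm]

end BaseChange

section NormVal

variable {A B : Type*} [CommRing A] [CommRing B] [IsDedekindDomain A] [IsDedekindDomain B]
  [Algebra A B]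

/-- If every `f i` is a unit multiple of `γ`, the product of the `f i` generates `(γ) ^ card`. -/
theorem span_prod_eq_pow {ι : Type*} (s : Finset ι) (f : ι → B) (γ : B)
    (hf : ∀ i ∈ s, ∃ u : Bˣ, f i = u * γ) :
    Ideal.span {∏ i ∈ s, f i} = Ideal.span {γ} ^ s.card := by
  classical
  induction s using Finset.induction_on with
  | empty => simp
  | insert a s ha ih =>
    obtain ⟨u, hu⟩ := hf a (Finset.mem_insert_self a s)
    rw [Finset.prod_insert ha, Finset.card_insert_of_notMem ha, pow_succ', hu,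
      ← Ideal.span_singleton_mul_span_singleton,
      ih fun i hi => hf i (Finset.mem_insert_of_mem hi)]
    congr 1
    rw [Ideal.span_singleton_eq_span_singleton]
    exact ⟨u⁻¹, by rw [mul_comm, ← mul_assoc, Units.inv_mul, one_mul]⟩

/-- **Norm valuation (ideal form).** If `(g)B = (γ)^n` then
`e(𝔓|r) · v_r(g) = n · v_𝔓(γ)`. -/
theorem ramificationIdx_mul_emultiplicity (r : Ideal A) [r.IsMaximal] (𝔓 : Ideal B) [𝔓.IsPrime]
    [𝔓.LiesOver r] (hr : r.map (algebraMap A B) ≠ ⊥) {g : A} (hg0 : g ≠ 0) {γ : B} {n : ℕ}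
    (hgγ : Ideal.span {algebraMap A B g} = Ideal.span {γ} ^ n) :
    (𝔓.ramificationIdx A : ℕ∞) * emultiplicity r (Ideal.span {g}) =
      n * emultiplicity 𝔓 (Ideal.span {γ}) := by
  have h𝔓0 : 𝔓 ≠ ⊥ := ne_bot_of_le_ne_bot hr (map_le_of_le_comap (𝔓.over_def r).le)
  have hprime : Prime 𝔓 := Ideal.prime_of_isPrime h𝔓0 inferInstance
  have hI : Ideal.span {g} ≠ (⊥ : Ideal A) := by
    rwa [Ne, Ideal.span_singleton_eq_bot]
  rw [← emultiplicity_map_eq r 𝔓 hr hI, Ideal.map_span, Set.image_singleton, hgγ,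
    emultiplicity_pow hprime]

/-- `emultiplicity` from exact membership. -/
theorem emultiplicity_span_eq {P : Ideal A} {x : A} {m : ℕ} (h1 : x ∈ P ^ m)
    (h2 : x ∉ P ^ (m + 1)) : emultiplicity P (Ideal.span {x}) = m := by
  rw [emultiplicity_eq_coe, Ideal.dvd_span_singleton, Ideal.dvd_span_singleton]
  exact ⟨h1, h2⟩

/-- **Norm valuation (membership form).** -/
theorem ramificationIdx_mul_eq (r : Ideal A) [r.IsMaximal] (𝔓 : Ideal B) [𝔓.IsPrime]
    [𝔓.LiesOver r] (hr : r.map (algebraMap A B) ≠ ⊥) {g : A} (hg0 : g ≠ 0) {γ : B} {n : ℕ}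
    (hgγ : Ideal.span {algebraMap A B g} = Ideal.span {γ} ^ n) {k m : ℕ}
    (hk1 : g ∈ r ^ k) (hk2 : g ∉ r ^ (k + 1)) (hm1 : γ ∈ 𝔓 ^ m) (hm2 : γ ∉ 𝔓 ^ (m + 1)) :
    𝔓.ramificationIdx A * k = n * m := by
  have h := ramificationIdx_mul_emultiplicity r 𝔓 hr hg0 hgγ
  rw [emultiplicity_span_eq hk1 hk2, emultiplicity_span_eq hm1 hm2] at h
  exact_mod_cast h

/-- Every nonzero element has an exact order at a nonzero prime. -/
theorem exists_exact_order {P : Ideal A} [P.IsPrime] (hP : P ≠ ⊥) {x : A} (hx : x ≠ 0) :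
    ∃ m : ℕ, x ∈ P ^ m ∧ x ∉ P ^ (m + 1) := by
  have hprime : Prime P := Ideal.prime_of_isPrime hP inferInstance
  have hI : Ideal.span {x} ≠ (⊥ : Ideal A) := by
    rwa [Ne, Ideal.span_singleton_eq_bot]
  have hfin : FiniteMultiplicity P (Ideal.span {x}) :=
    FiniteMultiplicity.of_not_isUnit hprime.not_isUnit hI
  refine ⟨multiplicity P (Ideal.span {x}), ?_, ?_⟩
  · rw [← Ideal.dvd_span_singleton]
    exact pow_multiplicity_dvd P (Ideal.span {x})
  · rw [← Ideal.dvd_span_singleton]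
    exact hfin.not_pow_dvd_of_multiplicity_lt (Nat.lt_succ_self _)

end NormVal

section ClassGroupProd

open UniqueFactorizationMonoid nonZeroDivisors

variable {A : Type*} [CommRing A] [IsDedekindDomain A]

open Classical in
/-- The class of an ideal (`1` for the zero ideal). -/
noncomputable def cls (I : Ideal A) : ClassGroup A :=
  if h : I ≠ ⊥ then ClassGroup.mk0 ⟨I, mem_nonZeroDivisors_of_ne_zero h⟩ else 1

theorem cls_of_ne_bot {I : Ideal A} (h : I ≠ ⊥) :
    cls I = ClassGroup.mk0 ⟨I, mem_nonZeroDivisors_of_ne_zero h⟩ := dif_pos h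

theorem cls_mk0 (I : (Ideal A)⁰) : cls (I : Ideal A) = ClassGroup.mk0 I :=
  cls_of_ne_bot (nonZeroDivisors.coe_ne_zero I)

theorem cls_one : cls (1 : Ideal A) = 1 := by
  rw [cls_of_ne_bot (by simp)]
  exact map_one ClassGroup.mk0

theorem cls_mul {I J : Ideal A} (hI : I ≠ ⊥) (hJ : J ≠ ⊥) : cls (I * J) = cls I * cls J := by
  have hIJ : I * J ≠ ⊥ := mul_ne_zero hI hJ
  rw [cls_of_ne_bot hI, cls_of_ne_bot hJ, cls_of_ne_bot hIJ, ← map_mul]
  rfl

theorem cls_multiset_prod (s : Multiset (Ideal A)) (hs : ∀ v ∈ s, v ≠ ⊥) :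
    cls s.prod = (s.map cls).prod := by
  induction s using Multiset.induction_on with
  | empty => simpa using cls_one
  | cons a s ih =>
    have ha : a ≠ ⊥ := hs a (Multiset.mem_cons_self a s)
    have hs' : ∀ v ∈ s, v ≠ ⊥ := fun v hv => hs v (Multiset.mem_cons_of_mem hv)
    have hprod : s.prod ≠ ⊥ := Multiset.prod_ne_zero fun h => hs' 0 h rfl
    rw [Multiset.prod_cons, Multiset.map_cons, Multiset.prod_cons, cls_mul ha hprod, ih hs']

theorem cls_span_singleton {g : A} (hg : g ≠ 0) : cls (Ideal.span {g}) = 1 := by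
  have h : Ideal.span {g} ≠ (⊥ : Ideal A) := by rwa [Ne, Ideal.span_singleton_eq_bot]
  rw [cls_of_ne_bot h, ClassGroup.mk0_eq_one_iff]
  exact ⟨g, rfl⟩

/-- The class of a nonzero ideal is the product of the classes of its prime factors. -/
theorem cls_eq_prod_factors {I : Ideal A} (hI : I ≠ ⊥) :
    cls I = ∏ v ∈ (normalizedFactors I).toFinset, cls v ^ (normalizedFactors I).count v := by
  classical
  conv_lhs => rw [← Ideal.prod_normalizedFactors_eq_self hI]
  rw [cls_multiset_prod _ fun v hv => (prime_of_normalized_factor v hv).ne_zero,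
    Finset.prod_multiset_map_count]

/-- **Class-group relation from a principal ideal.** Let `g ≠ 0`, `ψ` a character of the class
group, `S` a finite set of ideals such that `ψ(cls v) ^ v(g) = 1` for every prime factor `v ∉ S`
of `(g)`.  Then `∏_{v ∈ S} ψ(cls v) ^ v(g) = 1`. -/
theorem prod_pow_count_eq_one {M : Type*} [CommMonoid M] (ψ : ClassGroup A →* M) {g : A}
    (hg : g ≠ 0) (S : Finset (Ideal A))
    (h : ∀ v ∈ normalizedFactors (Ideal.span {g}), v ∉ S →
      ψ (cls v) ^ (normalizedFactors (Ideal.span {g})).count v = 1) :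
    ∏ v ∈ S, ψ (cls v) ^ (normalizedFactors (Ideal.span {g})).count v = 1 := by
  classical
  have hI : Ideal.span {g} ≠ (⊥ : Ideal A) := by rwa [Ne, Ideal.span_singleton_eq_bot]
  set F := normalizedFactors (Ideal.span {g}) with hF
  have h1 : ∏ v ∈ F.toFinset, ψ (cls v) ^ F.count v = 1 := by
    have := congrArg ψ (cls_eq_prod_factors hI)
    rw [cls_span_singleton hg, map_one, map_prod] at this
    rw [this]
    exact Finset.prod_congr rfl fun v _ => (map_pow ψ _ _).symm
  have h2 : ∏ v ∈ S, ψ (cls v) ^ F.count v = ∏ v ∈ S ∩ F.toFinset, ψ (cls v) ^ F.count v := by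
    symm
    refine Finset.prod_subset Finset.inter_subset_left fun v hvS hv => ?_
    have : v ∉ F := by
      intro hvF
      exact hv (Finset.mem_inter.mpr ⟨hvS, Multiset.mem_toFinset.mpr hvF⟩)
    rw [Multiset.count_eq_zero_of_notMem this, pow_zero]
  have h3 : ∏ v ∈ F.toFinset, ψ (cls v) ^ F.count v =
      ∏ v ∈ S ∩ F.toFinset, ψ (cls v) ^ F.count v := by
    symm
    refine Finset.prod_subset Finset.inter_subset_right fun v hvF hv => ?_
    have hvS : v ∉ S := fun hvS => hv (Finset.mem_inter.mpr ⟨hvS, hvF⟩)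
    exact h v (Multiset.mem_toFinset.mp hvF) hvS
  rw [h2, ← h3, h1]

/-- The count of a prime in the factorisation, from exact membership. -/
theorem count_factors_span_eq {P : Ideal A} [P.IsPrime] {x : A} {m : ℕ} (h1 : x ∈ P ^ m)
    (h2 : x ∉ P ^ (m + 1)) : (normalizedFactors (Ideal.span {x})).count P = m := by
  refine Ideal.count_normalizedFactors_eq ?_ ?_
  · rwa [Ideal.span_singleton_le_iff_mem]
  · rwa [Ideal.span_singleton_le_iff_mem]

end ClassGroupProd

end Fermat.Agent.S14.ThaineB19
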