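/-
S14 / K2 THAINE, package TFIN (helper32): the elementary `DegOneStatement`
of `ThaineIface.lean` (plus two small lemmas used by TFIN).
-/
import Mathlib
import Fermat.Agent.S14.ThaineIface


set_option autoImplicit false
set_option linter.style.haveILetI false

namespace Fermat.Agent.S14.ThaineDegOne32

open NumberField nonZeroDivisors Polynomial UniqueFactorizationMonoid
open Fermat.Agent.S14 Fermat.Agent.S14.Thaine

section General

variable {K : Type} [Field K] [NumberField K]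

/-- The quotient by a prime of prime norm: every element is congruent to a natural number. -/
theorem exists_nat_sub_mem (Q : Ideal (𝓞 K)) (hq : (Ideal.absNorm Q).Prime) (x : 𝓞 K) :
    ∃ n : ℕ, x - (n : 𝓞 K) ∈ Q := by
  classical
  have hcard : Nat.card (𝓞 K ⧸ Q) = Ideal.absNorm Q := by
    rw [Ideal.absNorm_apply, Submodule.cardQuot_apply]
  haveI : Finite (𝓞 K ⧸ Q) := Nat.finite_of_card_ne_zero (by rw [hcard]; exact hq.ne_zero)
  haveI : Fintype (𝓞 K ⧸ Q) := Fintype.ofFinite _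
  have hcard' : Fintype.card (𝓞 K ⧸ Q) = Ideal.absNorm Q := by
    rw [← Nat.card_eq_fintype_card, hcard]
  let e := ZMod.ringEquivOfPrime (𝓞 K ⧸ Q) hq hcard'
  haveI : NeZero (Ideal.absNorm Q) := ⟨hq.ne_zero⟩
  refine ⟨(e.symm (Ideal.Quotient.mk Q x)).val, ?_⟩
  rw [← Ideal.Quotient.eq, map_natCast]
  have : e ((e.symm (Ideal.Quotient.mk Q x)).val : ZMod (Ideal.absNorm Q)) =
      (((e.symm (Ideal.Quotient.mk Q x)).val : ℕ) : 𝓞 K ⧸ Q) := map_natCast e _
  rw [← this, ZMod.natCast_zmod_val, RingEquiv.apply_symm_apply]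

end General

section Cyclo

variable (p : ℕ) [Fact p.Prime] (K : Type) [Field K] [NumberField K]
  [IsCyclotomicExtension {p} ℚ K]

/-- A primitive `p`-th root of unity in `𝓞 K` minus one is not in a prime `Q ∌ p`. -/
theorem sub_one_notMem {ξ : K} (hξ : IsPrimitiveRoot ξ p) (Q : Ideal (𝓞 K))
    (hpQ : (p : 𝓞 K) ∉ Q) : hξ.toInteger - 1 ∉ Q := fun h =>
  hpQ (Ideal.mem_of_dvd Q hξ.toInteger_sub_one_dvd_prime' h)

theorem degOne : DegOneStatement p K := by
  intro Q _ hQ0 hq hpQ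
  have hp : p.Prime := Fact.out
  refine ⟨fun h => hpQ (h ▸ Ideal.absNorm_mem Q), ?_⟩
  classical
  haveI : Q.IsMaximal := Ring.DimensionLEOne.maximalOfPrime hQ0 inferInstance
  letI : Field (𝓞 K ⧸ Q) := Ideal.Quotient.field Q
  have hcard : Nat.card (𝓞 K ⧸ Q) = Ideal.absNorm Q := by
    rw [Ideal.absNorm_apply, Submodule.cardQuot_apply]
  haveI : Finite (𝓞 K ⧸ Q) := Nat.finite_of_card_ne_zero (by rw [hcard]; exact hq.ne_zero)
  haveI : Fintype (𝓞 K ⧸ Q) := Fintype.ofFinite _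
  have hcard' : Fintype.card (𝓞 K ⧸ Q) = Ideal.absNorm Q := by
    rw [← Nat.card_eq_fintype_card, hcard]
  obtain ⟨ζ, hζ⟩ := IsCyclotomicExtension.exists_isPrimitiveRoot ℚ (B := K) (Set.mem_singleton p)
    (NeZero.ne p)
  set z : 𝓞 K ⧸ Q := Ideal.Quotient.mk Q hζ.toInteger with hz
  have hzp : z ^ p = 1 := by
    rw [hz, ← map_pow]
    have : hζ.toInteger ^ p = 1 := by
      ext
      simpa using hζ.pow_eq_one
    rw [this, map_one]
  have hz1 : z ≠ 1 := by
    intro h
    rw [hz, ← map_one (Ideal.Quotient.mk Q), Ideal.Quotient.eq] at h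
    exact sub_one_notMem p K hζ Q hpQ h
  have hz0 : z ≠ 0 := by
    intro h
    rw [h, zero_pow hp.ne_zero] at hzp
    exact zero_ne_one hzp
  have hord : orderOf z = p := orderOf_eq_prime hzp hz1
  have hfl : z ^ (Ideal.absNorm Q - 1) = 1 := by
    rw [← hcard']
    exact FiniteField.pow_card_sub_one_eq_one z hz0
  have hdvd : p ∣ Ideal.absNorm Q - 1 := by
    rw [← hord]
    exact orderOf_dvd_of_pow_eq_one hfl
  obtain ⟨t, ht⟩ := hdvd
  have hq2 : 2 ≤ Ideal.absNorm Q := hq.two_le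
  have : Ideal.absNorm Q = p * t + 1 := by omega
  rw [this, Nat.mul_add_mod]
  exact Nat.mod_eq_of_lt hp.one_lt

end Cyclo

end Fermat.Agent.S14.ThaineDegOne32
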