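/-
S14 / K2 THAINE, package TFIN (helper32, second seat): the `K`-internal endgame
`ThaineFinStatement` of `ThaineIface.lean`.
-/
import Mathlib
import Fermat.Agent.S14.ThaineIface
import Fermat.Agent.S14.ThaineDegOne32
import Fermat.Agent.S14.ThaineB19

set_option autoImplicit false
set_option linter.style.haveILetI false
set_option linter.unusedSectionVars false

namespace Fermat.Agent.S14.ThaineFin32

open NumberField nonZeroDivisors Polynomial UniqueFactorizationMonoid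
open Fermat.Agent.S14 Fermat.Agent.S14.Thaine Fermat.Agent.S14.ThaineDegOne32

section General

variable {K : Type} [Field K] [NumberField K]

theorem galRing_symm_apply (σ : K ≃ₐ[ℚ] K) (x : 𝓞 K) :
    (galRing K σ).symm x = galRing K σ⁻¹ x := by
  apply RingOfIntegers.ext
  rw [galRing_apply]
  have h := galRing_apply σ ((galRing K σ).symm x)
  rw [RingEquiv.apply_symm_apply] at h
  rw [h]
  exact (AlgEquiv.symm_apply_apply σ _).symm

theorem mem_map_galRing_iff (σ : K ≃ₐ[ℚ] K) (Q : Ideal (𝓞 K)) (x : 𝓞 K) :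
    x ∈ Ideal.map (galRing K σ : 𝓞 K →+* 𝓞 K) Q ↔ galRing K σ⁻¹ x ∈ Q := by
  rw [← galRing_symm_apply, Ideal.map_comap_of_equiv]
  rfl

theorem natCast_mem_map_galRing_iff (σ : K ≃ₐ[ℚ] K) (Q : Ideal (𝓞 K)) (n : ℕ) :
    (n : 𝓞 K) ∈ Ideal.map (galRing K σ : 𝓞 K →+* 𝓞 K) Q ↔ (n : 𝓞 K) ∈ Q := by
  rw [mem_map_galRing_iff, map_natCast]

theorem liesOver_of_mem (Q' : Ideal (𝓞 K)) [Q'.IsPrime] {q : ℕ} (hq : q.Prime)
    (h : (q : 𝓞 K) ∈ Q') : Q'.LiesOver (Ideal.span {(q : ℤ)}) := by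
  constructor
  have hmax : (Ideal.span {(q : ℤ)}).IsMaximal :=
    Ideal.IsPrime.isMaximal
      ((Ideal.span_singleton_prime (by exact_mod_cast hq.ne_zero)).mpr
        (Nat.prime_iff_prime_int.mp hq)) (by simpa using hq.ne_zero)
  refine hmax.eq_of_le ?_ ?_
  · intro htop
    have h1 : (1 : ℤ) ∈ Ideal.under ℤ Q' := by rw [htop]; trivial
    rw [Ideal.under_def, Ideal.mem_comap, map_one] at h1
    exact (inferInstance : Q'.IsPrime).ne_top ((Ideal.eq_top_iff_one _).mpr h1)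
  · rw [Ideal.span_singleton_le_iff_mem, Ideal.under_def, Ideal.mem_comap]
    simpa using h

theorem exists_map_galRing_eq [IsGalois ℚ K] (Q Q' : Ideal (𝓞 K)) [Q.IsPrime] [Q'.IsPrime]
    {q : ℕ} (hq : q.Prime) (hQ : (q : 𝓞 K) ∈ Q) (hQ' : (q : 𝓞 K) ∈ Q') :
    ∃ σ : K ≃ₐ[ℚ] K, Q' = Ideal.map (galRing K σ : 𝓞 K →+* 𝓞 K) Q := by
  haveI := liesOver_of_mem Q hq hQ
  haveI := liesOver_of_mem Q' hq hQ'
  obtain ⟨σ, hσ⟩ := Ideal.exists_smul_eq_of_isGaloisGroup (Ideal.span {(q : ℤ)}) Q Q' (K ≃ₐ[ℚ] K)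
  refine ⟨σ, ?_⟩
  rw [← hσ, Ideal.pointwise_smul_def]
  congr 1
  ext x
  rw [RingEquiv.coe_toRingHom, galRing_apply]
  rfl

end General

section Cyclo

variable (p : ℕ) [Fact p.Prime] (K : Type) [Field K] [NumberField K]
  [IsCyclotomicExtension {p} ℚ K] {ζ : K} (hζ : IsPrimitiveRoot ζ p)

/-- the exponent `c` with `σ ζ = ζ ^ c`, `1 ≤ c < p`. -/
noncomputable def cexp (σ : K ≃ₐ[ℚ] K) : ℕ := ((hζ.autToPow ℚ σ : (ZMod p)ˣ) : ZMod p).val

theorem cexp_spec (σ : K ≃ₐ[ℚ] K) : σ ζ = ζ ^ cexp p K hζ σ := (hζ.autToPow_spec ℚ σ).symm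

theorem cexp_lt (σ : K ≃ₐ[ℚ] K) : cexp p K hζ σ < p := ZMod.val_lt _

theorem cexp_pos (σ : K ≃ₐ[ℚ] K) : 0 < cexp p K hζ σ := by
  rw [cexp, Nat.pos_iff_ne_zero, Ne, ZMod.val_eq_zero]
  exact Units.ne_zero _

theorem cexp_mem (σ : K ≃ₐ[ℚ] K) : cexp p K hζ σ ∈ Finset.Ico 1 p :=
  Finset.mem_Ico.mpr ⟨cexp_pos p K hζ σ, cexp_lt p K hζ σ⟩

theorem cexp_mul (σ τ : K ≃ₐ[ℚ] K) :
    cexp p K hζ (σ * τ) % p = (cexp p K hζ σ * cexp p K hζ τ) % p := by
  unfold cexp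
  rw [map_mul, Units.val_mul, ZMod.val_mul, Nat.mod_mod]

theorem cexp_one : cexp p K hζ 1 = 1 := by
  have hp : p.Prime := Fact.out
  haveI : Fact (1 < p) := ⟨hp.one_lt⟩
  unfold cexp
  rw [map_one, Units.val_one, ZMod.val_one]

theorem cexp_inv_mul (σ : K ≃ₐ[ℚ] K) : (cexp p K hζ σ⁻¹ * cexp p K hζ σ) % p = 1 := by
  have hp : p.Prime := Fact.out
  rw [← cexp_mul, inv_mul_cancel, cexp_one, Nat.mod_eq_of_lt hp.one_lt]

theorem cexp_injective : Function.Injective (cexp p K hζ) := by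
  intro σ τ h
  apply hζ.autToPow_injective ℚ
  apply Units.ext
  exact ZMod.val_injective p h

theorem card_gal : Nat.card (K ≃ₐ[ℚ] K) = p - 1 := by
  have hp : p.Prime := Fact.out
  haveI : IsGalois ℚ K := IsCyclotomicExtension.isGalois {p} ℚ K
  rw [IsGalois.card_aut_eq_finrank,
    IsCyclotomicExtension.finrank K (Polynomial.cyclotomic.irreducible_rat hp.pos),
    Nat.totient_prime hp]

theorem cexp_surj {b : ℕ} (hb : b ∈ Finset.Ico 1 p) : ∃ σ : K ≃ₐ[ℚ] K, cexp p K hζ σ = b := by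
  classical
  haveI : Fintype (K ≃ₐ[ℚ] K) := Fintype.ofFinite _
  have hcard : Fintype.card (K ≃ₐ[ℚ] K) = p - 1 := by
    rw [← Nat.card_eq_fintype_card, card_gal p K]
  have himg : Finset.image (cexp p K hζ) Finset.univ = Finset.Ico 1 p := by
    apply Finset.eq_of_subset_of_card_le
    · intro x hx
      obtain ⟨σ, -, rfl⟩ := Finset.mem_image.mp hx
      exact cexp_mem p K hζ σ
    · rw [Finset.card_image_of_injective _ (cexp_injective p K hζ), Finset.card_univ, hcard,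
        Nat.card_Ico]
  rw [← himg] at hb
  obtain ⟨σ, -, h⟩ := Finset.mem_image.mp hb
  exact ⟨σ, h⟩

theorem galRing_zeta (σ : K ≃ₐ[ℚ] K) :
    galRing K σ hζ.toInteger = hζ.toInteger ^ cexp p K hζ σ := by
  apply RingOfIntegers.ext
  rw [galRing_apply]
  simp only [IsPrimitiveRoot.coe_toInteger, map_pow]
  exact cexp_spec p K hζ σ


theorem toInteger_pow_prime : hζ.toInteger ^ p = 1 := by
  apply RingOfIntegers.ext
  show algebraMap (𝓞 K) K (hζ.toInteger ^ p) = algebraMap (𝓞 K) K 1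
  rw [map_pow, map_one]
  exact hζ.pow_eq_one

theorem orderOf_mk_zeta (Q' : Ideal (𝓞 K)) (hpQ : (p : 𝓞 K) ∉ Q') :
    orderOf (Ideal.Quotient.mk Q' hζ.toInteger) = p := by
  have hp : p.Prime := Fact.out
  refine orderOf_eq_prime ?_ ?_
  · rw [← map_pow, toInteger_pow_prime, map_one]
  · intro h
    rw [← map_one (Ideal.Quotient.mk Q'), Ideal.Quotient.eq] at h
    exact sub_one_notMem p K hζ Q' hpQ h

theorem map_galRing_injective (Q : Ideal (𝓞 K)) (hq : (Ideal.absNorm Q).Prime)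
    (hpQ : (p : 𝓞 K) ∉ Q) {σ τ : K ≃ₐ[ℚ] K}
    (h : Ideal.map (galRing K σ : 𝓞 K →+* 𝓞 K) Q = Ideal.map (galRing K τ : 𝓞 K →+* 𝓞 K) Q) :
    σ = τ := by
  obtain ⟨ζ, hζ⟩ := IsCyclotomicExtension.exists_isPrimitiveRoot ℚ (B := K) (Set.mem_singleton p)
    (NeZero.ne p)
  obtain ⟨n, hn⟩ := exists_nat_sub_mem Q hq hζ.toInteger
  have h1 : hζ.toInteger ^ cexp p K hζ σ - (n : 𝓞 K) ∈
      Ideal.map (galRing K σ : 𝓞 K →+* 𝓞 K) Q := by
    have := Ideal.mem_map_of_mem (galRing K σ : 𝓞 K →+* 𝓞 K) hn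
    rwa [RingEquiv.coe_toRingHom, map_sub, map_natCast, galRing_zeta] at this
  have h2 : hζ.toInteger ^ cexp p K hζ τ - (n : 𝓞 K) ∈
      Ideal.map (galRing K σ : 𝓞 K →+* 𝓞 K) Q := by
    rw [h]
    have := Ideal.mem_map_of_mem (galRing K τ : 𝓞 K →+* 𝓞 K) hn
    rwa [RingEquiv.coe_toRingHom, map_sub, map_natCast, galRing_zeta] at this
  have hpQ' : (p : 𝓞 K) ∉ Ideal.map (galRing K σ : 𝓞 K →+* 𝓞 K) Q := by
    rwa [natCast_mem_map_galRing_iff]
  have h3 : hζ.toInteger ^ cexp p K hζ σ - hζ.toInteger ^ cexp p K hζ τ ∈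
      Ideal.map (galRing K σ : 𝓞 K →+* 𝓞 K) Q := by
    have := Ideal.sub_mem _ h1 h2
    rwa [sub_sub_sub_cancel_right] at this
  rw [← Ideal.Quotient.eq, map_pow, map_pow] at h3
  apply cexp_injective p K hζ
  have hlt1 := cexp_lt p K hζ σ
  have hlt2 := cexp_lt p K hζ τ
  have hpos1 := cexp_pos p K hζ σ
  have hpos2 := cexp_pos p K hζ τ
  set z := Ideal.Quotient.mk (Ideal.map (galRing K σ : 𝓞 K →+* 𝓞 K) Q) hζ.toInteger with hz
  have hzp : z ^ p = 1 := by rw [hz, ← map_pow, toInteger_pow_prime, map_one]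
  have h4 : z ^ (cexp p K hζ σ + (p - cexp p K hζ τ)) = 1 := by
    rw [pow_add, h3, ← pow_add, Nat.add_sub_cancel' hlt2.le, hzp]
  have h5 : p ∣ cexp p K hζ σ + (p - cexp p K hζ τ) := by
    have h0 := orderOf_dvd_of_pow_eq_one h4
    rwa [hz, orderOf_mk_zeta p K hζ _ hpQ'] at h0
  have h6 := Nat.eq_of_dvd_of_lt_two_mul (by omega) h5 (by omega)
  omega

theorem thaineFin : ThaineFinStatement p K := by
  intro hp2 ζ hζ k m hm ψ hψp hψe Q _ hQ0 hQq hpQ β s hβ hne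
  classical
  have hp : p.Prime := Fact.out
  haveI : IsGalois ℚ K := IsCyclotomicExtension.isGalois {p} ℚ K
  haveI : Fintype (K ≃ₐ[ℚ] K) := Fintype.ofFinite _
  obtain ⟨hβ0, h1, h2⟩ := hβ
  have hqQ : (Ideal.absNorm Q : 𝓞 K) ∈ Q := Ideal.absNorm_mem Q
  -- the conjugates of `Q`
  set Qc : (K ≃ₐ[ℚ] K) → Ideal (𝓞 K) :=
    fun σ => Ideal.map (galRing K σ : 𝓞 K →+* 𝓞 K) Q with hQc
  have hQc_prime : ∀ σ, (Qc σ).IsPrime := fun σ => Ideal.map_isPrime_of_equiv (galRing K σ)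
  have hQc_q : ∀ σ, (Ideal.absNorm Q : 𝓞 K) ∈ Qc σ :=
    fun σ => (natCast_mem_map_galRing_iff σ Q _).mpr hqQ
  have hQc_inj : Function.Injective Qc := fun σ τ h => map_galRing_injective p K Q hQq hpQ h
  have hQc_ne : ∀ σ, Qc σ ≠ ⊥ := by
    intro σ h
    apply hQ0
    rw [eq_bot_iff]
    intro x hx
    have : galRing K σ x ∈ Qc σ := Ideal.mem_map_of_mem _ hx
    rw [h, Ideal.mem_bot] at this
    rw [Ideal.mem_bot]
    exact (galRing K σ).injective (this.trans (map_zero _).symm)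
  set v : (K ≃ₐ[ℚ] K) → ℕ :=
    fun σ => Multiset.count (Qc σ) (normalizedFactors (Ideal.span {β})) with hv
  set ψ0 := ψ (ClassGroup.mk0 (primeNZ Q hQ0)) with hψ0
  -- Step A: the principal ideal `(β)` gives a relation
  have hA : ∏ σ : K ≃ₐ[ℚ] K, ψ (ThaineB19.cls (Qc σ)) ^ v σ = 1 := by
    have key := ThaineB19.prod_pow_count_eq_one ψ hβ0 (Finset.image Qc Finset.univ) ?_
    · rwa [Finset.prod_image (fun σ _ τ _ h => hQc_inj h)] at key
    · intro w hw hwS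
      have hI : Ideal.span {β} ≠ ⊥ := by simpa using hβ0
      have hwprime : w.IsPrime := ((Ideal.mem_normalizedFactors_iff hI).mp hw).1
      have hw0 : w ≠ ⊥ := ne_zero_of_mem_normalizedFactors hw
      by_cases hpw : (p : 𝓞 K) ∈ w
      · have hz : hζ.toInteger - 1 ∈ w := by
          have hassoc := IsCyclotomicExtension.Rat.associated_zeta_sub_one_pow_prime p hζ
          have hmem : (hζ.toInteger - 1) ^ (p - 1) ∈ w := by
            obtain ⟨u, hu⟩ := hassoc.symm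
            rw [← hu]
            exact Ideal.mul_mem_right _ _ hpw
          exact hwprime.mem_of_pow_mem _ hmem
        have hne0 : hζ.toInteger - 1 ≠ 0 := hζ.zeta_sub_one_prime'.ne_zero
        have hweq : w = Ideal.span {hζ.toInteger - 1} := by
          have hmax : (Ideal.span {hζ.toInteger - 1}).IsMaximal :=
            Ideal.IsPrime.isMaximal (IsCyclotomicExtension.Rat.isPrime_span_zeta_sub_one' p hζ)
              (by simpa using hne0)
          exact (hmax.eq_of_le hwprime.ne_top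
            ((Ideal.span_singleton_le_iff_mem _).mpr hz)).symm
        rw [hweq, ThaineB19.cls_span_singleton hne0, map_one, one_pow]
      · by_cases hqw : (Ideal.absNorm Q : 𝓞 K) ∈ w
        · exfalso
          obtain ⟨σ, hσ⟩ := exists_map_galRing_eq Q w hQq hqQ hqw
          exact hwS (Finset.mem_image.mpr ⟨σ, Finset.mem_univ _, hσ.symm⟩)
        · obtain ⟨t, ht⟩ := h1 w hw0 hpw hqw
          rw [ht, pow_mul, hψp, one_pow]
  -- Step B: the eigen property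
  have hB : ∀ σ, ψ (ThaineB19.cls (Qc σ)) = ψ0 ^ (cexp p K hζ σ ^ k) := by
    intro σ
    rw [ThaineB19.cls_of_ne_bot (hQc_ne σ)]
    have := hψe σ (cexp p K hζ σ) (cexp_spec p K hζ σ) (primeNZ Q hQ0)
    rw [hψ0, ← this]
    rfl
  -- Step C
  have hC : ψ0 ^ (∑ σ : K ≃ₐ[ℚ] K, cexp p K hζ σ ^ k * v σ) = 1 := by
    rw [← Finset.prod_pow_eq_pow_sum, ← hA]
    refine Finset.prod_congr rfl fun σ _ => ?_
    rw [hB, pow_mul]
  have hord : orderOf ψ0 = p := orderOf_eq_prime (hψp _) hne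
  have hS : p ∣ ∑ σ : K ≃ₐ[ℚ] K, cexp p K hζ σ ^ k * v σ := by
    have h0 := orderOf_dvd_of_pow_eq_one hC
    rwa [hord] at h0
  -- Step D: the congruences at the conjugates, transported to `Q`
  set z : 𝓞 K ⧸ Q := Ideal.Quotient.mk Q hζ.toInteger with hz
  set t : 𝓞 K ⧸ Q := Ideal.Quotient.mk Q (s : 𝓞 K) with ht
  have hD : ∀ σ : K ≃ₐ[ℚ] K, (1 - z ^ cexp p K hζ σ⁻¹) * t ^ v σ = 1 := by
    intro σ
    haveI := hQc_prime σ
    have h := h2 (Qc σ) (hQc_q σ)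
    rw [hQc, mem_map_galRing_iff] at h
    rw [map_sub, map_mul, map_sub, map_one, map_pow, map_natCast, galRing_zeta p K hζ] at h
    rw [← Ideal.Quotient.eq] at h
    rw [hz, ht, ← map_pow, ← map_pow, ← map_one (Ideal.Quotient.mk Q), ← map_sub, ← map_mul]
    exact h
  -- Step E
  have hE : (∏ σ : K ≃ₐ[ℚ] K, (1 - z ^ cexp p K hζ σ⁻¹) ^ m (cexp p K hζ σ⁻¹)) *
      t ^ (∑ σ : K ≃ₐ[ℚ] K, v σ * m (cexp p K hζ σ⁻¹)) = 1 := by
    rw [← Finset.prod_pow_eq_pow_sum, ← Finset.prod_mul_distrib]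
    refine Finset.prod_eq_one fun σ _ => ?_
    rw [pow_mul, ← mul_pow, hD, one_pow]
  have hprod : ∏ σ : K ≃ₐ[ℚ] K, (1 - z ^ cexp p K hζ σ⁻¹) ^ m (cexp p K hζ σ⁻¹) =
      Ideal.Quotient.mk Q (etaRaw p K hζ.toInteger m) := by
    unfold etaRaw
    rw [map_prod]
    refine Finset.prod_bij (fun σ _ => cexp p K hζ σ⁻¹) (fun σ _ => cexp_mem p K hζ σ⁻¹)
      (fun σ _ τ _ h => inv_injective (cexp_injective p K hζ h)) (fun b hb => ?_)
      (fun σ _ => ?_)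
    · obtain ⟨ρ, hρ⟩ := cexp_surj p K hζ hb
      exact ⟨ρ⁻¹, Finset.mem_univ _, by rw [inv_inv, hρ]⟩
    · rw [map_pow, map_sub, map_one, map_pow]
  -- Step F
  have hT : p ∣ ∑ σ : K ≃ₐ[ℚ] K, v σ * m (cexp p K hζ σ⁻¹) := by
    rw [← ZMod.natCast_eq_zero_iff] at hS ⊢
    rw [← hS]
    push_cast
    refine Finset.sum_congr rfl fun σ _ => ?_
    have hmb : ((m (cexp p K hζ σ⁻¹) : ZMod p)) * ((cexp p K hζ σ⁻¹ : ℕ) : ZMod p) ^ k = 1 := by
      have := hm _ (cexp_mem p K hζ σ⁻¹)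
      have h' : ((m (cexp p K hζ σ⁻¹) * cexp p K hζ σ⁻¹ ^ k : ℕ) : ZMod p) = ((1 : ℕ) : ZMod p) := by
        rw [ZMod.natCast_eq_natCast_iff', this, Nat.mod_eq_of_lt hp.one_lt]
      simpa using h'
    have hbc : ((cexp p K hζ σ⁻¹ : ℕ) : ZMod p) * ((cexp p K hζ σ : ℕ) : ZMod p) = 1 := by
      have := cexp_inv_mul p K hζ σ
      have h' : ((cexp p K hζ σ⁻¹ * cexp p K hζ σ : ℕ) : ZMod p) = ((1 : ℕ) : ZMod p) := by
        rw [ZMod.natCast_eq_natCast_iff', this, Nat.mod_eq_of_lt hp.one_lt]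
      simpa using h'
    calc (v σ : ZMod p) * (m (cexp p K hζ σ⁻¹) : ZMod p)
        = (v σ : ZMod p) * ((m (cexp p K hζ σ⁻¹) : ZMod p) *
            (((cexp p K hζ σ⁻¹ : ℕ) : ZMod p) * ((cexp p K hζ σ : ℕ) : ZMod p)) ^ k) := by
          rw [hbc, one_pow, mul_one]
      _ = ((m (cexp p K hζ σ⁻¹) : ZMod p) * ((cexp p K hζ σ⁻¹ : ℕ) : ZMod p) ^ k) *
            (((cexp p K hζ σ : ℕ) : ZMod p) ^ k * (v σ : ZMod p)) := by ring
      _ = ((cexp p K hζ σ : ℕ) : ZMod p) ^ k * (v σ : ZMod p) := by rw [hmb, one_mul]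
  -- Step G
  obtain ⟨M, hM⟩ := hT
  rw [hprod, hM, pow_mul'] at hE
  refine ⟨etaRaw p K hζ.toInteger m * ((s : 𝓞 K) ^ M) ^ (p - 1), ?_⟩
  rw [← Ideal.Quotient.eq, map_pow, map_mul, map_pow, map_pow]
  set e := Ideal.Quotient.mk Q (etaRaw p K hζ.toInteger m) with he
  set u := t ^ M with hu
  have hxu : e * u ^ (p - 1) * u = 1 := by
    rw [mul_assoc, ← pow_succ, Nat.sub_add_cancel hp.pos, hE]
  calc (e * u ^ (p - 1)) ^ p = (e * u ^ (p - 1)) ^ p * (e * u ^ p) := by rw [hE, mul_one]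
    _ = e * ((e * u ^ (p - 1)) * u) ^ p := by ring
    _ = e := by rw [hxu, one_pow, mul_one]

end Cyclo

end Fermat.Agent.S14.ThaineFin32
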