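/-
S14 / K2 THAINE, package TF (helper87): HILBERT 90 in `F = K(ζ_q)` over `K = ℚ(ζ_p)`.
Setting = variables of `ThaineField.lean`.

* `isCyclic_gal` : `Gal(F/K)` is cyclic;
* `exists_gamma` : a generator `τ` of `Gal(F/K)` with `τ ζq = ζq ^ s`, and `γ ≠ 0` in `𝓞 F` with
  `(1 - ζ ζq) * τ γ = γ`, all of whose Galois conjugates are unit multiples of `γ`.
No placeholder proofs in this file.
-/
import Mathlib
import Fermat.Agent.S14.ThaineField
import Fermat.Agent.S14.ThaineAux87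

set_option autoImplicit false
set_option linter.unusedSectionVars false

namespace Fermat.Agent.S14.ThaineH87

open NumberField Polynomial

variable {p q : ℕ} [hp : Fact p.Prime] [hq : Fact q.Prime]
  (K : Type) [Field K] [NumberField K] [IsCyclotomicExtension {p} ℚ K]
  (F : Type) [Field F] [NumberField F] [Algebra K F] [IsCyclotomicExtension {q} K F]

/-- `Gal(F/K)` is cyclic. -/
theorem isCyclic_gal (hpq : p ≠ q) : IsCyclic (F ≃ₐ[K] F) := by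
  have : NeZero q := ⟨hq.out.ne_zero⟩
  exact (MulEquiv.isCyclic
    (IsCyclotomicExtension.autEquivPow F (Fermat.Agent.S14.Thaine.irreducible_cyclotomic K F hpq))).mpr
    inferInstance

/-- the Thaine unit `1 - ζ ζq` as an element of `𝓞 F`. -/
noncomputable def epsInt {ζ : K} (hζ : IsPrimitiveRoot ζ p) {ζq : F} (hζq : IsPrimitiveRoot ζq q) :
    𝓞 F :=
  haveI : NeZero q := ⟨hq.out.ne_zero⟩
  haveI : NeZero p := ⟨hp.out.ne_zero⟩
  1 - algebraMap (𝓞 K) (𝓞 F) hζ.toInteger * hζq.toInteger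

theorem coe_epsInt {ζ : K} (hζ : IsPrimitiveRoot ζ p) {ζq : F} (hζq : IsPrimitiveRoot ζq q) :
    ((epsInt K F hζ hζq : 𝓞 F) : F) = 1 - algebraMap K F ζ * ζq := rfl

theorem isUnit_epsInt (hpq : p ≠ q) (hqp : q % p = 1) {ζ : K} (hζ : IsPrimitiveRoot ζ p)
    {ζq : F} (hζq : IsPrimitiveRoot ζq q) : IsUnit (epsInt K F hζ hζq) :=
  Fermat.Agent.S14.ThaineAux87.isUnit_one_sub_mul K F hpq hqp hζ hζq _ (coe_epsInt K F hζ hζq)

/-- **Hilbert 90 output.** -/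
theorem exists_gamma (hpq : p ≠ q) (hqp : q % p = 1) {ζ : K} (hζ : IsPrimitiveRoot ζ p)
    {ζq : F} (hζq : IsPrimitiveRoot ζq q) :
    ∃ (τ : F ≃ₐ[K] F) (s : ℕ) (γ : 𝓞 F), γ ≠ 0 ∧ τ ζq = ζq ^ s ∧
      epsInt K F hζ hζq * galRestrict (𝓞 K) K F (𝓞 F) τ γ = γ ∧
      ∀ g : F ≃ₐ[K] F, ∃ u : (𝓞 F)ˣ, g (γ : F) = ((u : 𝓞 F) : F) * (γ : F) := by
  have : NeZero q := ⟨hq.out.ne_zero⟩
  have := isCyclic_gal K F hpq
  have : IsGalois K F := IsCyclotomicExtension.isGalois {q} K F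
  have : FiniteDimensional K F := IsCyclotomicExtension.finiteDimensional {q} K F
  obtain ⟨τ, hτ⟩ := IsCyclic.exists_generator (α := F ≃ₐ[K] F)
  -- `τ ζq = ζq ^ s`
  obtain ⟨s, -, hs⟩ := hζq.eq_pow_of_pow_eq_one (ξ := τ ζq)
    (by rw [← map_pow, hζq.pow_eq_one, map_one])
  -- Hilbert 90
  have hnorm : Algebra.norm K (algebraMap (𝓞 F) F (epsInt K F hζ hζq)) = 1 :=
    Fermat.Agent.S14.ThaineAux87.norm_one_sub_mul K F hpq hqp hζ hζq
  obtain ⟨γ, hγ0, hγ⟩ := groupCohomology.exists_mul_galRestrict_of_norm_eq_one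
    (A := 𝓞 K) (B := 𝓞 F) hτ hnorm
  refine ⟨τ, s, γ, hγ0, hs.symm, hγ, ?_⟩
  -- all Galois conjugates of `γ` are unit multiples of `γ`
  obtain ⟨ε', hε'⟩ := isUnit_epsInt K F hpq hqp hζ hζq
  have hτγ : τ (algebraMap (𝓞 F) F γ) =
      algebraMap (𝓞 F) F ((ε'⁻¹ : (𝓞 F)ˣ) : 𝓞 F) * algebraMap (𝓞 F) F γ := by
    have h1 : algebraMap (𝓞 F) F (epsInt K F hζ hζq) *
        algebraMap (𝓞 F) F (galRestrict (𝓞 K) K F (𝓞 F) τ γ) = algebraMap (𝓞 F) F γ := by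
      rw [← map_mul, hγ]
    rw [algebraMap_galRestrict_apply, ← hε'] at h1
    conv_rhs => rw [← h1]
    rw [← mul_assoc, ← map_mul, ← Units.val_mul, inv_mul_cancel, Units.val_one, map_one, one_mul]
  have hpow : ∀ j : ℕ, ∃ u : (𝓞 F)ˣ,
      (τ ^ j) (algebraMap (𝓞 F) F γ) = algebraMap (𝓞 F) F (u : 𝓞 F) * algebraMap (𝓞 F) F γ := by
    intro j
    induction j with
    | zero => exact ⟨1, by simp⟩
    | succ j ih =>
      obtain ⟨u, hu⟩ := ih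
      refine ⟨(Units.map ((galRestrict (𝓞 K) K F (𝓞 F) τ : 𝓞 F ≃ₐ[𝓞 K] 𝓞 F) : 𝓞 F →* 𝓞 F) u)
        * ε'⁻¹, ?_⟩
      rw [pow_succ', AlgEquiv.mul_apply, hu, map_mul, hτγ, Units.val_mul, map_mul, Units.coe_map]
      have h2 : algebraMap (𝓞 F) F (galRestrict (𝓞 K) K F (𝓞 F) τ (u : 𝓞 F)) =
          τ (algebraMap (𝓞 F) F (u : 𝓞 F)) :=
        algebraMap_galRestrict_apply (𝓞 K) τ (u : 𝓞 F)
      simp only [MonoidHom.coe_coe]
      rw [h2]
      ring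
  intro g
  have hg : g ∈ Submonoid.powers τ :=
    (isOfFinOrder_of_finite τ).mem_powers_iff_mem_zpowers.mpr (hτ g)
  obtain ⟨j, rfl⟩ := hg
  exact hpow j

end Fermat.Agent.S14.ThaineH87
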