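/-
S14 / K2 (THAINE), the eigen-projection step (helper96).

`thaine_of_relations`: the conclusion of `ThaineStatement` from the two relations produced by the
Hilbert-90 argument in `ℚ(ζ_pq)/ℚ(ζ_p)`:
 (R1) `∏_σ ψ([σ Q])^(r σ) = 1`,
 (R2) `s^(r σ) ≡ 1 - ζ  mod σ Q`  for every `σ ∈ Gal(K/ℚ)`  (`s` a rational integer).
-/
import Mathlib
import Fermat.Agent.S14.CoreIface

set_option autoImplicit false
set_option linter.unusedSectionVars false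

namespace Fermat.Agent.S14.ThaineProj96

open NumberField nonZeroDivisors Fermat.Agent.S14

variable {p : ℕ} [hp : Fact p.Prime] {K : Type} [Field K] [NumberField K]
  [IsCyclotomicExtension {p} ℚ K]

local instance : NeZero p := ⟨hp.out.ne_zero⟩

/-- the exponent `c ∈ (0,p)` with `σ ζ = ζ^c`. -/
noncomputable def cOf {ζ : K} (hζ : IsPrimitiveRoot ζ p) (σ : K ≃ₐ[ℚ] K) : ℕ :=
  ((hζ.autToPow ℚ σ : (ZMod p)ˣ) : ZMod p).val

theorem cOf_spec {ζ : K} (hζ : IsPrimitiveRoot ζ p) (σ : K ≃ₐ[ℚ] K) : σ ζ = ζ ^ cOf hζ σ :=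
  (hζ.autToPow_spec ℚ σ).symm

theorem cOf_lt {ζ : K} (hζ : IsPrimitiveRoot ζ p) (σ : K ≃ₐ[ℚ] K) : cOf hζ σ < p :=
  ZMod.val_lt _

theorem cOf_cast {ζ : K} (hζ : IsPrimitiveRoot ζ p) (σ : K ≃ₐ[ℚ] K) :
    ((cOf hζ σ : ℕ) : ZMod p) = ((hζ.autToPow ℚ σ : (ZMod p)ˣ) : ZMod p) := by
  rw [cOf, ZMod.natCast_val, ZMod.cast_id', id]

theorem cOf_pos {ζ : K} (hζ : IsPrimitiveRoot ζ p) (σ : K ≃ₐ[ℚ] K) : 0 < cOf hζ σ := by
  rw [Nat.pos_iff_ne_zero]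
  intro h
  have := cOf_cast hζ σ
  rw [h, Nat.cast_zero] at this
  exact (Units.ne_zero _) this.symm

theorem cOf_mul_cOf_inv {ζ : K} (hζ : IsPrimitiveRoot ζ p) (σ : K ≃ₐ[ℚ] K) :
    ((cOf hζ σ * cOf hζ σ⁻¹ : ℕ) : ZMod p) = 1 := by
  rw [Nat.cast_mul, cOf_cast, cOf_cast, map_inv, Units.mul_inv]

theorem autToPow_bijective {ζ : K} (hζ : IsPrimitiveRoot ζ p) :
    Function.Bijective (hζ.autToPow ℚ) := by
  classical
  have : IsGalois ℚ K := IsCyclotomicExtension.isGalois {p} ℚ K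
  rw [Fintype.bijective_iff_injective_and_card]
  refine ⟨hζ.autToPow_injective ℚ, ?_⟩
  rw [ZMod.card_units_eq_totient, ← Nat.card_eq_fintype_card, IsGalois.card_aut_eq_finrank,
    IsCyclotomicExtension.finrank K (Polynomial.cyclotomic.irreducible_rat hp.out.pos)]

/-- The exponent `b σ ∈ (0,p)` with `σ⁻¹ ζ = ζ^(b σ)`; `σ ↦ b σ` is a bijection onto `Ico 1 p`. -/
theorem bijOn_cOf_inv {ζ : K} (hζ : IsPrimitiveRoot ζ p) :
    Set.BijOn (fun σ : K ≃ₐ[ℚ] K => cOf hζ σ⁻¹) Set.univ (Finset.Ico 1 p : Set ℕ) := by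
  refine ⟨fun σ _ => ?_, fun σ _ τ _ h => ?_, fun b hb => ?_⟩
  · simp only [Finset.coe_Ico, Set.mem_Ico]
    exact ⟨cOf_pos hζ _, cOf_lt hζ _⟩
  · simp only [cOf] at h
    have h1 := ZMod.val_injective p h
    have h2 := Units.ext h1
    have h3 := (autToPow_bijective hζ).1 h2
    exact inv_injective h3
  · simp only [Finset.coe_Ico, Set.mem_Ico] at hb
    have hcop : Nat.Coprime b p := by
      rw [Nat.coprime_comm, Nat.Prime.coprime_iff_not_dvd hp.out]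
      exact Nat.not_dvd_of_pos_of_lt hb.1 hb.2
    obtain ⟨τ, hτ⟩ := (autToPow_bijective hζ).2 (ZMod.unitOfCoprime b hcop)
    refine ⟨τ⁻¹, Set.mem_univ _, ?_⟩
    simp only [cOf, inv_inv, hτ, ZMod.coe_unitOfCoprime]
    exact ZMod.val_cast_of_lt hb.2

/-- membership in `σ(Q)` pulled back along `σ⁻¹`. -/
theorem galRing_inv_mem {σ : K ≃ₐ[ℚ] K} {I : (Ideal (𝓞 K))⁰} {x : 𝓞 K}
    (hx : x ∈ ((galIdeal σ I : (Ideal (𝓞 K))⁰) : Ideal (𝓞 K))) :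
    galRing K σ⁻¹ x ∈ (I : Ideal (𝓞 K)) := by
  rw [galIdeal, Ideal.coe_mapNonZero] at hx
  obtain ⟨y, hy, rfl⟩ := (Ideal.mem_map_iff_of_surjective _ (galRing K σ).surjective).mp hx
  have : galRing K σ⁻¹ (galRing K σ y) = y := by
    apply RingOfIntegers.ext
    simp
  rw [this]
  exact hy

/-- **Eigen-projection step of Thaine's argument.** -/
theorem thaine_of_relations (ζ : K) (hζ : IsPrimitiveRoot ζ p) (k : ℕ) (m : ℕ → ℕ)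
    (hm : ∀ b ∈ Finset.Ico 1 p, (m b * b ^ k) % p = 1)
    (ψ : ClassGroup (𝓞 K) →* ℂˣ) (hψ : ∀ c, ψ c ^ p = 1) (heig : IsEigenChar K ζ k ψ)
    (Q : Ideal (𝓞 K)) (hQ0 : Q ≠ ⊥) (s : ℤ) (r : (K ≃ₐ[ℚ] K) → ℕ)
    (R1 : ∏ σ : K ≃ₐ[ℚ] K, ψ (ClassGroup.mk0 (galIdeal σ (primeNZ Q hQ0))) ^ r σ = 1)
    (R2 : ∀ σ : K ≃ₐ[ℚ] K, ((s : 𝓞 K)) ^ r σ - (1 - hζ.toInteger) ∈
      ((galIdeal σ (primeNZ Q hQ0) : (Ideal (𝓞 K))⁰) : Ideal (𝓞 K)))
    (hη : ¬ IsPowMod p Q (etaRaw p K hζ.toInteger m)) :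
    ψ (ClassGroup.mk0 (primeNZ Q hQ0)) = 1 := by
  classical
  by_contra ht
  set t := ψ (ClassGroup.mk0 (primeNZ Q hQ0)) with htdef
  -- (1) p ∣ E
  set E : ℕ := ∑ σ : K ≃ₐ[ℚ] K, cOf hζ σ ^ k * r σ with hE
  have h1 : t ^ E = 1 := by
    rw [hE, ← Finset.prod_pow_eq_pow_sum, ← R1]
    refine Finset.prod_congr rfl fun σ _ => ?_
    rw [heig σ (cOf hζ σ) (cOf_spec hζ σ), pow_mul]
  have hord : orderOf t = p := by
    have hdvd : orderOf t ∣ p := orderOf_dvd_of_pow_eq_one (hψ _)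
    rcases (Nat.dvd_prime hp.out).mp hdvd with h | h
    · exact absurd (orderOf_eq_one_iff.mp h) ht
    · exact h
  have hpE : p ∣ E := hord ▸ orderOf_dvd_of_pow_eq_one h1
  -- (2) η ≡ s^E' mod Q
  set E' : ℕ := ∑ σ : K ≃ₐ[ℚ] K, r σ * m (cOf hζ σ⁻¹) with hE'
  have hfac : ∀ σ : K ≃ₐ[ℚ] K,
      (s : 𝓞 K) ^ r σ - (1 - hζ.toInteger ^ cOf hζ σ⁻¹) ∈ Q := by
    intro σ
    have h := galRing_inv_mem (R2 σ)
    have e1 : galRing K σ⁻¹ ((s : 𝓞 K) ^ r σ - (1 - hζ.toInteger)) =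
        (s : 𝓞 K) ^ r σ - (1 - hζ.toInteger ^ cOf hζ σ⁻¹) := by
      apply RingOfIntegers.ext
      have hc1 : ((hζ.toInteger : 𝓞 K) : K) = ζ := rfl
      have hc2 : (algebraMap (𝓞 K) K) hζ.toInteger = ζ := rfl
      simp only [galRing_apply, map_sub, map_pow, map_one, map_intCast]
      rw [hc1, hc2, cOf_spec hζ σ⁻¹]
    rw [e1] at h
    exact h
  have hη' : etaRaw p K hζ.toInteger m - (s : 𝓞 K) ^ E' ∈ Q := by
    have hprod : etaRaw p K hζ.toInteger m =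
        ∏ σ : K ≃ₐ[ℚ] K, (1 - hζ.toInteger ^ cOf hζ σ⁻¹) ^ m (cOf hζ σ⁻¹) := by
      rw [etaRaw]
      symm
      refine Finset.prod_bij (fun σ _ => cOf hζ σ⁻¹) (fun σ _ => ?_) (fun σ _ τ _ h => ?_)
        (fun b hb => ?_) (fun σ _ => rfl)
      · exact (bijOn_cOf_inv hζ).1 (Set.mem_univ σ)
      · exact (bijOn_cOf_inv hζ).2.1 (Set.mem_univ σ) (Set.mem_univ τ) h
      · obtain ⟨σ, _, hσ⟩ := (bijOn_cOf_inv hζ).2.2 hb
        exact ⟨σ, Finset.mem_univ _, hσ⟩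
    have hpow : (s : 𝓞 K) ^ E' = ∏ σ : K ≃ₐ[ℚ] K, ((s : 𝓞 K) ^ r σ) ^ m (cOf hζ σ⁻¹) := by
      rw [hE', ← Finset.prod_pow_eq_pow_sum]
      exact Finset.prod_congr rfl fun σ _ => pow_mul _ _ _
    rw [hprod, hpow, ← Ideal.Quotient.eq, map_prod, map_prod]
    refine Finset.prod_congr rfl fun σ _ => ?_
    rw [map_pow, map_pow]
    congr 1
    rw [Ideal.Quotient.eq]
    have := hfac σ
    rw [← neg_sub] 
    exact neg_mem this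
  -- (3) E' ≡ E mod p
  have hEE : (E' : ZMod p) = (E : ZMod p) := by
    rw [hE, hE']
    push_cast
    refine Finset.sum_congr rfl fun σ _ => ?_
    have hb := (bijOn_cOf_inv hζ).1 (Set.mem_univ σ)
    have h1 : ((m (cOf hζ σ⁻¹) * (cOf hζ σ⁻¹) ^ k : ℕ) : ZMod p) = 1 := by
      have := hm _ hb
      rw [← ZMod.natCast_mod, this, Nat.cast_one]
    have h2 := cOf_mul_cOf_inv hζ σ
    push_cast at h1 h2
    have h3 : (m (cOf hζ σ⁻¹) : ZMod p) = (cOf hζ σ : ZMod p) ^ k := by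
      calc (m (cOf hζ σ⁻¹) : ZMod p)
          = m (cOf hζ σ⁻¹) * ((cOf hζ σ : ZMod p) * (cOf hζ σ⁻¹ : ZMod p)) ^ k := by
            rw [h2, one_pow, mul_one]
        _ = (m (cOf hζ σ⁻¹) * (cOf hζ σ⁻¹ : ZMod p) ^ k) * (cOf hζ σ : ZMod p) ^ k := by ring
        _ = (cOf hζ σ : ZMod p) ^ k := by rw [h1, one_mul]
    rw [h3]
    ring
  have hpE' : p ∣ E' := by
    rw [← ZMod.natCast_eq_zero_iff, hEE, ZMod.natCast_eq_zero_iff]
    exact hpE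
  obtain ⟨e', he'⟩ := hpE'
  apply hη
  refine ⟨(s : 𝓞 K) ^ e', ?_⟩
  rw [← pow_mul, mul_comm, ← he', ← neg_sub]
  exact neg_mem hη'

/-- **Eigen-projection step, in the shape of `Thaine.IsThaineElt`.**
From (R1) `∏_σ ψ([σ Q])^(r σ) = 1` and (R2) `(1 - ζ) * s^(r σ) ≡ 1 mod σ Q` for all `σ`
(`s` a rational integer) and `ψ([Q]) ≠ 1`, the cyclotomic number `etaRaw` is a `p`-th power
modulo `Q`. -/
theorem isPowMod_of_relations (ζ : K) (hζ : IsPrimitiveRoot ζ p) (k : ℕ) (m : ℕ → ℕ)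
    (hm : ∀ b ∈ Finset.Ico 1 p, (m b * b ^ k) % p = 1)
    (ψ : ClassGroup (𝓞 K) →* ℂˣ) (hψ : ∀ c, ψ c ^ p = 1) (heig : IsEigenChar K ζ k ψ)
    (Q : Ideal (𝓞 K)) (hQ0 : Q ≠ ⊥) (s : ℕ) (r : (K ≃ₐ[ℚ] K) → ℕ)
    (R1 : ∏ σ : K ≃ₐ[ℚ] K, ψ (ClassGroup.mk0 (galIdeal σ (primeNZ Q hQ0))) ^ r σ = 1)
    (R2 : ∀ σ : K ≃ₐ[ℚ] K, (1 - hζ.toInteger) * ((s : 𝓞 K)) ^ r σ - 1 ∈
      ((galIdeal σ (primeNZ Q hQ0) : (Ideal (𝓞 K))⁰) : Ideal (𝓞 K)))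
    (hne : ψ (ClassGroup.mk0 (primeNZ Q hQ0)) ≠ 1) :
    IsPowMod p Q (etaRaw p K hζ.toInteger m) := by
  classical
  set t := ψ (ClassGroup.mk0 (primeNZ Q hQ0)) with htdef
  -- (1) p ∣ E
  set E : ℕ := ∑ σ : K ≃ₐ[ℚ] K, cOf hζ σ ^ k * r σ with hE
  have h1 : t ^ E = 1 := by
    rw [hE, ← Finset.prod_pow_eq_pow_sum, ← R1]
    refine Finset.prod_congr rfl fun σ _ => ?_
    rw [heig σ (cOf hζ σ) (cOf_spec hζ σ), pow_mul]
  have hord : orderOf t = p := by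
    have hdvd : orderOf t ∣ p := orderOf_dvd_of_pow_eq_one (hψ _)
    rcases (Nat.dvd_prime hp.out).mp hdvd with h | h
    · exact absurd (orderOf_eq_one_iff.mp h) hne
    · exact h
  have hpE : p ∣ E := hord ▸ orderOf_dvd_of_pow_eq_one h1
  -- (2) η * s^E' ≡ 1 mod Q
  set E' : ℕ := ∑ σ : K ≃ₐ[ℚ] K, r σ * m (cOf hζ σ⁻¹) with hE'
  have hfac : ∀ σ : K ≃ₐ[ℚ] K,
      (1 - hζ.toInteger ^ cOf hζ σ⁻¹) * (s : 𝓞 K) ^ r σ - 1 ∈ Q := by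
    intro σ
    have h := galRing_inv_mem (R2 σ)
    have e1 : galRing K σ⁻¹ ((1 - hζ.toInteger) * (s : 𝓞 K) ^ r σ - 1) =
        (1 - hζ.toInteger ^ cOf hζ σ⁻¹) * (s : 𝓞 K) ^ r σ - 1 := by
      apply RingOfIntegers.ext
      have hc1 : ((hζ.toInteger : 𝓞 K) : K) = ζ := rfl
      have hc2 : (algebraMap (𝓞 K) K) hζ.toInteger = ζ := rfl
      simp only [galRing_apply, map_sub, map_mul, map_pow, map_one, map_natCast]
      rw [hc1, hc2, cOf_spec hζ σ⁻¹]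
    rw [e1] at h
    exact h
  have hη' : etaRaw p K hζ.toInteger m * (s : 𝓞 K) ^ E' - 1 ∈ Q := by
    have hprod : etaRaw p K hζ.toInteger m =
        ∏ σ : K ≃ₐ[ℚ] K, (1 - hζ.toInteger ^ cOf hζ σ⁻¹) ^ m (cOf hζ σ⁻¹) := by
      rw [etaRaw]
      symm
      refine Finset.prod_bij (fun σ _ => cOf hζ σ⁻¹) (fun σ _ => ?_) (fun σ _ τ _ h => ?_)
        (fun b hb => ?_) (fun σ _ => rfl)
      · exact (bijOn_cOf_inv hζ).1 (Set.mem_univ σ)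
      · exact (bijOn_cOf_inv hζ).2.1 (Set.mem_univ σ) (Set.mem_univ τ) h
      · obtain ⟨σ, _, hσ⟩ := (bijOn_cOf_inv hζ).2.2 hb
        exact ⟨σ, Finset.mem_univ _, hσ⟩
    have hpow : (s : 𝓞 K) ^ E' = ∏ σ : K ≃ₐ[ℚ] K, ((s : 𝓞 K) ^ r σ) ^ m (cOf hζ σ⁻¹) := by
      rw [hE', ← Finset.prod_pow_eq_pow_sum]
      exact Finset.prod_congr rfl fun σ _ => pow_mul _ _ _
    rw [hprod, hpow, ← Finset.prod_mul_distrib, ← Ideal.Quotient.eq, map_prod, map_one]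
    apply Finset.prod_eq_one
    intro σ _
    rw [← mul_pow, map_pow]
    have h1 : Ideal.Quotient.mk Q ((1 - hζ.toInteger ^ cOf hζ σ⁻¹) * (s : 𝓞 K) ^ r σ) = 1 := by
      rw [← map_one (Ideal.Quotient.mk Q), Ideal.Quotient.eq]
      exact hfac σ
    rw [h1, one_pow]
  -- (3) E' ≡ E mod p
  have hEE : (E' : ZMod p) = (E : ZMod p) := by
    rw [hE, hE']
    push_cast
    refine Finset.sum_congr rfl fun σ _ => ?_
    have hb := (bijOn_cOf_inv hζ).1 (Set.mem_univ σ)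
    have h1 : ((m (cOf hζ σ⁻¹) * (cOf hζ σ⁻¹) ^ k : ℕ) : ZMod p) = 1 := by
      have := hm _ hb
      rw [← ZMod.natCast_mod, this, Nat.cast_one]
    have h2 := cOf_mul_cOf_inv hζ σ
    push_cast at h1 h2
    have h3 : (m (cOf hζ σ⁻¹) : ZMod p) = (cOf hζ σ : ZMod p) ^ k := by
      calc (m (cOf hζ σ⁻¹) : ZMod p)
          = m (cOf hζ σ⁻¹) * ((cOf hζ σ : ZMod p) * (cOf hζ σ⁻¹ : ZMod p)) ^ k := by
            rw [h2, one_pow, mul_one]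
        _ = (m (cOf hζ σ⁻¹) * (cOf hζ σ⁻¹ : ZMod p) ^ k) * (cOf hζ σ : ZMod p) ^ k := by ring
        _ = (cOf hζ σ : ZMod p) ^ k := by rw [h1, one_mul]
    rw [h3]
    ring
  have hpE' : p ∣ E' := by
    rw [← ZMod.natCast_eq_zero_iff, hEE, ZMod.natCast_eq_zero_iff]
    exact hpE
  obtain ⟨e', he'⟩ := hpE'
  -- (4) x := η * (s^e')^(p-1)
  refine ⟨etaRaw p K hζ.toInteger m * ((s : 𝓞 K) ^ e') ^ (p - 1), ?_⟩
  have hp1 : p = (p - 1) + 1 := (Nat.succ_pred_eq_of_pos hp.out.pos).symm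
  rw [← Ideal.Quotient.eq] at hη' ⊢
  set e := Ideal.Quotient.mk Q (etaRaw p K hζ.toInteger m) with hedef
  set v := Ideal.Quotient.mk Q ((s : 𝓞 K) ^ e') with hvdef
  have hev : e * v ^ p = 1 := by
    rw [hedef, hvdef, ← map_pow, ← map_mul, ← pow_mul, mul_comm e' p, ← he']
    simpa using hη'
  rw [map_pow, map_mul, map_pow, ← hedef, ← hvdef]
  calc (e * v ^ (p - 1)) ^ p = e ^ p * (v ^ p) ^ (p - 1) := by
        rw [mul_pow, ← pow_mul, ← pow_mul, mul_comm (p - 1) p]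
    _ = e * (e * v ^ p) ^ (p - 1) := by
        rw [mul_pow]
        nth_rewrite 1 [hp1]
        rw [pow_succ]
        ring
    _ = e := by rw [hev, one_pow, mul_one]

end Fermat.Agent.S14.ThaineProj96
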