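/-
S14 / K2 THAINE, package TF (helper87): RAMIFICATION in `F = K(ζ_q) = ℚ(ζ_{pq})` over `K = ℚ(ζ_p)`.
Setting = variables of `ThaineField.lean`.

* `ramificationIdx_of_notMem` : a prime `P` of `𝓞 F` over a prime `𝔯` of `𝓞 K` with `p, q ∉ 𝔯` has
  `e(P|𝔯) = 1`;
* `ramificationIdx_of_mem` : if `q ∈ 𝔯` then `e(P|𝔯) = q - 1`;
* `count_map_of_notMem`, `count_map_of_mem` : the same in the form
  `(normalizedFactors (𝔯.map (algebraMap (𝓞 K) (𝓞 F)))).count P = …` (shape of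
  `ThaineGen96.count_mul_count` / `finrank_dvd_count_of_unramified`).
No placeholder proofs in this file.
-/
import Mathlib
import Fermat.Agent.S14.ThaineField

set_option autoImplicit false
set_option linter.unusedSectionVars false

namespace Fermat.Agent.S14.ThaineRam87

open NumberField Ideal UniqueFactorizationMonoid

variable {p q : ℕ} [hp : Fact p.Prime] [hq : Fact q.Prime]
  (K : Type) [Field K] [NumberField K] [IsCyclotomicExtension {p} ℚ K]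
  (F : Type) [Field F] [NumberField F] [Algebra K F] [IsCyclotomicExtension {q} K F]

/-- membership of a natural number in `P` versus in the prime `𝔯 = P ∩ 𝓞 K`. -/
theorem natCast_mem_iff (𝔯 : Ideal (𝓞 K)) (P : Ideal (𝓞 F)) [hPr : P.LiesOver 𝔯] (n : ℕ) :
    (n : 𝓞 F) ∈ P ↔ (n : 𝓞 K) ∈ 𝔯 := by
  rw [hPr.over, Ideal.under_def, Ideal.mem_comap, map_natCast]

/-- a nonzero prime `P` of `𝓞 F`: the rational prime below it. -/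
theorem exists_prime_liesOver (P : Ideal (𝓞 F)) [P.IsPrime] (hP0 : P ≠ ⊥) :
    ∃ ℓ : ℕ, ℓ.Prime ∧ P.LiesOver (span {(ℓ : ℤ)}) ∧ (ℓ : 𝓞 F) ∈ P ∧
      ∀ d : ℕ, (d : 𝓞 F) ∈ P ↔ ℓ ∣ d := by
  have : NeZero P := ⟨hP0⟩
  refine ⟨absNorm (under ℤ P), Nat.absNorm_under_prime P, Int.liesOver_span_absNorm P,
    Int.absNorm_under_mem P, fun d => ?_⟩
  rw [← Int.cast_natCast, Int.cast_mem_ideal_iff, Int.natCast_dvd_natCast]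

theorem ne_bot_of_liesOver (𝔯 : Ideal (𝓞 K)) (h𝔯 : 𝔯 ≠ ⊥) (P : Ideal (𝓞 F)) [hPr : P.LiesOver 𝔯] :
    P ≠ ⊥ := by
  rintro rfl
  apply h𝔯
  rw [hPr.over, Ideal.under_def]
  exact Ideal.comap_bot_of_injective _ (RingOfIntegers.algebraMap.injective K F)

/-- **(R1)** away from `p q`, `F/K` is unramified. -/
theorem ramificationIdx_of_notMem (hpq : p ≠ q) (𝔯 : Ideal (𝓞 K)) [𝔯.IsPrime] (h𝔯 : 𝔯 ≠ ⊥)
    (P : Ideal (𝓞 F)) [P.IsPrime] [hPr : P.LiesOver 𝔯]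
    (hp𝔯 : (p : 𝓞 K) ∉ 𝔯) (hq𝔯 : (q : 𝓞 K) ∉ 𝔯) : P.ramificationIdx (𝓞 K) = 1 := by
  have hP0 := ne_bot_of_liesOver K F 𝔯 h𝔯 P
  obtain ⟨ℓ, hℓ, hPℓ, hℓP, hd⟩ := exists_prime_liesOver F P hP0
  have : Fact ℓ.Prime := ⟨hℓ⟩
  have : NeZero (p * q) := ⟨Nat.mul_ne_zero hp.out.ne_zero hq.out.ne_zero⟩
  have hF := Fermat.Agent.S14.Thaine.isCyclo_pq K F hpq
  have hndvd : ¬ ℓ ∣ p * q := by
    intro h
    rcases (Nat.Prime.dvd_mul hℓ).mp h with h | h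
    · exact hp𝔯 ((natCast_mem_iff K F 𝔯 P p).mp ((hd p).mpr h))
    · exact hq𝔯 ((natCast_mem_iff K F 𝔯 P q).mp ((hd q).mpr h))
  have h1 : P.ramificationIdx ℤ = 1 :=
    IsCyclotomicExtension.Rat.ramificationIdx_eq_of_not_dvd ℓ F P hndvd
  have h2 := Ideal.ramificationIdx_tower (R := ℤ) 𝔯 P
  rw [h1] at h2
  exact Nat.eq_one_of_mul_eq_one_left h2.symm

/-- **(R2)** at the primes above `q`, `F/K` is totally ramified. -/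
theorem ramificationIdx_of_mem (hpq : p ≠ q) (𝔯 : Ideal (𝓞 K)) [𝔯.IsPrime] (h𝔯 : 𝔯 ≠ ⊥)
    (P : Ideal (𝓞 F)) [P.IsPrime] [hPr : P.LiesOver 𝔯]
    (hq𝔯 : (q : 𝓞 K) ∈ 𝔯) : P.ramificationIdx (𝓞 K) = q - 1 := by
  have hP0 := ne_bot_of_liesOver K F 𝔯 h𝔯 P
  obtain ⟨ℓ, hℓ, hPℓ, hℓP, hd⟩ := exists_prime_liesOver F P hP0
  have hℓq : ℓ = q :=
    (Nat.prime_dvd_prime_iff_eq hℓ hq.out).mp ((hd q).mp ((natCast_mem_iff K F 𝔯 P q).mpr hq𝔯))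
  subst hℓq
  have : NeZero (p * ℓ) := ⟨Nat.mul_ne_zero hp.out.ne_zero hq.out.ne_zero⟩
  have : NeZero p := ⟨hp.out.ne_zero⟩
  have hF := Fermat.Agent.S14.Thaine.isCyclo_pq K F hpq
  have hndvd : ¬ ℓ ∣ p := fun h => hpq ((Nat.prime_dvd_prime_iff_eq hq.out hp.out).mp h).symm
  have h𝔯ℓ : 𝔯.LiesOver (span {(ℓ : ℤ)}) := Ideal.LiesOver.tower_bot P 𝔯 (span {(ℓ : ℤ)})
  have h1 : P.ramificationIdx ℤ = ℓ ^ 0 * (ℓ - 1) :=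
    IsCyclotomicExtension.Rat.ramificationIdx_eq (p * ℓ) F P (k := 0) (m := p)
      (by rw [zero_add, pow_one, mul_comm]) hndvd
  have h3 : 𝔯.ramificationIdx ℤ = 1 :=
    IsCyclotomicExtension.Rat.ramificationIdx_eq_of_not_dvd ℓ K 𝔯 hndvd
  have h2 := Ideal.ramificationIdx_tower (R := ℤ) 𝔯 P
  rw [h1, h3, pow_zero, one_mul, one_mul] at h2
  exact h2.symm

theorem count_map_eq (𝔯 : Ideal (𝓞 K)) (h𝔯 : 𝔯 ≠ ⊥) (P : Ideal (𝓞 F)) [P.LiesOver 𝔯] :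
    (normalizedFactors (𝔯.map (algebraMap (𝓞 K) (𝓞 F)))).count P = P.ramificationIdx (𝓞 K) :=
  (Ideal.IsDedekindDomain.ramificationIdx_eq_normalizedFactors_count 𝔯 P
    (Ideal.map_ne_bot_of_ne_bot h𝔯)).symm

theorem count_map_of_notMem (hpq : p ≠ q) (𝔯 : Ideal (𝓞 K)) [𝔯.IsPrime] (h𝔯 : 𝔯 ≠ ⊥)
    (P : Ideal (𝓞 F)) [P.IsPrime] [P.LiesOver 𝔯]
    (hp𝔯 : (p : 𝓞 K) ∉ 𝔯) (hq𝔯 : (q : 𝓞 K) ∉ 𝔯) :
    (normalizedFactors (𝔯.map (algebraMap (𝓞 K) (𝓞 F)))).count P = 1 := by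
  rw [count_map_eq K F 𝔯 h𝔯 P, ramificationIdx_of_notMem K F hpq 𝔯 h𝔯 P hp𝔯 hq𝔯]

theorem count_map_of_mem (hpq : p ≠ q) (𝔯 : Ideal (𝓞 K)) [𝔯.IsPrime] (h𝔯 : 𝔯 ≠ ⊥)
    (P : Ideal (𝓞 F)) [P.IsPrime] [P.LiesOver 𝔯] (hq𝔯 : (q : 𝓞 K) ∈ 𝔯) :
    (normalizedFactors (𝔯.map (algebraMap (𝓞 K) (𝓞 F)))).count P = Module.finrank K F := by
  rw [count_map_eq K F 𝔯 h𝔯 P, ramificationIdx_of_mem K F hpq 𝔯 h𝔯 P hq𝔯,
    Fermat.Agent.S14.Thaine.finrank_KF K F hpq]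

end Fermat.Agent.S14.ThaineRam87
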