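/-
S14 / K2 THAINE, package TF, input (T) of helper87 #1033 (helper9):
for a prime `P` of `𝓞 F`, `F = K(ζ_q) = ℚ(ζ_{pq})`, with `q ∈ P`:
`1 - ζ_q ∈ P` and `1 - ζ_q ∉ P ^ 2` (i.e. `1 - ζ_q` is a uniformiser at `P`).
Setting = variables of `ThaineField.lean` (`K F` explicit).
-/
import Mathlib
import Fermat.Agent.S14.ThaineField
import Fermat.Agent.S14.ThaineRam87

set_option autoImplicit false
set_option linter.unusedSectionVars false

namespace Fermat.Agent.S14.ThaineT9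

open NumberField Ideal Finset

variable {p q : ℕ} [hp : Fact p.Prime] [hq : Fact q.Prime]
  (K : Type) [Field K] [NumberField K] [IsCyclotomicExtension {p} ℚ K]
  (F : Type) [Field F] [NumberField F] [Algebra K F] [IsCyclotomicExtension {q} K F]

/-- `q = u * (1 - ζ_q)^(q-1)` with `u` a unit of `𝓞 F` (any number field `F ∋ ζ_q`). -/
theorem exists_unit_mul_pow {ζq : F} (hζq : IsPrimitiveRoot ζq q) :
    ∃ u : (𝓞 F)ˣ, (q : 𝓞 F) = (u : 𝓞 F) * (1 - hζq.toInteger) ^ (q - 1) := by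
  have hμ := hζq.toInteger_isPrimitiveRoot
  have hq1 : q - 1 + 1 = q := Nat.sub_add_cancel hq.out.one_le
  have hμ' : IsPrimitiveRoot hζq.toInteger (q - 1 + 1) := by rwa [hq1]
  have hprod := IsPrimitiveRoot.prod_one_sub_pow_eq_order hμ'
  have hunit : ∀ k ∈ range (q - 1), IsUnit (∑ i ∈ range (k + 1), hζq.toInteger ^ i) := by
    intro k hk
    have hk' : k + 1 < q := by
      have := Finset.mem_range.mp hk
      omega
    refine hμ.geom_sum_isUnit hq.out.two_le ?_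
    exact ((Nat.Prime.coprime_iff_not_dvd hq.out).mpr
      (Nat.not_dvd_of_pos_of_lt (Nat.succ_pos k) hk')).symm
  have hfac : ∀ k ∈ range (q - 1), (1 - hζq.toInteger ^ (k + 1)) =
      (∑ i ∈ range (k + 1), hζq.toInteger ^ i) * (1 - hζq.toInteger) := by
    intro k _
    rw [mul_comm, mul_neg_geom_sum]
  have hU : IsUnit (∏ k ∈ range (q - 1), ∑ i ∈ range (k + 1), hζq.toInteger ^ i) :=
    Finset.prod_induction _ IsUnit (fun a b ha hb => ha.mul hb) isUnit_one hunit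
  refine ⟨hU.unit, ?_⟩
  rw [IsUnit.unit_spec]
  have hcast : (q : 𝓞 F) = ((q - 1 : ℕ) : 𝓞 F) + 1 := by
    have : ((q - 1 : ℕ) : 𝓞 F) + 1 = ((q - 1 + 1 : ℕ) : 𝓞 F) := by push_cast; ring
    rw [this, hq1]
  calc (q : 𝓞 F) = ((q - 1 : ℕ) : 𝓞 F) + 1 := hcast
    _ = ∏ k ∈ range (q - 1), (1 - hζq.toInteger ^ (k + 1)) := hprod.symm
    _ = ∏ k ∈ range (q - 1),
          ((∑ i ∈ range (k + 1), hζq.toInteger ^ i) * (1 - hζq.toInteger)) :=
        Finset.prod_congr rfl hfac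
    _ = (∏ k ∈ range (q - 1), ∑ i ∈ range (k + 1), hζq.toInteger ^ i) *
          (1 - hζq.toInteger) ^ (q - 1) := by
        rw [Finset.prod_mul_distrib, Finset.prod_const, Finset.card_range]

/-- **(T1)** `1 - ζ_q` lies in every prime of `𝓞 F` containing `q`. -/
theorem one_sub_mem {ζq : F} (hζq : IsPrimitiveRoot ζq q) (P : Ideal (𝓞 F)) [hP : P.IsPrime]
    (hqP : (q : 𝓞 F) ∈ P) : 1 - hζq.toInteger ∈ P := by
  obtain ⟨u, hu⟩ := exists_unit_mul_pow F hζq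
  rw [hu, Ideal.unit_mul_mem_iff_mem P u.isUnit] at hqP
  exact hP.mem_of_pow_mem _ hqP

include K in
/-- **(T2)** `1 - ζ_q ∉ P ^ 2` for every prime `P` of `𝓞 F` containing `q`
(`e(P | q) = q - 1` in `ℚ(ζ_{pq})`). -/
theorem one_sub_not_mem_sq (hpq : p ≠ q) {ζq : F} (hζq : IsPrimitiveRoot ζq q)
    (P : Ideal (𝓞 F)) [hP : P.IsPrime] (hqP : (q : 𝓞 F) ∈ P) :
    1 - hζq.toInteger ∉ P ^ 2 := by
  intro hmem
  have hq0 : (q : 𝓞 F) ≠ 0 := Nat.cast_ne_zero.mpr hq.out.ne_zero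
  have hP0 : P ≠ ⊥ := by
    rintro rfl
    exact hq0 ((Ideal.mem_bot).mp hqP)
  obtain ⟨ℓ, hℓ, hPℓ, hℓP, hd⟩ := ThaineRam87.exists_prime_liesOver F P hP0
  have hℓq : ℓ = q := (Nat.prime_dvd_prime_iff_eq hℓ hq.out).mp ((hd q).mp hqP)
  subst hℓq
  have : NeZero (p * ℓ) := ⟨Nat.mul_ne_zero hp.out.ne_zero hq.out.ne_zero⟩
  have : NeZero p := ⟨hp.out.ne_zero⟩
  have hF := Fermat.Agent.S14.Thaine.isCyclo_pq K F hpq
  have hndvd : ¬ ℓ ∣ p := fun h => hpq ((Nat.prime_dvd_prime_iff_eq hq.out hp.out).mp h).symm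
  have h1 : P.ramificationIdx ℤ = ℓ ^ 0 * (ℓ - 1) :=
    IsCyclotomicExtension.Rat.ramificationIdx_eq (p * ℓ) F P (k := 0) (m := p)
      (by rw [zero_add, pow_one, mul_comm]) hndvd
  rw [pow_zero, one_mul] at h1
  -- the image of `(ℓ)` in `𝓞 F`
  have hmap : Ideal.map (algebraMap ℤ (𝓞 F)) (span {(ℓ : ℤ)}) = span {(ℓ : 𝓞 F)} := by
    rw [Ideal.map_span, Set.image_singleton]
    simp
  have hmap0 : Ideal.map (algebraMap ℤ (𝓞 F)) (span {(ℓ : ℤ)}) ≠ ⊥ := by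
    rw [hmap, Ne, Ideal.span_singleton_eq_bot]
    exact hq0
  have h2 := Ideal.IsDedekindDomain.ramificationIdx_eq_multiplicity (span {(ℓ : ℤ)}) P hmap0
  rw [h1, hmap] at h2
  -- but `(ℓ) ⊆ P ^ (2 (ℓ - 1))`
  obtain ⟨u, hu⟩ := exists_unit_mul_pow F hζq
  have hle : span {(ℓ : 𝓞 F)} ≤ P ^ (2 * (ℓ - 1)) := by
    rw [Ideal.span_singleton_le_iff_mem, hu, pow_mul]
    exact Ideal.mul_mem_left _ _ (Ideal.pow_mem_pow hmem _)
  have hfin : FiniteMultiplicity P (span {(ℓ : 𝓞 F)}) := by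
    refine FiniteMultiplicity.of_not_isUnit ?_ ?_
    · rw [Ideal.isUnit_iff]
      exact hP.ne_top
    · rw [Ne, Ideal.zero_eq_bot, Ideal.span_singleton_eq_bot]
      exact hq0
  have h3 := hfin.le_multiplicity_of_pow_dvd (Ideal.dvd_iff_le.mpr hle)
  have := hq.out.two_le
  omega

end Fermat.Agent.S14.ThaineT9
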