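/-
S14 / K2 THAINE, package TF, sub-lemma (T) (helper95, for helper87 #1033):
in `F = K(ζ_q) = ℚ(ζ_{pq})`, for a prime `P` of `𝓞 F` containing `q`:
* `one_sub_toInteger_mem`        : `1 - ζ_q ∈ P`;
* `one_sub_toInteger_not_mem_sq` : `1 - ζ_q ∉ P ^ 2`.
Setting = variables of `ThaineField.lean`.  No placeholder proofs in this file.
-/
import Mathlib
import Fermat.Agent.S14.ThaineField

set_option autoImplicit false
set_option linter.unusedSectionVars false
set_option linter.style.haveILetI false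

namespace Fermat.Agent.S14.ThaineT95

open NumberField Ideal

variable {p q : ℕ} [hp : Fact p.Prime] [hq : Fact q.Prime]
  (K : Type) [Field K] [NumberField K] [IsCyclotomicExtension {p} ℚ K]
  (F : Type) [Field F] [NumberField F] [Algebra K F] [IsCyclotomicExtension {q} K F]

/-- generic: in a commutative ring, a prime ideal containing the prime number `q` contains `1 - μ`
for every `q`-th root of unity `μ`. -/
theorem one_sub_mem_of_pow_eq_one {R : Type*} [CommRing R] (P : Ideal R) [P.IsPrime]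
    (hqP : (q : R) ∈ P) {μ : R} (hμ : μ ^ q = 1) : 1 - μ ∈ P := by
  set S := R ⧸ P
  have hq0 : ((q : ℕ) : S) = 0 := by
    have : (Ideal.Quotient.mk P (q : R)) = 0 := Ideal.Quotient.eq_zero_iff_mem.mpr hqP
    simpa using this
  have hchar : ringChar S = q := CharP.ringChar_of_prime_eq_zero hq.out hq0
  haveI : CharP S q := by rw [← hchar]; exact ringChar.charP S
  have h1 : (1 - Ideal.Quotient.mk P μ) ^ q = 0 := by
    rw [sub_pow_char, one_pow, ← map_pow, hμ, map_one, sub_self]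
  have h2 : (1 - Ideal.Quotient.mk P μ) = 0 := by
    exact pow_eq_zero_iff (hq.out.ne_zero) |>.mp h1
  have h3 : Ideal.Quotient.mk P (1 - μ) = 0 := by
    rw [map_sub, map_one]; exact h2
  exact Ideal.Quotient.eq_zero_iff_mem.mp h3

/-- **(T1)** `1 - ζ_q ∈ P` for every prime `P ∋ q`. -/
theorem one_sub_toInteger_mem (P : Ideal (𝓞 F)) [P.IsPrime] (hqP : (q : 𝓞 F) ∈ P)
    {ζq : F} (hζq : IsPrimitiveRoot ζq q) :
    haveI : NeZero q := ⟨hq.out.ne_zero⟩
    1 - hζq.toInteger ∈ P := by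
  haveI : NeZero q := ⟨hq.out.ne_zero⟩
  exact one_sub_mem_of_pow_eq_one P hqP (hζq.toInteger_isPrimitiveRoot.pow_eq_one)

/-- `(1 - ζ_q)^(q-1)` divides `q` in `𝓞 F`. -/
theorem one_sub_pow_dvd {ζq : F} (hζq : IsPrimitiveRoot ζq q) :
    haveI : NeZero q := ⟨hq.out.ne_zero⟩
    (1 - hζq.toInteger) ^ (q - 1) ∣ (q : 𝓞 F) := by
  haveI : NeZero q := ⟨hq.out.ne_zero⟩
  obtain ⟨z, _, hz⟩ := IsPrimitiveRoot.self_sub_one_pow_dvd_order
    (Nat.sub_lt hq.out.pos Nat.one_pos) hζq.toInteger_isPrimitiveRoot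
  have h1 : (1 - hζq.toInteger) ∣ (hζq.toInteger - 1) := ⟨-1, by ring⟩
  exact (pow_dvd_pow_of_dvd h1 _).trans ⟨z, by rw [hz]; ring⟩

include K in
/-- a prime of `𝓞 F` containing `q` lies over `q ℤ`, with ramification index `q - 1`. -/
theorem ramificationIdx_int (hpq : p ≠ q) (P : Ideal (𝓞 F)) [P.IsPrime] (hqP : (q : 𝓞 F) ∈ P) :
    ∃ _ : P.LiesOver (span {(q : ℤ)}), P.ramificationIdx ℤ = q - 1 := by
  have hP0 : P ≠ ⊥ := by
    rintro rfl
    have : (q : 𝓞 F) = 0 := by simpa using hqP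
    exact hq.out.ne_zero (by exact_mod_cast this)
  haveI : NeZero P := ⟨hP0⟩
  have hℓ : (absNorm (under ℤ P)).Prime := Nat.absNorm_under_prime P
  have hPℓ : P.LiesOver (span {((absNorm (under ℤ P) : ℕ) : ℤ)}) := Int.liesOver_span_absNorm P
  have hd : ∀ d : ℕ, (d : 𝓞 F) ∈ P ↔ absNorm (under ℤ P) ∣ d := by
    intro d
    rw [← Int.cast_natCast, Int.cast_mem_ideal_iff, Int.natCast_dvd_natCast]
  have hℓq : absNorm (under ℤ P) = q :=
    (Nat.prime_dvd_prime_iff_eq hℓ hq.out).mp ((hd q).mp hqP)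
  rw [hℓq] at hPℓ
  refine ⟨hPℓ, ?_⟩
  have : NeZero (p * q) := ⟨Nat.mul_ne_zero hp.out.ne_zero hq.out.ne_zero⟩
  have : NeZero p := ⟨hp.out.ne_zero⟩
  have hF := Fermat.Agent.S14.Thaine.isCyclo_pq K F hpq
  have hndvd : ¬ q ∣ p := fun h => hpq ((Nat.prime_dvd_prime_iff_eq hq.out hp.out).mp h).symm
  have h1 : P.ramificationIdx ℤ = q ^ 0 * (q - 1) :=
    IsCyclotomicExtension.Rat.ramificationIdx_eq (p * q) F P (k := 0) (m := p)
      (by rw [zero_add, pow_one, mul_comm]) hndvd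
  rw [h1, pow_zero, one_mul]

include K in
/-- **(T2)** `1 - ζ_q ∉ P ^ 2` for every prime `P ∋ q`. -/
theorem one_sub_toInteger_not_mem_sq (hpq : p ≠ q) (P : Ideal (𝓞 F)) [P.IsPrime]
    (hqP : (q : 𝓞 F) ∈ P) {ζq : F} (hζq : IsPrimitiveRoot ζq q) :
    haveI : NeZero q := ⟨hq.out.ne_zero⟩
    1 - hζq.toInteger ∉ P ^ 2 := by
  haveI : NeZero q := ⟨hq.out.ne_zero⟩
  intro hmem
  obtain ⟨hPq, he⟩ := ramificationIdx_int K F hpq P hqP
  have hq0 : (q : 𝓞 F) ≠ 0 := by exact_mod_cast hq.out.ne_zero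
  have hmap : (span {(q : ℤ)}).map (algebraMap ℤ (𝓞 F)) = span {(q : 𝓞 F)} := by
    rw [Ideal.map_span, Set.image_singleton]
    simp
  have hmap0 : (span {(q : ℤ)}).map (algebraMap ℤ (𝓞 F)) ≠ ⊥ := by
    rw [hmap, Ne, Ideal.span_singleton_eq_bot]; exact hq0
  have hmult := Ideal.IsDedekindDomain.ramificationIdx_eq_multiplicity (span {(q : ℤ)}) P hmap0
  rw [he, hmap] at hmult
  -- `q ∈ P ^ (2 (q-1))`
  have hqmem : (q : 𝓞 F) ∈ P ^ (2 * (q - 1)) := by
    obtain ⟨c, hc⟩ := one_sub_pow_dvd F hζq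
    rw [hc, pow_mul]
    exact Ideal.mul_mem_right _ _ (Ideal.pow_mem_pow hmem _)
  have hdvd : P ^ (2 * (q - 1)) ∣ span {(q : 𝓞 F)} := by
    rw [Ideal.dvd_iff_le, Ideal.span_singleton_le_iff_mem]
    exact hqmem
  have hP0 : P ≠ ⊥ := by
    rintro rfl
    exact hq0 (by simpa using hqP)
  have hnu : ¬ IsUnit P := by
    rw [Ideal.isUnit_iff]; exact Ideal.IsPrime.ne_top'
  have hfin : FiniteMultiplicity P (span {(q : 𝓞 F)}) :=
    FiniteMultiplicity.of_not_isUnit hnu (by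
      rw [Ne, Ideal.zero_eq_bot, Ideal.span_singleton_eq_bot]; exact hq0)
  have hle := hfin.le_multiplicity_of_pow_dvd hdvd
  have h2 : 2 ≤ q := hq.out.two_le
  omega

end Fermat.Agent.S14.ThaineT95
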