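/-
S14 / K2 THAINE, input (T) of helper87's TF assembly (helper99): for a prime `P` of `𝓞 F`
(`F = K(ζ_q)`, `K = ℚ(ζ_p)`) above `q`:  `1 - ζ_q ∈ P` and `1 - ζ_q ∉ P ^ 2`.
Corollaries of helper33's `Thaine.emult_zeta_sub_one`.
-/
import Mathlib
import Fermat.Agent.S14.ThaineRam

set_option autoImplicit false

namespace Fermat.Agent.S14.ThaineT99

open NumberField Ideal

variable {p q : ℕ} [hp : Fact p.Prime] [hq : Fact q.Prime]
  (K : Type) [Field K] [NumberField K] [IsCyclotomicExtension {p} ℚ K]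
  (F : Type) [Field F] [NumberField F] [Algebra K F] [IsCyclotomicExtension {q} K F]

include K in
theorem zeta_sub_one_mem (hpq : p ≠ q) (P : Ideal (𝓞 F)) [P.IsPrime] (hqP : (q : 𝓞 F) ∈ P)
    {ζq : F} (hζq : IsPrimitiveRoot ζq q) : hζq.toInteger - 1 ∈ P := by
  have h := Thaine.emult_zeta_sub_one K F hpq P hqP hζq
  have h1 : P ∣ span {hζq.toInteger - 1} := by
    apply dvd_of_emultiplicity_pos
    rw [h]
    exact one_pos
  exact (Ideal.dvd_span_singleton).mp h1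

include K in
theorem one_sub_zeta_mem (hpq : p ≠ q) (P : Ideal (𝓞 F)) [P.IsPrime] (hqP : (q : 𝓞 F) ∈ P)
    {ζq : F} (hζq : IsPrimitiveRoot ζq q) : 1 - hζq.toInteger ∈ P := by
  have h := zeta_sub_one_mem K F hpq P hqP hζq
  rw [← neg_sub]
  exact P.neg_mem h

include K in
theorem zeta_sub_one_notMem_sq (hpq : p ≠ q) (P : Ideal (𝓞 F)) [P.IsPrime]
    (hqP : (q : 𝓞 F) ∈ P) {ζq : F} (hζq : IsPrimitiveRoot ζq q) :
    hζq.toInteger - 1 ∉ P ^ 2 := by
  intro hmem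
  have h := Thaine.emult_zeta_sub_one K F hpq P hqP hζq
  have h1 : P ^ 2 ∣ span {hζq.toInteger - 1} := (Ideal.dvd_span_singleton).mpr hmem
  have h2 := le_emultiplicity_of_pow_dvd h1
  rw [h] at h2
  norm_num at h2

include K in
theorem one_sub_zeta_notMem_sq (hpq : p ≠ q) (P : Ideal (𝓞 F)) [P.IsPrime]
    (hqP : (q : 𝓞 F) ∈ P) {ζq : F} (hζq : IsPrimitiveRoot ζq q) :
    1 - hζq.toInteger ∉ P ^ 2 := by
  intro hmem
  apply zeta_sub_one_notMem_sq K F hpq P hqP hζq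
  rw [← neg_sub]
  exact (P ^ 2).neg_mem hmem

end Fermat.Agent.S14.ThaineT99
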