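/-
S14 / K2 THAINE, package TF (helper87): assembly of `ExistsBetaStatement`.
No placeholder proofs in this file.
-/
import Mathlib
import Fermat.Agent.S14.ThaineIface
import Fermat.Agent.S14.ThaineField
import Fermat.Agent.S14.ThaineGen96
import Fermat.Agent.S14.ThaineB19
import Fermat.Agent.S14.Thaine55.Tame
import Fermat.Agent.S14.ThaineAux76
import Fermat.Agent.S14.ThaineRam87
import Fermat.Agent.S14.ThaineH87

set_option autoImplicit false
set_option linter.unusedSectionVars false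

namespace Fermat.Agent.S14.ThaineTF87

open NumberField Ideal UniqueFactorizationMonoid Fermat.Agent.S14

variable {p q : ℕ} [hp : Fact p.Prime] [hq : Fact q.Prime]
  (K : Type) [Field K] [NumberField K] [IsCyclotomicExtension {p} ℚ K]
  (F : Type) [Field F] [NumberField F] [Algebra K F] [IsCyclotomicExtension {q} K F]

/-- **(T1)** `1 - ζq` lies in every prime of `𝓞 F` above `q` (Frobenius). -/
theorem one_sub_zeta_mem {ζq : F} (hζq : IsPrimitiveRoot ζq q) (P : Ideal (𝓞 F)) [P.IsPrime]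
    (hqP : (q : 𝓞 F) ∈ P) :
    haveI : NeZero q := ⟨hq.out.ne_zero⟩; 1 - hζq.toInteger ∈ P := by
  have : NeZero q := ⟨hq.out.ne_zero⟩
  set μ := hζq.toInteger with hμ
  have hμq : μ ^ q = 1 := hζq.toInteger_isPrimitiveRoot.pow_eq_one
  obtain ⟨r, hr⟩ := exists_add_pow_prime_eq hq.out (μ - 1) 1
  rw [sub_add_cancel, hμq, one_pow] at hr
  have h1 : (μ - 1) ^ q = -((q : 𝓞 F) * ((μ - 1) * 1 * r)) := by
    linear_combination -hr
  have h2 : (μ - 1) ^ q ∈ P := by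
    rw [h1]
    exact P.neg_mem (P.mul_mem_right _ hqP)
  have h3 : μ - 1 ∈ P := Ideal.IsPrime.mem_of_pow_mem inferInstance q h2
  have : 1 - μ = -(μ - 1) := by ring
  rw [this]
  exact P.neg_mem h3

/-- **(T2)** `1 - ζq` is a uniformiser at every prime of `𝓞 F` above `q`. -/
theorem one_sub_zeta_notMem_sq (hF : IsCyclotomicExtension {p * q} ℚ F) (hpq : p ≠ q) {ζq : F}
    (hζq : IsPrimitiveRoot ζq q) (P : Ideal (𝓞 F)) [P.IsPrime] (hqP : (q : 𝓞 F) ∈ P) :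
    haveI : NeZero q := ⟨hq.out.ne_zero⟩; 1 - hζq.toInteger ∉ P ^ 2 := by
  have : NeZero q := ⟨hq.out.ne_zero⟩
  have : NeZero p := ⟨hp.out.ne_zero⟩
  set μ := hζq.toInteger with hμ
  intro hmem
  have hq0 : (q : 𝓞 F) ≠ 0 := Nat.cast_ne_zero.mpr hq.out.ne_zero
  have hP0 : P ≠ ⊥ := by
    rintro rfl
    exact hq0 (by simpa using hqP)
  -- the rational prime below `P` is `q`
  obtain ⟨ℓ, hℓ, hPℓ, hℓP, hd⟩ := ThaineRam87.exists_prime_liesOver F P hP0
  have hℓq : ℓ = q := (Nat.prime_dvd_prime_iff_eq hℓ hq.out).mp ((hd q).mp hqP)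
  subst hℓq
  have : NeZero (p * ℓ) := ⟨Nat.mul_ne_zero hp.out.ne_zero hq.out.ne_zero⟩
  have hndvd : ¬ ℓ ∣ p := fun h => hpq ((Nat.prime_dvd_prime_iff_eq hq.out hp.out).mp h).symm
  have h1 : P.ramificationIdx ℤ = ℓ ^ 0 * (ℓ - 1) :=
    IsCyclotomicExtension.Rat.ramificationIdx_eq (p * ℓ) F P (k := 0) (m := p)
      (by rw [zero_add, pow_one, mul_comm]) hndvd
  rw [pow_zero, one_mul] at h1
  -- `q ∈ P ^ (2 (q - 1))`
  obtain ⟨z, -, hz⟩ := IsPrimitiveRoot.self_sub_one_pow_dvd_order (k := ℓ - 1) (n := ℓ)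
    (Nat.sub_lt hq.out.pos one_pos) hζq.toInteger_isPrimitiveRoot
  have hmem' : μ - 1 ∈ P ^ 2 := by
    have : μ - 1 = -(1 - μ) := by ring
    rw [this]
    exact (P ^ 2).neg_mem hmem
  have hq2 : (ℓ : 𝓞 F) ∈ P ^ (2 * (ℓ - 1)) := by
    rw [hz, pow_mul]
    exact Ideal.mul_mem_left _ _ (Ideal.pow_mem_pow hmem' _)
  have hmap : (span {(ℓ : ℤ)}).map (algebraMap ℤ (𝓞 F)) = span {(ℓ : 𝓞 F)} := by
    rw [Ideal.map_span, Set.image_singleton, eq_intCast, Int.cast_natCast]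
  have hmap0 : (span {(ℓ : ℤ)}).map (algebraMap ℤ (𝓞 F)) ≠ ⊥ := by
    rw [hmap, Ne, Ideal.span_singleton_eq_bot]
    exact hq0
  have h2 := Ideal.IsDedekindDomain.ramificationIdx_eq_multiplicity (span {(ℓ : ℤ)}) P hmap0
  have hprime : Prime P := Ideal.prime_of_isPrime hP0 inferInstance
  have hfin : FiniteMultiplicity P ((span {(ℓ : ℤ)}).map (algebraMap ℤ (𝓞 F))) :=
    FiniteMultiplicity.of_not_isUnit hprime.not_isUnit hmap0
  have hdvd : P ^ (2 * (ℓ - 1)) ∣ (span {(ℓ : ℤ)}).map (algebraMap ℤ (𝓞 F)) := by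
    rw [hmap, Ideal.dvd_span_singleton]
    exact hq2
  have hle := hfin.le_multiplicity_of_pow_dvd hdvd
  rw [← h2, h1] at hle
  have := hq.out.two_le
  omega

/-- The Thaine element, from the uniformiser facts (T). -/
theorem isThaineElt_of_uniformiser (hpq : p ≠ q) (hqp : q % p = 1) {ζ : K}
    (hζ : IsPrimitiveRoot ζ p) {ζq : F} (hζq : IsPrimitiveRoot ζq q)
    (hT1 : ∀ (P : Ideal (𝓞 F)) [P.IsPrime], (q : 𝓞 F) ∈ P →
      haveI : NeZero q := ⟨hq.out.ne_zero⟩; 1 - hζq.toInteger ∈ P)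
    (hT2 : ∀ (P : Ideal (𝓞 F)) [P.IsPrime], (q : 𝓞 F) ∈ P →
      haveI : NeZero q := ⟨hq.out.ne_zero⟩; 1 - hζq.toInteger ∉ P ^ 2) :
    ∃ (β : 𝓞 K) (s : ℕ), Thaine.IsThaineElt p K hζ.toInteger q β s := by
  have : NeZero q := ⟨hq.out.ne_zero⟩
  have : NeZero p := ⟨hp.out.ne_zero⟩
  have : IsGalois K F := IsCyclotomicExtension.isGalois {q} K F
  obtain ⟨τ, s, γ, hγ0, hτζ, hγ, hinv⟩ := ThaineH87.exists_gamma K F hpq hqp hζ hζq
  have hfr : Module.finrank K F = q - 1 := Thaine.finrank_KF K F hpq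
  have hpdvd : p ∣ q - 1 := (Nat.modEq_iff_dvd' hq.out.one_lt.le).mp
    (by rw [Nat.ModEq, hqp, Nat.mod_eq_of_lt hp.out.one_lt])
  refine ⟨Algebra.intNorm (𝓞 K) (𝓞 F) γ, s, ?_, ?_, ?_⟩
  · rwa [Ne, Algebra.intNorm_eq_zero]
  · intro 𝔮 _ h𝔮0 hp𝔮 hq𝔮
    obtain ⟨⟨P, hPprime, hPover⟩⟩ := Ideal.nonempty_primesOver (S := 𝓞 F) 𝔮
    have h1 := ThaineGen96.finrank_dvd_count_of_unramified γ hγ0 hinv 𝔮 P h𝔮0
      (ThaineRam87.count_map_of_notMem K F hpq 𝔮 h𝔮0 P hp𝔮 hq𝔮)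
    rw [hfr] at h1
    exact dvd_trans hpdvd h1
  · intro Q' _ hqQ'
    have hQ'0 : Q' ≠ ⊥ := by
      rintro rfl
      rw [Ideal.mem_bot, Nat.cast_eq_zero] at hqQ'
      exact hq.out.ne_zero hqQ'
    obtain ⟨⟨P, hPprime, hPover⟩⟩ := Ideal.nonempty_primesOver (S := 𝓞 F) Q'
    have hP0 : P ≠ ⊥ := ThaineRam87.ne_bot_of_liesOver K F Q' hQ'0 P
    have hqP : (q : 𝓞 F) ∈ P := (ThaineRam87.natCast_mem_iff K F Q' P q).mpr hqQ'
    -- the valuations agree
    have hc := ThaineGen96.count_mul_count γ hγ0 hinv Q' P hQ'0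
    rw [ThaineRam87.count_map_of_mem K F hpq Q' hQ'0 P hqQ'] at hc
    have hcount := Nat.eq_of_mul_eq_mul_left Module.finrank_pos hc
    obtain ⟨r, hr1, hr2⟩ := Thaine55.exists_mem_pow_not_mem_pow_succ hP0 hγ0
    have hcr : (normalizedFactors (Ideal.span {γ})).count P = r :=
      ThaineB19.count_factors_span_eq hr1 hr2
    rw [hcount, hcr]
    -- the tame character
    have hπ := hT1 P hqP
    have hπ2 := hT2 P hqP
    have hτ' : ∀ x, (galRestrict (𝓞 K) K F (𝓞 F) τ).toRingEquiv x - x ∈ P := fun x =>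
      ((Ideal.span_singleton_le_iff_mem P).mpr hπ)
        (ThaineAux76.galRestrict_sub_mem_span K F hpq hζ hζq τ x)
    have hw : (galRestrict (𝓞 K) K F (𝓞 F) τ).toRingEquiv (1 - hζq.toInteger) =
        (1 - hζq.toInteger) * ∑ i ∈ Finset.range s, hζq.toInteger ^ i :=
      ThaineAux76.galRestrict_one_sub_toInteger K F hζq τ hτζ
    have hs : (∑ i ∈ Finset.range s, hζq.toInteger ^ i) - (s : 𝓞 F) ∈ P :=
      ((Ideal.span_singleton_le_iff_mem P).mpr hπ)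
        (ThaineAux76.geom_sum_sub_natCast_mem_span hζq.toInteger s)
    have key := Thaine55.tame_character' hP0 (galRestrict (𝓞 K) K F (𝓞 F) τ).toRingEquiv hτ'
      hπ hπ2 hw hs (γ := γ) (ε := ThaineH87.epsInt K F hζ hζq) hγ hr1 hr2
    -- descend to `Q'`
    rw [hPover.over, Ideal.under_def, Ideal.mem_comap]
    have e : algebraMap (𝓞 K) (𝓞 F) ((1 - hζ.toInteger) * (s : 𝓞 K) ^ r - 1) =
        (ThaineH87.epsInt K F hζ hζq * (s : 𝓞 F) ^ r - 1) -
          algebraMap (𝓞 K) (𝓞 F) hζ.toInteger * (s : 𝓞 F) ^ r * (1 - hζq.toInteger) := by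
      simp only [map_sub, map_mul, map_one, map_pow, map_natCast, ThaineH87.epsInt]
      ring
    rw [e]
    exact P.sub_mem key (P.mul_mem_left _ hπ)

/-- The Thaine element in the field `F`. -/
theorem isThaineElt (hpq : p ≠ q) (hqp : q % p = 1) {ζ : K}
    (hζ : IsPrimitiveRoot ζ p) {ζq : F} (hζq : IsPrimitiveRoot ζq q) :
    ∃ (β : 𝓞 K) (s : ℕ), Thaine.IsThaineElt p K hζ.toInteger q β s :=
  isThaineElt_of_uniformiser K F hpq hqp hζ hζq
    (fun P _ hqP => one_sub_zeta_mem F hζq P hqP)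
    (fun P _ hqP => one_sub_zeta_notMem_sq F (Thaine.isCyclo_pq K F hpq) hpq hζq P hqP)

end Fermat.Agent.S14.ThaineTF87

namespace Fermat.Agent.S14.ThaineTF87

open NumberField

/-- **TF.** `ExistsBetaStatement` of `ThaineIface.lean`. -/
theorem existsBeta (p : ℕ) [hp : Fact p.Prime] (K : Type) [Field K] [NumberField K]
    [IsCyclotomicExtension {p} ℚ K] : Fermat.Agent.S14.Thaine.ExistsBetaStatement p K := by
  intro _ ζ hζ q hqprime hqp hq1
  have : Fact q.Prime := ⟨hqprime⟩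
  have : NeZero q := ⟨hqprime.ne_zero⟩
  exact isThaineElt K (CyclotomicField q K) (Ne.symm hqp) hq1 hζ
    (IsCyclotomicExtension.zeta_spec q K (CyclotomicField q K))

end Fermat.Agent.S14.ThaineTF87
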