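/-
S14, package K2 (THAINE), part (T-b): GENERIC valuation lemmas (helper54).  Mathlib only.

* `tame_character`: `P` a nonzero prime of a Dedekind domain `B`, `τ` acting trivially on `B ⧸ P`,
  `π` a uniformiser with `τ π ≡ s π mod P²`; if `τ γ = ε γ` and `v_P(γ) = r` then `ε ≡ s ^ r mod P`.
* `ramificationIdx_mul_multiplicity`: if `(a) B = (γ)^n` then `e(P|𝔯) · v_𝔯(a) = n · v_P(γ)`.
* `exists_pow_mul_prod`: an ideal all of whose multiplicities outside a finite set `T` are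
  divisible by `n` is `𝔟 ^ n * ∏_{𝔮 ∈ T} 𝔮 ^ v_𝔮`.
* `associated_algebraMap_norm`: for `F/K` Galois and `(γ)` Galois invariant, `(N γ) 𝓞_F = (γ)^[F:K]`.
* `exists_norm_factorization`: the combination used in Thaine's relation.
No placeholder proofs in this file.
-/
import Mathlib

set_option autoImplicit false
set_option linter.unusedSectionVars false
set_option linter.style.haveILetI false

namespace Fermat.Agent.S14.ThaineVal54

open Ideal UniqueFactorizationMonoid NumberField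



section Tame

variable {B : Type*} [CommRing B] [IsDedekindDomain B]

/-- a ring endomorphism acting trivially on `B ⧸ P` maps `P ^ k` into `P ^ k`. -/
theorem map_mem_pow {P : Ideal B} (τ : B →+* B) (hτ : ∀ b : B, τ b - b ∈ P) (k : ℕ) {x : B}
    (hx : x ∈ P ^ k) : τ x ∈ P ^ k := by
  have hP : Ideal.map τ P ≤ P := by
    rw [Ideal.map_le_iff_le_comap]
    intro b hb
    rw [Ideal.mem_comap]
    have := P.add_mem (hτ b) hb
    simpa using this
  have h1 : τ x ∈ Ideal.map τ (P ^ k) := Ideal.mem_map_of_mem τ hx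
  rw [Ideal.map_pow] at h1
  exact Ideal.pow_right_mono hP k h1

/-- `(τ π)^r ≡ (s π)^r mod P^(r+1)` when `τ π ≡ s π mod P^2`. -/
theorem pow_sub_pow_mem {P : Ideal B} {x y : B} (hx : x ∈ P) (hy : y ∈ P) (hxy : x - y ∈ P ^ 2)
    (r : ℕ) : x ^ r - y ^ r ∈ P ^ (r + 1) := by
  induction r with
  | zero => simp
  | succ r ih =>
    have h1 : x ^ (r + 1) - y ^ (r + 1) = x * (x ^ r - y ^ r) + (x - y) * y ^ r := by ring
    rw [h1]
    refine (P ^ (r + 1 + 1)).add_mem ?_ ?_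
    · have : x * (x ^ r - y ^ r) ∈ P * P ^ (r + 1) := Ideal.mul_mem_mul hx ih
      rwa [← pow_succ'] at this
    · have : (x - y) * y ^ r ∈ P ^ 2 * P ^ r := Ideal.mul_mem_mul hxy (Ideal.pow_mem_pow hy r)
      rw [← pow_add] at this
      have h2 : 2 + r = r + 1 + 1 := by ring
      rwa [h2] at this

/-- a uniformiser power is not in the next power -/
theorem pow_not_mem_pow_succ {P : Ideal B} [P.IsPrime] (hP : P ≠ ⊥) {π : B} (hπ2 : π ∉ P ^ 2)
    (r : ℕ) : π ^ r ∉ P ^ (r + 1) := by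
  induction r with
  | zero =>
    simp only [pow_zero, zero_add, pow_one]
    exact fun h => (Ideal.IsPrime.ne_top inferInstance) ((Ideal.eq_top_iff_one P).mpr h)
  | succ r ih =>
    intro h
    -- π^r * π ∈ P^(r+2); π^r ∉ P^(r+1)
    by_cases hπ : π ∈ P
    · -- write things with multiplicities
      have hprime : Prime P := Ideal.prime_of_isPrime hP inferInstance
      have h1 : P ^ (r + 1 + 1) ∣ Ideal.span {π} ^ (r + 1) := by
        rw [Ideal.span_singleton_pow, Ideal.dvd_span_singleton]; exact h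
      have h2 : emultiplicity P (Ideal.span {π}) = 1 := by
        rw [show (1 : ℕ∞) = ((1 : ℕ) : ℕ∞) from rfl, emultiplicity_eq_coe]
        constructor
        · rw [pow_one, Ideal.dvd_span_singleton]; exact hπ
        · rw [Ideal.dvd_span_singleton]; exact hπ2
      have h3 := (pow_dvd_iff_le_emultiplicity).mp h1
      rw [emultiplicity_pow hprime, h2, mul_one] at h3
      have : ((r + 1 + 1 : ℕ) : ℕ∞) ≤ ((r + 1 : ℕ) : ℕ∞) := h3
      rw [Nat.cast_le] at this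
      omega
    · have : π ^ (r + 1) ∈ P := Ideal.pow_le_self (by omega) h
      exact hπ (Ideal.IsPrime.mem_of_pow_mem inferInstance _ this)

/-- **Tame character.** `P` a nonzero prime of a Dedekind domain `B`, `τ` a ring endomorphism acting
trivially on `B ⧸ P`, `π` a uniformiser with `τ π ≡ s π mod P^2`.  If `τ γ = ε γ` and `γ` has exact
`P`-adic valuation `r`, then `ε ≡ s ^ r mod P`. -/
theorem tame_character {P : Ideal B} [P.IsPrime] (hP : P ≠ ⊥)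
    (τ : B →+* B) (hτ : ∀ b : B, τ b - b ∈ P)
    {π s : B} (hπ : π ∈ P) (hπ2 : π ∉ P ^ 2) (hs : τ π - s * π ∈ P ^ 2)
    {γ ε : B} {r : ℕ} (hγ : γ ∈ P ^ r) (hγ' : γ ∉ P ^ (r + 1)) (hε : τ γ = ε * γ) :
    ε - s ^ r ∈ P := by
  have hπr : π ^ r ∈ P ^ r := Ideal.pow_mem_pow hπ r
  have hπr' : π ^ r ∉ P ^ (r + 1) := pow_not_mem_pow_succ hP hπ2 r
  obtain ⟨b, δ, hδ, hbδ⟩ := Ideal.exists_mul_add_mem_pow_succ hP (π ^ r) γ hπr hπr' hγ
  -- τ γ ≡ s^r π^r b
  have hτπ : τ π ∈ P := by simpa using map_mem_pow τ hτ 1 (by simpa using hπ)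
  have hsπ : s * π ∈ P := P.mul_mem_left s hπ
  have h1 : (τ π) ^ r - (s * π) ^ r ∈ P ^ (r + 1) := pow_sub_pow_mem hτπ hsπ hs r
  have hτδ : τ δ ∈ P ^ (r + 1) := map_mem_pow τ hτ (r + 1) hδ
  have hτb : τ b - b ∈ P := hτ b
  have hτπr : (τ π) ^ r ∈ P ^ r := Ideal.pow_mem_pow hτπ r
  have key : τ γ - s ^ r * (π ^ r * b) ∈ P ^ (r + 1) := by
    have e : τ γ - s ^ r * (π ^ r * b)
        = ((τ π) ^ r - (s * π) ^ r) * b + (τ π) ^ r * (τ b - b) + τ δ := by
      rw [← hbδ]; simp only [map_add, map_mul, map_pow]; ring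
    rw [e]
    refine (P ^ (r + 1)).add_mem ((P ^ (r + 1)).add_mem ?_ ?_) hτδ
    · exact (P ^ (r + 1)).mul_mem_right b h1
    · have := Ideal.mul_mem_mul hτπr hτb
      rwa [← pow_succ] at this
  have key2 : ε * γ - ε * (π ^ r * b) ∈ P ^ (r + 1) := by
    have e : ε * γ - ε * (π ^ r * b) = ε * δ := by rw [← hbδ]; ring
    rw [e]; exact (P ^ (r + 1)).mul_mem_left ε hδ
  have key3 : (π ^ r * b) * (ε - s ^ r) ∈ P ^ (r + 1) := by
    have e : (π ^ r * b) * (ε - s ^ r)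
        = (τ γ - s ^ r * (π ^ r * b)) - (ε * γ - ε * (π ^ r * b)) := by rw [hε]; ring
    rw [e]; exact (P ^ (r + 1)).sub_mem key key2
  have hnot : π ^ r * b ∉ P ^ (r + 1) := by
    intro h
    apply hγ'
    rw [← hbδ]
    exact (P ^ (r + 1)).add_mem h hδ
  exact Ideal.mem_prime_of_mul_mem_pow hP hnot key3

end Tame




section Aux

variable {B : Type*} [CommRing B] [IsDedekindDomain B]

theorem mem_pow_multiplicity (P : Ideal B) (γ : B) :
    γ ∈ P ^ multiplicity P (Ideal.span {γ}) := by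
  rw [← Ideal.dvd_span_singleton]
  exact pow_multiplicity_dvd _ _

theorem not_mem_pow_succ_multiplicity {P : Ideal B} [hPp : P.IsPrime] (hP : P ≠ ⊥) {γ : B}
    (hγ : γ ≠ 0) : γ ∉ P ^ (multiplicity P (Ideal.span {γ}) + 1) := by
  have hprimeP : Prime P := Ideal.prime_of_isPrime hP hPp
  have hIγ : Ideal.span {γ} ≠ ⊥ := by simpa using hγ
  rw [← Ideal.dvd_span_singleton]
  exact (FiniteMultiplicity.of_prime_left hprimeP hIγ).not_pow_dvd_of_multiplicity_lt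
    (Nat.lt_succ_self _)

variable {A : Type*} [CommRing A] [Algebra A B]

/-- if the residue extension at `P` is trivial, an `A`-automorphism stabilising `P` acts trivially
on `B ⧸ P`. -/
theorem sub_mem_of_surjective {P : Ideal B}
    (hsurj : Function.Surjective ((Ideal.Quotient.mk P).comp (algebraMap A B)))
    (τ : B →ₐ[A] B) (hτP : ∀ x ∈ P, τ x ∈ P) (b : B) : τ b - b ∈ P := by
  obtain ⟨a, ha⟩ := hsurj (Ideal.Quotient.mk P b)
  have h1 : algebraMap A B a - b ∈ P := by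
    rw [← Ideal.Quotient.eq]; exact ha
  have h2 : τ (algebraMap A B a - b) ∈ P := hτP _ h1
  have e : τ b - b = (algebraMap A B a - b) - τ (algebraMap A B a - b) := by
    rw [map_sub, AlgHom.commutes]; ring
  rw [e]; exact P.sub_mem h1 h2

end Aux

section Inertia

variable {A B : Type*} [CommRing A] [CommRing B] [Algebra A B]

theorem surjective_of_inertiaDeg_eq_one (𝔮 : Ideal A) [𝔮.IsMaximal] (P : Ideal B) [P.IsMaximal]
    [P.LiesOver 𝔮] (hf : P.inertiaDeg A = 1) :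
    Function.Surjective ((Ideal.Quotient.mk P).comp (algebraMap A B)) := by
  let _ : Field (A ⧸ 𝔮) := Ideal.Quotient.field 𝔮
  let _ : Field (B ⧸ P) := Ideal.Quotient.field P
  rw [Ideal.inertiaDeg_eq_of_isMaximal 𝔮 P] at hf
  have h1 : Function.Surjective (algebraMap (A ⧸ 𝔮) (B ⧸ P)) := by
    rw [Algebra.surjective_algebraMap_iff]
    exact (Subalgebra.bot_eq_top_of_finrank_eq_one hf).symm
  intro y
  obtain ⟨x, rfl⟩ := h1 y
  obtain ⟨a, rfl⟩ := Ideal.Quotient.mk_surjective x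
  exact ⟨a, rfl⟩

end Inertia




section Norm

variable {A B : Type*} [CommRing A] [IsDedekindDomain A] [CommRing B] [IsDedekindDomain B]
  [Algebra A B] [Module.IsTorsionFree A B]

/-- **V1/V2.** If `(a) B = (γ)^n` (e.g. `a = N γ` with `(γ)` Galois-invariant, `n = [F:K]`), then for
primes `P ∣ 𝔯`: `e(P|𝔯) · v_𝔯(a) = n · v_P(γ)`. -/
theorem ramificationIdx_mul_multiplicity {a : A} (ha : a ≠ 0) {γ : B} (hγ : γ ≠ 0) {n : ℕ}
    (h : Associated (algebraMap A B a) (γ ^ n))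
    (𝔯 : Ideal A) [𝔯.IsPrime] (h𝔯 : 𝔯 ≠ ⊥) (P : Ideal B) [P.IsPrime] (hP : P ≠ ⊥) [P.LiesOver 𝔯] :
    P.ramificationIdx A * multiplicity 𝔯 (Ideal.span {a}) = n * multiplicity P (Ideal.span {γ}) := by
  have hprimeP : Prime P := Ideal.prime_of_isPrime hP inferInstance
  have hprime𝔯 : Prime 𝔯 := Ideal.prime_of_isPrime h𝔯 inferInstance
  have hIa : Ideal.span {a} ≠ ⊥ := by simpa using ha
  have hIγ : Ideal.span {γ} ≠ ⊥ := by simpa using hγ
  have hmap : (Ideal.span {a}).map (algebraMap A B) = Ideal.span {γ} ^ n := by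
    rw [Ideal.map_span, Set.image_singleton, Ideal.span_singleton_pow]
    exact Ideal.span_singleton_eq_span_singleton.mpr h
  have hmapne : (𝔯.map (algebraMap A B)) ≠ ⊥ := Ideal.map_ne_bot_of_ne_bot h𝔯
  have h1 := Ideal.IsDedekindDomain.emultiplicity_map_eq_ramificationIdx'_mul (R := A) (S := B)
    (v := 𝔯) (w := P) hIa hprime𝔯.irreducible hprimeP.irreducible hP
  have h2 : 𝔯.ramificationIdx' P = P.ramificationIdx A :=
    Ideal.ramificationIdx'_eq_ramificationIdx' (p := 𝔯) (q := P) hmapne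
  rw [hmap, emultiplicity_pow hprimeP, h2,
    (FiniteMultiplicity.of_prime_left hprimeP hIγ).emultiplicity_eq_multiplicity,
    (FiniteMultiplicity.of_prime_left hprime𝔯 hIa).emultiplicity_eq_multiplicity] at h1
  exact_mod_cast h1.symm

end Norm




section Factor

variable {A : Type*} [CommRing A] [IsDedekindDomain A]

theorem multiplicity_eq_count {J : Ideal A} (hJ : J ≠ ⊥) {𝔯 : Ideal A} (h𝔯p : 𝔯.IsPrime)
    (h𝔯 : 𝔯 ≠ ⊥) : multiplicity 𝔯 J = (normalizedFactors J).count 𝔯 := by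
  classical
  have hprime : Prime 𝔯 := Ideal.prime_of_isPrime h𝔯 h𝔯p
  have h1 := emultiplicity_eq_count_normalizedFactors hprime.irreducible hJ
  rw [normalize_eq] at h1
  exact multiplicity_eq_of_emultiplicity_eq_some h1

/-- **V4.** If all multiplicities of `J` outside a finite set `T` of primes are divisible by `n`,
then `J = 𝔟 ^ n * ∏_{𝔮 ∈ T} 𝔮 ^ v_𝔮(J)`. -/
theorem exists_pow_mul_prod {J : Ideal A} (hJ : J ≠ ⊥) {n : ℕ}
    (T : Finset (Ideal A)) (hT : ∀ 𝔮 ∈ T, 𝔮.IsPrime ∧ 𝔮 ≠ ⊥)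
    (h : ∀ 𝔯 : Ideal A, 𝔯.IsPrime → 𝔯 ≠ ⊥ → 𝔯 ∉ T → n ∣ multiplicity 𝔯 J) :
    ∃ 𝔟 : Ideal A, 𝔟 ≠ ⊥ ∧ J = 𝔟 ^ n * ∏ 𝔮 ∈ T, 𝔮 ^ multiplicity 𝔮 J := by
  classical
  set f := normalizedFactors J with hf
  have hprod : f.prod = J := Ideal.prod_normalizedFactors_eq_self hJ
  have hmem : ∀ 𝔯 ∈ f, 𝔯.IsPrime ∧ 𝔯 ≠ ⊥ := fun 𝔯 h𝔯 =>
    ⟨Ideal.isPrime_of_prime (prime_of_normalized_factor 𝔯 h𝔯),
      (prime_of_normalized_factor 𝔯 h𝔯).ne_zero⟩
  set g := f.filter (fun 𝔯 => 𝔯 ∉ T) with hg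
  set t := f.filter (fun 𝔯 => 𝔯 ∈ T) with ht
  have hsplit : f = t + g := (Multiset.filter_add_not _ f).symm
  refine ⟨∏ 𝔯 ∈ g.toFinset, 𝔯 ^ (g.count 𝔯 / n), ?_, ?_⟩
  · rw [← Ideal.zero_eq_bot, Finset.prod_ne_zero_iff]
    intro 𝔯 h𝔯
    rw [Multiset.mem_toFinset, hg, Multiset.mem_filter] at h𝔯
    exact pow_ne_zero _ (hmem 𝔯 h𝔯.1).2
  · have h1 : (∏ 𝔯 ∈ g.toFinset, 𝔯 ^ (g.count 𝔯 / n)) ^ n = g.prod := by
      rw [Finset.prod_multiset_count g, ← Finset.prod_pow]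
      refine Finset.prod_congr rfl fun 𝔯 h𝔯 => ?_
      rw [Multiset.mem_toFinset, hg, Multiset.mem_filter] at h𝔯
      rw [← pow_mul]
      congr 1
      have hc : g.count 𝔯 = f.count 𝔯 := by
        rw [hg]; exact Multiset.count_filter_of_pos (p := fun 𝔯 => 𝔯 ∉ T) h𝔯.2
      have hdiv : n ∣ f.count 𝔯 := by
        rw [← multiplicity_eq_count hJ (hmem 𝔯 h𝔯.1).1 (hmem 𝔯 h𝔯.1).2]
        exact h 𝔯 (hmem 𝔯 h𝔯.1).1 (hmem 𝔯 h𝔯.1).2 h𝔯.2
      rw [hc]
      exact Nat.div_mul_cancel hdiv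
    have h2 : ∏ 𝔮 ∈ T, 𝔮 ^ multiplicity 𝔮 J = t.prod := by
      have hsub : t.toFinset ⊆ T := by
        intro 𝔮 h𝔮
        rw [Multiset.mem_toFinset, ht, Multiset.mem_filter] at h𝔮
        exact h𝔮.2
      rw [Finset.prod_multiset_count_of_subset t T hsub]
      refine Finset.prod_congr rfl fun 𝔮 h𝔮 => ?_
      congr 1
      rw [multiplicity_eq_count hJ (hT 𝔮 h𝔮).1 (hT 𝔮 h𝔮).2, ht]
      exact (Multiset.count_filter_of_pos (p := fun 𝔯 => 𝔯 ∈ T) h𝔮).symm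
    rw [h1, h2, ← hprod, hsplit, Multiset.prod_add, mul_comm]

end Factor




section NF

variable {K F : Type*} [Field K] [Field F] [Algebra K F] [FiniteDimensional K F] [IsGalois K F]

/-- **V0.** If every Galois conjugate of `γ` is a unit multiple of `γ`, then
`(N_{F/K} γ) 𝓞_F = (γ)^[F:K]`. -/
theorem associated_algebraMap_norm (γ : 𝓞 F)
    (h : ∀ σ : F ≃ₐ[K] F, ∃ u : (𝓞 F)ˣ, σ (γ : F) = ((u : 𝓞 F) : F) * (γ : F)) :
    Associated (algebraMap (𝓞 K) (𝓞 F) (RingOfIntegers.norm K γ)) (γ ^ Module.finrank K F) := by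
  classical
  choose u hu using h
  have key : algebraMap (𝓞 K) (𝓞 F) (RingOfIntegers.norm K γ)
      = ((∏ σ : F ≃ₐ[K] F, u σ : (𝓞 F)ˣ) : 𝓞 F) * γ ^ Module.finrank K F := by
    apply RingOfIntegers.ext
    rw [RingOfIntegers.coe_algebraMap_norm K γ, Algebra.norm_eq_prod_automorphisms]
    simp only [hu, Finset.prod_mul_distrib, Finset.prod_const, Finset.card_univ, map_mul, map_pow,
      Units.coe_prod, map_prod]
    rw [← Nat.card_eq_fintype_card, IsGalois.card_aut_eq_finrank]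
  rw [key]
  exact (associated_unit_mul_left _ _ (Units.isUnit _))

end NF


section Combined

variable {K F : Type*} [Field K] [NumberField K] [Field F] [NumberField F] [Algebra K F]
  [FiniteDimensional K F] [IsGalois K F]

/-- **Thaine, valuation part.** `F/K` Galois extension of number fields of degree `n`, `γ ∈ 𝓞_F`
nonzero with Galois-invariant principal ideal.  `T` a finite set of primes of `K`, each with a
chosen prime `PT 𝔮` above it of ramification index `n` (totally ramified), all other primes of `K`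
having an unramified prime above them.  Then `(N γ) = 𝔟 ^ n * ∏_{𝔮 ∈ T} 𝔮 ^ v_{PT 𝔮}(γ)`. -/
theorem exists_norm_factorization (γ : 𝓞 F) (hγ0 : γ ≠ 0)
    (hinv : ∀ σ : F ≃ₐ[K] F, ∃ u : (𝓞 F)ˣ, σ (γ : F) = ((u : 𝓞 F) : F) * (γ : F))
    (T : Finset (Ideal (𝓞 K))) (PT : Ideal (𝓞 K) → Ideal (𝓞 F))
    (hT : ∀ 𝔮 ∈ T, 𝔮.IsPrime ∧ 𝔮 ≠ ⊥ ∧ (PT 𝔮).IsPrime ∧ (PT 𝔮).LiesOver 𝔮 ∧
        (PT 𝔮).ramificationIdx (𝓞 K) = Module.finrank K F)
    (hunr : ∀ 𝔯 : Ideal (𝓞 K), 𝔯.IsPrime → 𝔯 ≠ ⊥ → 𝔯 ∉ T →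
        ∃ P : Ideal (𝓞 F), P.IsPrime ∧ P.LiesOver 𝔯 ∧ P.ramificationIdx (𝓞 K) = 1) :
    ∃ 𝔟 : Ideal (𝓞 K), 𝔟 ≠ ⊥ ∧
      Ideal.span {RingOfIntegers.norm K γ} =
        𝔟 ^ Module.finrank K F * ∏ 𝔮 ∈ T, 𝔮 ^ multiplicity (PT 𝔮) (Ideal.span {γ}) := by
  classical
  set n := Module.finrank K F with hn
  have hn0 : n ≠ 0 := Module.finrank_pos.ne'
  set a := RingOfIntegers.norm K γ with ha
  have hass := associated_algebraMap_norm (K := K) γ hinv
  have ha0 : a ≠ 0 := by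
    intro h0
    rw [← ha, h0, map_zero] at hass
    have := hass.symm.eq_zero_iff.mpr rfl
    exact hγ0 (pow_eq_zero_iff hn0 |>.mp this)
  have hJ : Ideal.span {a} ≠ ⊥ := by simpa using ha0
  have key : ∀ (𝔯 : Ideal (𝓞 K)) (P : Ideal (𝓞 F)), 𝔯.IsPrime → 𝔯 ≠ ⊥ → P.IsPrime →
      P.LiesOver 𝔯 →
      P.ramificationIdx (𝓞 K) * multiplicity 𝔯 (Ideal.span {a})
        = n * multiplicity P (Ideal.span {γ}) := by
    intro 𝔯 P h1 h2 h3 h4
    have hP0 : P ≠ ⊥ := Ideal.ne_bot_of_liesOver_of_ne_bot h2 P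
    exact ramificationIdx_mul_multiplicity ha0 hγ0 hass 𝔯 h2 P hP0
  obtain ⟨𝔟, h𝔟, hfac⟩ := exists_pow_mul_prod hJ (n := n) T
    (fun 𝔮 h𝔮 => ⟨(hT 𝔮 h𝔮).1, (hT 𝔮 h𝔮).2.1⟩)
    (by
      intro 𝔯 h1 h2 h3
      obtain ⟨P, hP1, hP2, hP3⟩ := hunr 𝔯 h1 h2 h3
      have := key 𝔯 P h1 h2 hP1 hP2
      rw [hP3, one_mul] at this
      exact ⟨_, this⟩)
  refine ⟨𝔟, h𝔟, ?_⟩
  rw [hfac]
  congr 1
  refine Finset.prod_congr rfl fun 𝔮 h𝔮 => ?_
  congr 1
  obtain ⟨h1, h2, h3, h4, h5⟩ := hT 𝔮 h𝔮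
  have := key 𝔮 (PT 𝔮) h1 h2 h3 h4
  rw [h5] at this
  exact Nat.eq_of_mul_eq_mul_left (Nat.pos_of_ne_zero hn0) this

end Combined

end Fermat.Agent.S14.ThaineVal54
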