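/-
S14 (Ext vanishing), package UNFOLD-R1 (helper97): from the number-field statement `NoExt p`
("`ℚ(ζ_p)` has no everywhere-unramified cyclic degree-`p` extension, Galois over `ℚ`, on whose
Galois group `Gal(ℚ(ζ_p)/ℚ)` acts through `ω⁻¹`") to the statement `Core p` of `Reduce.lean`.
-/
import Fermat.Agent.S14.Reduce
import Fermat.Agent.Lib.InertiaGenerate
import Mathlib.FieldTheory.Galois.Infinite
import Mathlib.NumberTheory.Cyclotomic.Basic
import Mathlib.NumberTheory.NumberField.Basic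

set_option autoImplicit false
set_option linter.unusedSectionVars false

namespace Fermat.Agent.S14

open ExtCitation ValuationSubring IntermediateField NumberField

/-- `ℚ̄` -/
abbrev Qbar : Type := AlgebraicClosure ℚ

variable (p : ℕ) [Fact p.Prime]

theorem neZero_of_fact97 : NeZero p := ⟨(Fact.out : p.Prime).ne_zero⟩

attribute [local instance] neZero_of_fact97

theorem exists_primitiveRoot_Qbar : ∃ ζ : Qbar, IsPrimitiveRoot ζ p :=
  HasEnoughRootsOfUnity.exists_primitiveRoot Qbar p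

variable {p}

theorem cycloChar_spec (g : GQ) {ζ : Qbar} (hζ : IsPrimitiveRoot ζ p) :
    g ζ = ζ ^ ((cycloChar p g : (ZMod p)ˣ) : ZMod p).val := by
  have hu : IsUnit ζ := hζ.isUnit (NeZero.ne p)
  obtain ⟨u, rfl⟩ := hu
  have hmem : u ∈ rootsOfUnity p Qbar := by
    rw [mem_rootsOfUnity]; ext; simpa using hζ.pow_eq_one
  have := modularCyclotomicCharacter.spec Qbar (card_rootsOfUnity_eq_self p)
    (g : Qbar ≃+* Qbar) hmem
  exact this

theorem mem_ker_iff (g : GQ) {ζ : Qbar} (hζ : IsPrimitiveRoot ζ p) :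
    g ∈ (cycloChar p).ker ↔ g ζ = ζ := by
  constructor
  · intro h
    rw [MonoidHom.mem_ker] at h
    rw [cycloChar_spec g hζ, h]
    simp [ZMod.val_one]
  · intro h
    rw [MonoidHom.mem_ker]
    have h1 := cycloChar_spec g hζ
    rw [h] at h1
    have hp : p.Prime := Fact.out
    have : ((cycloChar p g : (ZMod p)ˣ) : ZMod p).val = 1 := by
      have h2 : ζ ^ 1 = ζ ^ ((cycloChar p g : (ZMod p)ˣ) : ZMod p).val := by simpa using h1
      exact (hζ.pow_inj hp.one_lt (ZMod.val_lt _) h2).symm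
    apply Units.ext
    apply ZMod.val_injective
    rw [this]; simp [ZMod.val_one]


/-! ### The kernel subgroup of a twist datum -/

namespace TwistDatum

variable (D : TwistDatum p)

theorem map_one : D.φ 1 = 0 := by
  have := D.map_mul 1 1
  rw [mul_one] at this
  exact left_eq_add.mp this

theorem map_inv (σ : (cycloChar p).ker) : D.φ σ⁻¹ = - D.φ σ := by
  have := D.map_mul σ σ⁻¹
  rw [mul_inv_cancel, map_one] at this
  exact eq_neg_of_add_eq_zero_right this.symm

theorem map_pow (σ : (cycloChar p).ker) (n : ℕ) : D.φ (σ ^ n) = n * D.φ σ := by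
  induction n with
  | zero => simp [map_one]
  | succ n ih => rw [pow_succ, D.map_mul, ih]; push_cast; ring

/-- `φ` as a monoid homomorphism to `Multiplicative (ZMod p)`. -/
noncomputable def hom : (cycloChar p).ker →* Multiplicative (ZMod p) where
  toFun σ := Multiplicative.ofAdd (D.φ σ)
  map_one' := by rw [map_one]; rfl
  map_mul' σ τ := by rw [D.map_mul]; rfl

theorem hom_apply (σ : (cycloChar p).ker) : D.hom σ = Multiplicative.ofAdd (D.φ σ) := rfl

theorem mem_ker_hom (σ : (cycloChar p).ker) : σ ∈ D.hom.ker ↔ D.φ σ = 0 := by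
  rw [MonoidHom.mem_ker, hom_apply]
  exact ⟨fun h => by simpa using congrArg Multiplicative.toAdd h, fun h => by rw [h]; rfl⟩

/-- The kernel of `φ`, as a subgroup of `G_ℚ`. -/
noncomputable def H : Subgroup GQ := D.hom.ker.map (cycloChar p).ker.subtype

theorem mem_H (g : GQ) : g ∈ D.H ↔ ∃ h : g ∈ (cycloChar p).ker, D.φ ⟨g, h⟩ = 0 := by
  unfold H
  rw [Subgroup.mem_map]
  constructor
  · rintro ⟨σ, hσ, rfl⟩
    exact ⟨σ.2, (D.mem_ker_hom σ).mp hσ⟩
  · rintro ⟨h, h0⟩
    exact ⟨⟨g, h⟩, (D.mem_ker_hom _).mpr h0, rfl⟩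

theorem H_le : D.H ≤ (cycloChar p).ker := by
  intro g hg
  obtain ⟨h, -⟩ := (D.mem_H g).mp hg
  exact h

instance H_normal : D.H.Normal := by
  constructor
  intro n hn g
  obtain ⟨h, h0⟩ := (D.mem_H n).mp hn
  rw [mem_H]
  refine ⟨conj_mem_ker p g ⟨n, h⟩, ?_⟩
  have := D.conj g ⟨n, h⟩
  rw [h0, mul_zero] at this
  exact this

end TwistDatum


/-! ### The fields -/

variable (p) in
/-- a chosen primitive `p`-th root of unity in `ℚ̄` -/
noncomputable def zetaQ : Qbar := (exists_primitiveRoot_Qbar p).choose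

variable (p) in
theorem zetaQ_spec : IsPrimitiveRoot (zetaQ p) p := (exists_primitiveRoot_Qbar p).choose_spec

variable (p) in
/-- `ℚ(ζ_p)` inside `ℚ̄` -/
noncomputable def Kf : IntermediateField ℚ Qbar := ℚ⟮zetaQ p⟯

theorem isAlgebraic_Qbar : Algebra.IsAlgebraic ℚ Qbar := AlgebraicClosure.isAlgebraic ℚ

attribute [local instance] isAlgebraic_Qbar

theorem isIntegral_Qbar : Algebra.IsIntegral ℚ Qbar := Algebra.IsAlgebraic.isIntegral

attribute [local instance] isIntegral_Qbar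

theorem isAlgClosure_Qbar : IsAlgClosure ℚ Qbar := ⟨inferInstance, inferInstance⟩

attribute [local instance] isAlgClosure_Qbar

theorem isGalois_Qbar : IsGalois ℚ Qbar := inferInstance

attribute [local instance] isGalois_Qbar

instance isCyclotomicExtension_Kf : IsCyclotomicExtension {p} ℚ (Kf p) :=
  (zetaQ_spec p).intermediateField_adjoin_isCyclotomicExtension ℚ

theorem zetaQ_mem_Kf : zetaQ p ∈ Kf p := mem_adjoin_simple_self ℚ _

theorem Kf_fixingSubgroup : (Kf p).fixingSubgroup = (cycloChar p).ker := by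
  ext g
  rw [mem_ker_iff g (zetaQ_spec p), IntermediateField.mem_fixingSubgroup_iff]
  constructor
  · intro h; exact h _ zetaQ_mem_Kf
  · intro h x hx
    have hle : Kf p ≤ IntermediateField.fixedField (Subgroup.zpowers g) := by
      unfold Kf
      rw [adjoin_simple_le_iff]
      rintro ⟨σ, hσ⟩
      obtain ⟨n, rfl⟩ := Subgroup.mem_zpowers_iff.mp hσ
      show (g ^ n) (zetaQ p) = zetaQ p
      have hfix : g ∈ MulAction.stabilizer GQ (zetaQ p) := h
      exact (MulAction.stabilizer GQ (zetaQ p)).zpow_mem hfix n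
    exact hle hx ⟨g, Subgroup.mem_zpowers g⟩

instance finiteDimensional_Kf : FiniteDimensional ℚ (Kf p) :=
  IsCyclotomicExtension.finiteDimensional {p} ℚ (Kf p)

instance isGalois_Kf : IsGalois ℚ (Kf p) := IsCyclotomicExtension.isGalois {p} ℚ (Kf p)


namespace TwistDatum

variable (D : TwistDatum p)

theorem isOpen_H : IsOpen (D.H : Set GQ) := by
  obtain ⟨F, hF, hFφ⟩ := D.continuous
  have hsub : (F ⊔ Kf p).fixingSubgroup ≤ D.H := by
    intro g hg
    rw [IntermediateField.fixingSubgroup_sup, Subgroup.mem_inf, Kf_fixingSubgroup] at hg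
    rw [mem_H]
    exact ⟨hg.2, hFφ ⟨g, hg.2⟩ hg.1⟩
  have hopen : IsOpen ((F ⊔ Kf p).fixingSubgroup : Set GQ) :=
    IntermediateField.fixingSubgroup_isOpen (F ⊔ Kf p)
  exact Subgroup.isOpen_mono hsub hopen

theorem isClosed_H : IsClosed (D.H : Set GQ) :=
  OpenSubgroup.isClosed ⟨D.H, D.isOpen_H⟩

/-- the field cut out by `ker φ` -/
noncomputable def Lf : IntermediateField ℚ Qbar := IntermediateField.fixedField D.H

theorem Lf_fixingSubgroup : D.Lf.fixingSubgroup = D.H :=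
  InfiniteGalois.fixingSubgroup_fixedField ⟨D.H, D.isClosed_H⟩

instance finiteDimensional_Lf : FiniteDimensional ℚ D.Lf := by
  rw [← InfiniteGalois.isOpen_iff_finite, Lf_fixingSubgroup]
  exact D.isOpen_H

instance isGalois_Lf : IsGalois ℚ D.Lf := by
  refine (InfiniteGalois.normal_iff_isGalois D.Lf).mp ?_
  rw [Lf_fixingSubgroup]
  exact D.H_normal

theorem Kf_le_Lf : Kf p ≤ D.Lf := by
  unfold Lf
  rw [IntermediateField.le_iff_le, Kf_fixingSubgroup]
  exact D.H_le

end TwistDatum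


/-! ### Degrees -/

theorem restrictNormalHom_coe (E : IntermediateField ℚ Qbar) [Normal ℚ E] (g : GQ) (x : E) :
    ((AlgEquiv.restrictNormalHom (F := ℚ) (K₁ := Qbar) E g x : E) : Qbar) = g (x : Qbar) :=
  AlgEquiv.restrictNormal_commutes g E x

theorem restrictNormalHom_ker' (E : IntermediateField ℚ Qbar) [Normal ℚ E] :
    (AlgEquiv.restrictNormalHom (F := ℚ) (K₁ := Qbar) E).ker = E.fixingSubgroup := by
  ext g
  rw [MonoidHom.mem_ker, IntermediateField.mem_fixingSubgroup_iff]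
  constructor
  · intro h x hx
    have h1 := restrictNormalHom_coe E g ⟨x, hx⟩
    rw [h] at h1
    exact h1.symm
  · intro h
    ext x
    have h1 := restrictNormalHom_coe E g x
    rw [h x x.2] at h1
    exact h1

theorem finrank_eq_index (E : IntermediateField ℚ Qbar) [FiniteDimensional ℚ E] [IsGalois ℚ E] :
    Module.finrank ℚ E = E.fixingSubgroup.index := by
  refine (IsGalois.card_aut_eq_finrank ℚ E).symm.trans ?_
  have e := QuotientGroup.quotientKerEquivOfSurjective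
    (AlgEquiv.restrictNormalHom (F := ℚ) (K₁ := Qbar) E)
    (AlgEquiv.restrictNormalHom_surjective Qbar)
  rw [← Nat.card_congr e.toEquiv]
  exact congrArg Subgroup.index (restrictNormalHom_ker' E)

namespace TwistDatum

variable (D : TwistDatum p)

theorem hom_surjective {σ₀ : (cycloChar p).ker} (h0 : D.φ σ₀ ≠ 0) :
    Function.Surjective D.hom := by
  intro a
  set b : ZMod p := Multiplicative.toAdd a with hb
  refine ⟨σ₀ ^ (b / D.φ σ₀).val, ?_⟩
  rw [hom_apply, map_pow, ZMod.natCast_val, ZMod.cast_id', id, div_mul_cancel₀ _ h0]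
  rfl

theorem subgroupOf_H : D.H.subgroupOf (cycloChar p).ker = D.hom.ker := by
  ext σ
  rw [Subgroup.mem_subgroupOf, mem_H, mem_ker_hom]
  constructor
  · rintro ⟨_, h⟩; exact h
  · intro h; exact ⟨σ.2, h⟩

theorem relIndex_H {σ₀ : (cycloChar p).ker} (h0 : D.φ σ₀ ≠ 0) :
    D.H.relIndex (cycloChar p).ker = p := by
  unfold Subgroup.relIndex
  rw [subgroupOf_H, Subgroup.index_ker, MonoidHom.range_eq_top.mpr (D.hom_surjective h0)]
  rw [Nat.card_congr Subgroup.topEquiv.toEquiv]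
  show Nat.card (ZMod p) = p
  simp

end TwistDatum


/-! ### The tower `ℚ ⊆ K ⊆ L` -/

namespace TwistDatum

variable (D : TwistDatum p)

noncomputable instance algebraKL : Algebra (Kf p) D.Lf :=
  (IntermediateField.inclusion D.Kf_le_Lf).toRingHom.toAlgebra

theorem algebraMap_KL_coe (x : Kf p) : ((algebraMap (Kf p) D.Lf x : D.Lf) : Qbar) = (x : Qbar) := rfl

instance isScalarTower_QKL : IsScalarTower ℚ (Kf p) D.Lf :=
  IsScalarTower.of_algebraMap_eq fun _ => rfl

instance isScalarTower_KLQbar : IsScalarTower (Kf p) D.Lf Qbar :=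
  IsScalarTower.of_algebraMap_eq fun _ => rfl

instance isGalois_KL : IsGalois (Kf p) D.Lf := IsGalois.tower_top_of_isGalois ℚ (Kf p) D.Lf

theorem finrank_KL {σ₀ : (cycloChar p).ker} (h0 : D.φ σ₀ ≠ 0) :
    Module.finrank (Kf p) D.Lf = p := by
  have h1 := Module.finrank_mul_finrank ℚ (Kf p) D.Lf
  rw [finrank_eq_index, finrank_eq_index, Lf_fixingSubgroup, Kf_fixingSubgroup,
    ← Subgroup.relIndex_mul_index D.H_le, D.relIndex_H h0, mul_comm] at h1
  have hne : ((cycloChar p).ker.index) ≠ 0 := by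
    rw [← Kf_fixingSubgroup, ← finrank_eq_index]
    exact Module.finrank_pos.ne'
  exact Nat.eq_of_mul_eq_mul_right (Nat.pos_of_ne_zero hne) h1

end TwistDatum


/-! ### The conjugation law -/

theorem natCast_eq_of_pow_eq {M : Type*} [CommRing M] {ζ : M} (hζ : IsPrimitiveRoot ζ p)
    {a b : ℕ} (h : ζ ^ a = ζ ^ b) : (a : ZMod p) = b := by
  have hp : 0 < p := (Fact.out : p.Prime).pos
  have hfin : IsOfFinOrder ζ := isOfFinOrder_iff_pow_eq_one.mpr ⟨p, hp, hζ.pow_eq_one⟩
  have := hfin.pow_eq_pow_iff_modEq.mp h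
  rw [← hζ.eq_orderOf] at this
  exact (ZMod.natCast_eq_natCast_iff a b p).mpr this

namespace TwistDatum

variable (D : TwistDatum p)

theorem mem_ker_of_restrict_eq (s : GQ) (σ : D.Lf ≃ₐ[Kf p] D.Lf)
    (hs : AlgEquiv.restrictNormalHom (F := ℚ) (K₁ := Qbar) D.Lf s = σ.restrictScalars ℚ) :
    s ∈ (cycloChar p).ker := by
  rw [mem_ker_iff s (zetaQ_spec p)]
  have h1 := restrictNormalHom_coe D.Lf s ⟨zetaQ p, D.Kf_le_Lf zetaQ_mem_Kf⟩
  rw [hs] at h1
  have h2 : (σ.restrictScalars ℚ) ⟨zetaQ p, D.Kf_le_Lf zetaQ_mem_Kf⟩ =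
      ⟨zetaQ p, D.Kf_le_Lf zetaQ_mem_Kf⟩ :=
    σ.commutes ⟨zetaQ p, zetaQ_mem_Kf⟩
  rw [h2] at h1
  exact h1.symm

theorem restrict_eq_one_of_mem_H {g : GQ} (hg : g ∈ D.H) :
    AlgEquiv.restrictNormalHom (F := ℚ) (K₁ := Qbar) D.Lf g = 1 := by
  rw [← Lf_fixingSubgroup, ← restrictNormalHom_ker'] at hg
  exact hg

theorem conj_law (τ : D.Lf ≃ₐ[ℚ] D.Lf) (σ : D.Lf ≃ₐ[Kf p] D.Lf) (ζ : D.Lf) (c : ℕ)
    (hζ : IsPrimitiveRoot ζ p) (hτ : τ ζ = ζ ^ c) :
    τ * (σ.restrictScalars ℚ) ^ c * τ⁻¹ = σ.restrictScalars ℚ := by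
  obtain ⟨g, rfl⟩ := AlgEquiv.restrictNormalHom_surjective (F := ℚ) (K₁ := D.Lf) Qbar τ
  obtain ⟨s, hs⟩ := AlgEquiv.restrictNormalHom_surjective (F := ℚ) (K₁ := D.Lf) Qbar
    (σ.restrictScalars ℚ)
  have hsker : s ∈ (cycloChar p).ker := D.mem_ker_of_restrict_eq s σ hs
  -- the value of the cyclotomic character at `g`
  have hζ' : IsPrimitiveRoot (ζ : Qbar) p :=
    hζ.map_of_injective (f := algebraMap D.Lf Qbar) (algebraMap D.Lf Qbar).injective
  have hgζ : g (ζ : Qbar) = (ζ : Qbar) ^ c := by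
    rw [← restrictNormalHom_coe D.Lf g ζ, hτ]; rfl
  have hχ : (c : ZMod p) = ((cycloChar p g : (ZMod p)ˣ) : ZMod p) := by
    have h1 := cycloChar_spec g hζ'
    rw [hgζ] at h1
    rw [natCast_eq_of_pow_eq hζ' h1, ZMod.natCast_val, ZMod.cast_id', id]
  -- the key element of `H`
  set s' : (cycloChar p).ker := ⟨s, hsker⟩ with hs'
  have hφ : D.φ (⟨g * ((s' ^ c : (cycloChar p).ker) : GQ) * g⁻¹,
      conj_mem_ker p g (s' ^ c)⟩ * s'⁻¹) = 0 := by
    rw [D.map_mul, D.conj, D.map_pow, D.map_inv, hχ, ← mul_assoc]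
    have : (((cycloChar p g)⁻¹ : (ZMod p)ˣ) : ZMod p) * ((cycloChar p g : (ZMod p)ˣ) : ZMod p)
        = 1 := by
      rw [← Units.val_mul, inv_mul_cancel, Units.val_one]
    rw [this, one_mul, add_neg_cancel]
  have hmem : g * s ^ c * g⁻¹ * s⁻¹ ∈ D.H := by
    rw [mem_H]
    exact ⟨_, hφ⟩
  have h1 := D.restrict_eq_one_of_mem_H hmem
  rw [_root_.map_mul, _root_.map_mul, _root_.map_mul, _root_.map_pow, _root_.map_inv,
    _root_.map_inv, hs] at h1
  exact mul_inv_eq_one.mp h1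

end TwistDatum


/-! ### Unramifiedness -/

namespace TwistDatum

variable (D : TwistDatum p)

instance numberField_Lf : NumberField D.Lf :=
  { to_charZero := inferInstance, to_finiteDimensional := inferInstance }

instance numberField_Kf : NumberField (Kf p) :=
  { to_charZero := inferInstance, to_finiteDimensional := inferInstance }

theorem inertiaSubgroupIn_le_decomposition (A : ValuationSubring Qbar) :
    A.inertiaSubgroupIn ℚ ≤ A.decompositionSubgroup ℚ := by
  unfold ValuationSubring.inertiaSubgroupIn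
  exact Subgroup.map_subtype_le _

attribute [local instance] Fermat.Agent.Lib.InertiaGenerate.algOK

theorem inertia_eq_bot (P : Ideal (𝓞 D.Lf)) (hP : P.IsPrime) (hP0 : P ≠ ⊥) :
    P.inertia (D.Lf ≃ₐ[Kf p] D.Lf) = ⊥ := by
  rw [_root_.eq_bot_iff]
  intro σ hσ
  obtain ⟨q, A, hq, hA, hAP⟩ :=
    Fermat.Agent.Lib.InertiaGenerate.exists_valuationSubring_under_eq D.Lf P hP0
  have hτ : σ.restrictScalars ℚ ∈
      ((Fermat.Agent.Lib.InertiaGenerate.center A).under (𝓞 D.Lf)).inertia (D.Lf ≃ₐ[ℚ] D.Lf) := by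
    rw [hAP]
    intro x
    exact hσ x
  obtain ⟨g, hgI, hgτ⟩ :=
    Fermat.Agent.Lib.InertiaGenerate.exists_mem_inertiaSubgroupIn_restrict D.Lf hq A hA _ hτ
  have hgker : g ∈ (cycloChar p).ker := D.mem_ker_of_restrict_eq g σ hgτ
  have hφ : D.φ ⟨g, hgker⟩ = 0 := by
    by_cases hqp : q = p
    · subst hqp
      exact D.split A hA ⟨g, hgker⟩ (inertiaSubgroupIn_le_decomposition A hgI)
    · exact D.unram q hq hqp A hA ⟨g, hgker⟩ hgI
  have hgH : g ∈ D.H := (D.mem_H g).mpr ⟨hgker, hφ⟩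
  have h1 := D.restrict_eq_one_of_mem_H hgH
  rw [hgτ] at h1
  rw [Subgroup.mem_bot]
  apply AlgEquiv.ext
  intro x
  exact congrArg (fun f : D.Lf ≃ₐ[ℚ] D.Lf => f x) h1

end TwistDatum


/-! ### Assembly -/

variable (p) in
/-- Verbatim the body of `P3Alt22.NoExtAllStatement` (and of `CoreIface.NoExtStatement`)
at the prime `p`. -/
def NoExtAt : Prop :=
  ∀ (K L : Type) [Field K] [NumberField K] [IsCyclotomicExtension {p} ℚ K]
    [Field L] [NumberField L] [Algebra K L] [IsGalois K L] [IsGalois ℚ L],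
  Module.finrank K L = p →
  (∀ (P : Ideal (𝓞 L)), P.IsPrime → P ≠ ⊥ → Ideal.inertia (L ≃ₐ[K] L) P = ⊥) →
  ∀ (ζ : K), IsPrimitiveRoot ζ p →
  (∀ (τ : L ≃ₐ[ℚ] L) (s : L ≃ₐ[K] L) (c : ℕ), τ (algebraMap K L ζ) = algebraMap K L ζ ^ c →
      τ⁻¹ * s.restrictScalars ℚ * τ = (s ^ c).restrictScalars ℚ) →
  False

theorem restrictScalars_pow {K L : Type} [Field K] [Field L] [Algebra K L] [Algebra ℚ K]
    [Algebra ℚ L] [IsScalarTower ℚ K L] (s : L ≃ₐ[K] L) (c : ℕ) :
    (s ^ c).restrictScalars ℚ = (s.restrictScalars ℚ) ^ c := by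
  induction c with
  | zero => rfl
  | succ n ih => rw [pow_succ, pow_succ, ← ih]; rfl

/-- **UNFOLD**: the number-field statement at `p` implies the core statement of `Reduce.lean`. -/
theorem core_of_noExtAt (h : NoExtAt p) : Core p := by
  intro D σ₀
  by_contra h0
  have hζK : IsPrimitiveRoot (⟨zetaQ p, zetaQ_mem_Kf⟩ : Kf p) p :=
    (zetaQ_spec p).of_map_of_injective (f := algebraMap (Kf p) Qbar)
      (algebraMap (Kf p) Qbar).injective
  refine h (Kf p) D.Lf (D.finrank_KL h0) D.inertia_eq_bot ⟨zetaQ p, zetaQ_mem_Kf⟩ hζK ?_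
  intro τ s c hτ
  have hζL : IsPrimitiveRoot (algebraMap (Kf p) D.Lf ⟨zetaQ p, zetaQ_mem_Kf⟩) p :=
    hζK.map_of_injective (algebraMap (Kf p) D.Lf).injective
  have h1 := D.conj_law τ s _ c hζL hτ
  rw [restrictScalars_pow]
  generalize AlgEquiv.restrictScalars ℚ s = s' at h1 ⊢
  have h2 : s' ^ c = τ⁻¹ * (τ * s' ^ c * τ⁻¹) * τ := by group
  rw [h2, h1]

/-- S14 from the number-field statement. -/
theorem extVanishingCts_of_noExtAt (h : NoExtAt p) : ExtCitation.ExtVanishingCts p :=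
  extVanishingCts_of_core (core_of_noExtAt h)

end Fermat.Agent.S14
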