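import Mathlib
import Fermat.Agent.S14.Reduce
import Fermat.Agent.S14.CoreIface
import Fermat.Agent.S14.P3
import Fermat.Agent.Lib.InertiaGenerate

/-
S14 / package UNFOLD, independent second seat (helper71): from a `TwistDatum p` with `φ ≠ 0`
to the number fields `K = ℚ(ζ_p) ⊂ L = ℚ̄^{ker φ}` of `CoreIface.NoExtStatement`.

* `NoExtAt p` : the common hypothesis shape of `CoreIface.NoExtStatement` (at a fixed `p`) and of
  `P3.NoExtThreeStatement`.
* `core_of_noExtAt : NoExtAt p → Core p`, hence `core_of_noExt : NoExtStatement → 5 ≤ p → Core p`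
  and `core_three : P3.NoExtThreeStatement → Core 3`.

Ingredients: `ker (cycloChar p) = ℚ(ζ).fixingSubgroup` (`fixingSubgroup_adjoin_eq`), `ker φ` is an
open normal subgroup (`kerPhi`, `isOpen_kerPhi`), `[L : K] = p` from
`IntermediateField.finrank_eq_fixingSubgroup_index`, `L/ℚ` Galois from
`InfiniteGalois.normal_iff_isGalois`, unramifiedness from helper42's lifting lemma
`Lib.InertiaGenerate.exists_mem_inertiaSubgroupIn_restrict` (+ `exists_valuationSubring_under_eq`),
and the conjugation law from `TwistDatum.conj`.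
-/

set_option autoImplicit false
set_option linter.style.haveILetI false
set_option linter.unusedSectionVars false

namespace Fermat.Agent.S14.Translate71

open NumberField ExtCitation ValuationSubring

/-- `Qb = AlgebraicClosure ℚ`. -/
local notation "Qb" => AlgebraicClosure ℚ

variable {p : ℕ} [Fact p.Prime]

section KerPhi

variable (D : TwistDatum p)

theorem phi_one : D.φ 1 = 0 := by
  have h := D.map_mul 1 1
  rw [mul_one] at h
  exact left_eq_add.mp h

theorem phi_inv (σ : (cycloChar p).ker) : D.φ σ⁻¹ = - D.φ σ := by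
  have h := D.map_mul σ σ⁻¹
  rw [mul_inv_cancel, phi_one] at h
  exact eq_neg_of_add_eq_zero_right h.symm

theorem phi_pow (σ : (cycloChar p).ker) (n : ℕ) : D.φ (σ ^ n) = n * D.φ σ := by
  induction n with
  | zero => simp [phi_one]
  | succ n ih => rw [pow_succ, D.map_mul, ih]; push_cast; ring

/-- the kernel of `φ`, as a subgroup of `G_ℚ`. -/
def kerPhi : Subgroup GQ where
  carrier := {g | ∃ h : g ∈ (cycloChar p).ker, D.φ ⟨g, h⟩ = 0}
  one_mem' := ⟨one_mem _, phi_one D⟩
  mul_mem' := by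
    rintro a b ⟨ha, ha0⟩ ⟨hb, hb0⟩
    refine ⟨mul_mem ha hb, ?_⟩
    have := D.map_mul ⟨a, ha⟩ ⟨b, hb⟩
    rw [ha0, hb0, add_zero] at this
    exact this
  inv_mem' := by
    rintro a ⟨ha, ha0⟩
    refine ⟨inv_mem ha, ?_⟩
    have := phi_inv D ⟨a, ha⟩
    rw [ha0, neg_zero] at this
    exact this

theorem mem_kerPhi {g : GQ} : g ∈ kerPhi D ↔ ∃ h : g ∈ (cycloChar p).ker, D.φ ⟨g, h⟩ = 0 :=
  Iff.rfl

theorem kerPhi_le : kerPhi D ≤ (cycloChar p).ker := fun _ hg => hg.1

instance kerPhi_normal : (kerPhi D).Normal where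
  conj_mem := by
    rintro n ⟨hn, hn0⟩ g
    refine ⟨conj_mem_ker p g ⟨n, hn⟩, ?_⟩
    have := D.conj g ⟨n, hn⟩
    rw [hn0, mul_zero] at this
    exact this

end KerPhi

section Cyclo

variable {ζ : Qb} (hζ : IsPrimitiveRoot ζ p)

theorem exists_primitiveRoot_Qb (p : ℕ) [Fact p.Prime] : ∃ ζ : Qb, IsPrimitiveRoot ζ p := by
  haveI : NeZero p := ⟨(Fact.out : p.Prime).ne_zero⟩
  haveI : NeZero (p : Qb) := ⟨Nat.cast_ne_zero.mpr (NeZero.ne p)⟩
  exact HasEnoughRootsOfUnity.exists_primitiveRoot Qb p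

include hζ in
theorem cyclo_spec (σ : GQ) : σ ζ = ζ ^ (cycloExp p σ) := by
  haveI : NeZero p := ⟨(Fact.out : p.Prime).ne_zero⟩
  have hu : IsUnit ζ := hζ.isUnit (Fact.out : p.Prime).ne_zero
  obtain ⟨u, rfl⟩ := hu
  have hmem : u ∈ rootsOfUnity p Qb := by
    rw [mem_rootsOfUnity]
    exact Units.ext (by simpa using hζ.pow_eq_one)
  have := modularCyclotomicCharacter.spec Qb (card_rootsOfUnity_eq_self p)
    (σ : Qb ≃+* Qb) hmem
  exact this

include hζ in
theorem mem_ker_cycloChar_iff (σ : GQ) : σ ∈ (cycloChar p).ker ↔ σ ζ = ζ := by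
  haveI : NeZero p := ⟨(Fact.out : p.Prime).ne_zero⟩
  have hp : p.Prime := Fact.out
  rw [MonoidHom.mem_ker, cyclo_spec hζ σ]
  have hlt : cycloExp p σ < p := by
    rw [← val_cycloChar]; exact ZMod.val_lt _
  constructor
  · intro h
    have : cycloExp p σ = 1 := by
      rw [← val_cycloChar, h]
      simp [ZMod.val_one]
    rw [this, pow_one]
  · intro h
    have h1 : cycloExp p σ = 1 := by
      apply hζ.pow_inj hlt hp.one_lt
      rw [h, pow_one]
    apply Units.ext
    apply ZMod.val_injective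
    rw [val_cycloChar, h1]
    simp [ZMod.val_one]

include hζ in
theorem fixingSubgroup_adjoin_eq :
    (IntermediateField.adjoin ℚ {ζ}).fixingSubgroup = (cycloChar p).ker := by
  ext σ
  rw [mem_ker_cycloChar_iff hζ, IntermediateField.mem_fixingSubgroup_iff]
  constructor
  · intro h
    exact h ζ (IntermediateField.mem_adjoin_simple_self ℚ ζ)
  · intro h x hx
    induction hx using IntermediateField.adjoin_induction with
    | mem x hx =>
      rw [Set.mem_singleton_iff] at hx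
      rw [hx]; exact h
    | algebraMap x => exact σ.commutes x
    | add x y _ _ hx hy => rw [map_add, hx, hy]
    | inv x _ hx => rw [map_inv₀, hx]
    | mul x y _ _ hx hy => rw [map_mul, hx, hy]

end Cyclo

section Fields

open Fermat.Agent.Lib.FrobeniusExists in
attribute [local instance] isAlgebraic_Qb isAlgClosure_Qb isGalois_Qb

variable (D : TwistDatum p) {ζ : Qb} (hζ : IsPrimitiveRoot ζ p)

include hζ in
theorem finiteDimensional_adjoin : FiniteDimensional ℚ (IntermediateField.adjoin ℚ {ζ}) :=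
  IntermediateField.adjoin.finiteDimensional (Algebra.IsIntegral.isIntegral ζ)

theorem isOpen_ker_cycloChar : IsOpen ((cycloChar p).ker : Set GQ) := by
  obtain ⟨ζ, hζ⟩ := exists_primitiveRoot_Qb p
  rw [← fixingSubgroup_adjoin_eq hζ]
  haveI := finiteDimensional_adjoin hζ
  exact IntermediateField.fixingSubgroup_isOpen _

theorem isOpen_kerPhi : IsOpen ((kerPhi D : Subgroup GQ) : Set GQ) := by
  obtain ⟨ζ, hζ⟩ := exists_primitiveRoot_Qb p
  obtain ⟨F, hF, hFφ⟩ := D.continuous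
  haveI := finiteDimensional_adjoin hζ
  haveI : FiniteDimensional ℚ (F ⊔ IntermediateField.adjoin ℚ {ζ} : IntermediateField ℚ Qb) :=
    IntermediateField.finiteDimensional_sup F _
  have hopen := IntermediateField.fixingSubgroup_isOpen
    (F ⊔ IntermediateField.adjoin ℚ {ζ} : IntermediateField ℚ Qb)
  refine Subgroup.isOpen_mono ?_ hopen
  intro σ hσ
  have h1 : σ ∈ (IntermediateField.adjoin ℚ {ζ}).fixingSubgroup :=
    IntermediateField.fixingSubgroup_le le_sup_right hσ
  have h2 : σ ∈ F.fixingSubgroup := IntermediateField.fixingSubgroup_le le_sup_left hσ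
  rw [fixingSubgroup_adjoin_eq hζ] at h1
  exact ⟨h1, hFφ ⟨σ, h1⟩ h2⟩

/-- `ker φ` as a closed subgroup. -/
def kerPhiClosed : ClosedSubgroup GQ :=
  ⟨kerPhi D, (kerPhi D).isClosed_of_isOpen (isOpen_kerPhi D)⟩

/-- the field cut out by `ker φ`. -/
noncomputable def Lt : IntermediateField ℚ Qb := IntermediateField.fixedField (kerPhi D)

theorem fixingSubgroup_Lt : (Lt D).fixingSubgroup = kerPhi D :=
  InfiniteGalois.fixingSubgroup_fixedField (kerPhiClosed D)

instance finiteDimensional_Lt : FiniteDimensional ℚ (Lt D) := by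
  rw [← InfiniteGalois.isOpen_iff_finite, fixingSubgroup_Lt]
  exact isOpen_kerPhi D

instance isGalois_Lt : IsGalois ℚ (Lt D) := by
  have h : (Lt D).fixingSubgroup.Normal := by
    rw [fixingSubgroup_Lt]; infer_instance
  exact (InfiniteGalois.normal_iff_isGalois (Lt D)).mp h

include hζ in
theorem adjoin_le_Lt : IntermediateField.adjoin ℚ {ζ} ≤ Lt D := by
  rw [Lt, IntermediateField.le_iff_le, fixingSubgroup_adjoin_eq hζ]
  exact kerPhi_le D

end Fields

section Degree

open Fermat.Agent.Lib.FrobeniusExists in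
attribute [local instance] isAlgebraic_Qb isAlgClosure_Qb isGalois_Qb

variable (D : TwistDatum p) {ζ : Qb} (hζ : IsPrimitiveRoot ζ p)

/-- `φ` as a monoid hom. -/
def phiHom : (cycloChar p).ker →* Multiplicative (ZMod p) where
  toFun σ := Multiplicative.ofAdd (D.φ σ)
  map_one' := by rw [phi_one]; rfl
  map_mul' a b := by rw [D.map_mul]; rfl

theorem phiHom_eq_one_iff (σ : (cycloChar p).ker) : phiHom D σ = 1 ↔ D.φ σ = 0 := by
  change Multiplicative.ofAdd (D.φ σ) = 1 ↔ _
  rw [ofAdd_eq_one]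

theorem ker_phiHom : (phiHom D).ker = (kerPhi D).subgroupOf (cycloChar p).ker := by
  ext ⟨σ, hσ⟩
  rw [MonoidHom.mem_ker, Subgroup.mem_subgroupOf, phiHom_eq_one_iff]
  constructor
  · intro h; exact ⟨hσ, h⟩
  · rintro ⟨h', h0⟩; exact h0

theorem relIndex_kerPhi (hne : ∃ σ, D.φ σ ≠ 0) :
    (kerPhi D).relIndex (cycloChar p).ker = p := by
  have hp : p.Prime := Fact.out
  haveI : NeZero p := ⟨hp.ne_zero⟩
  rw [Subgroup.relIndex, ← ker_phiHom, Subgroup.index_ker]
  have hcard : Nat.card (Multiplicative (ZMod p)) = p := by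
    rw [Nat.card_eq_fintype_card, Fintype.card_multiplicative]
    exact ZMod.card p
  have hdvd : Nat.card (phiHom D).range ∣ p := by
    have := Subgroup.card_subgroup_dvd_card (phiHom D).range
    rwa [hcard] at this
  rcases (Nat.dvd_prime hp).mp hdvd with h1 | h1
  · exfalso
    obtain ⟨σ, hσ⟩ := hne
    apply hσ
    rw [← phiHom_eq_one_iff]
    have hbot : (phiHom D).range = ⊥ := Subgroup.card_eq_one.mp h1
    have hmem : phiHom D σ ∈ (phiHom D).range := ⟨σ, rfl⟩
    rw [hbot, Subgroup.mem_bot] at hmem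
    exact hmem
  · exact h1

include hζ in
theorem finrank_Lt (hne : ∃ σ, D.φ σ ≠ 0) :
    Module.finrank ℚ (Lt D) = p * Module.finrank ℚ (IntermediateField.adjoin ℚ {ζ}) := by
  rw [IntermediateField.finrank_eq_fixingSubgroup_index Qb (Lt D),
    IntermediateField.finrank_eq_fixingSubgroup_index Qb (IntermediateField.adjoin ℚ {ζ}),
    fixingSubgroup_Lt, fixingSubgroup_adjoin_eq hζ]
  have h := Subgroup.relIndex_mul_index (kerPhi_le D)
  rw [relIndex_kerPhi D hne] at h
  exact h.symm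

end Degree

section Tower

open Fermat.Agent.Lib.FrobeniusExists in
attribute [local instance] isAlgebraic_Qb isAlgClosure_Qb isGalois_Qb

variable {E F : IntermediateField ℚ Qb} (hEF : E ≤ F)

/-- the `E`-algebra structure on `F` for `E ≤ F`. -/
@[reducible] noncomputable def algEF : Algebra E F :=
  (IntermediateField.inclusion hEF).toRingHom.toAlgebra

theorem coe_algebraMap_EF (x : E) :
    letI := algEF hEF
    ((algebraMap E F x : F) : Qb) = (x : Qb) := rfl

theorem isScalarTower_EF : letI := algEF hEF; IsScalarTower ℚ E F := by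
  letI := algEF hEF
  exact IsScalarTower.of_algebraMap_eq (fun q => Subtype.ext (by
    rw [coe_algebraMap_EF]
    rfl))

theorem finrank_EF [FiniteDimensional ℚ F] :
    letI := algEF hEF
    Module.finrank ℚ E * Module.finrank E F = Module.finrank ℚ F := by
  letI := algEF hEF
  haveI := isScalarTower_EF hEF
  haveI : FiniteDimensional ℚ E := by
    have := FiniteDimensional.left ℚ E F
    exact this
  exact Module.finrank_mul_finrank ℚ E F

end Tower

section Unram

open Fermat.Agent.Lib.FrobeniusExists Fermat.Agent.Lib.InertiaGenerate in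
attribute [local instance] isAlgebraic_Qb isAlgClosure_Qb isGalois_Qb numberField_K algOK

open Fermat.Agent.Lib.InertiaGenerate

variable (D : TwistDatum p) {ζ : Qb} (hζ : IsPrimitiveRoot ζ p)

instance normal_Lt' : @Normal ℚ (Lt D) _ _ (Lt D).algebra' :=
  @IsGalois.to_normal ℚ _ (Lt D) _ (Lt D).algebra' (isGalois_Lt D)

theorem restrictNormalHom_eq_one_iff (σ : GQ) :
    AlgEquiv.restrictNormalHom (Lt D) σ = 1 ↔ σ ∈ kerPhi D := by
  rw [← fixingSubgroup_Lt, ← MonoidHom.mem_ker]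
  have h2 := IntermediateField.restrictNormalHom_ker (Lt D)
  constructor
  · intro h; rw [← h2]; exact h
  · intro h; rw [← h2] at h; exact h

theorem coe_restrictNormalHom (σ : GQ) (x : Lt D) :
    ((AlgEquiv.restrictNormalHom (Lt D) σ x : Lt D) : Qb) = σ (x : Qb) :=
  AlgEquiv.restrictNormal_commutes σ (Lt D) x

theorem mem_decomp_of_mem_inertiaSubgroupIn {A : ValuationSubring Qb} {σ : GQ}
    (hσ : σ ∈ A.inertiaSubgroupIn ℚ) : σ ∈ A.decompositionSubgroup ℚ := by
  obtain ⟨τ, -, rfl⟩ := hσ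
  exact τ.2

/-- an element of a Prelude inertia group which fixes `ζ` is killed by `φ`. -/
theorem phi_eq_zero_of_mem_inertia {q : ℕ} (hq : q.Prime) {A : ValuationSubring Qb}
    (hA : A.LiesOverPrime q) {σ : GQ} (hσ : σ ∈ A.inertiaSubgroupIn ℚ)
    (hσK : σ ∈ (cycloChar p).ker) : D.φ ⟨σ, hσK⟩ = 0 := by
  by_cases hqp : q = p
  · subst hqp
    exact D.split A hA ⟨σ, hσK⟩ (mem_decomp_of_mem_inertiaSubgroupIn hσ)
  · exact D.unram q hq hqp A hA ⟨σ, hσK⟩ hσ

include hζ in
theorem unram (P : Ideal (𝓞 (Lt D))) (hP : P.IsPrime) (hP0 : P ≠ ⊥) :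
    letI := algEF (adjoin_le_Lt D hζ)
    Ideal.inertia ((Lt D) ≃ₐ[IntermediateField.adjoin ℚ {ζ}] (Lt D)) P = ⊥ := by
  letI := algEF (adjoin_le_Lt D hζ)
  haveI := isScalarTower_EF (adjoin_le_Lt D hζ)
  rw [eq_bot_iff]
  intro s hs
  rw [Subgroup.mem_bot]
  obtain ⟨q, A, hq, hA, hAP⟩ := exists_valuationSubring_under_eq (Lt D) P hP0
  have hτ : s.restrictScalars ℚ ∈
      Ideal.inertia Gal((Lt D)/ℚ) (Ideal.under (𝓞 (Lt D)) (center A)) := by
    rw [hAP]
    intro x
    exact hs x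
  obtain ⟨σ, hσI, hσs⟩ := exists_mem_inertiaSubgroupIn_restrict (Lt D) hq A hA _ hτ
  -- `σ` fixes `ζ`
  have hζL : ζ ∈ Lt D := adjoin_le_Lt D hζ (IntermediateField.mem_adjoin_simple_self ℚ ζ)
  have hσK : σ ∈ (cycloChar p).ker := by
    rw [mem_ker_cycloChar_iff hζ]
    have h1 := coe_restrictNormalHom D σ ⟨ζ, hζL⟩
    rw [hσs] at h1
    have h2 : (⟨ζ, hζL⟩ : Lt D) = algebraMap (IntermediateField.adjoin ℚ {ζ}) (Lt D)
        ⟨ζ, IntermediateField.mem_adjoin_simple_self ℚ ζ⟩ := rfl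
    rw [AlgEquiv.restrictScalars_apply, h2, s.commutes] at h1
    exact h1.symm
  have hφ := phi_eq_zero_of_mem_inertia D hq hA hσI hσK
  have hone : AlgEquiv.restrictNormalHom (Lt D) σ = 1 :=
    (restrictNormalHom_eq_one_iff D σ).mpr ⟨hσK, hφ⟩
  rw [hone] at hσs
  ext x
  have := congrArg (fun t : Gal((Lt D)/ℚ) => t x) hσs
  simpa using this.symm

end Unram

section Conj

open Fermat.Agent.Lib.FrobeniusExists Fermat.Agent.Lib.InertiaGenerate in
attribute [local instance] isAlgebraic_Qb isAlgClosure_Qb isGalois_Qb numberField_K algOK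

variable (D : TwistDatum p) {ζ : Qb} (hζ : IsPrimitiveRoot ζ p)

theorem restrictScalars_pow {K L : Type*} [Field K] [Field L] [Algebra K L] [Algebra ℚ K]
    [Algebra ℚ L] [IsScalarTower ℚ K L] (s : L ≃ₐ[K] L) (n : ℕ) :
    (s ^ n).restrictScalars ℚ = (s.restrictScalars ℚ) ^ n := by
  induction n with
  | zero => rfl
  | succ n ih =>
    rw [pow_succ, pow_succ, ← ih]
    rfl

include hζ in
/-- the value of the cyclotomic character from the action on `ζ`. -/
theorem cycloChar_eq_of_apply {g : GQ} {c : ℕ} (h : g ζ = ζ ^ c) :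
    ((cycloChar p g : (ZMod p)ˣ) : ZMod p) = (c : ZMod p) := by
  haveI : NeZero p := ⟨(Fact.out : p.Prime).ne_zero⟩
  rw [coe_cycloChar]
  rw [cyclo_spec hζ g] at h
  have hlt : cycloExp p g < p := by
    rw [← val_cycloChar]; exact ZMod.val_lt _
  have hc : ζ ^ (c % p) = ζ ^ c := by
    have h1 : c % p = c % orderOf ζ := by rw [← hζ.eq_orderOf]
    rw [h1]; exact pow_mod_orderOf ζ c
  have h2 : cycloExp p g = c % p :=
    hζ.pow_inj hlt (Nat.mod_lt _ (Fact.out : p.Prime).pos) (h.trans hc.symm)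
  rw [h2]
  exact ZMod.natCast_mod c p

include hζ in
theorem conj (τ : Gal((Lt D)/ℚ))
    (s : letI := algEF (adjoin_le_Lt D hζ); (Lt D) ≃ₐ[IntermediateField.adjoin ℚ {ζ}] (Lt D))
    (c : ℕ)
    (hτ : ((τ ⟨ζ, adjoin_le_Lt D hζ (IntermediateField.mem_adjoin_simple_self ℚ ζ)⟩ : Lt D) : Qb)
      = ζ ^ c) :
    letI := algEF (adjoin_le_Lt D hζ)
    haveI := isScalarTower_EF (adjoin_le_Lt D hζ)
    τ⁻¹ * s.restrictScalars ℚ * τ = (s ^ c).restrictScalars ℚ := by
  letI := algEF (adjoin_le_Lt D hζ)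
  haveI := isScalarTower_EF (adjoin_le_Lt D hζ)
  have hζL : ζ ∈ Lt D := adjoin_le_Lt D hζ (IntermediateField.mem_adjoin_simple_self ℚ ζ)
  obtain ⟨g, hg⟩ := AlgEquiv.restrictNormalHom_surjective (F := ℚ) (K₁ := Lt D) Qb τ
  obtain ⟨h, hh⟩ := AlgEquiv.restrictNormalHom_surjective (F := ℚ) (K₁ := Lt D) Qb
    (s.restrictScalars ℚ)
  -- `h` fixes `ζ`
  have hhK : h ∈ (cycloChar p).ker := by
    rw [mem_ker_cycloChar_iff hζ]
    have h1 := coe_restrictNormalHom D h ⟨ζ, hζL⟩
    rw [hh] at h1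
    have h2 : (⟨ζ, hζL⟩ : Lt D) = algebraMap (IntermediateField.adjoin ℚ {ζ}) (Lt D)
        ⟨ζ, IntermediateField.mem_adjoin_simple_self ℚ ζ⟩ := rfl
    rw [AlgEquiv.restrictScalars_apply, h2, s.commutes] at h1
    exact h1.symm
  -- `g ζ = ζ ^ c`
  have hgζ : g ζ = ζ ^ c := by
    have h1 := coe_restrictNormalHom D g ⟨ζ, hζL⟩
    rw [hg] at h1
    rw [← h1]; exact hτ
  have hχ := cycloChar_eq_of_apply hζ hgζ
  -- the key computation with `φ`
  have hmem : g⁻¹ * h * g * (h ^ c)⁻¹ ∈ kerPhi D := by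
    have hc1 : g⁻¹ * h * g ∈ (cycloChar p).ker := by
      have := conj_mem_ker p g⁻¹ ⟨h, hhK⟩
      simpa using this
    have hc2 : h ^ c ∈ (cycloChar p).ker := pow_mem hhK c
    refine ⟨mul_mem hc1 (inv_mem hc2), ?_⟩
    have e1 : (⟨g⁻¹ * h * g * (h ^ c)⁻¹, mul_mem hc1 (inv_mem hc2)⟩ : (cycloChar p).ker)
        = ⟨g⁻¹ * h * g, hc1⟩ * (⟨h, hhK⟩ ^ c)⁻¹ := rfl
    rw [e1, D.map_mul, phi_inv, phi_pow]
    have e2 := D.conj g⁻¹ ⟨h, hhK⟩
    have e3 : (⟨g⁻¹ * h * g, hc1⟩ : (cycloChar p).ker)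
        = ⟨g⁻¹ * (⟨h, hhK⟩ : (cycloChar p).ker) * g⁻¹⁻¹, conj_mem_ker p g⁻¹ ⟨h, hhK⟩⟩ := by
      apply Subtype.ext
      simp
    rw [e3, e2, map_inv, inv_inv, hχ]
    ring
  have hres := (restrictNormalHom_eq_one_iff D _).mpr hmem
  rw [map_mul, map_mul, map_mul, map_inv, map_inv, map_pow, hg, hh,
    mul_inv_eq_one] at hres
  rw [hres, restrictScalars_pow]

end Conj

section Main

open Fermat.Agent.Lib.FrobeniusExists Fermat.Agent.Lib.InertiaGenerate in
attribute [local instance] isAlgebraic_Qb isAlgClosure_Qb isGalois_Qb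

/-- The common shape of `CoreIface.NoExtStatement` at a fixed `p` and of
`P3.NoExtThreeStatement`. -/
def NoExtAt (p : ℕ) : Prop :=
  ∀ (K L : Type) [Field K] [NumberField K] [IsCyclotomicExtension {p} ℚ K]
    [Field L] [NumberField L] [Algebra K L] [IsGalois K L] [IsGalois ℚ L],
  Module.finrank K L = p →
  (∀ (P : Ideal (𝓞 L)), P.IsPrime → P ≠ ⊥ → Ideal.inertia (L ≃ₐ[K] L) P = ⊥) →
  ∀ (ζ : K), IsPrimitiveRoot ζ p →
  (∀ (τ : L ≃ₐ[ℚ] L) (s : L ≃ₐ[K] L) (c : ℕ), τ (algebraMap K L ζ) = algebraMap K L ζ ^ c →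
      τ⁻¹ * s.restrictScalars ℚ * τ = (s ^ c).restrictScalars ℚ) →
  False

theorem noExtAt_of_noExt (h : NoExtStatement) (p : ℕ) [Fact p.Prime] (hp : 5 ≤ p) : NoExtAt p :=
  fun K L _ _ _ _ _ _ _ _ => h p hp K L

theorem noExtAt_three (h : P3.NoExtThreeStatement) : NoExtAt 3 := h

/-- **UNFOLD**: the number-field statement at `p` implies the arithmetic core at `p`. -/
theorem core_of_noExtAt (hNE : NoExtAt p) : Core p := by
  intro D σ₀
  by_contra hne
  have hne' : ∃ σ, D.φ σ ≠ 0 := ⟨σ₀, hne⟩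
  have hp : p.Prime := Fact.out
  haveI : NeZero p := ⟨hp.ne_zero⟩
  obtain ⟨ζ, hζ⟩ := exists_primitiveRoot_Qb p
  have hle := adjoin_le_Lt D hζ
  letI := algEF hle
  haveI := isScalarTower_EF hle
  haveI : FiniteDimensional ℚ (IntermediateField.adjoin ℚ {ζ}) := finiteDimensional_adjoin hζ
  haveI : NumberField (IntermediateField.adjoin ℚ {ζ}) :=
    Fermat.Agent.Lib.InertiaGenerate.numberField_K _
  haveI : NumberField (Lt D) := Fermat.Agent.Lib.InertiaGenerate.numberField_K _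
  haveI : IsCyclotomicExtension {p} ℚ (IntermediateField.adjoin ℚ {ζ}) :=
    hζ.intermediateField_adjoin_isCyclotomicExtension ℚ
  haveI : IsGalois (IntermediateField.adjoin ℚ {ζ}) (Lt D) :=
    IsGalois.tower_top_of_isGalois ℚ (IntermediateField.adjoin ℚ {ζ}) (Lt D)
  have hζK : ζ ∈ IntermediateField.adjoin ℚ {ζ} := IntermediateField.mem_adjoin_simple_self ℚ ζ
  refine hNE (IntermediateField.adjoin ℚ {ζ}) (Lt D) ?_ (unram D hζ) ⟨ζ, hζK⟩ ?_ ?_
  · -- degree
    have h1 := finrank_EF hle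
    have h2 := finrank_Lt D hζ hne'
    rw [h2, mul_comm] at h1
    have hpos : 0 < Module.finrank ℚ (IntermediateField.adjoin ℚ {ζ}) := Module.finrank_pos
    exact Nat.eq_of_mul_eq_mul_right hpos h1
  · exact IsPrimitiveRoot.coe_submonoidClass_iff.mp hζ
  · intro τ s c hτ
    apply conj D hζ τ s c
    have := congrArg (Subtype.val : Lt D → Qb) hτ
    rw [IntermediateField.coe_pow] at this
    exact this

theorem core_of_noExt (h : NoExtStatement) (hp : 5 ≤ p) : Core p :=
  core_of_noExtAt (noExtAt_of_noExt h p hp)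

theorem core_three (h : P3.NoExtThreeStatement) :
    haveI : Fact (Nat.Prime 3) := ⟨Nat.prime_three⟩
    Core 3 :=
  haveI : Fact (Nat.Prime 3) := ⟨Nat.prime_three⟩
  core_of_noExtAt (noExtAt_three h)

end Main

end Fermat.Agent.S14.Translate71
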