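import Mathlib
import Fermat.Agent.S14.CoreIface

set_option autoImplicit false
set_option maxSynthPendingDepth 3

namespace Fermat.Agent.S14.UDir73

open NumberField NumberField.Units NumberField.InfinitePlace Polynomial Module

section LinAlg

/-- Cayley–Hamilton trick: a monic annihilating polynomial of degree `finrank`, with no nonzero
annihilator of smaller degree, is the characteristic polynomial. -/
theorem charpoly_eq_of_annihilator {R U : Type*} [CommRing R] [Nontrivial R] [AddCommGroup U]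
    [Module R U] [Module.Free R U]
    [Module.Finite R U] (f : U →ₗ[R] U) (Φ : R[X]) (hΦm : Φ.Monic)
    (hΦd : Φ.natDegree = finrank R U) (hΦ : aeval f Φ = 0)
    (hmin : ∀ Ψ : R[X], Ψ.natDegree < finrank R U → aeval f Ψ = 0 → Ψ = 0) :
    f.charpoly = Φ := by
  by_contra hne
  have hΨ0 : f.charpoly - Φ ≠ 0 := sub_ne_zero.mpr hne
  have hcm : f.charpoly.Monic := f.charpoly_monic
  have hcd : f.charpoly.natDegree = finrank R U := f.charpoly_natDegree
  have hdeg : (f.charpoly - Φ).degree < f.charpoly.degree := by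
    apply degree_sub_lt_left
    · rw [degree_eq_natDegree hcm.ne_zero, degree_eq_natDegree hΦm.ne_zero, hcd, hΦd]
    · exact hcm.ne_zero
    · rw [hcm.leadingCoeff, hΦm.leadingCoeff]
  have hnd : (f.charpoly - Φ).natDegree < finrank R U := by
    rw [← hcd]
    exact natDegree_lt_natDegree hΨ0 hdeg
  apply hΨ0
  apply hmin _ hnd
  rw [map_sub, LinearMap.aeval_self_charpoly, hΦ, sub_zero]

/-- If the characteristic polynomial of an integer matrix is separable modulo `p`, every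
eigenspace of the reduced matrix has dimension at most one. -/
theorem eigen_dependent {m : ℕ} (p : ℕ) [Fact p.Prime] (M : Matrix (Fin m) (Fin m) ℤ)
    (hsep : (M.charpoly.map (Int.castRingHom (ZMod p))).Separable)
    (l : ZMod p) (x y : Fin m → ZMod p)
    (hx : (M.map (Int.castRingHom (ZMod p))).mulVec x = l • x)
    (hy : (M.map (Int.castRingHom (ZMod p))).mulVec y = l • y) (hx0 : x ≠ 0) :
    ∃ j : ZMod p, y = j • x := by
  set Mb := M.map (Int.castRingHom (ZMod p)) with hMb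
  set f : Module.End (ZMod p) (Fin m → ZMod p) := Matrix.toLin' Mb with hf
  have hchar : f.charpoly = M.charpoly.map (Int.castRingHom (ZMod p)) := by
    rw [hf, Matrix.charpoly_toLin', hMb, Matrix.charpoly_map]
  have hle : finrank (ZMod p) (f.eigenspace l) ≤ 1 := by
    refine (LinearMap.finrank_eigenspace_le f l).trans ?_
    rw [hchar]
    exact rootMultiplicity_le_one_of_separable hsep l
  have hxm : x ∈ f.eigenspace l := by
    rw [Module.End.mem_eigenspace_iff, hf, Matrix.toLin'_apply, hx]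
  have hym : y ∈ f.eigenspace l := by
    rw [Module.End.mem_eigenspace_iff, hf, Matrix.toLin'_apply, hy]
  obtain ⟨v, hv⟩ := finrank_le_one_iff.mp hle
  obtain ⟨a, ha⟩ := hv ⟨x, hxm⟩
  obtain ⟨b, hb⟩ := hv ⟨y, hym⟩
  have ha' : a • (v : Fin m → ZMod p) = x := congrArg Subtype.val ha
  have hb' : b • (v : Fin m → ZMod p) = y := congrArg Subtype.val hb
  have ha0 : a ≠ 0 := by
    rintro rfl
    exact hx0 (by rw [← ha', zero_smul])
  refine ⟨b * a⁻¹, ?_⟩
  rw [← hb', ← ha', smul_smul, mul_assoc, inv_mul_cancel₀ ha0, mul_one]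

end LinAlg


section Action

variable {K : Type} [Field K] [NumberField K]

/-- The action of `σ ∈ Gal(K/ℚ)` on the units of `𝓞 K`. -/
noncomputable def unitAct (σ : K ≃ₐ[ℚ] K) : (𝓞 K)ˣ →* (𝓞 K)ˣ :=
  Units.map ((galRing K σ : 𝓞 K ≃+* 𝓞 K) : 𝓞 K →* 𝓞 K)

@[simp] lemma unitAct_coe (σ : K ≃ₐ[ℚ] K) (u : (𝓞 K)ˣ) :
    (((unitAct σ u : (𝓞 K)ˣ) : 𝓞 K) : K) = σ ((u : 𝓞 K) : K) := by
  simp [unitAct]

lemma place_unitAct (σ : K ≃ₐ[ℚ] K) (w : InfinitePlace K) (u : (𝓞 K)ˣ) :
    w (((unitAct σ u : (𝓞 K)ˣ) : 𝓞 K) : K) = (σ⁻¹ • w) ((u : 𝓞 K) : K) := by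
  rw [unitAct_coe, InfinitePlace.smul_apply]
  rfl

lemma unitAct_mem_torsion (σ : K ≃ₐ[ℚ] K) {u : (𝓞 K)ˣ} (hu : u ∈ torsion K) :
    unitAct σ u ∈ torsion K := by
  rw [mem_torsion] at hu ⊢
  intro w
  rw [place_unitAct]
  exact hu _

/-- The quotient `E / torsion` as an additive group. -/
abbrev UQ (K : Type) [Field K] [NumberField K] : Type := Additive ((𝓞 K)ˣ ⧸ torsion K)

/-- The class of a unit in `E / torsion`. -/
def cls (u : (𝓞 K)ˣ) : UQ K := Additive.ofMul (QuotientGroup.mk u)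

lemma cls_surjective : Function.Surjective (cls (K := K)) := by
  intro y
  obtain ⟨u, hu⟩ := QuotientGroup.mk_surjective (Additive.toMul y)
  exact ⟨u, by rw [cls, hu]; rfl⟩

lemma cls_mul (u v : (𝓞 K)ˣ) : cls (u * v) = cls u + cls v := rfl

lemma cls_pow (u : (𝓞 K)ˣ) (n : ℕ) : cls (u ^ n) = n • cls u := rfl

lemma cls_eq_zero_iff (u : (𝓞 K)ˣ) : cls u = 0 ↔ u ∈ torsion K := by
  rw [cls]
  constructor
  · intro h
    have h' : (QuotientGroup.mk u : (𝓞 K)ˣ ⧸ torsion K) = 1 := h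
    exact (QuotientGroup.eq_one_iff u).mp h'
  · intro h
    have h' : (QuotientGroup.mk u : (𝓞 K)ˣ ⧸ torsion K) = 1 := (QuotientGroup.eq_one_iff u).mpr h
    exact congrArg Additive.ofMul h'

/-- The endomorphism of `E / torsion` induced by `σ`. -/
noncomputable def gU (σ : K ≃ₐ[ℚ] K) : UQ K →ₗ[ℤ] UQ K :=
  (MonoidHom.toAdditive (QuotientGroup.map (torsion K) (torsion K) (unitAct σ)
    (fun _ hu => unitAct_mem_torsion σ hu))).toIntLinearMap

@[simp] lemma gU_cls (σ : K ≃ₐ[ℚ] K) (u : (𝓞 K)ˣ) : gU σ (cls u) = cls (unitAct σ u) := rfl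

/-- The logarithm of the absolute value at `w`, as a monoid hom on units. -/
noncomputable def logHom (w : InfinitePlace K) : (𝓞 K)ˣ →* Multiplicative ℝ where
  toFun u := Multiplicative.ofAdd (Real.log (w ((u : 𝓞 K) : K)))
  map_one' := by simp
  map_mul' u v := by
    rw [← ofAdd_add]
    congr 1
    have h : ((((u * v : (𝓞 K)ˣ) : 𝓞 K)) : K) = ((u : 𝓞 K) : K) * ((v : 𝓞 K) : K) := by
      push_cast; rfl
    rw [h, map_mul, Real.log_mul (pos_at_place u w).ne' (pos_at_place v w).ne']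

lemma logHom_torsion (w : InfinitePlace K) : torsion K ≤ (logHom w).ker := by
  intro u hu
  rw [MonoidHom.mem_ker]
  rw [mem_torsion] at hu
  simp [logHom, hu w]

/-- The linear functional `log |·|_w` on `E / torsion`. -/
noncomputable def logAt (w : InfinitePlace K) : UQ K →ₗ[ℤ] ℝ :=
  (MonoidHom.toAdditiveLeft (QuotientGroup.lift (torsion K) (logHom w)
    (logHom_torsion w))).toIntLinearMap

@[simp] lemma logAt_cls (w : InfinitePlace K) (u : (𝓞 K)ˣ) :
    logAt w (cls u) = Real.log (w ((u : 𝓞 K) : K)) := rfl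

lemma logAt_gU (σ : K ≃ₐ[ℚ] K) (w : InfinitePlace K) (y : UQ K) :
    logAt w (gU σ y) = logAt (σ⁻¹ • w) y := by
  obtain ⟨u, rfl⟩ := cls_surjective y
  rw [gU_cls, logAt_cls, logAt_cls, place_unitAct]

lemma logAt_gU_pow (σ : K ≃ₐ[ℚ] K) (w : InfinitePlace K) (i : ℕ) (y : UQ K) :
    logAt w ((gU σ ^ i) y) = logAt ((σ ^ i)⁻¹ • w) y := by
  induction i generalizing w y with
  | zero => simp
  | succ i ih =>
    rw [pow_succ, Module.End.mul_apply, ih, logAt_gU, pow_succ, mul_inv_rev, mul_smul]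

lemma eq_zero_of_logAt (y : UQ K) (h : ∀ w, logAt w y = 0) : y = 0 := by
  obtain ⟨u, rfl⟩ := cls_surjective y
  rw [cls_eq_zero_iff, mem_torsion]
  intro w
  have := h w
  rw [logAt_cls] at this
  exact Real.eq_one_of_pos_of_log_eq_zero (pos_at_place u w) this

lemma sum_mult_logAt (y : UQ K) : ∑ w : InfinitePlace K, (mult w : ℝ) * logAt w y = 0 := by
  obtain ⟨u, rfl⟩ := cls_surjective y
  simpa using sum_mult_mul_log u

end Action

section Dirichlet

variable {K : Type} [Field K] [NumberField K]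

open NumberField.Units.dirichletUnitTheorem in
/-- **Dirichlet.** A linear relation `∑_w c_w · mult(w) · log|u|_w = 0` valid for all units has
constant coefficients. -/
theorem coeff_const_of_units (c : InfinitePlace K → ℝ)
    (h : ∀ u : (𝓞 K)ˣ, ∑ w : InfinitePlace K, c w * ((mult w : ℝ) * Real.log (w ((u : 𝓞 K) : K))) = 0)
    (w w' : InfinitePlace K) : c w = c w' := by
  classical
  set v₀ : InfinitePlace K := w₀ with hv₀
  suffices H : ∀ w : InfinitePlace K, c w = c v₀ by rw [H w, H w']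
  -- the functional
  let ψ : logSpace K →ₗ[ℝ] ℝ :=
    ∑ v : {w : InfinitePlace K // w ≠ w₀}, (c v.1 - c v₀) • LinearMap.proj v
  have hψ : ∀ x : logSpace K, ψ x = ∑ v : {w : InfinitePlace K // w ≠ w₀}, (c v.1 - c v₀) * x v := by
    intro x
    simp [ψ, LinearMap.sum_apply]
  have hvan : ∀ u : (𝓞 K)ˣ, ψ (logEmbedding K (Additive.ofMul u)) = 0 := by
    intro u
    rw [hψ]
    have h1 := h u
    have h2 := sum_mult_mul_log u
    rw [Fintype.sum_eq_add_sum_subtype_ne _ (w₀ : InfinitePlace K)] at h1 h2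
    simp only [logEmbedding_component]
    have e1 : ∑ v : {w : InfinitePlace K // w ≠ w₀},
        (c v.1 - c v₀) * ((mult v.1 : ℝ) * Real.log (v.1 ((u : 𝓞 K) : K))) =
        ∑ v : {w : InfinitePlace K // w ≠ w₀}, c v.1 * ((mult v.1 : ℝ) * Real.log (v.1 ((u : 𝓞 K) : K)))
        - c v₀ * ∑ v : {w : InfinitePlace K // w ≠ w₀}, ((mult v.1 : ℝ) * Real.log (v.1 ((u : 𝓞 K) : K))) := by
      rw [Finset.mul_sum, ← Finset.sum_sub_distrib]
      refine Finset.sum_congr rfl fun v _ => ?_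
      ring
    rw [e1]
    linear_combination h1 - c v₀ * h2
  have hker : (⊤ : Submodule ℝ (logSpace K)) ≤ LinearMap.ker ψ := by
    rw [← unitLattice_span_eq_top K, Submodule.span_le]
    rintro x ⟨a, -, rfl⟩
    rw [SetLike.mem_coe, LinearMap.mem_ker]
    exact hvan (Additive.toMul a)
  intro w
  by_cases hw : w = v₀
  · rw [hw]
  · have hz : ψ (Pi.single (⟨w, hw⟩ : {w : InfinitePlace K // w ≠ w₀}) (1 : ℝ)) = 0 :=
      LinearMap.mem_ker.mp (hker Submodule.mem_top)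
    rw [hψ, Finset.sum_eq_single (⟨w, hw⟩ : {w : InfinitePlace K // w ≠ w₀})] at hz
    · simpa [sub_eq_zero] using hz
    · intro b _ hb
      simp [Pi.single_eq_of_ne hb]
    · intro hb
      exact absurd (Finset.mem_univ _) hb

end Dirichlet


section Orbit

variable {K : Type} [Field K] [NumberField K]

/-- reformulation of `coeff_const_of_units` on `E / torsion`. -/
theorem coeff_const_of_logAt (c : InfinitePlace K → ℝ)
    (h : ∀ y : UQ K, ∑ w : InfinitePlace K, c w * ((mult w : ℝ) * logAt w y) = 0)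
    (w w' : InfinitePlace K) : c w = c w' :=
  coeff_const_of_units c (fun u => by simpa using h (cls u)) w w'

lemma mult_smul (τ : K ≃ₐ[ℚ] K) (w : InfinitePlace K) : mult (τ • w) = mult w := by
  unfold mult
  rw [isReal_smul_iff]

variable (σ : K ≃ₐ[ℚ] K) {n : ℕ} (hord : orderOf σ = 2 * n)
  (hcard : Fintype.card (InfinitePlace K) = n)

include hord in
lemma orbit_injective (w : InfinitePlace K) {i j : ℕ} (hi : i < n) (hj : j < n)
    (h : (σ ^ i)⁻¹ • w = (σ ^ j)⁻¹ • w) : i = j := by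
  wlog hij : i ≤ j generalizing i j
  · exact (this hj hi h.symm (le_of_not_ge hij)).symm
  have hstab : σ ^ (j - i) ∈ MulAction.stabilizer (K ≃ₐ[ℚ] K) w := by
    rw [MulAction.mem_stabilizer_iff]
    have h1 : σ ^ j • ((σ ^ i)⁻¹ • w) = w := by rw [h, smul_inv_smul]
    rw [← mul_smul] at h1
    have h2 : σ ^ j * (σ ^ i)⁻¹ = σ ^ (j - i) := by
      rw [mul_inv_eq_iff_eq_mul, ← pow_add, Nat.sub_add_cancel hij]
    rwa [h2] at h1
  have hsq : (σ ^ (j - i)) ^ 2 = 1 := by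
    have hc := nat_card_stabilizer_eq_one_or_two ℚ w
    have hpow : (⟨σ ^ (j - i), hstab⟩ : MulAction.stabilizer (K ≃ₐ[ℚ] K) w) ^
        Nat.card (MulAction.stabilizer (K ≃ₐ[ℚ] K) w) = 1 := pow_card_eq_one'
    have hpow' : (σ ^ (j - i)) ^ Nat.card (MulAction.stabilizer (K ≃ₐ[ℚ] K) w) = 1 := by
      have := congrArg Subtype.val hpow
      simpa using this
    rcases hc with hc | hc
    · rw [hc, pow_one] at hpow'
      rw [hpow', one_pow]
    · rwa [hc] at hpow'
  rw [← pow_mul] at hsq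
  have hdvd : 2 * n ∣ (j - i) * 2 := by
    rw [← hord]
    exact orderOf_dvd_of_pow_eq_one hsq
  have hdvd' : n ∣ j - i := by
    rw [mul_comm (j - i) 2] at hdvd
    exact Nat.dvd_of_mul_dvd_mul_left (by norm_num) hdvd
  have hlt : j - i < n := lt_of_le_of_lt (Nat.sub_le _ _) hj
  have h0 : j - i = 0 := Nat.eq_zero_of_dvd_of_lt hdvd' hlt
  omega

/-- The orbit map `i ↦ σ^{-i} • w`, `i < n`. -/
noncomputable def orbitMap (w : InfinitePlace K) (i : Fin n) : InfinitePlace K := (σ ^ i.1)⁻¹ • w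

include hord hcard in
lemma orbitMap_bijective (w : InfinitePlace K) : Function.Bijective (orbitMap σ (n := n) w) := by
  rw [Fintype.bijective_iff_injective_and_card]
  refine ⟨fun i j h => Fin.ext (orbit_injective σ hord w i.2 j.2 h), ?_⟩
  rw [Fintype.card_fin, hcard]

include hord hcard in
lemma sum_orbit (w : InfinitePlace K) (F : InfinitePlace K → ℝ) :
    ∑ i ∈ Finset.range n, F ((σ ^ i)⁻¹ • w) = ∑ w' : InfinitePlace K, F w' := by
  rw [← Fin.sum_univ_eq_sum_range (fun i => F ((σ ^ i)⁻¹ • w)) n]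
  exact Function.Bijective.sum_comp (orbitMap_bijective σ hord hcard w) F

include hord hcard in
/-- `1 + g + ⋯ + g^{n-1}` kills `E / torsion`. -/
theorem geom_sum_gU (y : UQ K) : ∑ i ∈ Finset.range n, ((gU σ) ^ i) y = 0 := by
  apply eq_zero_of_logAt
  intro w
  rw [map_sum]
  simp_rw [logAt_gU_pow]
  rw [sum_orbit σ hord hcard w (fun w' => logAt w' y)]
  -- all multiplicities agree
  have hm : ∀ w' : InfinitePlace K, (mult w' : ℝ) = mult w := by
    intro w'
    obtain ⟨i, rfl⟩ := (orbitMap_bijective σ hord hcard w).2 w'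
    rw [orbitMap, mult_smul]
  have h := sum_mult_logAt y
  simp_rw [hm] at h
  rw [← Finset.mul_sum] at h
  have hne : (mult w : ℝ) ≠ 0 := by exact_mod_cast mult_ne_zero
  exact (mul_eq_zero.mp h).resolve_left hne

include hord hcard in
/-- No nonzero integer polynomial of degree `< n - 1` kills `E / torsion`. -/
theorem eq_zero_of_annihilates (Ψ : ℤ[X]) (hdeg : Ψ.natDegree < n - 1)
    (hΨ : ∀ y : UQ K, ∑ i ∈ Finset.range n, Ψ.coeff i • ((gU σ) ^ i) y = 0) : Ψ = 0 := by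
  have hn : 0 < n := by omega
  obtain ⟨w⟩ : Nonempty (InfinitePlace K) := inferInstance
  have hbij := orbitMap_bijective σ hord hcard w
  let e : Fin n ≃ InfinitePlace K := Equiv.ofBijective _ hbij
  have hmne : (mult w : ℝ) ≠ 0 := by exact_mod_cast mult_ne_zero
  let c : InfinitePlace K → ℝ := fun w' => (Ψ.coeff (e.symm w').1 : ℝ) / mult w
  have hc : ∀ y : UQ K, ∑ w' : InfinitePlace K, c w' * ((mult w' : ℝ) * logAt w' y) = 0 := by
    intro y
    rw [← sum_orbit σ hord hcard w]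
    have h1 := congrArg (logAt w) (hΨ y)
    rw [map_sum, map_zero] at h1
    rw [← h1]
    refine Finset.sum_congr rfl fun i hi => ?_
    have hi' : i < n := Finset.mem_range.mp hi
    have he : e.symm ((σ ^ i)⁻¹ • w) = ⟨i, hi'⟩ := by
      rw [Equiv.symm_apply_eq]
      rfl
    simp only [c, he, mult_smul]
    rw [map_zsmul, logAt_gU_pow, zsmul_eq_mul]
    field_simp
  have hconst := coeff_const_of_logAt c hc
  have hlast : c (e ⟨n - 1, by omega⟩) = 0 := by
    simp only [c, Equiv.symm_apply_apply]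
    rw [coeff_eq_zero_of_natDegree_lt hdeg]
    simp
  ext i
  rw [coeff_zero]
  by_cases hi : i < n
  · have h1 : c (e ⟨i, hi⟩) = 0 := by rw [hconst _ (e ⟨n - 1, by omega⟩), hlast]
    simp only [c, Equiv.symm_apply_apply] at h1
    have h2 : (Ψ.coeff i : ℝ) = 0 := by
      rcases div_eq_zero_iff.mp h1 with h | h
      · exact h
      · exact absurd h hmne
    exact_mod_cast h2
  · exact coeff_eq_zero_of_natDegree_lt (by omega)

end Orbit


section Cyclo

variable {p : ℕ} [hp : Fact p.Prime] {K : Type} [Field K] [NumberField K]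
  [hK : IsCyclotomicExtension {p} ℚ K]

include hK in
lemma card_places (hp2 : p ≠ 2) : Fintype.card (InfinitePlace K) = (p - 1) / 2 := by
  have h3 : 2 < p := lt_of_le_of_ne hp.out.two_le (Ne.symm hp2)
  rw [card_eq_nrRealPlaces_add_nrComplexPlaces,
    IsCyclotomicExtension.Rat.nrRealPlaces_eq_zero (n := p) K h3,
    IsCyclotomicExtension.Rat.nrComplexPlaces_eq_totient_div_two p K, Nat.totient_prime hp.out,
    zero_add]

include hK in
lemma finrank_UQ (hp2 : p ≠ 2) : finrank ℤ (UQ K) = (p - 1) / 2 - 1 := by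
  rw [finrank_modTorsion, NumberField.Units.rank, card_places hp2]

include hK in
/-- A generator of `Gal(K/ℚ)` together with the exponent by which it acts on `p`-th roots of
unity. -/
lemma exists_generator (hp2 : p ≠ 2) : ∃ (σ : K ≃ₐ[ℚ] K) (c : ℕ),
    orderOf σ = 2 * ((p - 1) / 2) ∧ (∀ x : K, x ^ p = 1 → σ x = x ^ c) ∧
    orderOf (c : ZMod p) = p - 1 ∧ (c : ZMod p) ≠ 0 := by
  have h3 : 2 < p := lt_of_le_of_ne hp.out.two_le (Ne.symm hp2)
  have hodd : Odd p := hp.out.odd_of_ne_two hp2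
  have h2n : 2 * ((p - 1) / 2) = p - 1 := by
    obtain ⟨r, hr⟩ := hodd
    omega
  obtain ⟨t, ht⟩ := isCyclic_iff_exists_orderOf_eq_natCard.mp (ZMod.isCyclic_units_prime hp.out)
  rw [Nat.card_eq_fintype_card, ZMod.card_units] at ht
  set e := IsCyclotomicExtension.Rat.galEquivZMod p K with he
  refine ⟨e.symm t, (t : ZMod p).val, ?_, ?_, ?_, ?_⟩
  · rw [h2n, MulEquiv.orderOf_eq, ht]
  · intro x hx
    have := IsCyclotomicExtension.Rat.galEquivZMod_apply_of_pow_eq p K (e.symm t) hx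
    rw [this, ← he, MulEquiv.apply_symm_apply]
  · rw [ZMod.natCast_zmod_val, ← ht, orderOf_units]
  · rw [ZMod.natCast_zmod_val]
    exact t.ne_zero

/-- The polynomial `1 + X + ⋯ + X^{n-1}`. -/
noncomputable def geomPoly (n : ℕ) : ℤ[X] := ∑ i ∈ Finset.range n, (X : ℤ[X]) ^ i

lemma geomPoly_monic {n : ℕ} (hn : n ≠ 0) : (geomPoly n).Monic := monic_geom_sum_X hn

lemma geomPoly_natDegree {n : ℕ} (hn : n ≠ 0) : (geomPoly n).natDegree = n - 1 := by
  have h := mul_geom_sum (X : ℤ[X]) n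
  have h1 : ((X : ℤ[X]) - C 1) * geomPoly n = X ^ n - C 1 := by
    rw [map_one]; exact h
  have h2 := congrArg natDegree h1
  rw [natDegree_mul (X_sub_C_ne_zero (1 : ℤ)) (geomPoly_monic hn).ne_zero,
    natDegree_X_sub_C, natDegree_X_pow_sub_C] at h2
  omega

lemma geomPoly_map_separable {n : ℕ} (hn : (n : ZMod p) ≠ 0) :
    ((geomPoly n).map (Int.castRingHom (ZMod p))).Separable := by
  have h1 : ((X : (ZMod p)[X]) - 1) * (geomPoly n).map (Int.castRingHom (ZMod p)) = X ^ n - 1 := by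
    rw [geomPoly, Polynomial.map_sum]
    simp only [Polynomial.map_pow, Polynomial.map_X]
    exact mul_geom_sum _ n
  have h2 : ((X : (ZMod p)[X]) ^ n - 1).Separable := X_pow_sub_one_separable_iff.mpr hn
  rw [← h1] at h2
  exact h2.of_mul_right

include hK in
/-- **Equivariant Dirichlet**: the characteristic polynomial of a generator of `Gal(K/ℚ)` acting
on `E / torsion` is `1 + X + ⋯ + X^{n-1}`, `n = (p-1)/2`. -/
theorem charpoly_gU (hp2 : p ≠ 2) (σ : K ≃ₐ[ℚ] K) (hord : orderOf σ = 2 * ((p - 1) / 2)) :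
    (gU σ).charpoly = geomPoly ((p - 1) / 2) := by
  have h3 : 2 < p := lt_of_le_of_ne hp.out.two_le (Ne.symm hp2)
  have hn : (p - 1) / 2 ≠ 0 := by omega
  have hcard := card_places (K := K) hp2
  apply charpoly_eq_of_annihilator (R := ℤ) (gU σ) _ (geomPoly_monic hn)
  · rw [geomPoly_natDegree hn, finrank_UQ hp2]
  · apply LinearMap.ext
    intro y
    rw [geomPoly, map_sum]
    simp only [map_pow, aeval_X]
    rw [LinearMap.sum_apply, LinearMap.zero_apply]
    exact geom_sum_gU σ hord hcard y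
  · intro Ψ hdeg hΨ
    rw [finrank_UQ hp2] at hdeg
    apply eq_zero_of_annihilates σ hord hcard Ψ hdeg
    intro y
    have hlt : Ψ.natDegree < (p - 1) / 2 := by omega
    have h := aeval_eq_sum_range' hlt (gU σ)
    rw [hΨ] at h
    have h' := congrArg (fun f : Module.End ℤ (UQ K) => f y) h
    simp only [LinearMap.zero_apply, LinearMap.sum_apply, LinearMap.smul_apply] at h'
    exact h'.symm

end Cyclo

section Coordinates

variable {p : ℕ} [hp : Fact p.Prime] {K : Type} [Field K] [NumberField K]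

/-- The chosen basis of `E / torsion`. -/
noncomputable abbrev bU (K : Type) [Field K] [NumberField K] :
    Basis (Fin (finrank ℤ (UQ K))) ℤ (UQ K) := Module.finBasis ℤ (UQ K)

variable (p) in
/-- Coordinates of a unit in the chosen basis of `E / torsion`, reduced modulo `p`. -/
noncomputable def kappa (u : (𝓞 K)ˣ) : Fin (finrank ℤ (UQ K)) → ZMod p :=
  fun i => (((bU K).repr (cls u) i : ℤ) : ZMod p)

lemma kappa_mul (u v : (𝓞 K)ˣ) : kappa p (u * v) = kappa p u + kappa p v := by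
  funext i
  simp [kappa, cls_mul]

lemma kappa_pow (u : (𝓞 K)ˣ) (j : ℕ) : kappa p (u ^ j) = (j : ZMod p) • kappa p u := by
  funext i
  simp [kappa, cls_pow]

lemma kappa_pow_self (u : (𝓞 K)ˣ) : kappa p (u ^ p) = 0 := by
  rw [kappa_pow, ZMod.natCast_self, zero_smul]

lemma kappa_inv (u : (𝓞 K)ˣ) : kappa p u⁻¹ = - kappa p u := by
  have h : kappa p (u * u⁻¹) = 0 := by
    rw [mul_inv_cancel]
    funext i
    simp [kappa, cls]
  rw [kappa_mul] at h
  exact (neg_eq_of_add_eq_zero_right h).symm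

lemma kappa_unitAct (σ : K ≃ₐ[ℚ] K) (u : (𝓞 K)ˣ) :
    kappa p (unitAct σ u) =
      ((LinearMap.toMatrix (bU K) (bU K) (gU σ)).map (Int.castRingHom (ZMod p))).mulVec
        (kappa p u) := by
  funext i
  have h := LinearMap.toMatrix_mulVec_repr (bU K) (bU K) (gU σ) (cls u)
  have h' := congrFun h i
  rw [gU_cls] at h'
  have h2 := RingHom.map_mulVec (Int.castRingHom (ZMod p))
    (LinearMap.toMatrix (bU K) (bU K) (gU σ)) (fun i => (bU K).repr (cls u) i) i
  simp only [kappa]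
  rw [← h']
  exact h2

lemma exists_of_kappa_eq_zero {u : (𝓞 K)ˣ} (h : kappa p u = 0) :
    ∃ t ∈ torsion K, ∃ w : (𝓞 K)ˣ, u = t * w ^ p := by
  -- every coordinate is divisible by `p`
  have hdvd : ∀ i, (p : ℤ) ∣ (bU K).repr (cls u) i := by
    intro i
    have := congrFun h i
    simp only [kappa, Pi.zero_apply] at this
    exact (ZMod.intCast_zmod_eq_zero_iff_dvd _ p).mp this
  choose e he using hdvd
  obtain ⟨w, hw⟩ := cls_surjective (∑ i, e i • (bU K) i)
  have hcls : cls u = cls (w ^ p) := by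
    rw [cls_pow, hw, Finset.smul_sum]
    conv_lhs => rw [← (bU K).sum_repr (cls u)]
    refine Finset.sum_congr rfl fun i _ => ?_
    rw [he i, mul_smul, Nat.cast_smul_eq_nsmul ℤ]
  refine ⟨u * (w ^ p)⁻¹, ?_, w, by group⟩
  rw [← cls_eq_zero_iff, cls_mul, hcls]
  have : cls (w ^ p) + cls ((w ^ p)⁻¹) = 0 := by
    rw [← cls_mul, mul_inv_cancel]
    rfl
  exact this

end Coordinates

section Final

variable {p : ℕ} [hp : Fact p.Prime] {K : Type} [Field K] [NumberField K]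
  [hK : IsCyclotomicExtension {p} ℚ K]

/-- `η` lies in the `ω^k`-eigenspace of `E/E^p` (shape of `CoreIface.IsEigenUnit`, general `k`). -/
def IsEigenUnitK (p : ℕ) (ζ : K) (k : ℕ) (η : (𝓞 K)ˣ) : Prop :=
  ∀ (σ : K ≃ₐ[ℚ] K) (c : ℕ), σ ζ = ζ ^ c →
    ∃ ε : (𝓞 K)ˣ, σ ((η : 𝓞 K) : K) = ((η : 𝓞 K) : K) ^ (c ^ k) * ((ε : 𝓞 K) : K) ^ p

omit hp hK in
lemma isEigenUnitK_two_iff (ζ : K) (η : (𝓞 K)ˣ) :
    IsEigenUnitK p ζ 2 η ↔ IsEigenUnit p K ζ η := Iff.rfl

omit hp hK in
lemma unit_ext {a b : (𝓞 K)ˣ} (h : ((a : 𝓞 K) : K) = ((b : 𝓞 K) : K)) : a = b :=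
  Units.ext (RingOfIntegers.ext h)

omit hp hK in
/-- unit-level form of the eigen relation -/
lemma unitAct_eq_of_eigen {σ : K ≃ₐ[ℚ] K} {d : ℕ} {η ε : (𝓞 K)ˣ}
    (h : σ ((η : 𝓞 K) : K) = ((η : 𝓞 K) : K) ^ d * ((ε : 𝓞 K) : K) ^ p) :
    unitAct σ η = η ^ d * ε ^ p := by
  apply unit_ext
  rw [unitAct_coe, h]
  push_cast
  rfl

/-- In a commutative group, `q^p = 1` and `q^a = q^b` with `a ≢ b mod p` force `q = 1`. -/
lemma eq_one_of_pow_eq {G : Type*} [CommGroup G] {q : G} (hq : q ^ p = 1) {a b : ℕ}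
    (hab : q ^ a = q ^ b) (hne : (a : ZMod p) ≠ (b : ZMod p)) : q = 1 := by
  have hdvd : orderOf q ∣ p := orderOf_dvd_of_pow_eq_one hq
  rcases (Nat.dvd_prime hp.out).mp hdvd with h1 | h1
  · exact orderOf_eq_one_iff.mp h1
  · exfalso
    apply hne
    rw [ZMod.natCast_eq_natCast_iff]
    rw [← h1]
    exact pow_eq_pow_iff_modEq.mp hab

omit hK in
lemma pow_ne_self_of_even (hp2 : p ≠ 2) {c : ℕ} (hcord : orderOf (c : ZMod p) = p - 1)
    (hc0 : (c : ZMod p) ≠ 0) {k : ℕ} (hk : Even k) :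
    ((c ^ k : ℕ) : ZMod p) ≠ (c : ZMod p) := by
  have h3 : 2 < p := lt_of_le_of_ne hp.out.two_le (Ne.symm hp2)
  have hodd : Odd p := hp.out.odd_of_ne_two hp2
  intro h
  rw [Nat.cast_pow] at h
  rcases Nat.eq_zero_or_pos k with hk0 | hkpos
  · rw [hk0, pow_zero] at h
    rw [← h, orderOf_one] at hcord
    omega
  · have h1 : (c : ZMod p) ^ (k - 1) = 1 := by
      have : (c : ZMod p) ^ (k - 1) * (c : ZMod p) = 1 * (c : ZMod p) := by
        rw [← pow_succ, Nat.sub_add_cancel hkpos, one_mul, h]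
      exact mul_right_cancel₀ hc0 this
    have hdvd : p - 1 ∣ k - 1 := by
      rw [← hcord]; exact orderOf_dvd_of_pow_eq_one h1
    obtain ⟨r, hr⟩ := hodd
    obtain ⟨s, hs⟩ := hk
    have h2 : 2 ∣ k - 1 := by
      refine Dvd.dvd.trans ?_ hdvd
      exact ⟨r, by omega⟩
    obtain ⟨m, hm⟩ := h2
    omega

include hK in
/-- A unit of the form `torsion * p-th power` that satisfies the eigen relation for an even `k` is
a `p`-th power. -/
lemma torsion_kill (hp2 : p ≠ 2) {ζ : K} (hζ : IsPrimitiveRoot ζ p) {σ : K ≃ₐ[ℚ] K} {c : ℕ}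
    (hσ : ∀ x : K, x ^ p = 1 → σ x = x ^ c)
    (hcord : orderOf (c : ZMod p) = p - 1) (hc0 : (c : ZMod p) ≠ 0) {k : ℕ} (hk : Even k)
    {x : (𝓞 K)ˣ} (hx1 : ∃ t ∈ torsion K, ∃ w : (𝓞 K)ˣ, x = t * w ^ p)
    (hx2 : ∃ ε : (𝓞 K)ˣ, unitAct σ x = x ^ (c ^ k) * ε ^ p) :
    ∃ w : (𝓞 K)ˣ, x = w ^ p := by
  have hodd : Odd p := hp.out.odd_of_ne_two hp2
  obtain ⟨t, ht, w, rfl⟩ := hx1
  obtain ⟨ε, hε⟩ := hx2
  -- the subgroup of `p`-th powers and the quotient
  set P : Subgroup (𝓞 K)ˣ := (powMonoidHom p : (𝓞 K)ˣ →* (𝓞 K)ˣ).range with hP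
  set π : (𝓞 K)ˣ →* (𝓞 K)ˣ ⧸ P := QuotientGroup.mk' P with hπ
  have hπpow : ∀ y : (𝓞 K)ˣ, π (y ^ p) = 1 := by
    intro y
    rw [hπ, QuotientGroup.mk'_apply, QuotientGroup.eq_one_iff]
    exact ⟨y, rfl⟩
  have hπp : ∀ y : (𝓞 K)ˣ, π y ^ p = 1 := fun y => by rw [← map_pow, hπpow]
  -- `t ^ 2` is a `p`-th root of unity
  have ht2 : (((t ^ 2 : (𝓞 K)ˣ) : 𝓞 K) : K) ^ p = 1 := by
    have hfin : IsOfFinOrder (((t : (𝓞 K)ˣ) : 𝓞 K) : K) := by
      have h1 : IsOfFinOrder t := by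
        rw [torsion, CommGroup.mem_torsion] at ht; exact ht
      exact ((algebraMap (𝓞 K) K).toMonoidHom.comp (Units.coeHom _)).isOfFinOrder h1
    have e : (((t ^ 2 : (𝓞 K)ˣ) : 𝓞 K) : K) = (((t : (𝓞 K)ˣ) : 𝓞 K) : K) ^ 2 := by
      push_cast; rfl
    have hexp : ∀ r : ℕ, r * (2 * p) = p * (r * 2) := fun r => by ring
    obtain ⟨r, -, hr | hr⟩ := hζ.exists_pow_or_neg_mul_pow_of_isOfFinOrder hodd hfin
    · rw [e, hr, ← pow_mul, ← pow_mul, hexp, pow_mul, hζ.pow_eq_one, one_pow]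
    · rw [e, hr, neg_sq, ← pow_mul, ← pow_mul, hexp, pow_mul, hζ.pow_eq_one, one_pow]
  have hact2 : unitAct σ (t ^ 2) = (t ^ 2) ^ c := by
    apply unit_ext
    rw [unitAct_coe, hσ _ ht2]
    push_cast
    rfl
  -- computations in the quotient
  have hx : π (t * w ^ p) = π t := by rw [map_mul, hπpow, mul_one]
  have h1 : π (unitAct σ (t * w ^ p)) ^ 2 = (π t ^ 2) ^ c := by
    have e0 : (t * w ^ p) ^ 2 = t ^ 2 * (w ^ 2) ^ p := by
      rw [mul_pow, ← pow_mul, mul_comm p 2, pow_mul]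
    have e1 : (unitAct σ (t * w ^ p)) ^ 2 = (t ^ 2) ^ c * ((unitAct σ w) ^ 2) ^ p := by
      rw [← map_pow, e0, map_mul, hact2, map_pow, map_pow]
    rw [← map_pow, e1, map_mul, hπpow, mul_one, map_pow, map_pow]
  have h2 : π (unitAct σ (t * w ^ p)) ^ 2 = (π t ^ 2) ^ (c ^ k) := by
    rw [hε, map_mul, hπpow, mul_one, map_pow, hx, ← pow_mul, ← pow_mul, mul_comm]
  have hq : π t ^ 2 = 1 := by
    refine eq_one_of_pow_eq (p := p) ?_ (h2.symm.trans h1) (pow_ne_self_of_even hp2 hcord hc0 hk)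
    rw [← pow_mul, mul_comm, pow_mul, hπp, one_pow]
  have hq1 : π t = 1 := by
    obtain ⟨r, hr⟩ := hodd
    have : π t = (π t ^ p) * ((π t ^ 2) ^ r)⁻¹ := by
      rw [hr, pow_succ, pow_mul]
      group
    rw [this, hπp, hq, one_pow, inv_one, mul_one]
  have hmem : t * w ^ p ∈ P := by
    rw [← QuotientGroup.eq_one_iff, ← QuotientGroup.mk'_apply, ← hπ, hx, hq1]
  obtain ⟨w', hw'⟩ := hmem
  exact ⟨w', hw'.symm⟩

include hK in
/-- **K5 / UDIR.** Two units in the same `ω^k`-eigenspace of `E/E^p` (`k` even) are dependent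
modulo `p`-th powers. -/
theorem eigen_units_dependent (hp2 : p ≠ 2) {ζ : K} (hζ : IsPrimitiveRoot ζ p) {k : ℕ}
    (hk : Even k) {u v : (𝓞 K)ˣ} (hu : IsEigenUnitK p ζ k u) (hv : IsEigenUnitK p ζ k v)
    (hnp : ¬ ∃ ε : (𝓞 K)ˣ, u = ε ^ p) :
    ∃ (j : ℕ) (w : (𝓞 K)ˣ), v = u ^ j * w ^ p := by
  have h3 : 2 < p := lt_of_le_of_ne hp.out.two_le (Ne.symm hp2)
  obtain ⟨σ, c, hord, hσ, hcord, hc0⟩ := exists_generator (K := K) hp2
  have hσζ : σ ζ = ζ ^ c := hσ ζ hζ.pow_eq_one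
  obtain ⟨εu, hεu⟩ := hu σ c hσζ
  obtain ⟨εv, hεv⟩ := hv σ c hσζ
  have hUu := unitAct_eq_of_eigen hεu
  have hUv := unitAct_eq_of_eigen hεv
  set M := LinearMap.toMatrix (bU K) (bU K) (gU σ) with hM
  set l : ZMod p := ((c ^ k : ℕ) : ZMod p) with hl
  have hMu : (M.map (Int.castRingHom (ZMod p))).mulVec (kappa p u) = l • kappa p u := by
    rw [← kappa_unitAct, hUu, kappa_mul, kappa_pow, kappa_pow_self, add_zero]
  have hMv : (M.map (Int.castRingHom (ZMod p))).mulVec (kappa p v) = l • kappa p v := by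
    rw [← kappa_unitAct, hUv, kappa_mul, kappa_pow, kappa_pow_self, add_zero]
  have hsep : (M.charpoly.map (Int.castRingHom (ZMod p))).Separable := by
    rw [hM, LinearMap.charpoly_toMatrix, charpoly_gU hp2 σ hord]
    apply geomPoly_map_separable
    rw [Ne, ZMod.natCast_eq_zero_iff]
    intro hdvd
    have := Nat.le_of_dvd (by omega) hdvd
    omega
  by_cases hκ : kappa p u = 0
  · exfalso
    apply hnp
    exact torsion_kill hp2 hζ hσ hcord hc0 hk (exists_of_kappa_eq_zero hκ) ⟨εu, hUu⟩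
  · obtain ⟨jb, hjb⟩ := eigen_dependent p M hsep l (kappa p u) (kappa p v) hMu hMv hκ
    refine ⟨jb.val, ?_⟩
    set x : (𝓞 K)ˣ := v * (u ^ jb.val)⁻¹ with hx
    have hκx : kappa p x = 0 := by
      rw [hx, kappa_mul, kappa_inv, kappa_pow, ZMod.natCast_zmod_val, hjb, add_neg_cancel]
    have hact : unitAct σ x = x ^ (c ^ k) * (εv * (εu ^ jb.val)⁻¹) ^ p := by
      have ea : v ^ (c ^ k) * ((u ^ (c ^ k)) ^ jb.val)⁻¹ = (v * (u ^ jb.val)⁻¹) ^ (c ^ k) := by
        rw [mul_pow, inv_pow, ← pow_mul, ← pow_mul, mul_comm (c ^ k) jb.val]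
      have eb : εv ^ p * ((εu ^ p) ^ jb.val)⁻¹ = (εv * (εu ^ jb.val)⁻¹) ^ p := by
        rw [mul_pow, inv_pow, ← pow_mul, ← pow_mul, mul_comm p jb.val]
      rw [hx, map_mul, map_inv, map_pow, hUu, hUv, mul_pow, mul_inv, mul_mul_mul_comm, ea, eb]
    obtain ⟨w, hw⟩ := torsion_kill hp2 hζ hσ hcord hc0 hk (exists_of_kappa_eq_zero hκx)
      ⟨_, hact⟩
    refine ⟨w, ?_⟩
    rw [← hw, hx, mul_comm v, mul_inv_cancel_left]

end Final

end Fermat.Agent.S14.UDir73
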