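/-
S14 / K5 (UDIR), abstract algebra part (helper30).

`M` a finite free `ℤ`-module with an endomorphism `g` whose characteristic polynomial is
separable modulo `p`.  Then every eigenspace of `g` on `M / pM` is at most one-dimensional:
if `x, y` are eigenvectors modulo `p` for the same eigenvalue and `x ∉ pM` then
`y ≡ j • x mod pM` for some integer `j`.
-/
import Mathlib

set_option autoImplicit false

open TensorProduct

namespace Fermat.Agent.S14.UDirAlg30

variable {M : Type*} [AddCommGroup M] [Module.Free ℤ M]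

/-- `1 ⊗ x = 0` in `ZMod p ⊗ M` iff `x ∈ pM`. -/
theorem one_tmul_eq_zero_iff (p : ℕ) [Fact p.Prime] (x : M) :
    (1 : ZMod p) ⊗ₜ[ℤ] x = 0 ↔ ∃ m : M, x = (p : ℤ) • m := by
  constructor
  · intro h
    let b := Module.Free.chooseBasis ℤ M
    have hcoord : ∀ i, (p : ℤ) ∣ b.repr x i := by
      intro i
      have h1 := congrArg (fun t => (b.baseChange (ZMod p)).repr t i) h
      simp only [Module.Basis.baseChange_repr_tmul, map_zero, Finsupp.coe_zero,
        Pi.zero_apply] at h1
      rw [← ZMod.intCast_zmod_eq_zero_iff_dvd]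
      simpa using h1
    refine ⟨b.repr.symm ((b.repr x).mapRange (· / (p : ℤ)) (by simp)), ?_⟩
    apply b.repr.injective
    ext i
    simp only [map_smul, LinearEquiv.apply_symm_apply, Finsupp.smul_apply, Finsupp.mapRange_apply,
      smul_eq_mul]
    exact (Int.mul_ediv_cancel' (hcoord i)).symm
  · rintro ⟨m, rfl⟩
    rw [TensorProduct.tmul_smul, ← Int.cast_smul_eq_zsmul (ZMod p)]
    simp

variable [Module.Finite ℤ M]

/-- **Eigenspaces modulo `p` are at most one-dimensional when the characteristic polynomial is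
separable modulo `p`.** -/
theorem exists_smul_add_of_eigen (g : M →ₗ[ℤ] M) (p : ℕ) [Fact p.Prime]
    (hsep : ((LinearMap.charpoly g).map (Int.castRingHom (ZMod p))).Separable)
    (a : ℤ) (x y : M)
    (hx : ∃ m : M, g x - a • x = (p : ℤ) • m) (hy : ∃ m : M, g y - a • y = (p : ℤ) • m)
    (hxp : ¬ ∃ m : M, x = (p : ℤ) • m) :
    ∃ (j : ℤ) (m : M), y = j • x + (p : ℤ) • m := by
  classical
  set φ : Module.End (ZMod p) (ZMod p ⊗[ℤ] M) := g.baseChange (ZMod p) with hφ
  have hchar : φ.charpoly = (LinearMap.charpoly g).map (Int.castRingHom (ZMod p)) := by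
    rw [hφ, LinearMap.charpoly_baseChange]
    rfl
  have hle : Module.finrank (ZMod p) (φ.eigenspace (a : ZMod p)) ≤ 1 := by
    refine (LinearMap.finrank_eigenspace_le φ _).trans ?_
    rw [hchar]
    exact Polynomial.rootMultiplicity_le_one_of_separable hsep _
  have hmem : ∀ z : M, (∃ m : M, g z - a • z = (p : ℤ) • m) →
      (1 : ZMod p) ⊗ₜ[ℤ] z ∈ φ.eigenspace (a : ZMod p) := by
    intro z hz
    rw [Module.End.mem_eigenspace_iff, hφ, LinearMap.baseChange_tmul]
    have h0 : (1 : ZMod p) ⊗ₜ[ℤ] (g z - a • z) = 0 := (one_tmul_eq_zero_iff p _).mpr hz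
    rw [TensorProduct.tmul_sub, sub_eq_zero] at h0
    rw [h0, TensorProduct.tmul_smul, Int.cast_smul_eq_zsmul]
  set X : φ.eigenspace (a : ZMod p) := ⟨_, hmem x hx⟩ with hX
  set Y : φ.eigenspace (a : ZMod p) := ⟨_, hmem y hy⟩ with hY
  have hX0 : X ≠ 0 := by
    intro h
    apply hxp
    rw [← one_tmul_eq_zero_iff p x]
    exact congrArg Subtype.val h
  obtain ⟨c, hc⟩ : ∃ c : ZMod p, c • X = Y := by
    have := (finrank_le_one_iff (K := ZMod p) (V := φ.eigenspace (a : ZMod p))).mp hle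
    obtain ⟨v, hv⟩ := this
    obtain ⟨cx, hcx⟩ := hv X
    obtain ⟨cy, hcy⟩ := hv Y
    have hcx0 : cx ≠ 0 := by
      rintro rfl
      exact hX0 (by rw [← hcx, zero_smul])
    refine ⟨cy * cx⁻¹, ?_⟩
    rw [← hcx, smul_smul, mul_assoc, inv_mul_cancel₀ hcx0, mul_one, hcy]
  obtain ⟨j, rfl⟩ := ZMod.intCast_surjective c
  refine ⟨j, ?_⟩
  have h1 : (1 : ZMod p) ⊗ₜ[ℤ] (y - j • x) = 0 := by
    have h2 := congrArg Subtype.val hc
    simp only [hX, hY, Submodule.coe_smul] at h2
    rw [TensorProduct.tmul_sub, TensorProduct.tmul_smul, ← h2, sub_eq_zero,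
      Int.cast_smul_eq_zsmul]
  obtain ⟨m, hm⟩ := (one_tmul_eq_zero_iff p _).mp h1
  exact ⟨m, by rw [← hm]; abel⟩

end Fermat.Agent.S14.UDirAlg30
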