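/-
S14 / blueprint 6 / package K5 (UDIR), piece (C) requested by helper99 (#961), written by helper48.

`K = ℚ(ζ_p)`, `p` odd:
* `torsion_eq` : a torsion unit is `ζ^r` times a `p`-th power of a unit (`±1`);
* `zeta_pow_eq_one_of_eigen` : `μ_p` is the `ω^1`-eigenspace, so it does not meet an even
  eigenspace: `ζ^(bc) = ζ^(b c^k) y^p`, `c` a primitive root mod `p`, `k` even  ⟹  `ζ^b = 1`.
-/
import Mathlib

set_option autoImplicit false

namespace Fermat.Agent.S14.UDirC48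

open NumberField

variable {p : ℕ} [Fact p.Prime] {K : Type*} [Field K] [NumberField K]
  [IsCyclotomicExtension {p} ℚ K] {ζ : K}

/-- An element of finite order of `ℚ(ζ_p)` (`p` odd) has `p`-th power `±1`. -/
theorem pow_eq_one_or_neg_one_of_isOfFinOrder (hp : p ≠ 2) (hζ : IsPrimitiveRoot ζ p) {y : K}
    (hy : IsOfFinOrder y) : y ^ p = 1 ∨ y ^ p = -1 := by
  have hodd : Odd p := (Fact.out : p.Prime).odd_of_ne_two hp
  obtain ⟨r, -, hr | hr⟩ := hζ.exists_pow_or_neg_mul_pow_of_isOfFinOrder hodd hy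
  · left
    rw [hr, ← pow_mul, mul_comm, pow_mul, hζ.pow_eq_one, one_pow]
  · right
    rw [hr, Odd.neg_pow hodd, ← pow_mul, mul_comm, pow_mul, hζ.pow_eq_one, one_pow]

/-- A torsion unit of `ℚ(ζ_p)` is `ζ^r` times the `p`-th power of a unit. -/
theorem torsion_eq (hp : p ≠ 2) (hζ : IsPrimitiveRoot ζ p) (t : (𝓞 K)ˣ)
    (ht : t ∈ NumberField.Units.torsion K) :
    ∃ (r : ℕ) (s : (𝓞 K)ˣ), ((t : 𝓞 K) : K) = ζ ^ r * ((s : 𝓞 K) : K) ^ p := by
  have hodd : Odd p := (Fact.out : p.Prime).odd_of_ne_two hp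
  have hfin : IsOfFinOrder ((t : 𝓞 K) : K) := by
    have h1 : IsOfFinOrder t := (CommGroup.mem_torsion _).mp ht
    obtain ⟨n, hn, hn1⟩ := isOfFinOrder_iff_pow_eq_one.mp h1
    refine isOfFinOrder_iff_pow_eq_one.mpr ⟨n, hn, ?_⟩
    have h2 := congrArg (fun u : (𝓞 K)ˣ => ((u : 𝓞 K) : K)) hn1
    simpa using h2
  obtain ⟨r, -, hr | hr⟩ := hζ.exists_pow_or_neg_mul_pow_of_isOfFinOrder hodd hfin
  · exact ⟨r, 1, by rw [hr]; simp⟩
  · refine ⟨r, -1, ?_⟩
    rw [hr]
    simp [hodd.neg_one_pow]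

/-- `μ_p` is the `ω`-eigenspace of `E/E^p`; it does not meet the even eigenspaces. -/
theorem zeta_pow_eq_one_of_eigen (hp : p ≠ 2) (hζ : IsPrimitiveRoot ζ p) (c k b : ℕ)
    (hc : orderOf (c : ZMod p) = p - 1) (hk : Even k) (y : K)
    (h : ζ ^ (b * c) = ζ ^ (b * c ^ k) * y ^ p) : ζ ^ b = 1 := by
  have hpp : p.Prime := Fact.out
  have hodd : Odd p := hpp.odd_of_ne_two hp
  have hp3 : 3 ≤ p := by
    rcases hodd with ⟨m, hm⟩
    have := hpp.two_le
    omega
  have hζ0 : ζ ≠ 0 := hζ.ne_zero hpp.ne_zero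
  -- `y ^ p` is a `p`-th root of unity, so `y` has finite order
  have hyp : (y ^ p) ^ p = 1 := by
    have h1 : (ζ ^ (b * c)) ^ p = 1 := by rw [← pow_mul, mul_comm, pow_mul, hζ.pow_eq_one, one_pow]
    have h2 : (ζ ^ (b * c ^ k)) ^ p = 1 := by
      rw [← pow_mul, mul_comm, pow_mul, hζ.pow_eq_one, one_pow]
    have h3 := congrArg (fun z : K => z ^ p) h
    simp only [mul_pow, h1, h2, one_mul] at h3
    exact h3.symm
  have hyfin : IsOfFinOrder y := by
    refine isOfFinOrder_iff_pow_eq_one.mpr ⟨p * p, Nat.mul_pos hpp.pos hpp.pos, ?_⟩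
    rw [pow_mul]; exact hyp
  -- hence `y ^ p = 1` (the value `-1` is not a `p`-th root of unity)
  have hy1 : y ^ p = 1 := by
    rcases pow_eq_one_or_neg_one_of_isOfFinOrder hp hζ hyfin with h1 | h1
    · exact h1
    · exfalso
      rw [h1, hodd.neg_one_pow] at hyp
      have : (2 : K) = 0 := by linear_combination -hyp
      exact two_ne_zero this
  rw [hy1, mul_one] at h
  -- compare exponents
  have hmod : b * c ≡ b * c ^ k [MOD p] := by
    have e1 : ζ ^ (b * c) = ζ ^ (b * c % p) := by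
      rw [hζ.eq_orderOf]; exact (pow_mod_orderOf ζ _).symm
    have e2 : ζ ^ (b * c ^ k) = ζ ^ (b * c ^ k % p) := by
      rw [hζ.eq_orderOf]; exact (pow_mod_orderOf ζ _).symm
    rw [e1, e2] at h
    exact hζ.pow_inj (Nat.mod_lt _ hpp.pos) (Nat.mod_lt _ hpp.pos) h
  have hz : ((b : ZMod p)) * ((c : ZMod p) - (c : ZMod p) ^ k) = 0 := by
    have := (ZMod.natCast_eq_natCast_iff _ _ _).mpr hmod
    push_cast at this
    rw [mul_sub, this, sub_self]
  have hcne : (c : ZMod p) - (c : ZMod p) ^ k ≠ 0 := by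
    intro h0
    have h1 : (c : ZMod p) = (c : ZMod p) ^ k := sub_eq_zero.mp h0
    have hc0 : (c : ZMod p) ≠ 0 := by
      intro h00
      rw [h00, orderOf_eq_zero_iff.mpr] at hc
      · omega
      · intro hfin
        obtain ⟨n, hn, hn1⟩ := isOfFinOrder_iff_pow_eq_one.mp hfin
        rw [zero_pow hn.ne'] at hn1
        exact zero_ne_one hn1
    obtain ⟨m, hm⟩ := hk
    rcases Nat.eq_zero_or_pos m with rfl | hmpos
    · -- `k = 0`: `c = 1`
      rw [hm, pow_zero] at h1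
      rw [h1, orderOf_one] at hc
      omega
    · -- `c ^ (k - 1) = 1`
      have h2 : (c : ZMod p) ^ (k - 1) = 1 := by
        have h3 : (c : ZMod p) * (c : ZMod p) ^ (k - 1) = (c : ZMod p) * 1 := by
          rw [← pow_succ', show k - 1 + 1 = k by omega, mul_one]
          exact h1.symm
        exact mul_left_cancel₀ hc0 h3
      have h4 : p - 1 ∣ k - 1 := by
        rw [← hc]; exact orderOf_dvd_of_pow_eq_one h2
      obtain ⟨q, hq⟩ := hodd
      obtain ⟨d, hd⟩ := h4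
      have h5 : p - 1 = 2 * q := by omega
      have h6 : k - 1 = 2 * (q * d) := by rw [hd, h5]; ring
      generalize q * d = e at h6
      omega
  have hb0 : (b : ZMod p) = 0 := by
    rcases mul_eq_zero.mp hz with h0 | h0
    · exact h0
    · exact absurd h0 hcne
  exact (hζ.pow_eq_one_iff_dvd b).mpr ((ZMod.natCast_eq_zero_iff b p).mp hb0)

end Fermat.Agent.S14.UDirC48
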