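/-
S14 / K5 (UDIR), cyclic-shift linear algebra (helper30).

* `shift τ` : the permutation operator on `W → ℝ`;
* `charpoly_eq_geom_sum` : a finite free `ℤ`-module `M` of rank `n - 1` with an endomorphism `g`,
  embedded `g`-equivariantly into `ℝ^W` (`|W| = n`, `g` acting through a cyclic shift `τ`) such
  that the real span of the image contains `e_{w₀} - e_{τ w₀}`, has
  `charpoly g = 1 + X + ⋯ + X^(n-1)`;
* `separable_geom_sum_map` : this polynomial is separable modulo `p` when `p ∤ n`.
Together with `UDirAlg30.exists_smul_add_of_eigen` this gives: eigenspaces of `g` on `M / pM` are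
at most one-dimensional (to be applied to `M = E/μ`, `W` = infinite places of `ℚ(ζ_p)`).
-/
import Mathlib
set_option autoImplicit false
set_option linter.unusedSectionVars false
open Polynomial

namespace Fermat.Agent.S14.UDirCyc30

section shift

variable {W : Type*} [Fintype W] [DecidableEq W]

/-- The shift operator attached to a permutation: `(shift τ x) w = x (τ⁻¹ w)`. -/
def shift (τ : Equiv.Perm W) : (W → ℝ) →ₗ[ℝ] (W → ℝ) :=
  LinearMap.funLeft ℝ ℝ τ.symm

@[simp] theorem shift_apply (τ : Equiv.Perm W) (x : W → ℝ) (w : W) :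
    shift τ x w = x (τ.symm w) := rfl

theorem shift_single (τ : Equiv.Perm W) (v : W) :
    shift τ (Pi.single v (1 : ℝ)) = Pi.single (τ v) 1 := by
  ext w
  simp only [shift_apply, Pi.single_apply]
  by_cases h : w = τ v
  · subst h; simp
  · have : τ.symm w ≠ v := fun h' => h (by rw [← h']; simp)
    simp [h, this]

theorem shift_pow_single (τ : Equiv.Perm W) (v : W) (i : ℕ) :
    (shift τ ^ i) (Pi.single v (1 : ℝ)) = Pi.single ((τ ^ i) v) 1 := by
  induction i with
  | zero => simp
  | succ k ih =>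
    rw [pow_succ', Module.End.mul_apply, ih, shift_single, pow_succ', Equiv.Perm.mul_apply]

variable (τ : Equiv.Perm W) (w₀ : W)
  (hcyc : ∀ w, ∃ i < Fintype.card W, (τ ^ i) w₀ = w)

include hcyc in
theorem pow_injOn {i j : ℕ} (hi : i < Fintype.card W) (hj : j < Fintype.card W)
    (h : (τ ^ i) w₀ = (τ ^ j) w₀) : i = j := by
  let f : Fin (Fintype.card W) → W := fun i => (τ ^ (i : ℕ)) w₀
  have hsurj : Function.Surjective f := by
    intro w
    obtain ⟨i, hi, hw⟩ := hcyc w
    exact ⟨⟨i, hi⟩, hw⟩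
  have hbij : Function.Bijective f :=
    (Fintype.bijective_iff_surjective_and_card f).mpr ⟨hsurj, by simp⟩
  have := hbij.1 (a₁ := ⟨i, hi⟩) (a₂ := ⟨j, hj⟩) h
  exact congrArg Fin.val this

include hcyc in
theorem pow_card_apply : (τ ^ Fintype.card W) w₀ = w₀ := by
  have hpos : 0 < Fintype.card W := Fintype.card_pos_iff.mpr ⟨w₀⟩
  obtain ⟨i, hi, hw⟩ := hcyc (τ.symm w₀)
  have h1 : (τ ^ (i + 1)) w₀ = w₀ := by
    rw [pow_succ', Equiv.Perm.mul_apply, hw]
    simp
  by_cases h2 : i + 1 < Fintype.card W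
  · exfalso
    have := pow_injOn τ w₀ hcyc h2 hpos (by simpa using h1)
    omega
  · have : i + 1 = Fintype.card W := by omega
    rw [← this]
    exact h1

include hcyc in
/-- A real polynomial of degree `< card W` killing the basis vector `e_{w₀}` under the shift is
zero. -/
theorem eq_zero_of_aeval_shift_single (R : ℝ[X]) (hR : R.natDegree < Fintype.card W)
    (h : aeval (shift τ) R (Pi.single w₀ (1 : ℝ)) = 0) : R = 0 := by
  rw [aeval_eq_sum_range' hR] at h
  ext k
  rw [coeff_zero]
  by_cases hk : k < Fintype.card W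
  · have h1 := congrFun h ((τ ^ k) w₀)
    simp only [LinearMap.sum_apply, LinearMap.smul_apply, shift_pow_single, Finset.sum_apply,
      Pi.smul_apply, Pi.single_apply, smul_eq_mul, Pi.zero_apply] at h1
    rw [Finset.sum_eq_single k] at h1
    · simpa using h1
    · intro i hi hik
      have hi' : i < Fintype.card W := Finset.mem_range.mp hi
      have : (τ ^ k) w₀ ≠ (τ ^ i) w₀ := fun h' => hik (pow_injOn τ w₀ hcyc hi' hk h'.symm)
      simp [this]
    · intro hk'
      exact absurd (Finset.mem_range.mpr hk) hk'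
  · exact coeff_eq_zero_of_natDegree_lt (lt_of_lt_of_le hR (not_lt.mp hk))

end shift

section main

variable {W : Type*} [Fintype W] [DecidableEq W]
variable {M : Type*} [AddCommGroup M] [Module.Free ℤ M] [Module.Finite ℤ M]

theorem map_aeval_eq (g : M →ₗ[ℤ] M) (S : (W → ℝ) →ₗ[ℝ] (W → ℝ)) (ι : M →ₗ[ℤ] (W → ℝ))
    (hequiv : ∀ m, ι (g m) = S (ι m)) (Q : ℤ[X]) (m : M) :
    ι (aeval g Q m) = aeval S (Q.map (Int.castRingHom ℝ)) (ι m) := by
  have hpow : ∀ (k : ℕ) (m : M), ι ((g ^ k) m) = (S ^ k) (ι m) := by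
    intro k
    induction k with
    | zero => intro m; simp
    | succ k ih =>
      intro m
      rw [pow_succ, Module.End.mul_apply, ih, hequiv, pow_succ, Module.End.mul_apply]
  induction Q using Polynomial.induction_on' with
  | add P Q hP hQ =>
    rw [map_add, LinearMap.add_apply, map_add, hP, hQ, Polynomial.map_add, map_add,
      LinearMap.add_apply]
  | monomial k a =>
    rw [Polynomial.map_monomial, aeval_monomial, aeval_monomial]
    simp only [Module.algebraMap_end_apply, Module.End.mul_apply, eq_intCast]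
    rw [Module.End.intCast_apply, map_zsmul, hpow, ← Int.cast_smul_eq_zsmul ℝ]

/-- **Characteristic polynomial of a lattice automorphism which is a cyclic shift in suitable
real coordinates.**  `M` free of rank `n - 1`, embedded `g`-equivariantly in `ℝ^W` (`|W| = n`,
`g` acting through the cyclic shift), with real span containing `e_{w₀} - e_{τ w₀}`:
then `charpoly g = 1 + X + ⋯ + X^(n-1)`. -/
theorem charpoly_eq_geom_sum (g : M →ₗ[ℤ] M) (τ : Equiv.Perm W) (w₀ : W)
    (hcyc : ∀ w, ∃ i < Fintype.card W, (τ ^ i) w₀ = w)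
    (ι : M →ₗ[ℤ] (W → ℝ))
    (hequiv : ∀ m, ι (g m) = shift τ (ι m))
    (hspan : (Pi.single w₀ (1 : ℝ) - Pi.single (τ w₀) 1) ∈ Submodule.span ℝ (Set.range ι))
    (hrank : Module.finrank ℤ M + 1 = Fintype.card W) :
    g.charpoly = ∑ i ∈ Finset.range (Fintype.card W), (X : ℤ[X]) ^ i := by
  set n := Fintype.card W with hn
  have hnpos : 0 < n := Fintype.card_pos_iff.mpr ⟨w₀⟩
  set P0 : ℤ[X] := g.charpoly with hP0
  set P1 : ℝ[X] := P0.map (Int.castRingHom ℝ) with hP1
  have hP0monic : P0.Monic := LinearMap.charpoly_monic g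
  have hP1monic : P1.Monic := hP0monic.map _
  have hP0deg : P0.natDegree = n - 1 := by
    rw [hP0, LinearMap.charpoly_natDegree]
    omega
  have hP1deg : P1.natDegree = n - 1 := by
    rw [hP1, hP0monic.natDegree_map, hP0deg]
  -- `P1(S)` kills the span of `ι M`
  have hkill : ∀ y ∈ Submodule.span ℝ (Set.range ι), aeval (shift τ) P1 y = 0 := by
    intro y hy
    induction hy using Submodule.span_induction with
    | mem y hy =>
      obtain ⟨m, rfl⟩ := hy
      rw [hP1, ← map_aeval_eq g (shift τ) ι hequiv P0 m, hP0, LinearMap.aeval_self_charpoly]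
      simp
    | zero => simp
    | add y z _ _ hy hz => rw [map_add, hy, hz, add_zero]
    | smul a y _ hy => rw [map_smul, hy, smul_zero]
  have hv0 := hkill _ hspan
  -- the polynomial `R = P1 (X - 1) - (X^n - 1)` has degree `< n` and kills `e_{w₀}`
  set R : ℝ[X] := P1 * (X - C 1) - (X ^ n - C 1) with hR
  have hXn : (X ^ n - C 1 : ℝ[X]).Monic := monic_X_pow_sub_C (1 : ℝ) hnpos.ne'
  have hXndeg : (X ^ n - C 1 : ℝ[X]).natDegree = n := natDegree_X_pow_sub_C
  have hmul : (P1 * (X - C 1)).Monic := hP1monic.mul (monic_X_sub_C (1 : ℝ))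
  have hmuldeg : (P1 * (X - C 1)).natDegree = n := by
    rw [hP1monic.natDegree_mul (monic_X_sub_C (1 : ℝ)), hP1deg, natDegree_X_sub_C]
    omega
  have hR0 : R = 0 := by
    apply eq_zero_of_aeval_shift_single τ w₀ hcyc
    · by_contra hnot
      have hne : P1 * (X - C 1) ≠ X ^ n - C 1 := by
        intro h
        apply hnot
        rw [hR, h, sub_self]
        simpa using hnpos
      have hlt : (P1 * (X - C 1) - (X ^ n - C 1)).degree < (P1 * (X - C 1)).degree := by
        apply degree_sub_lt_left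
        · rw [degree_eq_natDegree hmul.ne_zero, degree_eq_natDegree hXn.ne_zero, hmuldeg, hXndeg]
        · exact hmul.ne_zero
        · rw [hmul.leadingCoeff, hXn.leadingCoeff]
      have hRne : R ≠ 0 := by rw [hR]; exact sub_ne_zero.mpr hne
      rw [degree_eq_natDegree hmul.ne_zero, hmuldeg, ← hR, degree_eq_natDegree hRne] at hlt
      exact hnot (by exact_mod_cast hlt)
    · rw [hR, map_sub, LinearMap.sub_apply, map_mul, Module.End.mul_apply]
      have h1 : aeval (shift τ) (X - C 1 : ℝ[X]) (Pi.single w₀ (1 : ℝ)) =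
          -(Pi.single w₀ (1 : ℝ) - Pi.single (τ w₀) 1) := by
        simp [shift_single]
      have h2 : aeval (shift τ) (X ^ n - C 1 : ℝ[X]) (Pi.single w₀ (1 : ℝ)) = 0 := by
        have hpc : (τ ^ n) w₀ = w₀ := pow_card_apply τ w₀ hcyc
        simp [shift_pow_single, hpc]
      rw [h1, h2, map_neg, hv0]
      simp
  -- conclude
  have hgeom : (∑ i ∈ Finset.range n, (X : ℝ[X]) ^ i) * (X - 1) = X ^ n - 1 := geom_sum_mul X n
  have hP1eq : P1 = ∑ i ∈ Finset.range n, (X : ℝ[X]) ^ i := by
    have h3 : P1 * (X - C 1) = (∑ i ∈ Finset.range n, (X : ℝ[X]) ^ i) * (X - C 1) := by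
      rw [C_1, hgeom, ← C_1]
      exact sub_eq_zero.mp hR0
    exact mul_right_cancel₀ (X_sub_C_ne_zero (1 : ℝ)) h3
  apply Polynomial.map_injective (Int.castRingHom ℝ) Int.cast_injective
  rw [← hP1, hP1eq]
  simp [Polynomial.map_sum]

/-- `1 + X + ⋯ + X^(n-1)` is separable modulo `p` when `p ∤ n`. -/
theorem separable_geom_sum_map (p n : ℕ) [Fact p.Prime] (hn : ¬ p ∣ n) :
    ((∑ i ∈ Finset.range n, (X : ℤ[X]) ^ i).map (Int.castRingHom (ZMod p))).Separable := by
  have h1 : ((∑ i ∈ Finset.range n, (X : ℤ[X]) ^ i).map (Int.castRingHom (ZMod p))) =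
      ∑ i ∈ Finset.range n, (X : (ZMod p)[X]) ^ i := by
    simp [Polynomial.map_sum]
  rw [h1]
  have h2 : (∑ i ∈ Finset.range n, (X : (ZMod p)[X]) ^ i) * (X - 1) = X ^ n - 1 := geom_sum_mul X n
  have h3 : (X ^ n - 1 : (ZMod p)[X]).Separable := by
    rw [X_pow_sub_one_separable_iff]
    rwa [Ne, ZMod.natCast_eq_zero_iff]
  rw [← h2] at h3
  exact h3.of_mul_left

end main

end Fermat.Agent.S14.UDirCyc30
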