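/-
S14 / blueprint 6 / package K5 (UDIR), second seat (helper48): the PURE LINEAR-ALGEBRA CORE.

`M` a finite free `ℤ`-module, `T : M →ₗ[ℤ] M`, `Φ ∈ ℤ[X]` monic of degree `rank M` with `Φ(T) = 0`,
`e ∈ M` a "cyclic" vector in the weak sense that `e, Te, …, T^(r-1) e` are `ℤ`-linearly independent.
Then `charpoly T = Φ`, hence `charpoly (T mod p) = Φ mod p`, and if `Φ mod p` is separable every
eigenspace of `T` on `M / pM` has dimension at most one.
-/
import Mathlib

set_option autoImplicit false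

namespace Fermat.Agent.S14.UDirLA48

open Polynomial Module

section Charpoly

variable {R M : Type*} [CommRing R] [Nontrivial R] [AddCommGroup M] [Module R M]
  [Module.Free R M] [Module.Finite R M]

/-- Cayley–Hamilton + a weakly cyclic vector: the characteristic polynomial is the given monic
annihilating polynomial of degree `rank M`. -/
theorem charpoly_eq_of_cyclic (T : M →ₗ[R] M) (Φ : R[X]) (hmonic : Φ.Monic)
    (hdeg : Φ.natDegree = finrank R M) (hΦ : aeval T Φ = 0) (e : M)
    (hind : LinearIndependent R (fun i : Fin (finrank R M) => (T ^ (i : ℕ)) e)) :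
    T.charpoly = Φ := by
  set r := finrank R M with hr
  have hχm : T.charpoly.Monic := T.charpoly_monic
  have hχd : T.charpoly.natDegree = r := T.charpoly_natDegree
  -- the difference has degree `< r`
  set D : R[X] := T.charpoly - Φ with hD
  have hDT : aeval T D = 0 := by
    rw [hD, map_sub, hΦ, sub_zero]
    exact LinearMap.aeval_self_charpoly T
  have hcoeff_lt : ∀ i, r ≤ i → D.coeff i = 0 := by
    intro i hi
    rw [hD, coeff_sub]
    rcases hi.eq_or_lt with h | h
    · have h1 : T.charpoly.coeff i = 1 := by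
        rw [← h, ← hχd]; exact hχm.coeff_natDegree
      have h2 : Φ.coeff i = 1 := by
        rw [← h, ← hdeg]; exact hmonic.coeff_natDegree
      rw [h1, h2, sub_self]
    · rw [coeff_eq_zero_of_natDegree_lt (by omega), coeff_eq_zero_of_natDegree_lt (by omega),
        sub_zero]
  have hDsum : aeval T D = ∑ i ∈ Finset.range r, D.coeff i • T ^ i := by
    rw [aeval_eq_sum_range' (n := r + D.natDegree + 1) (by omega)]
    have hsub : Finset.range r ⊆ Finset.range (r + D.natDegree + 1) := by
      intro i hi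
      rw [Finset.mem_range] at hi ⊢
      omega
    refine (Finset.sum_subset hsub ?_).symm
    intro i _ hi
    rw [Finset.mem_range, not_lt] at hi
    rw [hcoeff_lt i hi, zero_smul]
  have hzero : ∑ i : Fin r, D.coeff (i : ℕ) • (T ^ (i : ℕ)) e = 0 := by
    have h := congrArg (fun f : M →ₗ[R] M => f e) hDT
    simp only [LinearMap.zero_apply] at h
    rw [hDsum] at h
    rw [LinearMap.sum_apply] at h
    rw [← h, ← Fin.sum_univ_eq_sum_range (fun i => (D.coeff i • T ^ i) e) r]
    rfl
  have hall : ∀ i : Fin r, D.coeff (i : ℕ) = 0 :=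
    (Fintype.linearIndependent_iff.mp hind) (fun i => D.coeff (i : ℕ)) hzero
  have hD0 : D = 0 := by
    ext i
    rw [coeff_zero]
    by_cases hi : i < r
    · exact hall ⟨i, hi⟩
    · exact hcoeff_lt i (not_lt.mp hi)
  exact sub_eq_zero.mp (hD ▸ hD0)

end Charpoly

section ModP

variable {M : Type*} [AddCommGroup M]

/-- An element all of whose coordinates are divisible by `p` is `p` times an element. -/
theorem exists_eq_smul_of_forall_dvd {ι : Type*} [Fintype ι] (b : Basis ι ℤ M) (p : ℤ) (x : M)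
    (h : ∀ i, p ∣ b.equivFun x i) : ∃ z : M, x = p • z := by
  choose q hq using h
  refine ⟨b.equivFun.symm q, ?_⟩
  apply b.equivFun.injective
  rw [map_smul, LinearEquiv.apply_symm_apply]
  funext i
  rw [hq i, Pi.smul_apply, smul_eq_mul]

/-- The reduction mod `p` of the coordinate vector. -/
noncomputable def redVec {ι : Type*} [Fintype ι] (b : Basis ι ℤ M) (p : ℕ) (x : M) :
    ι → ZMod p := fun i => ((b.equivFun x i : ℤ) : ZMod p)

theorem redVec_add {ι : Type*} [Fintype ι] (b : Basis ι ℤ M) (p : ℕ) (x y : M) :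
    redVec b p (x + y) = redVec b p x + redVec b p y := by
  funext i
  simp [redVec]

theorem redVec_smul {ι : Type*} [Fintype ι] (b : Basis ι ℤ M) (p : ℕ) (c : ℤ) (x : M) :
    redVec b p (c • x) = (c : ZMod p) • redVec b p x := by
  funext i
  simp [redVec]

theorem redVec_eq_zero_iff {ι : Type*} [Fintype ι] (b : Basis ι ℤ M) (p : ℕ) (x : M) :
    redVec b p x = 0 ↔ ∃ z : M, x = (p : ℤ) • z := by
  constructor
  · intro h
    refine exists_eq_smul_of_forall_dvd b p x (fun i => ?_)
    have := congrFun h i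
    simp only [redVec, Pi.zero_apply] at this
    exact (ZMod.intCast_zmod_eq_zero_iff_dvd _ _).mp this
  · rintro ⟨z, rfl⟩
    rw [redVec_smul]
    simp

theorem redVec_apply_toMatrix {ι : Type*} [Fintype ι] [DecidableEq ι] (b : Basis ι ℤ M) (p : ℕ)
    (T : M →ₗ[ℤ] M) (x : M) :
    ((LinearMap.toMatrix b b T).map (Int.castRingHom (ZMod p))).mulVec (redVec b p x) =
      redVec b p (T x) := by
  funext i
  have h := congrFun (LinearMap.toMatrix_mulVec_repr b b T x) i
  simp only [redVec, Matrix.mulVec, dotProduct, Matrix.map_apply, Int.coe_castRingHom]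
  rw [show (b.equivFun (T x) i : ℤ) = b.repr (T x) i from rfl, ← h]
  simp only [Matrix.mulVec, dotProduct]
  push_cast
  rfl

variable [Module.Free ℤ M] [Module.Finite ℤ M]

/-- **Main lemma.**  If `charpoly T` reduces mod `p` to a separable polynomial, every eigenspace
of `T` on `M / pM` is at most one-dimensional. -/
theorem eigen_dim_le_one_of_charpoly (T : M →ₗ[ℤ] M) (p : ℕ) [Fact p.Prime]
    (hsep : (T.charpoly.map (Int.castRingHom (ZMod p))).Separable) (c : ℤ) (x y : M)
    (hx : ∃ z : M, T x - c • x = (p : ℤ) • z) (hy : ∃ z : M, T y - c • y = (p : ℤ) • z)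
    (hx0 : ¬ ∃ z : M, x = (p : ℤ) • z) :
    ∃ (j : ℤ) (z : M), y = j • x + (p : ℤ) • z := by
  classical
  set b := Module.finBasis ℤ M with hb
  set A := LinearMap.toMatrix b b T with hA
  set Ab := A.map (Int.castRingHom (ZMod p)) with hAb
  have hchar : Ab.toLin'.charpoly = T.charpoly.map (Int.castRingHom (ZMod p)) := by
    rw [Matrix.charpoly_toLin', hAb, Matrix.charpoly_map, hA, LinearMap.charpoly_toMatrix]
  have hdim : finrank (ZMod p) (Module.End.eigenspace Ab.toLin' (c : ZMod p)) ≤ 1 := by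
    refine (LinearMap.finrank_eigenspace_le _ _).trans ?_
    rw [hchar]
    exact rootMultiplicity_le_one_of_separable hsep _
  -- eigenvectors
  have hmem : ∀ w : M, (∃ z : M, T w - c • w = (p : ℤ) • z) →
      redVec b p w ∈ Module.End.eigenspace Ab.toLin' (c : ZMod p) := by
    rintro w ⟨z, hz⟩
    rw [Module.End.mem_eigenspace_iff, Matrix.toLin'_apply, hAb, hA, redVec_apply_toMatrix]
    have : T w = c • w + (p : ℤ) • z := by rw [← hz]; abel
    rw [this, redVec_add, redVec_smul, redVec_smul]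
    simp
  have hxne : redVec b p x ≠ 0 := fun h => hx0 ((redVec_eq_zero_iff b p x).mp h)
  set vx : Module.End.eigenspace Ab.toLin' (c : ZMod p) := ⟨redVec b p x, hmem x hx⟩ with hvx
  set vy : Module.End.eigenspace Ab.toLin' (c : ZMod p) := ⟨redVec b p y, hmem y hy⟩ with hvy
  have hvxne : vx ≠ 0 := fun h => hxne (congrArg Subtype.val h)
  obtain ⟨v₀, hv₀⟩ := finrank_le_one_iff.mp hdim
  obtain ⟨a, ha⟩ := hv₀ vx
  obtain ⟨a', ha'⟩ := hv₀ vy
  have ha0 : a ≠ 0 := by
    rintro rfl
    rw [zero_smul] at ha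
    exact hvxne ha.symm
  have hvy' : vy = (a' * a⁻¹) • vx := by
    rw [← ha, ← ha', smul_smul, mul_assoc, inv_mul_cancel₀ ha0, mul_one]
  obtain ⟨j, hj⟩ := ZMod.intCast_surjective (a' * a⁻¹)
  have hred : redVec b p (y - j • x) = 0 := by
    have h1 : redVec b p y = (a' * a⁻¹) • redVec b p x := congrArg Subtype.val hvy'
    have h2 : y - j • x = y + (-j) • x := by rw [neg_smul, sub_eq_add_neg]
    rw [h2, redVec_add, redVec_smul, h1, ← hj]
    push_cast
    rw [neg_smul, add_neg_cancel]
  obtain ⟨z, hz⟩ := (redVec_eq_zero_iff b p _).mp hred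
  exact ⟨j, z, by rw [← hz]; abel⟩

/-- The geometric-sum polynomial `1 + X + ⋯ + X^(n-1)`. -/
noncomputable def geomPoly (R : Type*) [CommRing R] (n : ℕ) : R[X] := ∑ i ∈ Finset.range n, X ^ i

theorem geomPoly_map {R S : Type*} [CommRing R] [CommRing S] (f : R →+* S) (n : ℕ) :
    (geomPoly R n).map f = geomPoly S n := by
  simp [geomPoly, Polynomial.map_sum]

theorem geomPoly_mul (R : Type*) [CommRing R] (n : ℕ) : geomPoly R n * (X - 1) = X ^ n - 1 := by
  rw [geomPoly]
  exact geom_sum_mul X n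

theorem geomPoly_monic (R : Type*) [CommRing R] [Nontrivial R] {n : ℕ} (hn : n ≠ 0) :
    (geomPoly R n).Monic ∧ (geomPoly R n).natDegree = n - 1 := by
  have hm : (geomPoly R n).Monic := monic_geom_sum_X hn
  refine ⟨hm, ?_⟩
  have h1 : (geomPoly R n * (X - C 1)).natDegree = (geomPoly R n).natDegree + 1 := by
    rw [hm.natDegree_mul (monic_X_sub_C 1), natDegree_X_sub_C]
  have h2 : (geomPoly R n * (X - C 1)).natDegree = n := by
    rw [C_1, geomPoly_mul, ← C_1, natDegree_X_pow_sub_C]
  omega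

theorem geomPoly_separable (p : ℕ) [Fact p.Prime] {n : ℕ} (hpn : ¬ p ∣ n) :
    (geomPoly (ZMod p) n).Separable := by
  have h1 : (X ^ n - C (1 : ZMod p)).Separable := by
    refine separable_X_pow_sub_C (1 : ZMod p) ?_ one_ne_zero
    rwa [Ne, ZMod.natCast_eq_zero_iff]
  refine Separable.of_dvd h1 ⟨X - 1, ?_⟩
  rw [geomPoly_mul, C_1]

/-- **UDIR linear-algebra core** in the shape used for units of `ℚ(ζ_p)`:
`T` kills the geometric sum `1 + T + ⋯ + T^(n-1)`, `rank M = n - 1`, `e, Te, …` independent,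
`p ∤ n`.  Then every eigenspace of `T` on `M/pM` has dimension `≤ 1`. -/
theorem eigen_dim_le_one_geom (T : M →ₗ[ℤ] M) (n : ℕ) (hn : finrank ℤ M + 1 = n)
    (hT : ∀ x : M, ∑ i ∈ Finset.range n, (T ^ i) x = 0) (e : M)
    (hind : LinearIndependent ℤ (fun i : Fin (finrank ℤ M) => (T ^ (i : ℕ)) e))
    (p : ℕ) [Fact p.Prime] (hpn : ¬ p ∣ n) (c : ℤ) (x y : M)
    (hx : ∃ z : M, T x - c • x = (p : ℤ) • z) (hy : ∃ z : M, T y - c • y = (p : ℤ) • z)
    (hx0 : ¬ ∃ z : M, x = (p : ℤ) • z) :
    ∃ (j : ℤ) (z : M), y = j • x + (p : ℤ) • z := by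
  have hn0 : n ≠ 0 := by omega
  obtain ⟨hmonic, hdeg⟩ := geomPoly_monic ℤ hn0
  have hΦ : aeval T (geomPoly ℤ n) = 0 := by
    rw [geomPoly, map_sum]
    ext x
    simp only [map_pow, aeval_X, LinearMap.sum_apply, LinearMap.zero_apply]
    exact hT x
  have hchar : T.charpoly = geomPoly ℤ n :=
    charpoly_eq_of_cyclic T (geomPoly ℤ n) hmonic (by rw [hdeg]; omega) hΦ e hind
  refine eigen_dim_le_one_of_charpoly T p ?_ c x y hx hy hx0
  rw [hchar, geomPoly_map]
  exact geomPoly_separable p hpn

end ModP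

end Fermat.Agent.S14.UDirLA48
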