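/-
S14 / K5-UDIR (B2), helper30: Galois action on the infinite places of the `p`-th cyclotomic field.

* `card_infinitePlace` : `Fintype.card (InfinitePlace K) = (p - 1) / 2`.
* `smul_place_eq_iff`  : `τ⁻¹ • w = w ↔ d = 1 ∨ d = -1` in `ZMod p`, where `τ ζ = ζ ^ d`.
Mathlib only.
-/
import Mathlib

namespace Fermat.Agent.S14.UDirPlaces30

open NumberField InfinitePlace

variable {p : ℕ} [Fact p.Prime] {K : Type*} [Field K] [NumberField K]
  [IsCyclotomicExtension {p} ℚ K]

/-- Two ring homs `K → ℂ` from the `p`-th cyclotomic field agreeing at `ζ` are equal. -/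
theorem ringHom_ext_of_zeta {ζ : K} (hζ : IsPrimitiveRoot ζ p) {f g : K →+* ℂ}
    (h : f ζ = g ζ) : f = g := by
  have key : f.toRatAlgHom = g.toRatAlgHom := by
    apply (hζ.powerBasis ℚ).algHom_ext
    simpa using h
  ext x
  exact DFunLike.congr_fun key x

/-- An automorphism fixing `ζ` is trivial. -/
theorem algEquiv_eq_one_of_zeta {ζ : K} (hζ : IsPrimitiveRoot ζ p) {τ : K ≃ₐ[ℚ] K}
    (h : τ ζ = ζ) : τ = 1 := by
  have key : (τ : K →ₐ[ℚ] K) = AlgHom.id ℚ K := by
    apply (hζ.powerBasis ℚ).algHom_ext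
    simpa using h
  ext x
  exact DFunLike.congr_fun key x

omit [NumberField K] [IsCyclotomicExtension {p} ℚ K] in
/-- `ζ ^ d = ζ ↔ d ≡ 1 (mod p)`. -/
theorem pow_eq_self_iff {ζ : K} (hζ : IsPrimitiveRoot ζ p) (d : ℕ) :
    ζ ^ d = ζ ↔ (d : ZMod p) = 1 := by
  have hpp : p.Prime := Fact.out
  have h0 : ζ ≠ 0 := hζ.ne_zero hpp.ne_zero
  have e1 : ζ ^ d = ζ ↔ ζ ^ ((d : ℤ) - 1) = 1 := by
    rw [zpow_sub_one₀ h0, zpow_natCast]
    constructor
    · intro h; rw [h, mul_inv_cancel₀ h0]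
    · intro h
      have := congrArg (· * ζ) h
      simpa [mul_assoc, inv_mul_cancel₀ h0] using this
  rw [e1, hζ.zpow_eq_one_iff_dvd, ← ZMod.intCast_zmod_eq_zero_iff_dvd]
  push_cast
  exact sub_eq_zero

theorem card_infinitePlace (hp : p ≠ 2) :
    Fintype.card (InfinitePlace K) = (p - 1) / 2 := by
  have hpp : p.Prime := Fact.out
  have h2 : 2 < p := lt_of_le_of_ne hpp.two_le (Ne.symm hp)
  rw [card_eq_nrRealPlaces_add_nrComplexPlaces,
    IsCyclotomicExtension.Rat.nrRealPlaces_eq_zero (n := p) K h2, zero_add,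
    IsCyclotomicExtension.Rat.nrComplexPlaces_eq_totient_div_two p K, Nat.totient_prime hpp]

theorem smul_place_eq_iff {ζ : K} (hζ : IsPrimitiveRoot ζ p)
    (τ : K ≃ₐ[ℚ] K) (d : ℕ) (hτ : τ ζ = ζ ^ d) (w : InfinitePlace K) :
    τ⁻¹ • w = w ↔ ((d : ZMod p) = 1 ∨ (d : ZMod p) = -1) := by
  have hpp : p.Prime := Fact.out
  -- reduce to `τ` in the stabilizer
  have h1 : τ⁻¹ • w = w ↔ τ ∈ MulAction.stabilizer (K ≃ₐ[ℚ] K) w := by
    rw [← MulAction.mem_stabilizer_iff, inv_mem_iff]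
  rw [h1, ← mk_embedding w, mem_stabilizer_mk_iff]
  set φ := w.embedding with hφ
  have hφζ : IsPrimitiveRoot (φ ζ) p := hζ.map_of_injective φ.injective
  refine or_congr ?_ ?_
  · -- `τ = 1 ↔ d ≡ 1`
    rw [← pow_eq_self_iff hζ d]
    constructor
    · intro h
      rw [← hτ, h]; simp
    · intro h
      exact algEquiv_eq_one_of_zeta hζ (hτ.trans h)
  · -- `IsConj φ τ ↔ d ≡ -1`
    have hconj : (starRingEnd ℂ) (φ ζ) = (φ ζ)⁻¹ := by
      have hn : ‖φ ζ‖ = 1 := hφζ.norm'_eq_one hpp.ne_zero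
      rw [Complex.inv_def, Complex.normSq_eq_norm_sq, hn]
      simp
    have hd : ((d : ZMod p) = -1) ↔ p ∣ d + 1 := by
      rw [← ZMod.natCast_eq_zero_iff]
      push_cast
      constructor
      · intro h; rw [h]; ring
      · intro h; linear_combination h
    rw [hd, ← hφζ.pow_eq_one_iff_dvd]
    constructor
    · intro h
      have := RingHom.congr_fun h ζ
      rw [ComplexEmbedding.conjugate_coe_eq, hconj, RingHom.comp_apply] at this
      have h' : φ ((τ : K →+* K) ζ) = (φ ζ) ^ d := by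
        show φ (τ ζ) = _
        rw [hτ, map_pow]
      rw [h'] at this
      rw [pow_succ, ← this, inv_mul_cancel₀ (hφζ.ne_zero hpp.ne_zero)]
    · intro h
      apply ringHom_ext_of_zeta hζ
      rw [ComplexEmbedding.conjugate_coe_eq, hconj, RingHom.comp_apply]
      have h' : φ ((τ : K →+* K) ζ) = (φ ζ) ^ d := by
        show φ (τ ζ) = _
        rw [hτ, map_pow]
      rw [h']
      rw [pow_succ] at h
      exact (eq_inv_of_mul_eq_one_left h).symm

end Fermat.Agent.S14.UDirPlaces30
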