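/-
S14 / K5-UDIR, helper30: the cyclic action of a generator of `Gal(ℚ(ζ_p)/ℚ)` on the infinite places.

For `σ ζ = ζ ^ c` with `c` a primitive root mod `p`:
`(σ ^ i)⁻¹ • w = w ↔ (p - 1) / 2 ∣ i`  (so `σ ^ i` is fixed-point free on the `(p-1)/2` places for
`0 < i < (p-1)/2`, and `σ ^ ((p-1)/2)` acts trivially).
-/
import Mathlib
import Fermat.Agent.S14.UDirPlaces30

namespace Fermat.Agent.S14.UDirSigma30

open NumberField InfinitePlace

set_option linter.unusedSectionVars false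

variable {p : ℕ} [Fact p.Prime] {K : Type*} [Field K] [NumberField K]
  [IsCyclotomicExtension {p} ℚ K]

theorem pow_apply_zeta {ζ : K} (σ : K ≃ₐ[ℚ] K) (c : ℕ) (hσ : σ ζ = ζ ^ c) (i : ℕ) :
    (σ ^ i) ζ = ζ ^ (c ^ i) := by
  induction i with
  | zero => simp
  | succ i ih =>
    rw [pow_succ', AlgEquiv.mul_apply, ih, map_pow, hσ, ← pow_mul, pow_succ']

/-- `x = 1 ∨ x = -1 ↔ x ^ 2 = 1` in `ZMod p`. -/
theorem eq_one_or_neg_one_iff (x : ZMod p) : (x = 1 ∨ x = -1) ↔ x ^ 2 = 1 := by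
  constructor
  · rintro (h | h) <;> rw [h] <;> ring
  · intro h
    have : (x - 1) * (x + 1) = 0 := by linear_combination h
    rcases mul_eq_zero.mp this with h1 | h1
    · left; exact sub_eq_zero.mp h1
    · right; exact eq_neg_of_add_eq_zero_left h1

theorem pow_smul_place_eq_iff (hp : p ≠ 2) {ζ : K} (hζ : IsPrimitiveRoot ζ p)
    (σ : K ≃ₐ[ℚ] K) (c : ℕ) (hσ : σ ζ = ζ ^ c) (hc : orderOf (c : ZMod p) = p - 1)
    (i : ℕ) (w : InfinitePlace K) :
    (σ ^ i)⁻¹ • w = w ↔ (p - 1) / 2 ∣ i := by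
  have hpp : p.Prime := Fact.out
  have hodd : Odd p := hpp.odd_of_ne_two hp
  obtain ⟨m, hm⟩ := hodd
  have hp1 : p - 1 = 2 * m := by omega
  have hhalf : (p - 1) / 2 = m := by omega
  rw [UDirPlaces30.smul_place_eq_iff hζ (σ ^ i) (c ^ i) (pow_apply_zeta σ c hσ i) w,
    eq_one_or_neg_one_iff]
  push_cast
  rw [← pow_mul, ← orderOf_dvd_iff_pow_eq_one, hc, hhalf, hp1, mul_comm i 2]
  exact Nat.mul_dvd_mul_iff_left (by norm_num)

/-- `σ ^ i` has no fixed place for `0 < i < (p-1)/2`. -/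
theorem pow_smul_place_ne (hp : p ≠ 2) {ζ : K} (hζ : IsPrimitiveRoot ζ p)
    (σ : K ≃ₐ[ℚ] K) (c : ℕ) (hσ : σ ζ = ζ ^ c) (hc : orderOf (c : ZMod p) = p - 1)
    (i : ℕ) (hi0 : 0 < i) (hi : i < (p - 1) / 2) (w : InfinitePlace K) :
    (σ ^ i)⁻¹ • w ≠ w := by
  rw [Ne, pow_smul_place_eq_iff hp hζ σ c hσ hc]
  intro h
  exact absurd (Nat.le_of_dvd hi0 h) (not_le.mpr hi)

/-- `σ ^ ((p-1)/2)` fixes every place. -/
theorem pow_half_smul_place_eq (hp : p ≠ 2) {ζ : K} (hζ : IsPrimitiveRoot ζ p)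
    (σ : K ≃ₐ[ℚ] K) (c : ℕ) (hσ : σ ζ = ζ ^ c) (hc : orderOf (c : ZMod p) = p - 1)
    (w : InfinitePlace K) :
    (σ ^ ((p - 1) / 2))⁻¹ • w = w :=
  (pow_smul_place_eq_iff hp hζ σ c hσ hc _ w).mpr dvd_rfl

/-- Existence of a generator: `c` a primitive root mod `p` and `σ` with `σ ζ = ζ ^ c`. -/
theorem exists_generator {ζ : K} (hζ : IsPrimitiveRoot ζ p) :
    ∃ (c : ℕ) (σ : K ≃ₐ[ℚ] K), orderOf (c : ZMod p) = p - 1 ∧ σ ζ = ζ ^ c := by
  have hpp : p.Prime := Fact.out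
  have : NeZero p := ⟨hpp.ne_zero⟩
  obtain ⟨g, hg⟩ := IsCyclic.exists_generator (α := (ZMod p)ˣ)
  have hord : orderOf g = p - 1 := by
    rw [orderOf_eq_card_of_forall_mem_zpowers hg, Nat.card_eq_fintype_card, ZMod.card_units_eq_totient,
      Nat.totient_prime hpp]
  have hirr : Irreducible (Polynomial.cyclotomic p ℚ) :=
    Polynomial.cyclotomic.irreducible_rat hpp.pos
  let e := IsCyclotomicExtension.autEquivPow K hirr
  refine ⟨(g : ZMod p).val, e.symm g, ?_, ?_⟩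
  · rw [ZMod.natCast_zmod_val, orderOf_units, hord]
  · have hz := IsCyclotomicExtension.zeta_spec p ℚ K
    have he : hz.autToPow ℚ (e.symm g) = g := e.apply_symm_apply g
    have hspec := hz.autToPow_spec ℚ (e.symm g)
    rw [he] at hspec
    -- transfer from `zeta` to `ζ`
    obtain ⟨t, -, ht⟩ := hz.eq_pow_of_pow_eq_one (hζ.pow_eq_one)
    rw [← ht, map_pow, ← hspec, ← pow_mul, ← pow_mul, mul_comm]

end Fermat.Agent.S14.UDirSigma30
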