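/-
S14 / K4 (ULOG), blueprint id=6 (helper45).

Kummer's second logarithmic differential quotient `kell_2` (= `FLTReg.Dlog.kell hζ 1`) of the
cyclotomic units `(1 - ζ^b)/(1 - ζ) = 1 + ζ + ... + ζ^(b-1)` of `ℚ(ζ_p)` is `(b² - 1)/12`.
Consequently the `ω²` cyclotomic unit `η₂ = ∏_b ((1-ζ^b)/(1-ζ))^(b^(-2) mod p)` has
`12 * kell_2 η₂ = -1 ≠ 0`, so it is not a `p`-th power, and neither is the cyclotomic number
`etaRaw p K ζ (etaExp p 2)` of `CoreIface` (`EtaNotPowStatement`).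
-/
import Mathlib
import Fermat.Agent.FLTReg.KummerLemmaDlog
import Fermat.Agent.S14.CoreIface

set_option autoImplicit false

namespace Fermat.Agent.S14.ULog45

open Polynomial NumberField Fermat.Agent.FLTReg.Dlog

section Poly

variable {R : Type*} [CommRing R]

/-- the geometric sum polynomial `1 + X + ... + X^(b-1)` -/
noncomputable def gpoly (R : Type*) [CommRing R] (b : ℕ) : R[X] := ∑ i ∈ Finset.range b, X ^ i

theorem theta_gpoly (j b : ℕ) :
    theta j (gpoly R b) = ∑ i ∈ Finset.range b, (i : R) ^ j := by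
  unfold gpoly
  rw [map_sum]
  exact Finset.sum_congr rfl fun i _ => theta_X_pow j i

theorem two_mul_sum_range (b : ℕ) :
    (2 : R) * ∑ i ∈ Finset.range b, (i : R) = (b : R) * ((b : R) - 1) := by
  induction b with
  | zero => simp
  | succ n ih =>
    rw [Finset.sum_range_succ, mul_add, ih]
    push_cast
    ring

theorem six_mul_sum_range_sq (b : ℕ) :
    (6 : R) * ∑ i ∈ Finset.range b, (i : R) ^ 2 =
      (b : R) * ((b : R) - 1) * (2 * (b : R) - 1) := by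
  induction b with
  | zero => simp
  | succ n ih =>
    rw [Finset.sum_range_succ, mul_add, ih]
    push_cast
    ring

/-- Kummer's second logarithmic differential quotient of `1 + X + ... + X^(b-1)`:
`12 b² ℓ₂ = b² (b² - 1)`. -/
theorem lam_one_gpoly {m : ℕ} (hm : 1 < m) (b : ℕ) {ft : R[X]}
    (hft : (X - 1 : R[X]) ^ m ∣ gpoly R b * ft - 1) :
    12 * (b : R) ^ 2 * lam 1 (gpoly R b) ft = (b : R) ^ 2 * ((b : R) ^ 2 - 1) := by
  set f := gpoly R b with hf
  set h := X * derivative f * ft with hh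
  have hdvd : (X - 1 : R[X]) ^ m ∣ f * h - X * derivative f := by
    have e : f * h - X * derivative f = X * derivative f * (f * ft - 1) := by
      rw [hh]; ring
    rw [e]
    exact Dvd.dvd.mul_left hft _
  have h0 : theta 0 (f * h) = theta 1 f := by
    rw [theta_congr (by omega : 0 < m) hdvd, ← theta_succ]
  have h1 : theta 1 (f * h) = theta 2 f := by
    rw [theta_congr hm hdvd, ← theta_succ]
  rw [theta_mul] at h0 h1
  simp only [Finset.sum_range_succ, Finset.sum_range_zero, zero_add, Nat.choose_self,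
    Nat.cast_one, one_mul, Nat.sub_self, Nat.choose_zero_right, Nat.sub_zero] at h0 h1
  rw [hf, theta_gpoly, theta_gpoly] at h0
  rw [hf, theta_gpoly, theta_gpoly, theta_gpoly] at h1
  simp only [pow_zero, Finset.sum_const, Finset.card_range, nsmul_eq_mul, mul_one, pow_one]
    at h0 h1
  have e1 := two_mul_sum_range (R := R) b
  have e2 := six_mul_sum_range_sq (R := R) b
  change 12 * (b : R) ^ 2 * theta 1 h = _
  set S1 := ∑ i ∈ Finset.range b, (i : R) with hS1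
  set S2 := ∑ i ∈ Finset.range b, (i : R) ^ 2 with hS2
  set t0 := theta 0 h
  set t1 := theta 1 h
  -- h0 : b * t0 = S1 ; h1 : b * t1 + S1 * t0 = S2
  linear_combination (12 * (b : R)) * h1 - (12 * S1) * h0 + (2 * (b : R)) * e2
    - (3 * (2 * S1 + (b : R) * ((b : R) - 1))) * e1

end Poly

section KUnits

variable {p : ℕ} [hp : Fact p.Prime] {K : Type*} [Field K] [NumberField K]
  [IsCyclotomicExtension {p} ℚ K] {ζ : K} (hζ : IsPrimitiveRoot ζ p)

/-- `kell` as an additive homomorphism. -/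
noncomputable def kellHom (j : ℕ) (hj : j + 1 < p - 1) : Additive (𝓞 K)ˣ →+ ZMod p :=
  AddMonoidHom.mk' (fun u => kell hζ j (Additive.toMul u)) (fun _ _ => kell_mul hζ hj _ _)

theorem kellHom_apply (j : ℕ) (hj : j + 1 < p - 1) (u : (𝓞 K)ˣ) :
    kellHom hζ j hj (Additive.ofMul u) = kell hζ j u := rfl

theorem kell_one {j : ℕ} (hj : j + 1 < p - 1) : kell hζ j (1 : (𝓞 K)ˣ) = 0 := by
  have := map_zero (kellHom hζ j hj)
  rwa [← ofMul_one, kellHom_apply] at this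

theorem kell_pow {j : ℕ} (hj : j + 1 < p - 1) (u : (𝓞 K)ˣ) (n : ℕ) :
    kell hζ j (u ^ n) = (n : ZMod p) * kell hζ j u := by
  have := map_nsmul (kellHom hζ j hj) n (Additive.ofMul u)
  rwa [← ofMul_pow, kellHom_apply, kellHom_apply, nsmul_eq_mul] at this

theorem kell_pow_prime {j : ℕ} (hj : j + 1 < p - 1) (u : (𝓞 K)ˣ) :
    kell hζ j (u ^ p) = 0 := by
  rw [kell_pow hζ hj, ZMod.natCast_self, zero_mul]

theorem kell_prod {j : ℕ} (hj : j + 1 < p - 1) {ι : Type*} (s : Finset ι) (f : ι → (𝓞 K)ˣ) :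
    kell hζ j (∏ i ∈ s, f i) = ∑ i ∈ s, kell hζ j (f i) := by
  have := map_sum (kellHom hζ j hj) (fun i => Additive.ofMul (f i)) s
  rwa [← ofMul_prod, kellHom_apply] at this

theorem phi_geomSum (b : ℕ) :
    phi hζ (∑ i ∈ Finset.range b, hζ.toInteger ^ i) = truncMk (ZMod p) (p - 1) (gpoly (ZMod p) b) := by
  unfold gpoly
  rw [map_sum, map_sum]
  refine Finset.sum_congr rfl fun i _ => ?_
  rw [map_pow, phi_zeta, map_pow]

/-- Kummer's second logarithmic differential quotient of the cyclotomic unit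
`(1 - ζ^b)/(1 - ζ) = 1 + ζ + ... + ζ^(b-1)` is `(b² - 1)/12`. -/
theorem kell_one_geomSum (hp5 : 5 ≤ p) (u : (𝓞 K)ˣ) (b : ℕ) (hb : ¬ p ∣ b)
    (hu : (u : 𝓞 K) = ∑ i ∈ Finset.range b, hζ.toInteger ^ i) :
    12 * kell hζ 1 u = (b : ZMod p) ^ 2 - 1 := by
  have hj : 1 + 1 < p - 1 := by omega
  set B : (TruncRing (ZMod p) (p - 1))ˣ := Units.map (phi hζ).toRingHom.toMonoidHom u with hB
  have hBv : truncMk (ZMod p) (p - 1) (gpoly (ZMod p) b) = (B : TruncRing (ZMod p) (p - 1)) := by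
    change _ = phi hζ (u : 𝓞 K)
    rw [hu, phi_geomSum]
  have hell : kell hζ 1 u = lam 1 (gpoly (ZMod p) b)
      (Quotient.out ((B⁻¹ : (TruncRing (ZMod p) (p - 1))ˣ) : TruncRing (ZMod p) (p - 1))) :=
    ell_eq_lam hj B hBv (truncMk_out _)
  have hft : (X - 1 : (ZMod p)[X]) ^ (p - 1) ∣ gpoly (ZMod p) b *
      (Quotient.out ((B⁻¹ : (TruncRing (ZMod p) (p - 1))ˣ) : TruncRing (ZMod p) (p - 1))) - 1 := by
    rw [← truncMk_eq_iff, map_mul, truncMk_out, hBv, map_one, ← Units.val_mul, mul_inv_cancel,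
      Units.val_one]
  have key := lam_one_gpoly (R := ZMod p) (m := p - 1) (by omega) b hft
  rw [← hell] at key
  have hb0 : (b : ZMod p) ≠ 0 := by
    rwa [Ne, ZMod.natCast_eq_zero_iff]
  have hb2 : (b : ZMod p) ^ 2 ≠ 0 := pow_ne_zero _ hb0
  apply mul_left_cancel₀ hb2
  linear_combination key

end KUnits

section PowerSums

variable {p : ℕ} [hp : Fact p.Prime]

/-- Products over `Ico 1 p` as products over the units of `ZMod p`. -/
theorem prod_Ico_eq_prod_units {M : Type*} [CommMonoid M] (f : ZMod p → M) :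
    ∏ v ∈ Finset.Ico 1 p, f (v : ZMod p) = ∏ u : (ZMod p)ˣ, f u :=
  Finset.prod_bij'
    (fun v hv ↦ Units.mk0 (v : ZMod p) (mt (ZMod.natCast_eq_zero_iff v p).mp (by
      have := Finset.mem_Ico.mp hv
      exact Nat.not_dvd_of_pos_of_lt (by omega) this.2)))
    (fun u _ ↦ (u : ZMod p).val)
    (fun _ _ ↦ Finset.mem_univ _)
    (fun u _ ↦ by
      have h1 : (u : ZMod p).val ≠ 0 := (ZMod.val_ne_zero _).mpr u.ne_zero
      have h2 : (u : ZMod p).val < p := ZMod.val_lt _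
      exact Finset.mem_Ico.mpr ⟨by omega, h2⟩)
    (fun v hv ↦ by simp [ZMod.val_cast_of_lt (Finset.mem_Ico.mp hv).2])
    (fun u _ ↦ Units.ext (ZMod.natCast_zmod_val _))
    (fun _ _ ↦ rfl)

theorem sum_Ico_eq_sum_units {M : Type*} [AddCommMonoid M] (f : ZMod p → M) :
    ∑ v ∈ Finset.Ico 1 p, f (v : ZMod p) = ∑ u : (ZMod p)ˣ, f u :=
  prod_Ico_eq_prod_units (M := Multiplicative M) f

theorem sum_Ico_pow (l : ℕ) :
    (∑ v ∈ Finset.Ico 1 p, (v : ZMod p) ^ l) = if (p - 1) ∣ l then -1 else 0 := by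
  rw [sum_Ico_eq_sum_units (fun x : ZMod p => x ^ l), FiniteField.sum_pow_units, ZMod.card]

theorem etaExp_cast (k b : ℕ) : ((etaExp p k b : ℕ) : ZMod p) = (b : ZMod p) ^ (k * (p - 2)) := by
  unfold etaExp
  rw [ZMod.natCast_mod, Nat.cast_pow]

theorem etaExp_spec (k : ℕ) {b : ℕ} (hb : b ∈ Finset.Ico 1 p) :
    (etaExp p k b * b ^ k) % p = 1 := by
  have hb' := Finset.mem_Ico.mp hb
  have hb0 : (b : ZMod p) ≠ 0 := by
    rw [Ne, ZMod.natCast_eq_zero_iff]
    exact Nat.not_dvd_of_pos_of_lt (by omega) hb'.2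
  have h2 : 2 ≤ p := hp.out.two_le
  have h1 : ((etaExp p k b * b ^ k : ℕ) : ZMod p) = ((1 : ℕ) : ZMod p) := by
    rw [Nat.cast_mul, etaExp_cast, Nat.cast_pow, Nat.cast_one, ← pow_add]
    have e : k * (p - 2) + k = (p - 1) * k := by
      have : p - 1 = (p - 2) + 1 := by omega
      rw [this]; ring
    rw [e, pow_mul, ZMod.pow_card_sub_one_eq_one hb0, one_pow]
  have h3 := (ZMod.natCast_eq_natCast_iff _ _ _).mp h1
  rw [Nat.ModEq, Nat.mod_eq_of_lt (a := 1) (by omega)] at h3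
  exact h3

theorem sum_etaExp_two (hp5 : 5 ≤ p) :
    (∑ b ∈ Finset.Ico 1 p, (etaExp p 2 b : ZMod p)) = 0 := by
  simp only [etaExp_cast]
  rw [sum_Ico_pow, if_neg]
  intro h
  have h1 : p - 1 ∣ 2 := by
    have e : 2 * (p - 2) + 2 = 2 * (p - 1) := by omega
    have h2 : p - 1 ∣ 2 * (p - 2) + 2 := e ▸ Dvd.intro_left 2 rfl
    exact (Nat.dvd_add_right h).mp h2
  have := Nat.le_of_dvd (by norm_num) h1
  omega

theorem sum_etaExp_two_mul_sq :
    (∑ b ∈ Finset.Ico 1 p, (etaExp p 2 b : ZMod p) * (b : ZMod p) ^ 2) = -1 := by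
  have h2 : 2 ≤ p := hp.out.two_le
  have : ∀ b ∈ Finset.Ico 1 p, (etaExp p 2 b : ZMod p) * (b : ZMod p) ^ 2 =
      (b : ZMod p) ^ (2 * (p - 1)) := by
    intro b _
    rw [etaExp_cast, ← pow_add]
    congr 1
    omega
  rw [Finset.sum_congr rfl this, sum_Ico_pow, if_pos (Dvd.intro_left 2 rfl)]

theorem dvd_sum_etaExp_two (hp5 : 5 ≤ p) : p ∣ ∑ b ∈ Finset.Ico 1 p, etaExp p 2 b := by
  rw [← ZMod.natCast_eq_zero_iff, Nat.cast_sum]
  exact sum_etaExp_two hp5

end PowerSums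

section Eta

variable {p : ℕ} [hp : Fact p.Prime] {K : Type} [Field K] [NumberField K]
  [IsCyclotomicExtension {p} ℚ K] {ζ : K} (hζ : IsPrimitiveRoot ζ p)

/-- The geometric sums `1 + ζ + ... + ζ^(b-1) = (1 - ζ^b)/(1 - ζ)` in `𝓞 K`. -/
noncomputable def gs (b : ℕ) : 𝓞 K := ∑ i ∈ Finset.range b, hζ.toInteger ^ i

omit [NumberField K] [IsCyclotomicExtension {p} ℚ K] in
theorem one_sub_mul_gs (b : ℕ) : (1 - hζ.toInteger) * gs hζ b = 1 - hζ.toInteger ^ b :=
  mul_neg_geom_sum _ _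

omit [NumberField K] [IsCyclotomicExtension {p} ℚ K] in
theorem one_sub_zeta_ne_zero : (1 - hζ.toInteger : 𝓞 K) ≠ 0 := by
  intro h
  have h1 : hζ.toInteger = 1 := (sub_eq_zero.mp h).symm
  exact hζ.toInteger_isPrimitiveRoot.ne_one hp.out.one_lt h1

omit [NumberField K] [IsCyclotomicExtension {p} ℚ K] in
theorem isUnit_gs {b : ℕ} (hb : ¬ p ∣ b) : IsUnit (gs hζ b) :=
  hζ.toInteger_isPrimitiveRoot.geom_sum_isUnit hp.out.two_le
    ((Nat.Prime.coprime_iff_not_dvd hp.out).mpr hb).symm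

open scoped Classical in
/-- The cyclotomic units as units (junk value `1` when `p ∣ b`). -/
noncomputable def gsU (b : ℕ) : (𝓞 K)ˣ :=
  if h : IsUnit (gs hζ b) then h.unit else 1

omit [NumberField K] [IsCyclotomicExtension {p} ℚ K] in
theorem gsU_val {b : ℕ} (hb : ¬ p ∣ b) : ((gsU hζ b : (𝓞 K)ˣ) : 𝓞 K) = gs hζ b := by
  unfold gsU
  rw [dif_pos (isUnit_gs hζ hb)]
  rfl

/-- The `ω²` cyclotomic unit `∏_b ((1-ζ^b)/(1-ζ))^(b^(-2) mod p)`. -/
noncomputable def eta2U : (𝓞 K)ˣ := ∏ b ∈ Finset.Ico 1 p, gsU hζ b ^ etaExp p 2 b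

omit hp [NumberField K] [IsCyclotomicExtension {p} ℚ K] in
theorem not_dvd_of_mem_Ico {b : ℕ} (hb : b ∈ Finset.Ico 1 p) : ¬ p ∣ b := by
  have := Finset.mem_Ico.mp hb
  exact Nat.not_dvd_of_pos_of_lt (by omega) this.2

/-- `kell_2(η₂) = -1/12`. -/
theorem twelve_mul_kell_eta2U (hp5 : 5 ≤ p) : 12 * kell hζ 1 (eta2U hζ) = -1 := by
  have hj : 1 + 1 < p - 1 := by omega
  unfold eta2U
  rw [kell_prod hζ hj, Finset.mul_sum]
  have : ∀ b ∈ Finset.Ico 1 p, 12 * kell hζ 1 (gsU hζ b ^ etaExp p 2 b) =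
      (etaExp p 2 b : ZMod p) * (b : ZMod p) ^ 2 - (etaExp p 2 b : ZMod p) := by
    intro b hb
    rw [kell_pow hζ hj]
    have := kell_one_geomSum hζ hp5 (gsU hζ b) b (not_dvd_of_mem_Ico hb)
      (gsU_val hζ (not_dvd_of_mem_Ico hb))
    linear_combination (etaExp p 2 b : ZMod p) * this
  rw [Finset.sum_congr rfl this, Finset.sum_sub_distrib, sum_etaExp_two_mul_sq,
    sum_etaExp_two hp5, sub_zero]

theorem kell_eta2U_ne_zero (hp5 : 5 ≤ p) : kell hζ 1 (eta2U hζ) ≠ 0 := by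
  intro h
  have := twelve_mul_kell_eta2U hζ hp5
  rw [h, mul_zero] at this
  have h1 : (1 : ZMod p) = 0 := by linear_combination this
  exact one_ne_zero h1

/-- `η₂` is not a `p`-th power of a unit. -/
theorem eta2U_not_pow (hp5 : 5 ≤ p) : ¬ ∃ w : (𝓞 K)ˣ, eta2U hζ = w ^ p := by
  rintro ⟨w, hw⟩
  apply kell_eta2U_ne_zero hζ hp5
  rw [hw, kell_pow_prime hζ (by omega)]

omit [NumberField K] [IsCyclotomicExtension {p} ℚ K] in
theorem etaRaw_eq (hp5 : 5 ≤ p) :
    ∃ M : ℕ, etaRaw p K hζ.toInteger (etaExp p 2) =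
      ((1 - hζ.toInteger) ^ M) ^ p * (eta2U hζ : 𝓞 K) := by
  obtain ⟨M, hM⟩ := dvd_sum_etaExp_two (p := p) hp5
  refine ⟨M, ?_⟩
  unfold etaRaw eta2U
  rw [← pow_mul, mul_comm M p, ← hM, Units.coe_prod, ← Finset.prod_pow_eq_pow_sum,
    ← Finset.prod_mul_distrib]
  refine Finset.prod_congr rfl fun b hb => ?_
  rw [Units.val_pow_eq_pow_val, gsU_val hζ (not_dvd_of_mem_Ico hb), ← mul_pow, one_sub_mul_gs]

end Eta

section NotPow

variable {p : ℕ} [hp : Fact p.Prime] {K : Type} [Field K] [NumberField K]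
  [IsCyclotomicExtension {p} ℚ K]

omit [NumberField K] [IsCyclotomicExtension {p} ℚ K] in
/-- A unit of `𝓞 K` which is a `p`-th power in `K` is a `p`-th power of a unit. -/
theorem exists_unit_pow_of_exists_pow (η : (𝓞 K)ˣ) (w : K) (hw : w ^ p = ((η : 𝓞 K) : K)) :
    ∃ ε : (𝓞 K)ˣ, η = ε ^ p := by
  have hint : IsIntegral ℤ w := by
    refine IsIntegral.of_pow hp.out.pos ?_
    rw [hw]
    exact RingOfIntegers.isIntegral_coe _
  set W : 𝓞 K := ⟨w, hint⟩ with hW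
  have hWp : W ^ p = (η : 𝓞 K) := by
    apply RingOfIntegers.ext
    change algebraMap (𝓞 K) K (W ^ p) = _
    rw [map_pow]
    exact hw
  have hWu : IsUnit W := by
    rw [← isUnit_pow_iff hp.out.ne_zero, hWp]
    exact Units.isUnit _
  refine ⟨hWu.unit, Units.ext ?_⟩
  rw [Units.val_pow_eq_pow_val, IsUnit.unit_spec, hWp]

/-- **K4 / ULOG (a)**: the `ω²` cyclotomic number is not a `p`-th power in `K`. -/
theorem etaNotPow : EtaNotPowStatement p K := by
  intro hp5 ζ hζ ⟨v, hv⟩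
  obtain ⟨M, hM⟩ := etaRaw_eq hζ hp5
  rw [hM] at hv
  set π : K := algebraMap (𝓞 K) K ((1 - hζ.toInteger) ^ M) with hπ
  have hπ0 : π ≠ 0 := by
    rw [hπ, Ne, map_eq_zero_iff _ RingOfIntegers.coe_injective]
    exact pow_ne_zero _ (one_sub_zeta_ne_zero hζ)
  have hw : (v / π) ^ p = ((eta2U hζ : 𝓞 K) : K) := by
    rw [div_pow, hv]
    change algebraMap (𝓞 K) K _ / _ = _
    rw [map_mul, map_pow, ← hπ]
    field_simp
  obtain ⟨ε, hε⟩ := exists_unit_pow_of_exists_pow (eta2U hζ) (v / π) hw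
  exact eta2U_not_pow hζ hp5 ⟨ε, hε⟩

end NotPow

end Fermat.Agent.S14.ULog45
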