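/-
S14 / K4 (ULOG) part 2, blueprint id=6 (helper45).

* `isEigenUnit_eta2U` : the `ω²` cyclotomic unit `η₂ = ULog45.eta2U` satisfies
  `CoreIface.IsEigenUnit` (`σ_c η₂ = η₂^(c²) ε^p`).
* `UDirStatement p K` : the shape of K5 (UDIR) consumed here.
* `unitStatement_of_uDir : UDirStatement p K → UnitStatement p K` (K4 + K5 ⇒ UNITS).
-/
import Mathlib
import Fermat.Agent.S14.ULog45

set_option autoImplicit false

namespace Fermat.Agent.S14.ULogEigen45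

open Polynomial NumberField Fermat.Agent.FLTReg.Dlog Fermat.Agent.S14.ULog45

section Generic

/-- Two elements of a commutative group with the same image in every quotient of exponent `p`
differ by a `p`-th power. -/
theorem exists_mul_pow_of_forall_map {G : Type*} [CommGroup G] (p : ℕ) (x y : G)
    (h : ∀ (π : G →* G ⧸ (powMonoidHom p : G →* G).range),
      (∀ q : G ⧸ (powMonoidHom p : G →* G).range, q ^ p = 1) → π x = π y) :
    ∃ ε : G, x = y * ε ^ p := by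
  have hQ : ∀ q : G ⧸ (powMonoidHom p : G →* G).range, q ^ p = 1 := by
    intro q
    induction q using QuotientGroup.induction_on with
    | H u =>
      rw [← QuotientGroup.mk_pow, QuotientGroup.eq_one_iff]
      exact ⟨u, rfl⟩
  have h1 := h (QuotientGroup.mk' _) hQ
  obtain ⟨z, ⟨ε, hε⟩, hz⟩ := (QuotientGroup.mk'_eq_mk' _).mp h1
  refine ⟨ε⁻¹, ?_⟩
  have : z = ε ^ p := hε.symm
  rw [← hz, this, inv_pow, mul_assoc, mul_inv_cancel, mul_one]

end Generic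

section Eigen

variable {p : ℕ} [hp : Fact p.Prime] {K : Type} [Field K] [NumberField K]
  [IsCyclotomicExtension {p} ℚ K] {ζ : K} (hζ : IsPrimitiveRoot ζ p)

omit [IsCyclotomicExtension {p} ℚ K] in
theorem galRing_zeta (σ : K ≃ₐ[ℚ] K) (c : ℕ) (hσ : σ ζ = ζ ^ c) :
    galRing K σ hζ.toInteger = hζ.toInteger ^ c := by
  apply RingOfIntegers.ext
  rw [galRing_apply]
  change σ ζ = algebraMap (𝓞 K) K (hζ.toInteger ^ c)
  rw [map_pow, hσ]
  rfl

omit [IsCyclotomicExtension {p} ℚ K] in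
theorem galRing_gs (σ : K ≃ₐ[ℚ] K) (c : ℕ) (hσ : σ ζ = ζ ^ c) (b : ℕ) :
    galRing K σ (gs hζ b) * gs hζ c = gs hζ (c * b) := by
  apply mul_left_cancel₀ (one_sub_zeta_ne_zero hζ)
  rw [one_sub_mul_gs, mul_comm (galRing K σ (gs hζ b)), ← mul_assoc, one_sub_mul_gs]
  unfold gs
  rw [map_sum]
  simp only [map_pow, galRing_zeta hζ σ c hσ]
  rw [mul_neg_geom_sum, pow_mul]

omit [NumberField K] [IsCyclotomicExtension {p} ℚ K] in
theorem gs_mod (n : ℕ) : gs hζ (n % p) = gs hζ n := by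
  apply mul_left_cancel₀ (one_sub_zeta_ne_zero hζ)
  rw [one_sub_mul_gs, one_sub_mul_gs,
    ← pow_eq_pow_mod n hζ.toInteger_isPrimitiveRoot.pow_eq_one]

omit [IsCyclotomicExtension {p} ℚ K] in
include hζ in
theorem not_dvd_of_galois (σ : K ≃ₐ[ℚ] K) (c : ℕ) (hσ : σ ζ = ζ ^ c) : ¬ p ∣ c := by
  rintro ⟨d, rfl⟩
  rw [pow_mul, hζ.pow_eq_one, one_pow] at hσ
  have : ζ = 1 := σ.injective (hσ.trans (map_one σ).symm)
  exact hζ.ne_one hp.out.one_lt this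

/-- The action of `Gal(K/ℚ)` on the units of `𝓞 K`. -/
noncomputable def galUnits (σ : K ≃ₐ[ℚ] K) : (𝓞 K)ˣ →* (𝓞 K)ˣ :=
  Units.map (galRing K σ).toRingHom.toMonoidHom

theorem galUnits_val (σ : K ≃ₐ[ℚ] K) (u : (𝓞 K)ˣ) :
    ((galUnits σ u : (𝓞 K)ˣ) : 𝓞 K) = galRing K σ (u : 𝓞 K) := rfl

omit [IsCyclotomicExtension {p} ℚ K] in
theorem galUnits_gsU (σ : K ≃ₐ[ℚ] K) (c : ℕ) (hσ : σ ζ = ζ ^ c) {b : ℕ} (hb : ¬ p ∣ b) :
    galUnits σ (gsU hζ b) = gsU hζ ((c * b) % p) * (gsU hζ c)⁻¹ := by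
  have hc := not_dvd_of_galois hζ σ c hσ
  have hcb : ¬ p ∣ (c * b) % p := by
    rw [Nat.dvd_mod_iff (dvd_refl p)]
    exact fun h => (hp.out.dvd_mul.mp h).elim hc hb
  rw [eq_mul_inv_iff_mul_eq]
  apply Units.ext
  rw [Units.val_mul, galUnits_val, gsU_val hζ hb, gsU_val hζ hc, gsU_val hζ hcb, gs_mod,
    galRing_gs hζ σ c hσ]

omit [NumberField K] [IsCyclotomicExtension {p} ℚ K] in
theorem etaExp_two_inv_mul (u a : (ZMod p)ˣ) :
    etaExp p 2 ((u⁻¹ * a : (ZMod p)ˣ) : ZMod p).val ≡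
      (u : ZMod p).val ^ 2 * etaExp p 2 (a : ZMod p).val [MOD p] := by
  rw [← ZMod.natCast_eq_natCast_iff, Nat.cast_mul, etaExp_cast, etaExp_cast, Nat.cast_pow,
    ZMod.natCast_zmod_val, ZMod.natCast_zmod_val, ZMod.natCast_zmod_val, Units.val_mul, mul_pow]
  congr 1
  have h2 : 2 ≤ p := hp.out.two_le
  have h1 : (u : ZMod p) ^ (p - 1) = 1 := ZMod.pow_card_sub_one_eq_one u.ne_zero
  have h3 : ((u⁻¹ : (ZMod p)ˣ) : ZMod p) * (u : ZMod p) = 1 := by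
    rw [← Units.val_mul, inv_mul_cancel, Units.val_one]
  have e : 2 * (p - 2) + 2 = (p - 1) * 2 := by omega
  calc ((u⁻¹ : (ZMod p)ˣ) : ZMod p) ^ (2 * (p - 2))
      = ((u⁻¹ : (ZMod p)ˣ) : ZMod p) ^ (2 * (p - 2)) * ((u : ZMod p) ^ (p - 1)) ^ 2 := by
        rw [h1, one_pow, mul_one]
    _ = (((u⁻¹ : (ZMod p)ˣ) : ZMod p) * (u : ZMod p)) ^ (2 * (p - 2)) * (u : ZMod p) ^ 2 := by
        rw [mul_pow, ← pow_mul, ← e, pow_add]; ring
    _ = (u : ZMod p) ^ 2 := by rw [h3, one_pow, one_mul]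

omit [IsCyclotomicExtension {p} ℚ K] in
/-- `σ_c η₂ = η₂^(c²)` in any quotient of the unit group of exponent `p`. -/
theorem map_galUnits_eta2U (hp5 : 5 ≤ p) (σ : K ≃ₐ[ℚ] K) (c : ℕ) (hσ : σ ζ = ζ ^ c)
    {Q : Type*} [CommGroup Q] (π : (𝓞 K)ˣ →* Q) (hQ : ∀ x : Q, x ^ p = 1) :
    π (galUnits σ (eta2U hζ)) = π (eta2U hζ) ^ (c ^ 2) := by
  have hc := not_dvd_of_galois hζ σ c hσ
  have hc0 : (c : ZMod p) ≠ 0 := by rwa [Ne, ZMod.natCast_eq_zero_iff]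
  set u : (ZMod p)ˣ := Units.mk0 (c : ZMod p) hc0 with hu
  set F : ZMod p → Q := fun x => π (gsU hζ x.val) with hF
  set μ : ZMod p → ℕ := fun x => etaExp p 2 x.val with hμ
  have hA : π (eta2U hζ) = ∏ a : (ZMod p)ˣ, F a ^ μ a := by
    rw [← prod_Ico_eq_prod_units (fun x => F x ^ μ x)]
    unfold eta2U
    rw [map_prod]
    refine Finset.prod_congr rfl fun b hb => ?_
    rw [map_pow]
    simp only [hF, hμ, ZMod.val_cast_of_lt (Finset.mem_Ico.mp hb).2]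
  have hB : π (galUnits σ (eta2U hζ)) = ∏ a : (ZMod p)ˣ, F ((c : ZMod p) * a) ^ μ a := by
    rw [← prod_Ico_eq_prod_units (fun x => F ((c : ZMod p) * x) ^ μ x)]
    unfold eta2U
    rw [map_prod, map_prod]
    have : ∀ b ∈ Finset.Ico 1 p, π (galUnits σ (gsU hζ b ^ etaExp p 2 b)) =
        F ((c : ZMod p) * (b : ZMod p)) ^ μ (b : ZMod p) * (π (gsU hζ c)⁻¹) ^ etaExp p 2 b := by
      intro b hb
      rw [map_pow, map_pow, galUnits_gsU hζ σ c hσ (not_dvd_of_mem_Ico hb), map_mul, mul_pow]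
      simp only [hF, hμ, ZMod.val_cast_of_lt (Finset.mem_Ico.mp hb).2]
      rw [← Nat.cast_mul, ZMod.val_natCast]
    rw [Finset.prod_congr rfl this, Finset.prod_mul_distrib, Finset.prod_pow_eq_pow_sum]
    obtain ⟨M, hM⟩ := dvd_sum_etaExp_two (p := p) hp5
    rw [hM, pow_mul, hQ, one_pow, mul_one]
  have hC : ∏ a : (ZMod p)ˣ, F ((c : ZMod p) * a) ^ μ a =
      ∏ a : (ZMod p)ˣ, F a ^ μ ((u⁻¹ * a : (ZMod p)ˣ) : ZMod p) := by
    refine Fintype.prod_equiv (Equiv.mulLeft u) _ _ fun a => ?_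
    simp only [Equiv.coe_mulLeft, inv_mul_cancel_left, Units.val_mul, hu, Units.val_mk0]
  have hD : ∀ a : (ZMod p)ˣ, F a ^ μ ((u⁻¹ * a : (ZMod p)ˣ) : ZMod p) = (F a ^ μ a) ^ (c ^ 2) := by
    intro a
    rw [← pow_mul, mul_comm (μ a)]
    refine pow_eq_pow_of_modEq ?_ (hQ _)
    refine (etaExp_two_inv_mul u a).trans ?_
    refine Nat.ModEq.mul_right _ (Nat.ModEq.pow 2 ?_)
    rw [hu, Units.val_mk0, ZMod.val_natCast]
    exact Nat.mod_modEq c p
  rw [hB, hC, Finset.prod_congr rfl (fun a _ => hD a), Finset.prod_pow, ← hA]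

omit [IsCyclotomicExtension {p} ℚ K] in
/-- `η₂` lies in the `ω²`-eigenspace of `E/E^p`. -/
theorem isEigenUnit_eta2U (hp5 : 5 ≤ p) : IsEigenUnit p K ζ (eta2U hζ) := by
  intro σ c hσ
  obtain ⟨ε, hε⟩ := exists_mul_pow_of_forall_map p (galUnits σ (eta2U hζ)) (eta2U hζ ^ (c ^ 2))
    (fun π hQ => by rw [map_pow]; exact map_galUnits_eta2U hζ hp5 σ c hσ π hQ)
  refine ⟨ε, ?_⟩
  have h2 := congrArg (fun v : (𝓞 K)ˣ => ((v : 𝓞 K) : K)) hε
  simp only [galUnits_val, galRing_apply] at h2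
  rw [h2]
  simp only [Units.val_mul, Units.val_pow_eq_pow_val]
  change algebraMap (𝓞 K) K _ = _
  rw [map_mul, map_pow, map_pow]

variable (p K) in
/-- **K5 / UDIR** in the shape consumed here: the `ω²`-eigenspace of `E/E^p` is at most
one-dimensional (equivariant Dirichlet unit theorem). -/
def UDirStatement : Prop :=
  5 ≤ p → ∀ (ζ : K) (_hζ : IsPrimitiveRoot ζ p) (u v : (𝓞 K)ˣ),
    IsEigenUnit p K ζ u → IsEigenUnit p K ζ v → (¬ ∃ w : (𝓞 K)ˣ, u = w ^ p) →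
    ∃ (j : ℕ) (w : (𝓞 K)ˣ), v = u ^ j * w ^ p

/-- **K4+K5 / UNITS**: `UnitStatement` of `CoreIface` from the one-dimensionality of the
`ω²`-eigenspace: an `ω²`-eigen unit congruent to a rational integer modulo `p` is a `p`-th power,
because the eigenspace is generated by `η₂` and `kell_2 η₂ ≠ 0` while `kell_2` vanishes on units
congruent to an integer modulo `p`. -/
theorem unitStatement_of_uDir (h : UDirStatement p K) : UnitStatement p K := by
  intro hp5 ζ hζ η hη ⟨n, hn⟩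
  obtain ⟨j, w, hjw⟩ := h hp5 ζ hζ (eta2U hζ) η (isEigenUnit_eta2U hζ hp5) hη
    (eta2U_not_pow hζ hp5)
  have hj : 1 + 1 < p - 1 := by omega
  have h0 : kell hζ 1 η = 0 := kell_of_dvd_sub hζ hj η n hn
  rw [hjw, kell_mul hζ hj, kell_pow hζ hj, kell_pow_prime hζ hj, add_zero] at h0
  have hj0 : (j : ZMod p) = 0 := (mul_eq_zero.mp h0).resolve_right (kell_eta2U_ne_zero hζ hp5)
  obtain ⟨d, rfl⟩ := (ZMod.natCast_eq_zero_iff j p).mp hj0
  exact ⟨eta2U hζ ^ d * w, by rw [hjw, mul_pow, ← pow_mul, mul_comm p d]⟩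

end Eigen

end Fermat.Agent.S14.ULogEigen45
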