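/-
S14, package UNFOLD, part (B) (helper86): unramifiedness at finite level from the Prelude-level
vanishing on inertia groups.

`K ≤ L` intermediate fields of `ℚ̄/ℚ`, `L/ℚ` finite Galois.  If every element of a Prelude inertia
group `A.inertiaSubgroupIn ℚ` (for every valuation subring `A` of `ℚ̄` over every prime) that fixes
`K` pointwise also fixes `L` pointwise, then `L/K` is unramified at every non-zero prime of `𝓞 L`:
`Ideal.inertia (L ≃ₐ[K] L) P = ⊥` (the shape of `CoreIface.NoExtStatement`).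
-/
import Mathlib
import Fermat.Agent.Lib.InertiaGenerate

set_option autoImplicit false
set_option linter.style.haveILetI false
set_option linter.unusedSectionVars false
set_option synthInstance.maxHeartbeats 200000

open scoped NumberField Pointwise
open Fermat.Agent.Lib.FrobeniusExists Fermat.Agent.Lib.InertiaGenerate

namespace Fermat.Agent.S14.UnfoldUnram86

attribute [local instance] isAlgebraic_Qb isAlgClosure_Qb isGalois_Qb

variable (K L : IntermediateField ℚ Qb) [FiniteDimensional ℚ L] [IsGalois ℚ L]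

attribute [local instance] numberField_K algOK

/-- **UNFOLD (B).** -/
theorem inertia_eq_bot [Algebra K L]
    (hcompat : ∀ x : K, ((algebraMap K L x : L) : Qb) = (x : Qb))
    (H : ∀ (q : ℕ), q.Prime → ∀ A : ValuationSubring Qb, A.LiesOverPrime q →
      ∀ σ ∈ A.inertiaSubgroupIn ℚ, (∀ x : K, σ (x : Qb) = (x : Qb)) →
        ∀ y : L, σ (y : Qb) = (y : Qb))
    (P : Ideal (𝓞 L)) (hP : P.IsPrime) (hP0 : P ≠ ⊥) :
    Ideal.inertia (L ≃ₐ[K] L) P = ⊥ := by
  rw [eq_bot_iff]
  intro s hs
  rw [Subgroup.mem_bot]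
  obtain ⟨q, A, hq, hA, hAP⟩ := exists_valuationSubring_under_eq L P hP0
  set τ : Gal(L/ℚ) := s.restrictScalars ℚ with hτ
  have hτmem : τ ∈ ((center A).under (𝓞 L)).inertia Gal(L/ℚ) := by
    rw [hAP]
    intro x
    exact hs x
  obtain ⟨σ, hσ, hστ⟩ := exists_mem_inertiaSubgroupIn_restrict L hq A hA τ hτmem
  have hσL : ∀ y : L, σ (y : Qb) = ((τ y : L) : Qb) := by
    intro y
    rw [← hστ]
    exact (AlgEquiv.restrictNormal_commutes σ L y).symm
  have hσK : ∀ x : K, σ (x : Qb) = (x : Qb) := by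
    intro x
    have h1 := hσL (algebraMap K L x)
    rw [hcompat] at h1
    rw [h1]
    have h2 : τ (algebraMap K L x) = algebraMap K L x := s.commutes x
    rw [h2, hcompat]
  have hfix := H q hq A hA σ hσ hσK
  ext y
  have h1 := hσL y
  rw [hfix y] at h1
  have h2 : (τ y : L) = y := Subtype.ext h1.symm
  exact congrArg Subtype.val h2

/-- **UNFOLD (B)**, in the shape requested by helper97 (#939): the `Algebra K₀ L₀` instance is the
one induced by the inclusion, the hypothesis is phrased with fixing subgroups. -/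
theorem inertia_eq_bot_of_fixingSubgroup (K₀ L₀ : IntermediateField ℚ Qb) (h : K₀ ≤ L₀)
    [FiniteDimensional ℚ L₀] [IsGalois ℚ L₀]
    (H : ∀ g ∈ K₀.fixingSubgroup,
      (∃ (q : ℕ) (A : ValuationSubring Qb), q.Prime ∧ A.LiesOverPrime q ∧
        g ∈ A.inertiaSubgroupIn ℚ) → g ∈ L₀.fixingSubgroup) :
    letI : Algebra K₀ L₀ := (IntermediateField.inclusion h).toRingHom.toAlgebra
    ∀ P : Ideal (𝓞 L₀), P.IsPrime → P ≠ ⊥ → P.inertia (L₀ ≃ₐ[K₀] L₀) = ⊥ := by
  letI : Algebra K₀ L₀ := (IntermediateField.inclusion h).toRingHom.toAlgebra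
  intro P hP hP0
  refine inertia_eq_bot K₀ L₀ (fun x => rfl) ?_ P hP hP0
  intro q hq A hA σ hσ hσK y
  have hmem : σ ∈ K₀.fixingSubgroup := by
    rw [IntermediateField.mem_fixingSubgroup_iff]
    intro x hx
    exact hσK ⟨x, hx⟩
  have := H σ hmem ⟨q, A, hq, hA, hσ⟩
  rw [IntermediateField.mem_fixingSubgroup_iff] at this
  exact this y y.2

end Fermat.Agent.S14.UnfoldUnram86
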