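import Mathlib
import Fermat.Prelude.Def_FLTPrelim_Ramification
import Fermat.Agent.Lib.FrobeniusExists
import Fermat.Agent.Lib.InertiaGenerate

/-
`Fermat.Agent.S14.UnfoldVal89` (helper89): pieces of the [UNFOLD] package of S14 (blueprint 6).

For a finite Galois `F : IntermediateField ℚ ℚ̄`:

* (X) is helper42's `InertiaGenerate.exists_valuationSubring_under_eq`.
* `exists_inertia_lift` (Y): every element of Mathlib's inertia group `P.inertia Gal(F/ℚ)` is the
  restriction of an element of the Prelude inertia group `A.inertiaSubgroupIn ℚ` of such an `A`.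
* `inertia_eq_one_of_fixedField` (Z): if `N ≤ H` are subgroups of `G_ℚ`, `N` open normal, and every
  Prelude inertia element lying in `H` lies in `N`, then every element of a Mathlib inertia group of
  `F = fixedField N` that comes from `H` is trivial.
-/

set_option autoImplicit false
set_option linter.style.haveILetI false
set_option linter.unusedSectionVars false
set_option synthInstance.maxHeartbeats 200000

open scoped NumberField Pointwise
open Fermat.Agent.Lib.FrobeniusExists Fermat.Agent.Lib.InertiaGenerate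

namespace Fermat.Agent.S14.UnfoldVal89

attribute [local instance] isAlgebraic_Qb isAlgClosure_Qb isGalois_Qb galActionZb numberField_K
  algOK

section Center

variable (F : IntermediateField ℚ Qb) [FiniteDimensional ℚ F]

variable [IsGalois ℚ F]

/-- (Y) Mathlib inertia elements of a finite Galois `F/ℚ` lift to Prelude inertia elements. -/
theorem exists_inertia_lift (P : Ideal (𝓞 F)) [P.IsPrime] (hP : P ≠ ⊥) :
    ∃ (q : ℕ) (A : ValuationSubring Qb), q.Prime ∧ A.LiesOverPrime q ∧
      (center A).under (𝓞 F) = P ∧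
      ∀ τ : Gal(F/ℚ), τ ∈ P.inertia Gal(F/ℚ) →
        ∃ σ : GQ, σ ∈ A.inertiaSubgroupIn ℚ ∧ AlgEquiv.restrictNormalHom F σ = τ := by
  obtain ⟨q, A, hq, hA, hc⟩ := exists_valuationSubring_under_eq F P hP
  refine ⟨q, A, hq, hA, hc, fun τ hτ => ?_⟩
  exact exists_mem_inertiaSubgroupIn_restrict F hq A hA τ (hc ▸ hτ)

end Center

section Subgroup

/-- `IntermediateField.restrictNormalHom_ker` for the `ℚ`-algebra structure on `↥K` found by
instance search (`DivisionRing.toRatAlgebra`; Mathlib states it for `IntermediateField.algebra'`). -/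
theorem restrictNormalHom_ker_rat (K : IntermediateField ℚ Qb) [hG : IsGalois ℚ K] :
    (AlgEquiv.restrictNormalHom K).ker = K.fixingSubgroup := by
  have h0 : Normal ℚ K := hG.to_normal
  have h : @Normal ℚ K _ _ K.algebra' := h0
  exact @IntermediateField.restrictNormalHom_ker ℚ Qb _ _ _ K h

/-- (Z) **unramifiedness of the field cut out by `N`**: let `N ≤ H ≤ G_ℚ` with `N` open and normal,
and assume that every Prelude inertia element (for every valuation subring over every prime)
lying in `H` lies in `N`.  Then, for `F = fixedField N`, an element of a Mathlib inertia group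
`P.inertia Gal(F/ℚ)` which is the restriction of an element of `H` is trivial. -/
theorem inertia_eq_one_of_fixedField (N H : Subgroup GQ) [N.Normal] (hNH : N ≤ H)
    (hopen : IsOpen (N : Set GQ))
    (hI : ∀ (q : ℕ), q.Prime → ∀ A : ValuationSubring Qb, A.LiesOverPrime q →
      ∀ σ ∈ A.inertiaSubgroupIn ℚ, σ ∈ H → σ ∈ N)
    (F : IntermediateField ℚ Qb) (hF : F = IntermediateField.fixedField N)
    [FiniteDimensional ℚ F] [IsGalois ℚ F]
    (P : Ideal (𝓞 F)) [P.IsPrime] (hP : P ≠ ⊥) (τ : Gal(F/ℚ)) (hτ : τ ∈ P.inertia Gal(F/ℚ))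
    (h : GQ) (hh : h ∈ H) (hhτ : AlgEquiv.restrictNormalHom F h = τ) : τ = 1 := by
  have hclosed : IsClosed (N : Set GQ) := N.isClosed_of_isOpen hopen
  have hfix : F.fixingSubgroup = N := by
    rw [hF]
    exact InfiniteGalois.fixingSubgroup_fixedField ⟨N, hclosed⟩
  obtain ⟨q, A, hq, hA, -, hlift⟩ := exists_inertia_lift F P hP
  obtain ⟨σ, hσ, hστ⟩ := hlift τ hτ
  have hkerF := restrictNormalHom_ker_rat F
  have hker : σ * h⁻¹ ∈ N := by
    rw [← hfix, ← hkerF, MonoidHom.mem_ker, map_mul, map_inv,
      hστ, hhτ, mul_inv_cancel]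
  have hσH : σ ∈ H := by
    have : σ = (σ * h⁻¹) * h := by group
    rw [this]
    exact H.mul_mem (hNH hker) hh
  have hσN : σ ∈ N := hI q hq A hA σ hσ hσH
  rw [← hστ]
  rw [← hfix, ← hkerF, MonoidHom.mem_ker] at hσN
  exact hσN

end Subgroup

end Fermat.Agent.S14.UnfoldVal89
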