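import Mathlib
import Fermat.Prelude.Def_FLTPrelim_Ramification
import Fermat.Agent.Lib.FrobeniusExists
import Fermat.Agent.Lib.InertiaGenerate
import Fermat.Agent.S14.UnfoldVal89

/-
`Fermat.Agent.S14.UnfoldUnram89` (helper89): the UNRAMIFIED SIDE (B) of the [UNFOLD] package of S14
(blueprint 6), in the exact shape requested by helper97 (report #939).

`inertia_eq_bot_of_fixingSubgroup`: for `K0 ≤ L0` intermediate fields of `ℚ̄/ℚ` with `L0/ℚ` finite
Galois, and `Algebra K0 L0 := (IntermediateField.inclusion h).toRingHom.toAlgebra`: if every element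
of `Gal(ℚ̄/K0)` lying in some Prelude inertia group fixes `L0`, then all Mathlib inertia groups
`P.inertia (L0 ≃ₐ[K0] L0)` of nonzero primes of `𝓞 L0` are trivial.
-/

set_option autoImplicit false
set_option linter.style.haveILetI false
set_option linter.unusedSectionVars false
set_option synthInstance.maxHeartbeats 200000

open scoped NumberField Pointwise
open Fermat.Agent.Lib.FrobeniusExists Fermat.Agent.Lib.InertiaGenerate
open Fermat.Agent.S14.UnfoldVal89

namespace Fermat.Agent.S14.UnfoldUnram89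

attribute [local instance] isAlgebraic_Qb isAlgClosure_Qb isGalois_Qb galActionZb numberField_K
  algOK

/-- `L0.fixingSubgroup` is normal when `L0/ℚ` is Galois (for the `ℚ`-algebra structure found by
instance search). -/
theorem fixingSubgroup_normal_rat (L0 : IntermediateField ℚ Qb) [hG : IsGalois ℚ L0] :
    L0.fixingSubgroup.Normal := by
  have h0 : IsGalois ℚ L0 := hG
  have h : @IsGalois ℚ _ L0 _ L0.algebra' := h0
  exact (InfiniteGalois.normal_iff_isGalois L0).mpr h

/-- `L0.fixingSubgroup` is open when `L0/ℚ` is finite. -/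
theorem fixingSubgroup_isOpen_rat (L0 : IntermediateField ℚ Qb) [hF : FiniteDimensional ℚ L0] :
    IsOpen (L0.fixingSubgroup : Set GQ) := by
  have h0 : FiniteDimensional ℚ L0 := hF
  exact (InfiniteGalois.isOpen_iff_finite L0).mpr h0

/-- **(B), exact shape of helper97 #939.** -/
theorem inertia_eq_bot_of_fixingSubgroup (K0 L0 : IntermediateField ℚ Qb) (hle : K0 ≤ L0)
    [FiniteDimensional ℚ L0] [IsGalois ℚ L0]
    (hI : ∀ g ∈ K0.fixingSubgroup, (∃ (q : ℕ) (A : ValuationSubring Qb), q.Prime ∧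
      A.LiesOverPrime q ∧ g ∈ A.inertiaSubgroupIn ℚ) → g ∈ L0.fixingSubgroup) :
    letI : Algebra K0 L0 := (IntermediateField.inclusion hle).toRingHom.toAlgebra
    ∀ P : Ideal (𝓞 L0), P.IsPrime → P ≠ ⊥ → P.inertia (L0 ≃ₐ[K0] L0) = ⊥ := by
  letI : Algebra K0 L0 := (IntermediateField.inclusion hle).toRingHom.toAlgebra
  intro P hPprime hP
  rw [eq_bot_iff]
  intro s hs
  rw [Subgroup.mem_bot]
  -- `s` as a `ℚ`-automorphism
  let τ : Gal(L0/ℚ) := AlgEquiv.ofRingEquiv (f := s.toRingEquiv) (fun r => by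
    show s (algebraMap ℚ L0 r) = algebraMap ℚ L0 r
    rw [eq_ratCast, map_ratCast])
  have hτs : ∀ x : L0, τ x = s x := fun x => rfl
  have hτ : τ ∈ P.inertia Gal(L0/ℚ) := fun x => hs x
  obtain ⟨g, hg⟩ := AlgEquiv.restrictNormalHom_surjective (F := ℚ) (K₁ := L0) Qb τ
  have hgK : g ∈ K0.fixingSubgroup := by
    rw [IntermediateField.mem_fixingSubgroup_iff]
    intro x hx
    have h1 := AlgEquiv.restrictNormal_commutes g L0 ⟨x, hle hx⟩
    have h2 : g.restrictNormal L0 ⟨x, hle hx⟩ = τ ⟨x, hle hx⟩ := by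
      rw [← hg]; rfl
    have h3 : τ ⟨x, hle hx⟩ = (⟨x, hle hx⟩ : L0) := by
      rw [hτs]
      exact s.commutes (⟨x, hx⟩ : K0)
    rw [h2, h3] at h1
    exact h1.symm
  haveI := fixingSubgroup_normal_rat L0
  have hτ1 : τ = 1 :=
    inertia_eq_one_of_fixedField L0.fixingSubgroup K0.fixingSubgroup
      (IntermediateField.fixingSubgroup_le hle) (fixingSubgroup_isOpen_rat L0)
      (fun q hq A hA σ hσ hσH => hI σ hσH ⟨q, A, hq, hA, hσ⟩)
      L0 (InfiniteGalois.fixedField_fixingSubgroup L0).symm P hP τ hτ g hgK hg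
  refine AlgEquiv.ext fun x => ?_
  have := congrArg (fun t : Gal(L0/ℚ) => t x) hτ1
  exact this

end Fermat.Agent.S14.UnfoldUnram89
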