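/-
S14 / K4 + K5 wiring (helper99): `UnitStatement p K` from helper9's `unitStatement_of_udir`
and `UDir99.udir_isEigenUnit`.
-/
import Mathlib
import Fermat.Agent.S14.CoreIface
import Fermat.Agent.S14.UDir99.Iface
import Fermat.Agent.S14.ULog9.KellEta

set_option autoImplicit false

namespace Fermat.Agent.S14.Unit99

open NumberField

/-- the UDIR export in helper9's shape. -/
theorem udirTwoStatement (p : ℕ) [Fact p.Prime] (K : Type) [Field K] [NumberField K]
    [IsCyclotomicExtension {p} ℚ K] : ULog9.UDirTwoStatement p K :=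
  fun h5 ζ hζ u v hu hv hnp => UDir99.udir_isEigenUnit p K h5 ζ hζ u v hu hv hnp

/-- **K4 + K5 / UNITS** (`CoreIface.UnitStatement`, verbatim). -/
theorem unitStatement (p : ℕ) [Fact p.Prime] (K : Type) [Field K] [NumberField K]
    [IsCyclotomicExtension {p} ℚ K] : UnitStatement p K :=
  ULog9.unitStatement_of_udir (udirTwoStatement p K)

/-- `EtaNotPowStatement` (K4a), from helper9's `kellEtaStatement`. -/
theorem etaNotPowStatement (p : ℕ) [Fact p.Prime] (K : Type) [Field K] [NumberField K]
    [IsCyclotomicExtension {p} ℚ K] : EtaNotPowStatement p K :=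
  ULog9.etaNotPowStatement_of ULog9.kellEtaStatement

end Fermat.Agent.S14.Unit99
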